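import Fermat.Agent.Jac.Skeleton2
import Fermat.Agent.S24.AnRep

/-!
# IN-JAC, task P-AN1: analytic representation of the elements of the function field over `ℂ`

Port of `S24/AnRep.lean` from `(ℚ̄, embC)` to `(ℂ, id)`: every `f ∈ F_ℂ = FC N ⊆ ℂ((q))` is
represented (`IsAnC N f P Q`) by a quotient `P / Q` of holomorphic `Γ₀(N)`-invariant functions
on `ℍ` with Laurent expansions at all cusps, such that the `q`-expansion of `P / Q` is `f`.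

Main statement: `anC : AnCStatement`.
-/

set_option autoImplicit false

open ModularCurve AlgebraicCurve UpperHalfPlane CongruenceSubgroup IntermediateField
open scoped MatrixGroups Manifold

noncomputable section

namespace Fermat.Agent.Jac

open Fermat.Agent.S24 (Kbar FF embC IsAn tayAt)
open Fermat.Agent.S28 (HasTExp jAn jAt)

/-! ## The ambient version of `IsAnC` -/

/-- `IsAnC` for an arbitrary element of the ambient field `ℂ((q))`. -/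
structure h73_IsAnCL (N : ℕ) (x : LaurentSeries ℂ) (P Q : ℍ → ℂ) : Prop where
  holoP : MDiff P
  holoQ : MDiff Q
  Q_ne : Q ≠ 0
  invP : ∀ γ ∈ Gamma0 N, ∀ τ : ℍ, P (γ • τ) = P τ
  invQ : ∀ γ ∈ Gamma0 N, ∀ τ : ℍ, Q (γ • τ) = Q τ
  expP : ∀ g : SL(2, ℤ), ∃ s : LaurentSeries ℂ, HasTExp N (fun τ => P (g • τ)) s
  expQ : ∀ g : SL(2, ℤ), ∃ s : LaurentSeries ℂ, HasTExp N (fun τ => Q (g • τ)) s
  rel : ∃ p q : LaurentSeries ℂ, HasTExp 1 P p ∧ HasTExp 1 Q q ∧ x * q = p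

theorem h73_isAnC_iff {N : ℕ} {f : FC N} {P Q : ℍ → ℂ} :
    IsAnC N f P Q ↔ h73_IsAnCL N (f : LaurentSeries ℂ) P Q :=
  ⟨fun h => ⟨h.holoP, h.holoQ, h.Q_ne, h.invP, h.invQ, h.expP, h.expQ, h.rel⟩,
    fun h => ⟨h.holoP, h.holoQ, h.Q_ne, h.invP, h.invQ, h.expP, h.expQ, h.rel⟩⟩

theorem h73_algebraMap_eq_C (a : ℂ) :
    algebraMap ℂ (LaurentSeries ℂ) a = HahnSeries.C a := by
  rw [algebraMap_laurentSeries_eq_single]
  rfl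

theorem h73_coeffEmb_eq_cEmb (z : LaurentSeries ℚ) :
    coeffEmb ℂ z = Fermat.Agent.S28.cEmb z := rfl

namespace h73_IsAnCL

variable {N : ℕ}

theorem const (a : ℂ) :
    h73_IsAnCL N (algebraMap ℂ (LaurentSeries ℂ) a) (fun _ => a) 1 where
  holoP := mdifferentiable_const
  holoQ := mdifferentiable_const
  Q_ne := by
    intro h
    have := congrFun h UpperHalfPlane.I
    simp at this
  invP := fun _ _ _ => rfl
  invQ := fun _ _ _ => rfl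
  expP := fun _ => ⟨_, Fermat.Agent.S28.HasTExp.const N a⟩
  expQ := fun _ => ⟨_, Fermat.Agent.S28.HasTExp.one N⟩
  rel := ⟨HahnSeries.C a, 1, Fermat.Agent.S28.HasTExp.const 1 a,
    Fermat.Agent.S28.HasTExp.one 1, by rw [mul_one, h73_algebraMap_eq_C]⟩

theorem one : h73_IsAnCL N (1 : LaurentSeries ℂ) (fun _ => 1) 1 := by
  have h := const (N := N) (1 : ℂ)
  rw [map_one] at h
  simpa using h

theorem jd [NeZero N] (d : ℕ) [NeZero d] (hd : d ∣ N) :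
    h73_IsAnCL N (coeffEmb ℂ (qExpand ℚ d jq)) (jAt d) 1 where
  holoP := Fermat.Agent.S28.holo_jAt d
  holoQ := mdifferentiable_const
  Q_ne := by
    intro h
    have := congrFun h UpperHalfPlane.I
    simp at this
  invP := fun γ hγ τ =>
    Fermat.Agent.S28.jAt_smul_of_mem_Gamma0 N d hd (Nat.pos_of_ne_zero (NeZero.ne N)) γ hγ τ
  invQ := fun _ _ _ => rfl
  expP := fun g => by
    obtain ⟨s, hs, -⟩ := Fermat.Agent.S28.hasTExp_jAt_translate N d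
      (Nat.pos_of_ne_zero (NeZero.ne N)) hd g
    exact ⟨s, hs⟩
  expQ := fun _ => ⟨_, Fermat.Agent.S28.HasTExp.one N⟩
  rel := by
    refine ⟨Fermat.Agent.S28.cEmb (qExpand ℚ d jq), 1, ?_, Fermat.Agent.S28.HasTExp.one 1, ?_⟩
    · have h := Fermat.Agent.S28.hasTExp_jAt d (Nat.pos_of_ne_zero (NeZero.ne d))
      have hj : Fermat.Agent.S28.jSub d = qExpand ℚ d jq := by
        rw [Fermat.Agent.S28.jSub, dif_neg (NeZero.ne d)]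
      rwa [hj] at h
    · rw [mul_one, h73_coeffEmb_eq_cEmb]

theorem add [NeZero N] {x₁ x₂ : LaurentSeries ℂ} {P₁ Q₁ P₂ Q₂ : ℍ → ℂ}
    (h₁ : h73_IsAnCL N x₁ P₁ Q₁) (h₂ : h73_IsAnCL N x₂ P₂ Q₂) :
    h73_IsAnCL N (x₁ + x₂) (P₁ * Q₂ + P₂ * Q₁) (Q₁ * Q₂) := by
  have hN : 0 < N := Nat.pos_of_ne_zero (NeZero.ne N)
  obtain ⟨p₁, q₁, hp₁, hq₁, e₁⟩ := h₁.rel
  obtain ⟨p₂, q₂, hp₂, hq₂, e₂⟩ := h₂.rel
  have hQ : HasTExp 1 (Q₁ * Q₂) (q₁ * q₂) := hq₁.mul one_pos hq₂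
  refine ⟨(h₁.holoP.mul h₂.holoQ).add (h₂.holoP.mul h₁.holoQ), h₁.holoQ.mul h₂.holoQ, ?_,
    ?_, ?_, ?_, ?_, ?_⟩
  · exact Fermat.Agent.S24.h23_fun_ne_zero one_pos hQ
      (mul_ne_zero (Fermat.Agent.S24.h23_series_ne_zero hq₁ h₁.Q_ne)
        (Fermat.Agent.S24.h23_series_ne_zero hq₂ h₂.Q_ne))
  · intro γ hγ τ
    simp only [Pi.add_apply, Pi.mul_apply, h₁.invP γ hγ τ, h₂.invP γ hγ τ, h₁.invQ γ hγ τ,
      h₂.invQ γ hγ τ]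
  · intro γ hγ τ
    simp only [Pi.mul_apply, h₁.invQ γ hγ τ, h₂.invQ γ hγ τ]
  · intro g
    obtain ⟨a₁, ha₁⟩ := h₁.expP g
    obtain ⟨b₁, hb₁⟩ := h₁.expQ g
    obtain ⟨a₂, ha₂⟩ := h₂.expP g
    obtain ⟨b₂, hb₂⟩ := h₂.expQ g
    exact ⟨a₁ * b₂ + a₂ * b₁, ((ha₁.mul hN hb₂).add (ha₂.mul hN hb₁)).congr fun τ => rfl⟩
  · intro g
    obtain ⟨b₁, hb₁⟩ := h₁.expQ g
    obtain ⟨b₂, hb₂⟩ := h₂.expQ g
    exact ⟨b₁ * b₂, (hb₁.mul hN hb₂).congr fun τ => rfl⟩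
  · refine ⟨p₁ * q₂ + p₂ * q₁, q₁ * q₂, (hp₁.mul one_pos hq₂).add (hp₂.mul one_pos hq₁), hQ, ?_⟩
    rw [← e₁, ← e₂]
    ring

theorem mul [NeZero N] {x₁ x₂ : LaurentSeries ℂ} {P₁ Q₁ P₂ Q₂ : ℍ → ℂ}
    (h₁ : h73_IsAnCL N x₁ P₁ Q₁) (h₂ : h73_IsAnCL N x₂ P₂ Q₂) :
    h73_IsAnCL N (x₁ * x₂) (P₁ * P₂) (Q₁ * Q₂) := by
  have hN : 0 < N := Nat.pos_of_ne_zero (NeZero.ne N)
  obtain ⟨p₁, q₁, hp₁, hq₁, e₁⟩ := h₁.rel
  obtain ⟨p₂, q₂, hp₂, hq₂, e₂⟩ := h₂.rel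
  have hQ : HasTExp 1 (Q₁ * Q₂) (q₁ * q₂) := hq₁.mul one_pos hq₂
  refine ⟨h₁.holoP.mul h₂.holoP, h₁.holoQ.mul h₂.holoQ, ?_, ?_, ?_, ?_, ?_, ?_⟩
  · exact Fermat.Agent.S24.h23_fun_ne_zero one_pos hQ
      (mul_ne_zero (Fermat.Agent.S24.h23_series_ne_zero hq₁ h₁.Q_ne)
        (Fermat.Agent.S24.h23_series_ne_zero hq₂ h₂.Q_ne))
  · intro γ hγ τ
    simp only [Pi.mul_apply, h₁.invP γ hγ τ, h₂.invP γ hγ τ]
  · intro γ hγ τ
    simp only [Pi.mul_apply, h₁.invQ γ hγ τ, h₂.invQ γ hγ τ]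
  · intro g
    obtain ⟨a₁, ha₁⟩ := h₁.expP g
    obtain ⟨a₂, ha₂⟩ := h₂.expP g
    exact ⟨a₁ * a₂, (ha₁.mul hN ha₂).congr fun τ => rfl⟩
  · intro g
    obtain ⟨b₁, hb₁⟩ := h₁.expQ g
    obtain ⟨b₂, hb₂⟩ := h₂.expQ g
    exact ⟨b₁ * b₂, (hb₁.mul hN hb₂).congr fun τ => rfl⟩
  · refine ⟨p₁ * p₂, q₁ * q₂, hp₁.mul one_pos hp₂, hQ, ?_⟩
    rw [← e₁, ← e₂]
    ring

theorem neg {x : LaurentSeries ℂ} {P Q : ℍ → ℂ} (h : h73_IsAnCL N x P Q) :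
    h73_IsAnCL N (-x) (-P) Q := by
  obtain ⟨p, q, hp, hq, e⟩ := h.rel
  refine ⟨h.holoP.neg, h.holoQ, h.Q_ne, ?_, h.invQ, ?_, h.expQ, ?_⟩
  · intro γ hγ τ
    simp only [Pi.neg_apply, h.invP γ hγ τ]
  · intro g
    obtain ⟨a, ha⟩ := h.expP g
    exact ⟨-a, ha.neg.congr fun τ => rfl⟩
  · exact ⟨-p, q, hp.neg, hq, by rw [← e]; ring⟩

theorem zero : h73_IsAnCL N (0 : LaurentSeries ℂ) (fun _ => 0) 1 := by
  have h := const (N := N) (0 : ℂ)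
  rw [map_zero] at h
  simpa using h

/-- if `x ≠ 0` then the numerator is not zero. -/
theorem P_ne {x : LaurentSeries ℂ} {P Q : ℍ → ℂ} (h : h73_IsAnCL N x P Q) (hx : x ≠ 0) :
    P ≠ 0 := by
  obtain ⟨p, q, hp, hq, e⟩ := h.rel
  refine Fermat.Agent.S24.h23_fun_ne_zero one_pos hp ?_
  rw [← e]
  exact mul_ne_zero hx (Fermat.Agent.S24.h23_series_ne_zero hq h.Q_ne)

theorem inv {x : LaurentSeries ℂ} {P Q : ℍ → ℂ} (h : h73_IsAnCL N x P Q) (hx : x ≠ 0) :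
    h73_IsAnCL N x⁻¹ Q P := by
  obtain ⟨p, q, hp, hq, e⟩ := h.rel
  refine ⟨h.holoQ, h.holoP, h.P_ne hx, h.invQ, h.invP, h.expQ, h.expP, q, p, hq, hp, ?_⟩
  rw [← e]
  field_simp

theorem exists_inv {x : LaurentSeries ℂ} {P Q : ℍ → ℂ} (h : h73_IsAnCL N x P Q) :
    ∃ P' Q' : ℍ → ℂ, h73_IsAnCL N x⁻¹ P' Q' := by
  by_cases hx : x = 0
  · subst hx
    rw [inv_zero]
    exact ⟨_, _, zero⟩
  · exact ⟨_, _, h.inv hx⟩

theorem unique {x : LaurentSeries ℂ} {P Q P' Q' : ℍ → ℂ}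
    (h : h73_IsAnCL N x P Q) (h' : h73_IsAnCL N x P' Q') : P * Q' = P' * Q := by
  obtain ⟨p, q, hp, hq, e⟩ := h.rel
  obtain ⟨p', q', hp', hq', e'⟩ := h'.rel
  have h1 : HasTExp 1 (P * Q') (p * q') := hp.mul one_pos hq'
  have h2 : HasTExp 1 (P' * Q) (p' * q) := hp'.mul one_pos hq
  have h3 : p * q' = p' * q := by
    rw [← e, ← e']
    ring
  rw [h3] at h1
  exact Fermat.Agent.S24.h23_fun_unique h1 h2

theorem eq_zero_iff {x : LaurentSeries ℂ} {P Q : ℍ → ℂ} (h : h73_IsAnCL N x P Q) :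
    x = 0 ↔ P = 0 := by
  constructor
  · rintro rfl
    obtain ⟨p, q, hp, hq, e⟩ := h.rel
    rw [zero_mul] at e
    rw [← e] at hp
    exact Fermat.Agent.S24.h23_fun_eq_zero hp
  · intro hP
    by_contra hx
    exact h.P_ne hx hP

end h73_IsAnCL

/-! ## Existence of a representation -/

theorem h73_coeffEmb_algebraMap (c : ℚ) :
    coeffEmb ℂ (algebraMap ℚ (LaurentSeries ℚ) c) =
      algebraMap ℂ (LaurentSeries ℂ) (algebraMap ℚ ℂ c) := by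
  rw [algebraMap_laurentSeries_eq_single, algebraMap_laurentSeries_eq_single, coeffEmb,
    coeffMap_single]

/-- representation of the elements of the rational function field `F₀`. -/
theorem h73_exists_isAnCL_coeffEmb (N : ℕ) [NeZero N] {z : LaurentSeries ℚ}
    (hz : z ∈ modularFunctionFieldFull N) :
    ∃ P Q : ℍ → ℂ, h73_IsAnCL N (coeffEmb ℂ z) P Q := by
  have hz' : z ∈ Subfield.closure
      (Set.range (algebraMap ℚ (LaurentSeries ℚ)) ∪ divisorExpansions N) := hz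
  clear hz
  induction hz' using Subfield.closure_induction with
  | mem y hy =>
      rcases hy with ⟨c, rfl⟩ | ⟨d, hne, hd, rfl⟩
      · rw [h73_coeffEmb_algebraMap]
        exact ⟨_, _, h73_IsAnCL.const _⟩
      · have := hne
        exact ⟨_, _, h73_IsAnCL.jd d hd⟩
  | one =>
      rw [map_one]
      exact ⟨_, _, h73_IsAnCL.one⟩
  | add x y _ _ hx hy =>
      obtain ⟨P₁, Q₁, h₁⟩ := hx
      obtain ⟨P₂, Q₂, h₂⟩ := hy
      rw [map_add]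
      exact ⟨_, _, h₁.add h₂⟩
  | neg x _ hx =>
      obtain ⟨P₁, Q₁, h₁⟩ := hx
      rw [map_neg]
      exact ⟨_, _, h₁.neg⟩
  | inv x _ hx =>
      obtain ⟨P₁, Q₁, h₁⟩ := hx
      rw [map_inv₀]
      exact h₁.exists_inv
  | mul x y _ _ hx hy =>
      obtain ⟨P₁, Q₁, h₁⟩ := hx
      obtain ⟨P₂, Q₂, h₂⟩ := hy
      rw [map_mul]
      exact ⟨_, _, h₁.mul h₂⟩

/-- representation of the elements of `F_ℂ`, ambient version. -/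
theorem h73_exists_isAnCL (N : ℕ) [NeZero N] {x : LaurentSeries ℂ}
    (hx : x ∈ laurentBaseChange ℂ (modularFunctionFieldFull N)) :
    ∃ P Q : ℍ → ℂ, h73_IsAnCL N x P Q := by
  have hx' := mem_laurentBaseChange_iff.mp hx
  clear hx
  induction hx' using Subfield.closure_induction with
  | mem y hy =>
      rcases hy with ⟨a, rfl⟩ | ⟨z, hz, rfl⟩
      · exact ⟨_, _, h73_IsAnCL.const a⟩
      · exact h73_exists_isAnCL_coeffEmb N hz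
  | one => exact ⟨_, _, h73_IsAnCL.one⟩
  | add x y _ _ hx hy =>
      obtain ⟨P₁, Q₁, h₁⟩ := hx
      obtain ⟨P₂, Q₂, h₂⟩ := hy
      exact ⟨_, _, h₁.add h₂⟩
  | neg x _ hx =>
      obtain ⟨P₁, Q₁, h₁⟩ := hx
      exact ⟨_, _, h₁.neg⟩
  | inv x _ hx =>
      obtain ⟨P₁, Q₁, h₁⟩ := hx
      exact h₁.exists_inv
  | mul x y _ _ hx hy =>
      obtain ⟨P₁, Q₁, h₁⟩ := hx
      obtain ⟨P₂, Q₂, h₂⟩ := hy
      exact ⟨_, _, h₁.mul h₂⟩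

/-! ## The statements over `ℂ` -/

/-- constants. -/
theorem isAnC_const (N : ℕ) [NeZero N] (a : ℂ) :
    IsAnC N (algebraMap ℂ (FC N) a) (fun _ => a) 1 :=
  h73_isAnC_iff.mpr (h73_IsAnCL.const a)

theorem exists_isAnC (N : ℕ) [NeZero N] (f : FC N) : ∃ P Q : ℍ → ℂ, IsAnC N f P Q := by
  obtain ⟨P, Q, h⟩ := h73_exists_isAnCL N f.2
  exact ⟨P, Q, h73_isAnC_iff.mpr h⟩

theorem IsAnC.unique {N : ℕ} [NeZero N] {f : FC N} {P Q P' Q' : ℍ → ℂ}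
    (h : IsAnC N f P Q) (h' : IsAnC N f P' Q') : P * Q' = P' * Q :=
  (h73_isAnC_iff.mp h).unique (h73_isAnC_iff.mp h')

theorem IsAnC.eq_zero_iff {N : ℕ} [NeZero N] {f : FC N} {P Q : ℍ → ℂ}
    (h : IsAnC N f P Q) : f = 0 ↔ P = 0 := by
  rw [← (h73_isAnC_iff.mp h).eq_zero_iff]
  exact ⟨fun hf => by rw [hf]; rfl, fun hf => Subtype.ext hf⟩

theorem IsAnC.add {N : ℕ} [NeZero N] {f₁ f₂ : FC N} {P₁ Q₁ P₂ Q₂ : ℍ → ℂ}
    (h₁ : IsAnC N f₁ P₁ Q₁) (h₂ : IsAnC N f₂ P₂ Q₂) :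
    IsAnC N (f₁ + f₂) (P₁ * Q₂ + P₂ * Q₁) (Q₁ * Q₂) :=
  h73_isAnC_iff.mpr ((h73_isAnC_iff.mp h₁).add (h73_isAnC_iff.mp h₂))

theorem IsAnC.mul {N : ℕ} [NeZero N] {f₁ f₂ : FC N} {P₁ Q₁ P₂ Q₂ : ℍ → ℂ}
    (h₁ : IsAnC N f₁ P₁ Q₁) (h₂ : IsAnC N f₂ P₂ Q₂) :
    IsAnC N (f₁ * f₂) (P₁ * P₂) (Q₁ * Q₂) :=
  h73_isAnC_iff.mpr ((h73_isAnC_iff.mp h₁).mul (h73_isAnC_iff.mp h₂))

theorem IsAnC.neg {N : ℕ} [NeZero N] {f : FC N} {P Q : ℍ → ℂ} (h : IsAnC N f P Q) :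
    IsAnC N (-f) (-P) Q :=
  h73_isAnC_iff.mpr (h73_isAnC_iff.mp h).neg

theorem IsAnC.inv {N : ℕ} [NeZero N] {f : FC N} {P Q : ℍ → ℂ} (h : IsAnC N f P Q)
    (hf : f ≠ 0) : IsAnC N f⁻¹ Q P :=
  h73_isAnC_iff.mpr ((h73_isAnC_iff.mp h).inv (fun h0 => hf (Subtype.ext h0)))

theorem IsAnC.sub {N : ℕ} [NeZero N] {f₁ f₂ : FC N} {P₁ Q₁ P₂ Q₂ : ℍ → ℂ}
    (h₁ : IsAnC N f₁ P₁ Q₁) (h₂ : IsAnC N f₂ P₂ Q₂) :
    IsAnC N (f₁ - f₂) (P₁ * Q₂ + -P₂ * Q₁) (Q₁ * Q₂) := by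
  rw [sub_eq_add_neg]
  exact h₁.add h₂.neg

/-- if `f ≠ 0` the numerator is not the zero function. -/
theorem IsAnC.P_ne {N : ℕ} [NeZero N] {f : FC N} {P Q : ℍ → ℂ} (h : IsAnC N f P Q)
    (hf : f ≠ 0) : P ≠ 0 :=
  fun hP => hf (h.eq_zero_iff.mpr hP)

/-- compatibility with `S24.IsAn`: the base change of `f₀ ∈ F` has the same representation. -/
theorem IsAnC.of_isAn {N : ℕ} {f₀ : FF N} {f : FC N} {P Q : ℍ → ℂ}
    (hf : (f : LaurentSeries ℂ) = coeffMap embC (f₀ : LaurentSeries Kbar))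
    (h : IsAn N f₀ P Q) : IsAnC N f P Q := by
  refine ⟨h.holoP, h.holoQ, h.Q_ne, h.invP, h.invQ, h.expP, h.expQ, ?_⟩
  obtain ⟨p, q, hp, hq, e⟩ := h.rel
  exact ⟨p, q, hp, hq, by rw [hf, e]⟩

/-- **P-AN1.** -/
theorem anC : AnCStatement := by
  intro N _
  refine ⟨exists_isAnC N, ?_, ?_, ?_, ?_, ?_⟩
  · intro f P Q P' Q' h h'
    exact h.unique h'
  · intro f P Q h
    exact h.eq_zero_iff
  · intro f f' P Q P' Q' h h'
    exact h.mul h'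
  · intro f P Q h hf
    exact h.inv hf
  · intro f₀ f P Q hf h
    exact IsAnC.of_isAn hf h

end Fermat.Agent.Jac
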