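import Fermat.Agent.Jac.Skeleton2
import Fermat.Agent.S24.Expansion
import Fermat.Agent.S24.PlaceOfEmb
import Fermat.Agent.S24.DiffPlace
import Fermat.Agent.S24.DegLe

/-!
# IN-JAC, task BCORD: every place of `F` extends to a place of `F_ℂ` without ramification

`F_ℂ` is the fraction field of `ℂ ⊗ F` (linear disjointness inside `ℂ((q))`); the expansion
embedding `E₀ : F → ℚ̄((t))` at the place `v₀` extends to `E : F_ℂ → ℂ((t))`, and `E` induces the
place `v`.
-/

set_option autoImplicit false

open ModularCurve AlgebraicCurve TensorProduct IntermediateField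

noncomputable section

namespace Fermat.Agent.Jac

open Fermat.Agent.S24 (Kbar FF embC jBar)

section LD

variable {K L : Type} [Field K] [Field L] [Algebra K L]
variable {A : Type} [CommRing A] [Algebra K A]

theorem h56_algebraMap_eq (c : K) :
    algebraMap K (LaurentSeries L) c = HahnSeries.single 0 (algebraMap K L c) := by
  have h1 : algebraMap K (PowerSeries L) c = PowerSeries.C (algebraMap K L c) :=
    PowerSeries.algebraMap_apply
  rw [HahnSeries.algebraMap_apply', h1, HahnSeries.ofPowerSeries_C]
  rfl

theorem h56_isScalarTower (K L : Type) [Field K] [Field L] [Algebra K L] :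
    @IsScalarTower K L (LaurentSeries L) Algebra.toSMul Algebra.toSMul Algebra.toSMul :=
  IsScalarTower.of_algebraMap_eq (R := K) (S := L) (A := LaurentSeries L) fun c => by
    rw [h56_algebraMap_eq, algebraMap_laurentSeries_eq_single]

/-- the coefficient map as an algebra homomorphism -/
def h56_coeffAlg (K L : Type) [Field K] [Field L] [Algebra K L] :
    LaurentSeries K →ₐ[K] LaurentSeries L :=
  { coeffMap (algebraMap K L) with
    commutes' := fun c => by
      change coeffMap (algebraMap K L) (algebraMap K (LaurentSeries K) c) = _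
      rw [algebraMap_laurentSeries_eq_single, coeffMap_single, h56_algebraMap_eq] }

theorem h56_coeffAlg_apply (x : LaurentSeries K) :
    h56_coeffAlg K L x = coeffMap (algebraMap K L) x := rfl

/-- extension of scalars of a `K`-algebra homomorphism into `K((x))`. -/
def h56_ext (G : A →ₐ[K] LaurentSeries K) : L ⊗[K] A →ₐ[L] LaurentSeries L :=
  haveI := h56_isScalarTower K L
  AlgHom.liftEquiv K L A (LaurentSeries L) ((h56_coeffAlg K L).comp G)

theorem h56_ext_tmul (G : A →ₐ[K] LaurentSeries K) (c : L) (a : A) :
    h56_ext G (c ⊗ₜ a) = HahnSeries.single 0 c * coeffMap (algebraMap K L) (G a) := by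
  have h := h56_isScalarTower K L
  rw [← algebraMap_laurentSeries_eq_single, ← Algebra.smul_def]
  rfl

theorem h56_coeff_single_mul (c : L) (x : LaurentSeries L) (k : ℤ) :
    (HahnSeries.single 0 c * x).coeff k = c * x.coeff k := by
  rw [← HahnSeries.C_apply, HahnSeries.C_mul_eq_smul, HahnSeries.coeff_smul, smul_eq_mul]

/-- **linear disjointness**: series which are linearly independent over `K` stay linearly
independent over `L`. -/
theorem h56_ext_injective (G : A →ₐ[K] LaurentSeries K) (hG : Function.Injective G) :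
    Function.Injective (h56_ext (L := L) G) := by
  classical
  rw [injective_iff_map_eq_zero]
  intro x hx
  let b := Module.Basis.ofVectorSpace K L
  obtain ⟨c, rfl⟩ := TensorProduct.eq_repr_basis_left b x
  have hc : c = 0 := by
    ext i
    rw [Finsupp.zero_apply]
    apply hG
    rw [map_zero]
    ext k
    rw [HahnSeries.coeff_zero]
    -- the coefficient vector
    let a : _ →₀ K := c.mapRange (fun n => (G n).coeff k) (by simp)
    have ha : Finsupp.linearCombination K b a = 0 := by
      have h1 := congrArg (fun s : LaurentSeries L => s.coeff k) hx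
      simp only [Finsupp.sum, map_sum, h56_ext_tmul, HahnSeries.coeff_zero] at h1
      rw [Finsupp.linearCombination_apply, Finsupp.sum_mapRange_index (by simp)]
      rw [← h1, Finsupp.sum]
      have : ∀ s : Finset _,
          (∑ x ∈ s, HahnSeries.single 0 (b x) * (coeffMap (algebraMap K L)) (G (c x))).coeff k
          = ∑ x ∈ s,
            (HahnSeries.single 0 (b x) * (coeffMap (algebraMap K L)) (G (c x))).coeff k := by
        intro s
        exact map_sum (HahnSeries.coeff.addMonoidHom k) _ s
      rw [this]
      refine Finset.sum_congr rfl fun i _ => ?_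
      rw [h56_coeff_single_mul, coeffMap_coeff, Algebra.smul_def, mul_comm]
    have h0 : a = 0 := b.linearIndependent (ha.trans (map_zero _).symm)
    have := DFunLike.congr_fun h0 i
    simpa [a] using this
  rw [hc]
  simp

omit [Algebra K L] in
theorem h56_coeffMap_injective (θ : K →+* L) : Function.Injective (coeffMap θ) := by
  intro a b hab
  ext n
  have := congrArg (fun s => s.coeff n) hab
  simp only [coeffMap_coeff] at this
  exact θ.injective this

omit [Algebra K L] in
theorem h56_order_coeffMap (θ : K →+* L) (x : LaurentSeries K) :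
    (coeffMap θ x).order = x.order := by
  by_cases hx : x = 0
  · rw [hx, map_zero, HahnSeries.order_zero, HahnSeries.order_zero]
  · have hinj : Function.Injective (coeffMap θ) := h56_coeffMap_injective θ
    have hne : coeffMap θ x ≠ 0 := (map_ne_zero_iff _ hinj).mpr hx
    apply le_antisymm
    · apply HahnSeries.order_le_of_coeff_ne_zero
      rw [coeffMap_coeff]
      exact (map_ne_zero θ).mpr (fun h => hx (HahnSeries.coeff_order_eq_zero.mp h))
    · apply HahnSeries.order_le_of_coeff_ne_zero
      intro h
      have h1 : (coeffMap θ x).coeff (coeffMap θ x).order ≠ 0 :=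
        fun h => hne (HahnSeries.coeff_order_eq_zero.mp h)
      rw [coeffMap_coeff, h, map_zero] at h1
      exact h1 rfl

end LD

section Ext

set_option synthInstance.maxHeartbeats 400000
set_option maxHeartbeats 1000000

variable {K L : Type} [Field K] [Field L] [Algebra K L]
variable (FK : IntermediateField K (LaurentSeries K))
  (FL : IntermediateField L (LaurentSeries L))

/-- the canonical map `L ⊗ F_K → L((q))` -/
def h56_can : L ⊗[K] FK →ₐ[L] LaurentSeries L := h56_ext FK.val

theorem h56_can_tmul (c : L) (a : FK) :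
    h56_can FK (c ⊗ₜ a) = HahnSeries.single 0 c * coeffMap (algebraMap K L) (a : LaurentSeries K) :=
  h56_ext_tmul FK.val c a

theorem h56_single_one : (HahnSeries.single 0 (1 : L) : LaurentSeries L) = 1 := rfl

variable {FK FL}

theorem h56_can_mem (hmap : ∀ y ∈ FK, coeffMap (algebraMap K L) y ∈ FL) (x : L ⊗[K] FK) :
    h56_can FK x ∈ FL := by
  induction x using TensorProduct.induction_on with
  | zero => rw [map_zero (h56_can FK)]; exact zero_mem _
  | tmul c a =>
    rw [h56_can_tmul]
    refine mul_mem ?_ (hmap _ a.2)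
    rw [← algebraMap_laurentSeries_eq_single]
    exact FL.algebraMap_mem c
  | add x y hx hy => rw [map_add (h56_can FK)]; exact add_mem hx hy

theorem h56_exists_ext (hmap : ∀ y ∈ FK, coeffMap (algebraMap K L) y ∈ FL)
    (hsurj : ∀ z ∈ FL, ∃ x y : L ⊗[K] FK, z = h56_can FK x / h56_can FK y)
    (G : FK →ₐ[K] LaurentSeries K) :
    ∃ E : FL →+* LaurentSeries L, (∀ c : L, E (algebraMap L FL c) = HahnSeries.C c) ∧
      ∀ (u₀ : FK) (u : FL), (u : LaurentSeries L) = coeffMap (algebraMap K L) u₀ →
        E u = coeffMap (algebraMap K L) (G u₀) := by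
  classical
  have hG : Function.Injective G := G.toRingHom.injective
  let ι : L ⊗[K] FK →+* FL :=
    { toFun := fun x => ⟨h56_can FK x, h56_can_mem hmap x⟩
      map_one' := Subtype.ext (map_one (h56_can FK))
      map_mul' := fun x y => Subtype.ext (map_mul (h56_can FK) x y)
      map_zero' := Subtype.ext (map_zero (h56_can FK))
      map_add' := fun x y => Subtype.ext (map_add (h56_can FK) x y) }
  have hι : Function.Injective ι := fun x y h =>
    h56_ext_injective FK.val Subtype.val_injective (congrArg Subtype.val h)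
  let _ : Algebra (L ⊗[K] FK) FL := ι.toAlgebra
  have hιapp : ∀ x : L ⊗[K] FK,
      ((algebraMap (L ⊗[K] FK) FL x : FL) : LaurentSeries L) = h56_can FK x := fun _ => rfl
  have : FaithfulSMul (L ⊗[K] FK) FL := (faithfulSMul_iff_algebraMap_injective _ _).mpr hι
  have : IsFractionRing (L ⊗[K] FK) FL := IsFractionRing.of_field (L ⊗[K] FK) FL (fun z => by
    obtain ⟨x, y, h⟩ := hsurj z z.2
    refine ⟨x, y, Subtype.ext ?_⟩
    rw [h]
    rfl)
  have hψ₂ : Function.Injective (h56_ext (L := L) G : L ⊗[K] FK →+* LaurentSeries L) :=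
    h56_ext_injective G hG
  refine ⟨IsFractionRing.lift hψ₂, ?_, ?_⟩
  · intro c
    have h1 : algebraMap L FL c = algebraMap (L ⊗[K] FK) FL (c ⊗ₜ 1) := by
      apply Subtype.ext
      rw [hιapp, h56_can_tmul]
      change algebraMap L (LaurentSeries L) c = _
      rw [algebraMap_laurentSeries_eq_single]
      simp
    rw [h1, IsFractionRing.lift_algebraMap]
    change h56_ext G (c ⊗ₜ 1) = _
    rw [h56_ext_tmul, map_one, map_one, mul_one]
    rfl
  · intro u₀ u hu
    have h1 : u = algebraMap (L ⊗[K] FK) FL (1 ⊗ₜ u₀) := by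
      apply Subtype.ext
      rw [hιapp, h56_can_tmul, hu, h56_single_one, one_mul]
    rw [h1, IsFractionRing.lift_algebraMap]
    change h56_ext G (1 ⊗ₜ u₀) = _
    rw [h56_ext_tmul, h56_single_one, one_mul]

end Ext

section Main

set_option synthInstance.maxHeartbeats 400000
set_option maxHeartbeats 1000000

variable {K L : Type} [Field K] [Field L] [Algebra K L] [Algebra ℚ K] [Algebra ℚ L]
variable (F₀ : IntermediateField ℚ (LaurentSeries ℚ))

theorem h56_coeffMap_coeffEmb (x : LaurentSeries ℚ) :
    coeffMap (algebraMap K L) (coeffEmb K x) = coeffEmb L x := by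
  rw [coeffEmb, coeffEmb, coeffMap_coeffMap]
  exact coeffMap_congr (Subsingleton.elim _ _) x

theorem h56_map_mem (y : LaurentSeries K) (hy : y ∈ laurentBaseChange K F₀) :
    coeffMap (algebraMap K L) y ∈ laurentBaseChange L F₀ := by
  rw [mem_laurentBaseChange_iff] at hy
  induction hy using Subfield.closure_induction with
  | mem y hy =>
      rcases hy with ⟨a, rfl⟩ | ⟨z, hz, rfl⟩
      · rw [algebraMap_laurentSeries_eq_single, coeffMap_single,
          ← algebraMap_laurentSeries_eq_single]
        exact (laurentBaseChange L F₀).algebraMap_mem _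
      · rw [h56_coeffMap_coeffEmb]
        exact coeffEmb_mem_laurentBaseChange L hz
  | one => simp
  | add x y _ _ hx hy => simpa using add_mem hx hy
  | neg x _ hx => simpa using neg_mem hx
  | inv x _ hx => simpa using inv_mem hx
  | mul x y _ _ hx hy => simpa using mul_mem hx hy

theorem h56_surj (z : LaurentSeries L) (hz : z ∈ laurentBaseChange L F₀) :
    ∃ x y : L ⊗[K] (laurentBaseChange K F₀),
      z = h56_can (laurentBaseChange K F₀) x / h56_can (laurentBaseChange K F₀) y := by
  rw [mem_laurentBaseChange_iff] at hz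
  induction hz using Subfield.closure_induction with
  | mem y hy =>
      rcases hy with ⟨a, rfl⟩ | ⟨w, hw, rfl⟩
      · refine ⟨a ⊗ₜ 1, 1, ?_⟩
        rw [map_one (h56_can (laurentBaseChange K F₀)), div_one, h56_can_tmul,
          algebraMap_laurentSeries_eq_single]
        simp
      · refine ⟨1 ⊗ₜ ⟨coeffEmb K w, coeffEmb_mem_laurentBaseChange K hw⟩, 1, ?_⟩
        rw [map_one (h56_can (laurentBaseChange K F₀)), div_one, h56_can_tmul, h56_single_one,
          one_mul, h56_coeffMap_coeffEmb]
  | one =>
      refine ⟨1, 1, ?_⟩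
      rw [map_one (h56_can (laurentBaseChange K F₀)), div_one]
  | add a b _ _ ha hb =>
      obtain ⟨x₁, y₁, rfl⟩ := ha
      obtain ⟨x₂, y₂, rfl⟩ := hb
      by_cases h1 : h56_can (laurentBaseChange K F₀) y₁ = 0
      · refine ⟨x₂, y₂, ?_⟩
        rw [h1, div_zero, zero_add]
      by_cases h2 : h56_can (laurentBaseChange K F₀) y₂ = 0
      · refine ⟨x₁, y₁, ?_⟩
        rw [h2, div_zero, add_zero]
      refine ⟨x₁ * y₂ + y₁ * x₂, y₁ * y₂, ?_⟩
      rw [map_add (h56_can (laurentBaseChange K F₀)), map_mul (h56_can (laurentBaseChange K F₀)),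
        map_mul (h56_can (laurentBaseChange K F₀)), map_mul (h56_can (laurentBaseChange K F₀)),
        div_add_div _ _ h1 h2]
  | neg a _ ha =>
      obtain ⟨x, y, rfl⟩ := ha
      refine ⟨-x, y, ?_⟩
      rw [map_neg (h56_can (laurentBaseChange K F₀)), neg_div]
  | inv a _ ha =>
      obtain ⟨x, y, rfl⟩ := ha
      exact ⟨y, x, inv_div _ _⟩
  | mul a b _ _ ha hb =>
      obtain ⟨x₁, y₁, rfl⟩ := ha
      obtain ⟨x₂, y₂, rfl⟩ := hb
      refine ⟨x₁ * x₂, y₁ * y₂, ?_⟩
      rw [map_mul (h56_can (laurentBaseChange K F₀)), map_mul (h56_can (laurentBaseChange K F₀)),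
        div_mul_div_comm]

end Main

section Final

set_option synthInstance.maxHeartbeats 400000
set_option maxHeartbeats 1000000

/-- **BCORD.** every place of `F` extends to a place of `F_ℂ` without ramification. -/
theorem baseChangeOrd : BaseChangeOrdStatement := by
  intro N _ v₀
  classical
  let _ : Algebra Kbar ℂ := embC.toAlgebra
  -- the expansion at `v₀`
  have hle := Fermat.Agent.S24.finrank_le_index N
  have : FiniteDimensional Kbar⟮jBar N⟯ (FF N) := hle.1
  have hdeg : v₀.deg = 1 :=
    Fermat.Agent.S24.DiffPlace.place_deg_eq_one (jBar N) (Algebra.IsAlgebraic.of_finite _ _) v₀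
  obtain ⟨ϖ, hϖ⟩ := IsDiscreteValuationRing.exists_irreducible v₀.toValuationSubring
  have hπ : v₀.ord (ϖ : FF N) = 1 := v₀.ord_coe_irreducible hϖ
  obtain ⟨E₀, hE₀c, hE₀π, hE₀ord⟩ :=
    Fermat.Agent.S24.EXP_exists_expansion_uniformizer v₀ hdeg hπ
  let G : FF N →ₐ[Kbar] LaurentSeries Kbar :=
    { E₀ with
      commutes' := fun c => by
        change E₀ (algebraMap Kbar (FF N) c) = _
        rw [hE₀c, algebraMap_laurentSeries_eq_single]
        rfl }
  have hG : ∀ x : FF N, G x = E₀ x := fun _ => rfl
  obtain ⟨E, hEc, hEu⟩ := h56_exists_ext (K := Kbar) (L := ℂ)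
    (FK := modularFunctionFieldBar N) (FL := laurentBaseChange ℂ (modularFunctionFieldFull N))
    (h56_map_mem (modularFunctionFieldFull N)) (h56_surj (modularFunctionFieldFull N)) G
  -- the uniformizer over `ℂ`
  let t : FC N := ⟨coeffMap embC ((ϖ : FF N) : LaurentSeries Kbar),
    h56_map_mem (K := Kbar) (L := ℂ) (modularFunctionFieldFull N) _ (ϖ : FF N).2⟩
  have hEt : E t = HahnSeries.single 1 1 := by
    have h1 := hEu (ϖ : FF N) t rfl
    rw [h1, hG, hE₀π]
    change coeffMap embC (HahnSeries.single 1 1) = _
    rw [coeffMap_single, map_one]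
  have htord : (E t).order = 1 := by
    rw [hEt]
    exact HahnSeries.order_single one_ne_zero
  obtain ⟨v, m, hm, hv⟩ := Fermat.Agent.S24.exists_place_of_emb (K := ℂ) (F := FC N) t
    (RingHom.id ℂ) E (fun a => hEc a) (by rw [htord]; exact one_pos)
  have ht0 : t ≠ 0 := by
    intro h
    rw [h, map_zero, HahnSeries.order_zero] at htord
    exact zero_ne_one htord
  have hm1 : m = 1 := by
    have h1 := hv t ht0
    rw [htord] at h1
    have h2 : (m : ℤ) ∣ 1 := Dvd.intro _ h1.symm
    have h3 : (m : ℤ) = 1 := Int.eq_one_of_dvd_one (by positivity) h2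
    exact_mod_cast h3
  refine ⟨v, fun u₀ u hu => ?_⟩
  by_cases hu₀ : u₀ = 0
  · have hu0 : u = 0 := by
      apply Subtype.ext
      rw [hu, hu₀]
      simp
    rw [hu0, hu₀, Place.ord_zero, Place.ord_zero]
  · have hu0 : u ≠ 0 := by
      intro h
      apply hu₀
      have h1 : coeffMap embC (u₀ : LaurentSeries Kbar) = 0 := by
        rw [← hu, h]
        rfl
      have h2 : (u₀ : LaurentSeries Kbar) = 0 := by
        have hinj : Function.Injective (coeffMap embC) := h56_coeffMap_injective embC
        exact hinj (h1.trans (map_zero _).symm)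
      exact Subtype.ext h2
    have h1 := hv u hu0
    rw [hm1, Nat.cast_one, one_mul] at h1
    rw [← h1, hEu u₀ u hu, hG]
    change (coeffMap embC (E₀ u₀)).order = _
    rw [h56_order_coeffMap, hE₀ord u₀ hu₀]

end Final

end Fermat.Agent.Jac
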