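import Fermat.Agent.Jac.Skeleton

/-!
# IN-JAC, task COH: the cohomological Hecke operator `T_ℓ` on `Hom(Γ₀(N), A)`

* `h17_exists_decomp`, `h17_decomp_unique`: every integral matrix of determinant `ℓ` with
  lower-left entry divisible by `N` is `c * heckeRep ℓ j` for a unique `j` and a unique
  `c ∈ Γ₀(N)`.
* `h17_heckeDecomp_exists`, `h17_heckeDecomp_unique`, `h17_heckeDecomp_bijective`,
  `h17_heckeDecomp_mul`: the decomposition `δ_i γ = c_i δ_{π i}`.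
* `cohHecke : CohHeckeStatement`.
-/

set_option autoImplicit false

open ModularCurve CongruenceSubgroup
open scoped MatrixGroups

noncomputable section

namespace Fermat.Agent.Jac

/-! ## The representatives -/

theorem h17_heckeRep_lt {ℓ : ℕ} (i : Fin (ℓ + 1)) (h : (i : ℕ) < ℓ) :
    heckeRep ℓ i = !![1, ((i : ℕ) : ℤ); 0, (ℓ : ℤ)] := by
  unfold heckeRep
  rw [if_pos h]

theorem h17_heckeRep_last {ℓ : ℕ} (i : Fin (ℓ + 1)) (h : ¬ (i : ℕ) < ℓ) :
    heckeRep ℓ i = !![(ℓ : ℤ), 0; 0, 1] := by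
  unfold heckeRep
  rw [if_neg h]

theorem h17_det_heckeRep (ℓ : ℕ) (i : Fin (ℓ + 1)) : (heckeRep ℓ i).det = (ℓ : ℤ) := by
  by_cases h : (i : ℕ) < ℓ
  · rw [h17_heckeRep_lt i h, Matrix.det_fin_two_of]; ring
  · rw [h17_heckeRep_last i h, Matrix.det_fin_two_of]; ring

theorem h17_mem_Gamma0_iff {N : ℕ} (A : SL(2, ℤ)) :
    A ∈ Gamma0 N ↔ (N : ℤ) ∣ (A : Matrix (Fin 2) (Fin 2) ℤ) 1 0 := by
  rw [Gamma0_mem, ZMod.intCast_zmod_eq_zero_iff_dvd]

/-- a `2 × 2` integral matrix of determinant one with lower-left entry divisible by `N`,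
as an element of `Γ₀(N)`. -/
def h17_mk (N : ℕ) (a b c d : ℤ) (hdet : a * d - b * c = 1) (hN : (N : ℤ) ∣ c) : Gamma0 N :=
  ⟨⟨!![a, b; c, d], by rw [Matrix.det_fin_two_of]; exact hdet⟩, by
    rw [h17_mem_Gamma0_iff]
    simpa using hN⟩

theorem h17_mk_coe (N : ℕ) (a b c d : ℤ) (hdet : a * d - b * c = 1) (hN : (N : ℤ) ∣ c) :
    (((h17_mk N a b c d hdet hN : Gamma0 N) : SL(2, ℤ)) : Matrix (Fin 2) (Fin 2) ℤ)
      = !![a, b; c, d] := rfl

/-! ## Existence of the decomposition -/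

/-- the second column of a matrix of determinant `≡ 0` is, modulo `ℓ`, a multiple of the
first one if the first one is nonzero modulo `ℓ`. -/
theorem h17_exists_multiple (ℓ : ℕ) (hℓ : ℓ.Prime) (x y z w : ℤ)
    (hdet : (ℓ : ℤ) ∣ x * w - z * y) (hxy : ¬ ((ℓ : ℤ) ∣ x ∧ (ℓ : ℤ) ∣ y)) :
    ∃ j : ℕ, j < ℓ ∧ (ℓ : ℤ) ∣ z - j * x ∧ (ℓ : ℤ) ∣ w - j * y := by
  have : Fact ℓ.Prime := ⟨hℓ⟩
  have : NeZero ℓ := ⟨hℓ.ne_zero⟩
  have hd : ((x : ZMod ℓ)) * (w : ZMod ℓ) - (z : ZMod ℓ) * (y : ZMod ℓ) = 0 := by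
    have := (ZMod.intCast_zmod_eq_zero_iff_dvd _ ℓ).mpr hdet
    push_cast at this
    exact this
  have key : ∃ t : ZMod ℓ, (z : ZMod ℓ) = t * (x : ZMod ℓ) ∧ (w : ZMod ℓ) = t * (y : ZMod ℓ) := by
    by_cases hx : (x : ZMod ℓ) = 0
    · have hy : (y : ZMod ℓ) ≠ 0 := by
        intro hy
        exact hxy ⟨(ZMod.intCast_zmod_eq_zero_iff_dvd _ ℓ).mp hx,
          (ZMod.intCast_zmod_eq_zero_iff_dvd _ ℓ).mp hy⟩
      refine ⟨(w : ZMod ℓ) / (y : ZMod ℓ), ?_, ?_⟩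
      · rw [hx, mul_zero]
        rw [hx, zero_mul, zero_sub, neg_eq_zero] at hd
        rcases mul_eq_zero.mp hd with h | h
        · exact h
        · exact absurd h hy
      · field_simp
    · refine ⟨(z : ZMod ℓ) / (x : ZMod ℓ), ?_, ?_⟩
      · field_simp
      · field_simp
        linear_combination hd
  obtain ⟨t, ht1, ht2⟩ := key
  refine ⟨t.val, ZMod.val_lt t, ?_, ?_⟩
  · rw [← ZMod.intCast_zmod_eq_zero_iff_dvd]
    push_cast
    rw [ZMod.natCast_zmod_val, ht1]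
    ring
  · rw [← ZMod.intCast_zmod_eq_zero_iff_dvd]
    push_cast
    rw [ZMod.natCast_zmod_val, ht2]
    ring

/-- **existence**: an integral matrix of determinant `ℓ` with lower-left entry divisible by
`N` is `c * heckeRep ℓ j` with `c ∈ Γ₀(N)`. -/
theorem h17_exists_decomp (N ℓ : ℕ) (hℓ : ℓ.Prime) (hℓN : ¬ ℓ ∣ N)
    (M : Matrix (Fin 2) (Fin 2) ℤ) (hdet : M.det = (ℓ : ℤ)) (hN : (N : ℤ) ∣ M 1 0) :
    ∃ (j : Fin (ℓ + 1)) (c : Gamma0 N),
      M = ((c : SL(2, ℤ)) : Matrix (Fin 2) (Fin 2) ℤ) * heckeRep ℓ j := by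
  have hℓ0 : (ℓ : ℤ) ≠ 0 := by exact_mod_cast hℓ.ne_zero
  rw [Matrix.det_fin_two] at hdet
  have hcop : IsCoprime (N : ℤ) (ℓ : ℤ) := by
    rw [Int.isCoprime_iff_gcd_eq_one, Int.gcd_natCast_natCast]
    exact (Nat.coprime_comm.mp ((Nat.Prime.coprime_iff_not_dvd hℓ).mpr hℓN))
  by_cases hcol : (ℓ : ℤ) ∣ M 0 0 ∧ (ℓ : ℤ) ∣ M 1 0
  · -- `j = ℓ`
    obtain ⟨⟨x, hx⟩, ⟨y, hy⟩⟩ := hcol
    have hdet' : x * M 1 1 - M 0 1 * y = 1 := by
      apply mul_left_cancel₀ hℓ0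
      rw [hx, hy] at hdet
      linear_combination hdet
    have hNy : (N : ℤ) ∣ y := by
      rw [hy] at hN
      exact hcop.dvd_of_dvd_mul_left hN
    refine ⟨Fin.last ℓ, h17_mk N x (M 0 1) y (M 1 1) hdet' hNy, ?_⟩
    rw [h17_mk_coe, h17_heckeRep_last _ (by simp)]
    ext a b
    fin_cases a <;> fin_cases b <;> simp [Matrix.mul_apply, Fin.sum_univ_two, hx, hy, mul_comm]
  · -- `j < ℓ`
    obtain ⟨j, hj, ⟨p, hp⟩, ⟨q, hq⟩⟩ := h17_exists_multiple ℓ hℓ (M 0 0) (M 1 0) (M 0 1) (M 1 1)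
      (by rw [hdet]) hcol
    have hdet' : M 0 0 * q - p * M 1 0 = 1 := by
      apply mul_left_cancel₀ hℓ0
      linear_combination hdet - M 0 0 * hq + M 1 0 * hp
    refine ⟨⟨j, by omega⟩, h17_mk N (M 0 0) p (M 1 0) q hdet' hN, ?_⟩
    rw [h17_mk_coe, h17_heckeRep_lt _ (by simpa using hj)]
    ext a b
    fin_cases a <;> fin_cases b <;> simp [Matrix.mul_apply, Fin.sum_univ_two]
    · linear_combination hp
    · linear_combination hq

/-! ## Uniqueness of the decomposition -/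

theorem h17_decomp_unique (ℓ : ℕ) (hℓ : ℓ.Prime) (c₁ c₂ : SL(2, ℤ)) (j₁ j₂ : Fin (ℓ + 1))
    (h : (c₁ : Matrix (Fin 2) (Fin 2) ℤ) * heckeRep ℓ j₁
      = (c₂ : Matrix (Fin 2) (Fin 2) ℤ) * heckeRep ℓ j₂) : j₁ = j₂ ∧ c₁ = c₂ := by
  have hℓ0 : (ℓ : ℤ) ≠ 0 := by exact_mod_cast hℓ.ne_zero
  have hℓ1 : ¬ (ℓ : ℤ) ∣ 1 := by
    intro h1
    have := Int.eq_one_of_dvd_one (by positivity) h1
    have : ℓ = 1 := by exact_mod_cast this
    exact hℓ.one_lt.ne' this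
  have hd1 := c₁.det_coe
  have hd2 := c₂.det_coe
  rw [Matrix.det_fin_two] at hd1 hd2
  have e00 := congrFun (congrFun h 0) 0
  have e01 := congrFun (congrFun h 0) 1
  have e10 := congrFun (congrFun h 1) 0
  have e11 := congrFun (congrFun h 1) 1
  by_cases h1 : (j₁ : ℕ) < ℓ <;> by_cases h2 : (j₂ : ℕ) < ℓ
  · rw [h17_heckeRep_lt _ h1, h17_heckeRep_lt _ h2] at e00 e01 e10 e11
    simp [Matrix.mul_apply, Fin.sum_univ_two] at e00 e01 e10 e11
    have hdvd : (ℓ : ℤ) ∣ ((j₁ : ℕ) : ℤ) - ((j₂ : ℕ) : ℤ) := by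
      refine ⟨c₁.1 1 1 * c₂.1 0 1 - c₁.1 0 1 * c₂.1 1 1, ?_⟩
      linear_combination (-(((j₁ : ℕ) : ℤ) - ((j₂ : ℕ) : ℤ))) * hd1
        + c₁.1 1 1 * (e01 - ((j₂ : ℕ) : ℤ) * e00) - c₁.1 0 1 * (e11 - ((j₂ : ℕ) : ℤ) * e10)
    have hj0 : ((j₁ : ℕ) : ℤ) - ((j₂ : ℕ) : ℤ) = 0 := by
      apply Int.eq_zero_of_abs_lt_dvd hdvd
      rw [abs_lt]
      constructor <;> omega
    have hj : (j₁ : ℕ) = (j₂ : ℕ) := by omega
    have f01 : c₁.1 0 1 = c₂.1 0 1 := by
      apply mul_right_cancel₀ hℓ0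
      rw [hj, e00] at e01
      linear_combination e01
    have f11 : c₁.1 1 1 = c₂.1 1 1 := by
      apply mul_right_cancel₀ hℓ0
      rw [hj, e10] at e11
      linear_combination e11
    refine ⟨Fin.ext hj, ?_⟩
    ext a b
    fin_cases a <;> fin_cases b <;> simp [e00, f01, e10, f11]
  · exfalso
    rw [h17_heckeRep_lt _ h1, h17_heckeRep_last _ h2] at e00 e01 e10 e11
    simp [Matrix.mul_apply, Fin.sum_univ_two] at e00 e01 e10 e11
    apply hℓ1
    refine ⟨c₂.1 0 0 * c₁.1 1 1 - c₁.1 0 1 * c₂.1 1 0, ?_⟩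
    rw [e00, e10] at hd1
    linear_combination - hd1
  · exfalso
    rw [h17_heckeRep_last _ h1, h17_heckeRep_lt _ h2] at e00 e01 e10 e11
    simp [Matrix.mul_apply, Fin.sum_univ_two] at e00 e01 e10 e11
    apply hℓ1
    refine ⟨c₁.1 0 0 * c₂.1 1 1 - c₂.1 0 1 * c₁.1 1 0, ?_⟩
    rw [← e00, ← e10] at hd2
    linear_combination - hd2
  · rw [h17_heckeRep_last _ h1, h17_heckeRep_last _ h2] at e00 e01 e10 e11
    simp [Matrix.mul_apply, Fin.sum_univ_two, hℓ.ne_zero] at e00 e01 e10 e11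
    refine ⟨Fin.ext (by have := j₁.2; have := j₂.2; omega), ?_⟩
    ext a b
    fin_cases a <;> fin_cases b <;> simp [e00, e01, e10, e11]

/-! ## The decomposition `δ_i γ = c_i δ_{π i}` -/

theorem h17_heckeRep_one_zero (ℓ : ℕ) (i : Fin (ℓ + 1)) : heckeRep ℓ i 1 0 = 0 := by
  by_cases h : (i : ℕ) < ℓ
  · rw [h17_heckeRep_lt i h]; rfl
  · rw [h17_heckeRep_last i h]; rfl

theorem h17_heckeDecomp_exists (N ℓ : ℕ) (hℓ : ℓ.Prime) (hℓN : ¬ ℓ ∣ N) (γ : Gamma0 N) :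
    ∃ (π : Fin (ℓ + 1) → Fin (ℓ + 1)) (c : Fin (ℓ + 1) → Gamma0 N), HeckeDecomp N ℓ γ π c := by
  have key : ∀ i : Fin (ℓ + 1), ∃ (j : Fin (ℓ + 1)) (c : Gamma0 N),
      heckeRep ℓ i * ((γ : SL(2, ℤ)) : Matrix (Fin 2) (Fin 2) ℤ)
        = ((c : SL(2, ℤ)) : Matrix (Fin 2) (Fin 2) ℤ) * heckeRep ℓ j := by
    intro i
    apply h17_exists_decomp N ℓ hℓ hℓN
    · rw [Matrix.det_mul, h17_det_heckeRep, (γ : SL(2, ℤ)).det_coe, mul_one]
    · have hγ : (N : ℤ) ∣ ((γ : SL(2, ℤ)) : Matrix (Fin 2) (Fin 2) ℤ) 1 0 :=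
        (h17_mem_Gamma0_iff _).mp γ.2
      rw [Matrix.mul_apply, Fin.sum_univ_two, h17_heckeRep_one_zero, zero_mul, zero_add]
      exact Dvd.dvd.mul_left hγ _
  choose π c h using key
  exact ⟨π, c, h⟩

theorem h17_heckeDecomp_unique {N ℓ : ℕ} (hℓ : ℓ.Prime) {γ : Gamma0 N}
    {π π' : Fin (ℓ + 1) → Fin (ℓ + 1)} {c c' : Fin (ℓ + 1) → Gamma0 N}
    (h : HeckeDecomp N ℓ γ π c) (h' : HeckeDecomp N ℓ γ π' c') : π = π' ∧ c = c' := by
  have key : ∀ i, π i = π' i ∧ (c i : SL(2, ℤ)) = (c' i : SL(2, ℤ)) := fun i =>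
    h17_decomp_unique ℓ hℓ _ _ _ _ ((h i).symm.trans (h' i))
  exact ⟨funext fun i => (key i).1, funext fun i => Subtype.ext (key i).2⟩

theorem h17_heckeDecomp_injective {N ℓ : ℕ} (hℓ : ℓ.Prime) {γ : Gamma0 N}
    {π : Fin (ℓ + 1) → Fin (ℓ + 1)} {c : Fin (ℓ + 1) → Gamma0 N}
    (h : HeckeDecomp N ℓ γ π c) : Function.Injective π := by
  intro i i' hii
  have h1 := h i
  have h2 := h i'
  rw [← hii] at h2
  -- `c_i⁻¹ δ_i = δ_j γ⁻¹ = c_{i'}⁻¹ δ_{i'}`
  have hinv : ∀ A : SL(2, ℤ), ((A⁻¹ : SL(2, ℤ)) : Matrix (Fin 2) (Fin 2) ℤ)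
      * (A : Matrix (Fin 2) (Fin 2) ℤ) = 1 := by
    intro A
    rw [← Matrix.SpecialLinearGroup.coe_mul, inv_mul_cancel, Matrix.SpecialLinearGroup.coe_one]
  have hinv' : ∀ A : SL(2, ℤ), (A : Matrix (Fin 2) (Fin 2) ℤ)
      * ((A⁻¹ : SL(2, ℤ)) : Matrix (Fin 2) (Fin 2) ℤ) = 1 := by
    intro A
    rw [← Matrix.SpecialLinearGroup.coe_mul, mul_inv_cancel, Matrix.SpecialLinearGroup.coe_one]
  have k1 : (((c i : SL(2, ℤ))⁻¹ : SL(2, ℤ)) : Matrix (Fin 2) (Fin 2) ℤ) * heckeRep ℓ i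
      = heckeRep ℓ (π i) * (((γ : SL(2, ℤ))⁻¹ : SL(2, ℤ)) : Matrix (Fin 2) (Fin 2) ℤ) := by
    calc (((c i : SL(2, ℤ))⁻¹ : SL(2, ℤ)) : Matrix (Fin 2) (Fin 2) ℤ) * heckeRep ℓ i
        = (((c i : SL(2, ℤ))⁻¹ : SL(2, ℤ)) : Matrix (Fin 2) (Fin 2) ℤ)
            * (heckeRep ℓ i * ((γ : SL(2, ℤ)) : Matrix (Fin 2) (Fin 2) ℤ))
            * (((γ : SL(2, ℤ))⁻¹ : SL(2, ℤ)) : Matrix (Fin 2) (Fin 2) ℤ) := by
          rw [Matrix.mul_assoc, Matrix.mul_assoc, hinv', Matrix.mul_one]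
      _ = _ := by
          rw [h1, ← Matrix.mul_assoc, hinv, Matrix.one_mul]
  have k2 : (((c i' : SL(2, ℤ))⁻¹ : SL(2, ℤ)) : Matrix (Fin 2) (Fin 2) ℤ) * heckeRep ℓ i'
      = heckeRep ℓ (π i) * (((γ : SL(2, ℤ))⁻¹ : SL(2, ℤ)) : Matrix (Fin 2) (Fin 2) ℤ) := by
    calc (((c i' : SL(2, ℤ))⁻¹ : SL(2, ℤ)) : Matrix (Fin 2) (Fin 2) ℤ) * heckeRep ℓ i'
        = (((c i' : SL(2, ℤ))⁻¹ : SL(2, ℤ)) : Matrix (Fin 2) (Fin 2) ℤ)
            * (heckeRep ℓ i' * ((γ : SL(2, ℤ)) : Matrix (Fin 2) (Fin 2) ℤ))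
            * (((γ : SL(2, ℤ))⁻¹ : SL(2, ℤ)) : Matrix (Fin 2) (Fin 2) ℤ) := by
          rw [Matrix.mul_assoc, Matrix.mul_assoc, hinv', Matrix.mul_one]
      _ = _ := by
          rw [h2, ← Matrix.mul_assoc, hinv, Matrix.one_mul]
  exact (h17_decomp_unique ℓ hℓ _ _ _ _ (k1.trans k2.symm)).1

theorem h17_heckeDecomp_bijective {N ℓ : ℕ} (hℓ : ℓ.Prime) {γ : Gamma0 N}
    {π : Fin (ℓ + 1) → Fin (ℓ + 1)} {c : Fin (ℓ + 1) → Gamma0 N}
    (h : HeckeDecomp N ℓ γ π c) : Function.Bijective π :=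
  Finite.injective_iff_bijective.mp (h17_heckeDecomp_injective hℓ h)

theorem h17_heckeDecomp_mul {N ℓ : ℕ} {γ γ' : Gamma0 N}
    {π π' : Fin (ℓ + 1) → Fin (ℓ + 1)} {c c' : Fin (ℓ + 1) → Gamma0 N}
    (h : HeckeDecomp N ℓ γ π c) (h' : HeckeDecomp N ℓ γ' π' c') :
    HeckeDecomp N ℓ (γ * γ') (π' ∘ π) (fun i => c i * c' (π i)) := by
  intro i
  show heckeRep ℓ i * (((γ * γ' : Gamma0 N) : SL(2, ℤ)) : Matrix (Fin 2) (Fin 2) ℤ)
    = (((c i * c' (π i) : Gamma0 N) : SL(2, ℤ)) : Matrix (Fin 2) (Fin 2) ℤ)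
      * heckeRep ℓ (π' (π i))
  rw [Subgroup.coe_mul, Subgroup.coe_mul, Matrix.SpecialLinearGroup.coe_mul,
    Matrix.SpecialLinearGroup.coe_mul, ← Matrix.mul_assoc, h i, Matrix.mul_assoc, h' (π i),
    Matrix.mul_assoc]

/-! ## Traces -/

/-- conjugation by a matrix of nonzero determinant preserves the trace. -/
theorem h17_trace_eq_of_conj (P G D : Matrix (Fin 2) (Fin 2) ℤ) (hD : D.det ≠ 0)
    (h : P * D = D * G) : P.trace = G.trace := by
  have h1 : (P * D * D.adjugate).trace = (D * G * D.adjugate).trace := by rw [h]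
  have hL : (P * D * D.adjugate).trace = D.det * P.trace := by
    rw [Matrix.mul_assoc, Matrix.mul_adjugate, Matrix.mul_smul, Matrix.mul_one,
      Matrix.trace_smul, smul_eq_mul]
  have hR : (D * G * D.adjugate).trace = D.det * G.trace := by
    rw [Matrix.trace_mul_comm, ← Matrix.mul_assoc, Matrix.adjugate_mul, Matrix.smul_mul,
      Matrix.one_mul, Matrix.trace_smul, smul_eq_mul]
  rw [hL, hR] at h1
  exact mul_left_cancel₀ hD h1

/-- powers of a matrix with `G² = 2εG - 1`, `ε² = 1`. -/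
theorem h17_pow_eq (G : Matrix (Fin 2) (Fin 2) ℤ) (ε : ℤ) (hε : ε * ε = 1)
    (hsq : G * G = (2 * ε) • G - 1) (r : ℕ) :
    G ^ r = (ε ^ r * (1 - r)) • (1 : Matrix (Fin 2) (Fin 2) ℤ) + (ε ^ r * r * ε) • G := by
  induction r with
  | zero => simp
  | succ r ih =>
    rw [pow_succ, ih, Matrix.add_mul, Matrix.smul_mul, Matrix.smul_mul, Matrix.one_mul, hsq]
    ext a b
    simp only [Matrix.add_apply, Matrix.smul_apply, Matrix.sub_apply, smul_eq_mul]
    push_cast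
    have h2 : ε ^ (r + 1) = ε ^ r * ε := pow_succ ε r
    rw [h2]
    linear_combination (-(ε ^ r * G a b * (1 - (r : ℤ)))) * hε

/-- powers of a parabolic (or `±1`) element of `SL₂(ℤ)` are parabolic (or `±1`). -/
theorem h17_trace_pow_sq (G : Matrix (Fin 2) (Fin 2) ℤ) (hdet : G.det = 1)
    (htr : G.trace ^ 2 = 4) (r : ℕ) : (G ^ r).trace ^ 2 = 4 := by
  rw [Matrix.det_fin_two] at hdet
  rw [Matrix.trace_fin_two] at htr
  have hε : ∃ ε : ℤ, ε * ε = 1 ∧ G 0 0 + G 1 1 = 2 * ε := by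
    have h0 : (G 0 0 + G 1 1 - 2) * (G 0 0 + G 1 1 + 2) = 0 := by linear_combination htr
    rcases mul_eq_zero.mp h0 with h | h
    · exact ⟨1, by norm_num, by linear_combination h⟩
    · exact ⟨-1, by norm_num, by linear_combination h⟩
  obtain ⟨ε, hε1, hε2⟩ := hε
  have hsq : G * G = (2 * ε) • G - 1 := by
    ext a b
    fin_cases a <;> fin_cases b <;>
      simp only [Matrix.mul_apply, Fin.sum_univ_two, Matrix.sub_apply, Matrix.smul_apply,
        smul_eq_mul, Matrix.one_apply, Fin.zero_eta, Fin.mk_one, Fin.isValue, if_true,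
        one_ne_zero, zero_ne_one, if_false, ← hε2]
    · linear_combination -hdet
    · ring
    · ring
    · linear_combination -hdet
  rw [h17_pow_eq G ε hε1 hsq r, Matrix.trace_add, Matrix.trace_smul, Matrix.trace_smul,
    Matrix.trace_fin_two, Matrix.trace_fin_two, hε2]
  simp only [smul_eq_mul, Matrix.one_apply, if_true]
  have h1 : (ε ^ r) ^ 2 = 1 := by
    rw [← pow_mul, mul_comm, pow_mul, pow_two, hε1, one_pow]
  linear_combination 4 * h1 + (4 * (ε ^ r) ^ 2 * (2 * (r : ℤ) + (r : ℤ) ^ 2 * (ε * ε - 1))) * hε1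

/-! ## Iterating the decomposition -/

theorem h17_heckeDecomp_iterate {N ℓ : ℕ} {A : Type*} [AddCommGroup A]
    (φ : Additive (Gamma0 N) →+ A) {γ : Gamma0 N}
    {π : Fin (ℓ + 1) → Fin (ℓ + 1)} {c : Fin (ℓ + 1) → Gamma0 N}
    (h : HeckeDecomp N ℓ γ π c) (i : Fin (ℓ + 1)) (r : ℕ) :
    ∃ P : Gamma0 N,
      heckeRep ℓ i * ((γ : SL(2, ℤ)) : Matrix (Fin 2) (Fin 2) ℤ) ^ r
        = ((P : SL(2, ℤ)) : Matrix (Fin 2) (Fin 2) ℤ) * heckeRep ℓ (π^[r] i) ∧
      φ (Additive.ofMul P) = ∑ k ∈ Finset.range r, φ (Additive.ofMul (c (π^[k] i))) := by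
  induction r with
  | zero =>
    refine ⟨1, ?_, ?_⟩
    · simp
    · simp
  | succ r ih =>
    obtain ⟨P, hP1, hP2⟩ := ih
    refine ⟨P * c (π^[r] i), ?_, ?_⟩
    · rw [pow_succ, ← Matrix.mul_assoc, hP1, Matrix.mul_assoc, h (π^[r] i),
        Function.iterate_succ_apply', Subgroup.coe_mul, Matrix.SpecialLinearGroup.coe_mul,
        Matrix.mul_assoc]
    · rw [ofMul_mul, map_add, hP2, Finset.sum_range_succ]

/-- the sum of `φ (c_i)` along a closed `π`-chain vanishes for parabolic `γ` and `φ`. -/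
theorem h17_chain_sum_eq_zero {N ℓ : ℕ} (hℓ : ℓ.Prime) {A : Type*} [AddCommGroup A]
    (φ : Additive (Gamma0 N) →+ A) (hφ : Period.IsParabolicHom (Gamma0 N) φ) {γ : Gamma0 N}
    (hγ : ((γ : SL(2, ℤ)) : Matrix (Fin 2) (Fin 2) ℤ).trace ^ 2 = 4)
    {π : Fin (ℓ + 1) → Fin (ℓ + 1)} {c : Fin (ℓ + 1) → Gamma0 N}
    (h : HeckeDecomp N ℓ γ π c) (i : Fin (ℓ + 1)) (r : ℕ) (hr : π^[r] i = i) :
    ∑ k ∈ Finset.range r, φ (Additive.ofMul (c (π^[k] i))) = 0 := by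
  obtain ⟨P, hP1, hP2⟩ := h17_heckeDecomp_iterate φ h i r
  rw [← hP2]
  apply hφ
  rw [hr] at hP1
  have hD : (heckeRep ℓ i).det ≠ 0 := by
    rw [h17_det_heckeRep]
    exact_mod_cast hℓ.ne_zero
  rw [h17_trace_eq_of_conj _ _ _ hD hP1.symm]
  exact h17_trace_pow_sq _ (γ : SL(2, ℤ)).det_coe hγ r

/-! ## Sums over the orbits of an injective self-map of a finite type -/

theorem h17_sum_eq_zero_of_chain_sums {α : Type*} [Fintype α] [DecidableEq α]
    {A : Type*} [AddCommMonoid A] (π : α → α) (hπ : Function.Injective π) (f : α → A)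
    (H : ∀ i r, π^[r] i = i → ∑ k ∈ Finset.range r, f (π^[k] i) = 0) :
    ∑ i, f i = 0 := by
  have key : ∀ s : Finset α, (∀ x ∈ s, π x ∈ s) → ∑ x ∈ s, f x = 0 := by
    intro s
    induction s using Finset.strongInduction with
    | H s ih =>
      intro hs
      rcases s.eq_empty_or_nonempty with rfl | ⟨i, hi⟩
      · simp
      · -- the orbit of `i`
        set r := Function.minimalPeriod π i with hr
        have hper : i ∈ Function.periodicPts π := hπ.mem_periodicPts i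
        have hr0 : 0 < r := Function.minimalPeriod_pos_of_mem_periodicPts hper
        have hri : π^[r] i = i := Function.iterate_minimalPeriod
        set O : Finset α := (Finset.range r).image (fun k => π^[k] i) with hO
        have hiter : ∀ k, π^[k] i ∈ s := by
          intro k
          induction k with
          | zero => simpa using hi
          | succ k ihk =>
            rw [Function.iterate_succ_apply']
            exact hs _ ihk
        have hOs : O ⊆ s := by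
          intro x hx
          rw [hO, Finset.mem_image] at hx
          obtain ⟨k, -, rfl⟩ := hx
          exact hiter k
        have hiO : i ∈ O := by
          rw [hO, Finset.mem_image]
          exact ⟨0, Finset.mem_range.mpr hr0, rfl⟩
        have hinv : ∀ x ∈ s \ O, π x ∈ s \ O := by
          intro x hx
          rw [Finset.mem_sdiff] at hx ⊢
          refine ⟨hs x hx.1, fun hx' => hx.2 ?_⟩
          rw [hO, Finset.mem_image] at hx' ⊢
          obtain ⟨k, hk, hkx⟩ := hx'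
          rw [Finset.mem_range] at hk
          rcases Nat.eq_zero_or_pos k with rfl | hk0
          · -- `π x = i = π^[r] i`
            refine ⟨r - 1, Finset.mem_range.mpr (by omega), ?_⟩
            apply hπ
            have e : π (π^[r - 1] i) = π^[r] i := by
              rw [← Function.iterate_succ_apply' π (r - 1) i, Nat.succ_eq_add_one,
                Nat.sub_add_cancel hr0]
            rw [e, hri]
            simpa using hkx
          · refine ⟨k - 1, Finset.mem_range.mpr (by omega), ?_⟩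
            apply hπ
            have e : π (π^[k - 1] i) = π^[k] i := by
              rw [← Function.iterate_succ_apply' π (k - 1) i, Nat.succ_eq_add_one,
                Nat.sub_add_cancel hk0]
            rw [e]
            exact hkx
        have hlt : s \ O ⊂ s := by
          refine Finset.ssubset_iff_subset_ne.mpr ⟨Finset.sdiff_subset, fun heq => ?_⟩
          have : i ∈ s \ O := by rw [heq]; exact hi
          exact (Finset.mem_sdiff.mp this).2 hiO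
        have h1 := ih (s \ O) hlt hinv
        have h2 : ∑ x ∈ O, f x = 0 := by
          rw [hO, Finset.sum_image]
          · exact H i r hri
          · intro k hk k' hk' hkk
            exact (Function.iterate_eq_iterate_iff_of_lt_minimalPeriod
              (Finset.mem_range.mp hk) (Finset.mem_range.mp hk')).mp hkk
        rw [← Finset.sum_sdiff hOs, h1, h2, add_zero]
  exact key Finset.univ (fun x _ => Finset.mem_univ _)

/-! ## The operator -/

/-- the cohomological Hecke operator attached to a choice of decompositions. -/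
theorem h17_cohHecke_exists {N ℓ : ℕ} (hℓ : ℓ.Prime) (hℓN : ¬ ℓ ∣ N)
    (A : Type*) [AddCommGroup A] (φ : Additive (Gamma0 N) →+ A) :
    ∃ φ' : Additive (Gamma0 N) →+ A, IsCohHeckeAdd N ℓ φ φ' ∧
      (Period.IsParabolicHom (Gamma0 N) φ → Period.IsParabolicHom (Gamma0 N) φ') := by
  classical
  choose π c h using h17_heckeDecomp_exists N ℓ hℓ hℓN
  have hadd : ∀ a b : Additive (Gamma0 N),
      (∑ i, φ (Additive.ofMul (c (Additive.toMul (a + b)) i)))
        = (∑ i, φ (Additive.ofMul (c (Additive.toMul a) i)))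
          + ∑ i, φ (Additive.ofMul (c (Additive.toMul b) i)) := by
    intro a b
    set γ : Gamma0 N := Additive.toMul a with hγ
    set γ' : Gamma0 N := Additive.toMul b with hγ'
    have hab : Additive.toMul (a + b) = γ * γ' := rfl
    rw [hab]
    have hmul := h17_heckeDecomp_mul (h γ) (h γ')
    obtain ⟨-, hc⟩ := h17_heckeDecomp_unique hℓ (h (γ * γ')) hmul
    rw [hc]
    simp only [ofMul_mul, map_add, Finset.sum_add_distrib]
    congr 1
    exact Function.Bijective.sum_comp (h17_heckeDecomp_bijective hℓ (h γ))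
      (fun j => φ (Additive.ofMul (c γ' j)))
  refine ⟨AddMonoidHom.mk' (fun a => ∑ i, φ (Additive.ofMul (c (Additive.toMul a) i))) hadd,
    ?_, ?_⟩
  · intro γ π' c' h'
    obtain ⟨-, hc⟩ := h17_heckeDecomp_unique hℓ (h γ) h'
    show (∑ i, φ (Additive.ofMul (c γ i))) = _
    rw [hc]
  · intro hφ γ hγ
    show (∑ i, φ (Additive.ofMul (c γ i))) = 0
    exact h17_sum_eq_zero_of_chain_sums (π γ) (h17_heckeDecomp_injective hℓ (h γ))
      (fun i => φ (Additive.ofMul (c γ i)))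
      (fun i r hr => h17_chain_sum_eq_zero hℓ φ hφ hγ (h γ) i r hr)

/-- **COH.** -/
theorem cohHecke : CohHeckeStatement := by
  intro N _ ℓ hℓ hℓN
  refine ⟨fun γ => ?_, fun A _ φ => ?_⟩
  · obtain ⟨π, c, h⟩ := h17_heckeDecomp_exists N ℓ hℓ hℓN γ
    exact ⟨π, c, h17_heckeDecomp_bijective hℓ h, h⟩
  · obtain ⟨φ', h1, h2⟩ := h17_cohHecke_exists hℓ hℓN A φ
    exact ⟨φ', h1, fun hφ => h2 hφ⟩

end Fermat.Agent.Jac
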