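import Fermat.Agent.Jac.COH

/-!
# The cohomological Hecke operator on Eisenstein classes

If `φ : Γ₀(N) → A` depends only on the lower-right entry modulo `N` (i.e. factors through
`Gamma0Map N : Γ₀(N) → ZMod N`), then `T_ℓ φ = (ℓ + 1) φ` for every prime `ℓ ∤ N`.
-/

set_option autoImplicit false

open ModularCurve CongruenceSubgroup
open scoped MatrixGroups

noncomputable section

namespace Fermat.Agent.Jac

theorem h17_heckeRep_one_one (ℓ : ℕ) (i : Fin (ℓ + 1)) :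
    heckeRep ℓ i 1 1 = if (i : ℕ) < ℓ then (ℓ : ℤ) else 1 := by
  by_cases h : (i : ℕ) < ℓ
  · rw [h17_heckeRep_lt i h, if_pos h]; rfl
  · rw [h17_heckeRep_last i h, if_neg h]; rfl

/-- an element of `Γ₀(N)` with lower-right entry `ℓ`. -/
theorem h17_exists_Gamma0_lowerRight {N ℓ : ℕ} (hℓ : ℓ.Prime) (hℓN : ¬ ℓ ∣ N) :
    ∃ g : Gamma0 N, Gamma0Map N g = (ℓ : ZMod N) := by
  have hcop : IsCoprime (ℓ : ℤ) (N : ℤ) := by
    rw [Int.isCoprime_iff_gcd_eq_one, Int.gcd_natCast_natCast]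
    exact (Nat.Prime.coprime_iff_not_dvd hℓ).mpr hℓN
  obtain ⟨a, b, hab⟩ := hcop
  refine ⟨h17_mk N a (-b) N ℓ (by linear_combination hab) (dvd_refl _), ?_⟩
  show (((h17_mk N a (-b) N ℓ _ _ : Gamma0 N).1 1 1 : ℤ) : ZMod N) = (ℓ : ZMod N)
  rw [h17_mk_coe]
  simp

/-- **Eisenstein computation**: `T_ℓ φ = (ℓ + 1) φ` if `φ` factors through the lower-right
entry modulo `N`. -/
theorem h17_cohHecke_eisenstein {N ℓ : ℕ} (hℓ : ℓ.Prime) (hℓN : ¬ ℓ ∣ N)
    {A : Type*} [AddCommGroup A] (φ φ' : Additive (Gamma0 N) →+ A)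
    (h : IsCohHeckeAdd N ℓ φ φ')
    (hφ : ∀ γ γ' : Gamma0 N, Gamma0Map N γ = Gamma0Map N γ' →
      φ (Additive.ofMul γ) = φ (Additive.ofMul γ'))
    (γ : Gamma0 N) : φ' (Additive.ofMul γ) = (ℓ + 1) • φ (Additive.ofMul γ) := by
  classical
  obtain ⟨π, c, hdec⟩ := h17_heckeDecomp_exists N ℓ hℓ hℓN γ
  rw [h γ π c hdec]
  obtain ⟨g, hg⟩ := h17_exists_Gamma0_lowerRight (N := N) hℓ hℓN
  set t : Fin (ℓ + 1) → Gamma0 N := fun i => if (i : ℕ) < ℓ then g else 1 with ht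
  have htmap : ∀ i, Gamma0Map N (t i) = ((heckeRep ℓ i 1 1 : ℤ) : ZMod N) := by
    intro i
    rw [h17_heckeRep_one_one]
    by_cases hi : (i : ℕ) < ℓ
    · simp [ht, hi, hg]
    · simp [ht, hi]
  have hmap : ∀ x : Gamma0 N, Gamma0Map N x = (((x : SL(2, ℤ)) : Matrix (Fin 2) (Fin 2) ℤ) 1 1 : ZMod N) :=
    fun x => rfl
  have key : ∀ i, Gamma0Map N (c i * t (π i)) = Gamma0Map N (t i * γ) := by
    intro i
    rw [map_mul, map_mul, htmap, htmap, hmap, hmap]
    have e := congrFun (congrFun (hdec i) 1) 1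
    rw [Matrix.mul_apply, Matrix.mul_apply, Fin.sum_univ_two, Fin.sum_univ_two,
      h17_heckeRep_one_zero, zero_mul, zero_add] at e
    have e' := congrArg (Int.cast : ℤ → ZMod N) e
    push_cast at e'
    have hc0 : ((((c i : Gamma0 N) : SL(2, ℤ)) : Matrix (Fin 2) (Fin 2) ℤ) 1 0 : ZMod N) = 0 :=
      Gamma0_mem.mp (c i).2
    rw [hc0, zero_mul, zero_add] at e'
    rw [← e']
  have hsum : ∀ i, φ (Additive.ofMul (c i)) + φ (Additive.ofMul (t (π i)))
      = φ (Additive.ofMul (t i)) + φ (Additive.ofMul γ) := by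
    intro i
    have := hφ _ _ (key i)
    rwa [ofMul_mul, ofMul_mul, map_add, map_add] at this
  have htot : (∑ i, φ (Additive.ofMul (c i))) + ∑ i, φ (Additive.ofMul (t (π i)))
      = (∑ i, φ (Additive.ofMul (t i))) + (ℓ + 1) • φ (Additive.ofMul γ) := by
    rw [← Finset.sum_add_distrib]
    rw [Finset.sum_congr rfl fun i _ => hsum i, Finset.sum_add_distrib]
    simp
  have hre : ∑ i, φ (Additive.ofMul (t (π i))) = ∑ i, φ (Additive.ofMul (t i)) :=
    Function.Bijective.sum_comp (h17_heckeDecomp_bijective hℓ hdec)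
      (fun j => φ (Additive.ofMul (t j)))
  rw [hre, add_comm] at htot
  exact add_left_cancel htot

end Fermat.Agent.Jac
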