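import Mathlib
import Fermat.Prelude.Def_AlgebraicCurve_BaseChangeGalois
import Fermat.Agent.S24.DiffPlace

/-!
# IN-JAC, task CAN: generic core (function fields of one variable)

`K` a field, `F` a field over `K`, `x : F` a fixed function ("`j`").  For `f : F`, `p n : ℕ`
we consider the set of "admissible" functions

  `Adm p n x f u  ↔  ∀ v, 0 ≤ p * ord_v u + ord_v f + p * n * max 0 (- ord_v x)`,

i.e. `u ∈ L(D + n (x)_∞)` if `div f = p D`.  This file proves

* closure of admissibility under sums, constant multiples and semilinear automorphisms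
  fixing `x`;
* existence of an admissible `u ≠ 0` for some `n`;
* boundedness of `ord_w u` on admissible functions at a fixed place `w`.
-/

set_option autoImplicit false

open AlgebraicCurve IntermediateField

noncomputable section

namespace Fermat.Agent.Jac.CanCore

variable {K F : Type*} [Field K] [Field F] [Algebra K F]

/-- `ord (a + b) ≥ min (ord a) (ord b)` when `a + b ≠ 0`. -/
theorem h4c_ord_add_ge (v : Place K F) {a b : F} (hab : a + b ≠ 0) :
    min (v.ord a) (v.ord b) ≤ v.ord (a + b) := by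
  rcases eq_or_ne a 0 with rfl | ha
  · rw [zero_add]; exact min_le_right _ _
  rcases eq_or_ne b 0 with rfl | hb
  · rw [add_zero]; exact min_le_left _ _
  have h := Valuation.map_add v.adicValuation a b
  have ha' := v.adicValuation_ne_zero ha
  have hb' := v.adicValuation_ne_zero hb
  have hab' := v.adicValuation_ne_zero hab
  unfold Place.ord
  rcases le_max_iff.mp h with h1 | h1
  · have := (WithZero.log_le_log hab' ha').mpr h1
    have h2 : min (-(WithZero.log (v.adicValuation a))) (-(WithZero.log (v.adicValuation b)))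
        ≤ -(WithZero.log (v.adicValuation a)) := min_le_left _ _
    omega
  · have := (WithZero.log_le_log hab' hb').mpr h1
    have h2 : min (-(WithZero.log (v.adicValuation a))) (-(WithZero.log (v.adicValuation b)))
        ≤ -(WithZero.log (v.adicValuation b)) := min_le_right _ _
    omega

/-- `ord (a - b) ≥ min (ord a) (ord b)` when `a - b ≠ 0`. -/
theorem h4c_ord_sub_ge (v : Place K F) {a b : F} (hab : a - b ≠ 0) :
    min (v.ord a) (v.ord b) ≤ v.ord (a - b) := by
  have h1 : v.ord (-b) = v.ord b := by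
    unfold Place.ord
    rw [Valuation.map_neg]
  have h := h4c_ord_add_ge v (a := a) (b := -b) (by rwa [← sub_eq_add_neg])
  rwa [h1, ← sub_eq_add_neg] at h

/-- the order of a constant multiple. -/
theorem h4c_ord_const_mul (v : Place K F) {c : K} (hc : c ≠ 0) (u : F) :
    v.ord (algebraMap K F c * u) = v.ord u := by
  rcases eq_or_ne u 0 with rfl | hu
  · simp
  have hc' : algebraMap K F c ≠ 0 := by
    rwa [Ne, map_eq_zero_iff _ (algebraMap K F).injective]
  rw [v.ord_mul hc' hu, Fermat.Agent.S24.DiffPlace.ord_algebraMap, zero_add]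

/-- the order of a natural power. -/
theorem h4c_ord_pow (v : Place K F) (u : F) (k : ℕ) : v.ord (u ^ k) = k * v.ord u := by
  have := v.ord_zpow u (k : ℤ)
  rwa [zpow_natCast] at this

/-- admissible functions. -/
def Adm (p n : ℕ) (x f u : F) : Prop :=
  ∀ v : Place K F, 0 ≤ (p : ℤ) * v.ord u + v.ord f + (p : ℤ) * n * max 0 (-(v.ord x))

theorem adm_add {p n : ℕ} {x f u₁ u₂ : F} (h₁ : Adm (K := K) p n x f u₁)
    (h₂ : Adm (K := K) p n x f u₂) (h : u₁ + u₂ ≠ 0) : Adm (K := K) p n x f (u₁ + u₂) := by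
  intro v
  have h3 := h4c_ord_add_ge v h
  have h4 := h₁ v
  have h5 := h₂ v
  have hp : (0 : ℤ) ≤ p := Int.natCast_nonneg p
  rcases le_total (v.ord u₁) (v.ord u₂) with h6 | h6
  · rw [min_eq_left h6] at h3
    have := mul_le_mul_of_nonneg_left h3 hp
    linarith
  · rw [min_eq_right h6] at h3
    have := mul_le_mul_of_nonneg_left h3 hp
    linarith

theorem adm_sub {p n : ℕ} {x f u₁ u₂ : F} (h₁ : Adm (K := K) p n x f u₁)
    (h₂ : Adm (K := K) p n x f u₂) (h : u₁ - u₂ ≠ 0) : Adm (K := K) p n x f (u₁ - u₂) := by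
  intro v
  have h3 := h4c_ord_sub_ge v h
  have h4 := h₁ v
  have h5 := h₂ v
  have hp : (0 : ℤ) ≤ p := Int.natCast_nonneg p
  rcases le_total (v.ord u₁) (v.ord u₂) with h6 | h6
  · rw [min_eq_left h6] at h3
    have := mul_le_mul_of_nonneg_left h3 hp
    linarith
  · rw [min_eq_right h6] at h3
    have := mul_le_mul_of_nonneg_left h3 hp
    linarith

theorem adm_const_mul {p n : ℕ} {x f u : F} (h : Adm (K := K) p n x f u) {c : K}
    (hc : c ≠ 0) : Adm (K := K) p n x f (algebraMap K F c * u) := by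
  intro v
  rw [h4c_ord_const_mul v hc]
  exact h v

/-- admissibility is transported by a semilinear automorphism fixing `x`. -/
theorem adm_smul {p n : ℕ} {x f u : F} (g : SemilinearAut K F) (hx : g • x = x)
    (h : Adm (K := K) p n x f u) : Adm (K := K) p n x (g • f) (g • u) := by
  intro v
  have hv : g • (g⁻¹ • v) = v := smul_inv_smul g v
  have h1 := SemilinearAut.ord_smul g (g⁻¹ • v) u
  have h2 := SemilinearAut.ord_smul g (g⁻¹ • v) f
  have h3 := SemilinearAut.ord_smul g (g⁻¹ • v) x
  rw [hv] at h1 h2 h3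
  rw [hx] at h3
  rw [h1, h2, h3]
  exact h (g⁻¹ • v)

/-- admissibility in terms of the product `f * u ^ p`. -/
theorem adm_iff {p n : ℕ} {x f u : F} (hf : f ≠ 0) (hu : u ≠ 0) :
    Adm (K := K) p n x f u ↔
      ∀ v : Place K F, 0 ≤ v.ord (f * u ^ p) + (p : ℤ) * n * max 0 (-(v.ord x)) := by
  have key : ∀ v : Place K F, v.ord (f * u ^ p) = (p : ℤ) * v.ord u + v.ord f := by
    intro v
    rw [v.ord_mul hf (pow_ne_zero p hu), h4c_ord_pow]
    ring
  constructor
  · intro h v
    rw [key]
    exact h v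
  · intro h v
    rw [← key]
    exact h v

/-- the order of a finite product of nonzero functions. -/
theorem h4c_ord_prod (v : Place K F) {ι : Type*} (S : Finset ι) (y : ι → F)
    (hy : ∀ i ∈ S, y i ≠ 0) : v.ord (∏ i ∈ S, y i) = ∑ i ∈ S, v.ord (y i) := by
  classical
  induction S using Finset.induction_on with
  | empty => simp
  | insert a S ha ih =>
    rw [Finset.prod_insert ha, Finset.sum_insert ha,
      v.ord_mul (hy a (Finset.mem_insert_self a S))
        (Finset.prod_ne_zero_iff.mpr fun i hi => hy i (Finset.mem_insert_of_mem hi)),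
      ih fun i hi => hy i (Finset.mem_insert_of_mem hi)]

/-- `ord_w (x - c) ≥ min (ord_w x) 0`. -/
theorem h4c_ord_sub_const_ge (v : Place K F) {x : F} (hx : Transcendental K x) (c : K) :
    min (v.ord x) 0 ≤ v.ord (x - algebraMap K F c) := by
  have hne : x - algebraMap K F c ≠ 0 := by
    intro h
    exact hx (by rw [sub_eq_zero.mp h]; exact isAlgebraic_algebraMap c)
  have h := h4c_ord_sub_ge v hne
  rwa [Fermat.Agent.S24.DiffPlace.ord_algebraMap] at h

/-- **Existence**: for some `n` there is a nonzero admissible function. -/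
theorem exists_adm [IsAlgClosed K] (hPD : HasPrincipalDivisors K F) (x : F)
    (hx : Transcendental K x) (halg : Algebra.IsAlgebraic K⟮x⟯ F) (p : ℕ) (hp : 0 < p)
    (f : F) (hf : f ≠ 0) :
    ∃ (n : ℕ) (u : F), u ≠ 0 ∧ Adm (K := K) p n x f u := by
  classical
  obtain ⟨D, hD, -⟩ := hPD.exists_divisor f hf
  set S : Finset (Place K F) := D.support with hS
  set M : ℕ := ∑ v ∈ S, (v.ord f).natAbs with hM
  have hMle : ∀ v : Place K F, -(M : ℤ) ≤ v.ord f := by
    intro v
    by_cases hv : v ∈ S
    · have h1 : (v.ord f).natAbs ≤ M :=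
        Finset.single_le_sum (f := fun v : Place K F => (v.ord f).natAbs)
          (fun _ _ => Nat.zero_le _) hv
      have h2 : ((v.ord f).natAbs : ℤ) ≤ (M : ℤ) := by exact_mod_cast h1
      have h3 : -((v.ord f).natAbs : ℤ) ≤ v.ord f := by
        rw [Int.natCast_natAbs]; exact neg_abs_le _
      linarith
    · have h1 : D v = 0 := Finsupp.notMem_support_iff.mp hv
      rw [hD v] at h1
      rw [h1]
      have : (0 : ℤ) ≤ (M : ℤ) := Int.natCast_nonneg M
      linarith
  have hnotS : ∀ v : Place K F, v ∉ S → v.ord f = 0 := by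
    intro v hv
    have h1 : D v = 0 := Finsupp.notMem_support_iff.mp hv
    rwa [hD v] at h1
  -- the values of `x`
  have hex : ∀ v : Place K F, ∃ c : K, 0 ≤ v.ord x → 0 < v.ord (x - algebraMap K F c) := by
    intro v
    by_cases h : 0 ≤ v.ord x
    · obtain ⟨c, hc⟩ := Fermat.Agent.S24.DiffPlace.exists_ord_sub_const_pos x halg v hx h
      exact ⟨c, fun _ => hc⟩
    · exact ⟨0, fun h' => absurd h' h⟩
  choose c hc using hex
  set y : Place K F → F := fun v => (x - algebraMap K F (c v)) ^ M with hy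
  have hy0 : ∀ v, y v ≠ 0 := by
    intro v
    refine pow_ne_zero _ ?_
    intro h
    exact hx (by rw [sub_eq_zero.mp h]; exact isAlgebraic_algebraMap (c v))
  refine ⟨S.card * M + M, ∏ v ∈ S, y v, Finset.prod_ne_zero_iff.mpr fun v _ => hy0 v, ?_⟩
  intro w
  rw [h4c_ord_prod w S y fun v _ => hy0 v]
  have hyord : ∀ v, w.ord (y v) = (M : ℤ) * w.ord (x - algebraMap K F (c v)) := by
    intro v
    rw [hy]
    exact h4c_ord_pow w _ M
  have hp1 : (1 : ℤ) ≤ p := by exact_mod_cast hp
  have hM0 : (0 : ℤ) ≤ (M : ℤ) := Int.natCast_nonneg M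
  by_cases hwx : 0 ≤ w.ord x
  · -- `x` is regular at `w`
    have hnn : ∀ v, 0 ≤ w.ord (y v) := by
      intro v
      rw [hyord]
      have := h4c_ord_sub_const_ge w hx (c v)
      rw [min_eq_right hwx] at this
      exact mul_nonneg hM0 this
    have hmax : max 0 (-(w.ord x)) = 0 := max_eq_left (by linarith)
    rw [hmax, mul_zero, add_zero]
    by_cases hwS : w ∈ S
    · have h1 : w.ord (y w) ≤ ∑ v ∈ S, w.ord (y v) :=
        Finset.single_le_sum (f := fun v => w.ord (y v)) (fun v _ => hnn v) hwS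
      have h2 : (M : ℤ) ≤ w.ord (y w) := by
        rw [hyord]
        have := hc w hwx
        nlinarith
      have h3 := hMle w
      have h4 : (M : ℤ) ≤ ∑ v ∈ S, w.ord (y v) := le_trans h2 h1
      nlinarith
    · rw [hnotS w hwS, add_zero]
      exact mul_nonneg (by linarith) (Finset.sum_nonneg fun v _ => hnn v)
  · -- `x` has a pole at `w`
    rw [not_le] at hwx
    have hge : ∀ v, (M : ℤ) * w.ord x ≤ w.ord (y v) := by
      intro v
      rw [hyord]
      have := h4c_ord_sub_const_ge w hx (c v)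
      rw [min_eq_left hwx.le] at this
      exact mul_le_mul_of_nonneg_left this hM0
    have hsum : (S.card : ℤ) * ((M : ℤ) * w.ord x) ≤ ∑ v ∈ S, w.ord (y v) := by
      have := Finset.card_nsmul_le_sum S (fun v => w.ord (y v)) ((M : ℤ) * w.ord x)
        fun v _ => hge v
      simpa using this
    have hmax : max 0 (-(w.ord x)) = -(w.ord x) := max_eq_right (by linarith)
    rw [hmax]
    have h3 := hMle w
    have he : (1 : ℤ) ≤ -(w.ord x) := by linarith
    push_cast
    have hSM : (0 : ℤ) ≤ (S.card : ℤ) * (M : ℤ) :=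
      mul_nonneg (Int.natCast_nonneg _) hM0
    have h5 : (p : ℤ) * ((S.card : ℤ) * ((M : ℤ) * w.ord x)) ≤
        (p : ℤ) * ∑ v ∈ S, w.ord (y v) := mul_le_mul_of_nonneg_left hsum (by linarith)
    have h6 : (M : ℤ) ≤ (p : ℤ) * (M : ℤ) * (-(w.ord x)) := by
      have : (M : ℤ) ≤ (p : ℤ) * (M : ℤ) := by nlinarith
      nlinarith
    nlinarith

/-- **Bound**: the order at a fixed place of the nonzero admissible functions is bounded
above. -/
theorem exists_bound (hPD : HasPrincipalDivisors K F) (hdeg : ∀ v : Place K F, v.deg = 1)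
    (x : F) (hx0 : x ≠ 0) (p n : ℕ) (hp : 0 < p) (f : F) (hf : f ≠ 0) (w : Place K F) :
    ∃ B : ℤ, ∀ u : F, u ≠ 0 → Adm (K := K) p n x f u → w.ord u ≤ B := by
  classical
  obtain ⟨Dx, hDx, -⟩ := hPD.exists_divisor x hx0
  set φ : Place K F → ℤ := fun v => (p : ℤ) * n * max 0 (-(v.ord x)) with hφ
  have hφ0 : ∀ v, 0 ≤ φ v := fun v =>
    mul_nonneg (mul_nonneg (Int.natCast_nonneg _) (Int.natCast_nonneg _)) (le_max_left _ _)
  have hφsupp : ∀ v, φ v ≠ 0 → v ∈ Dx.support := by
    intro v hv
    rw [Finsupp.mem_support_iff, hDx v]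
    intro h0
    apply hv
    rw [hφ]
    simp [h0]
  set B₀ : ℤ := ∑ v ∈ Dx.support, φ v with hB₀
  have hB₀0 : 0 ≤ B₀ := Finset.sum_nonneg fun v _ => hφ0 v
  have hsumle : ∀ T : Finset (Place K F), ∑ v ∈ T, φ v ≤ B₀ := by
    intro T
    have h1 : ∑ v ∈ T.filter (fun v => v ∈ Dx.support), φ v = ∑ v ∈ T, φ v :=
      Finset.sum_filter_of_ne fun v _ hv => hφsupp v hv
    rw [← h1]
    exact Finset.sum_le_sum_of_subset_of_nonneg
      (fun v hv => (Finset.mem_filter.mp hv).2) fun v _ _ => hφ0 v
  refine ⟨|B₀ - w.ord f|, fun u hu hadm => ?_⟩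
  have hg : f * u ^ p ≠ 0 := mul_ne_zero hf (pow_ne_zero p hu)
  obtain ⟨Dg, hDg, hdegg⟩ := hPD.exists_divisor (f * u ^ p) hg
  rw [Fermat.Agent.S24.DiffPlace.degree_eq_sum hdeg Dg, Finsupp.sum] at hdegg
  have hadm' := (adm_iff (K := K) hf hu).mp hadm
  have hge : ∀ v, -(φ v) ≤ Dg v := by
    intro v
    rw [hDg v]
    have := hadm' v
    rw [hφ]
    linarith
  have hgw : w.ord (f * u ^ p) ≤ B₀ := by
    by_cases hw : w ∈ Dg.support
    · have h1 : ∑ v ∈ Dg.support, Dg v
          = Dg w + ∑ v ∈ Dg.support.erase w, Dg v := by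
        rw [Finset.add_sum_erase _ _ hw]
      rw [h1] at hdegg
      have h2 : -(∑ v ∈ Dg.support.erase w, φ v) ≤ ∑ v ∈ Dg.support.erase w, Dg v := by
        rw [← Finset.sum_neg_distrib]
        exact Finset.sum_le_sum fun v _ => hge v
      have h3 := hsumle (Dg.support.erase w)
      rw [← hDg w]
      linarith
    · have h1 : Dg w = 0 := Finsupp.notMem_support_iff.mp hw
      rw [← hDg w, h1]
      exact hB₀0
  have hkey : (p : ℤ) * w.ord u ≤ B₀ - w.ord f := by
    have : w.ord (f * u ^ p) = (p : ℤ) * w.ord u + w.ord f := by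
      rw [w.ord_mul hf (pow_ne_zero p hu), h4c_ord_pow]
      ring
    linarith
  have hp1 : (1 : ℤ) ≤ p := by exact_mod_cast hp
  rcases le_or_gt (w.ord u) 0 with h0 | h0
  · exact le_trans h0 (abs_nonneg _)
  · have h1 : w.ord u ≤ (p : ℤ) * w.ord u := by nlinarith
    exact le_trans (le_trans h1 hkey) (le_abs_self _)

end Fermat.Agent.Jac.CanCore
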