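import Fermat.Agent.Jac.Skeleton2
import Fermat.Agent.S24.EmbPointCore

/-!
# IN-JAC, task P-DICT: sub-interfaces (owner helper24)

`DictCStatement` (Skeleton2) is assembled in `DictC.lean` from

* `DegCStatement`   (D-DEG): `j` is transcendental over `ℂ`, `[F_ℂ : ℂ(j)] ≤ [SL₂(ℤ) : Γ₀(N)]`
  (port of `S24/DegLe.lean` from `ℚ̄` to `ℂ`);
* `PointFamCStatement` (D-PT): the family of germ embeddings of `F_ℂ` at a point `τ₀`
  (port of `S24/EmbPointCore.lean`);
* `CuspFamCStatement` (D-CUSP): the family of cusp embeddings of `F_ℂ`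
  (port of `S24/EmbCusp.lean`);
* the pointwise orbit/place dictionary (`DictCore.lean`, general in `K`, `F`).
-/

set_option autoImplicit false

open ModularCurve AlgebraicCurve UpperHalfPlane CongruenceSubgroup IntermediateField
open scoped MatrixGroups Manifold

noncomputable section

namespace Fermat.Agent.Jac

open Fermat.Agent.S24 (EmbFamily tayAt)
open Fermat.Agent.S28 (HasTExp jAn jAt)

/-- the `j`-function as an element of `F_ℂ`. -/
def jC (N : ℕ) [NeZero N] : FC N :=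
  ⟨coeffEmb ℂ jq, coeffEmb_mem_laurentBaseChange ℂ (modularFunctionField_le_full N (jq_mem N))⟩

@[simp] theorem coe_jC (N : ℕ) [NeZero N] :
    ((jC N : FC N) : LaurentSeries ℂ) = coeffEmb ℂ jq := rfl

/-- `j(q^d)` as an element of `F_ℂ` (`d ∣ N`). -/
def jdC (N d : ℕ) [NeZero d] (hd : d ∣ N) : FC N :=
  ⟨coeffEmb ℂ (qExpand ℚ d jq), coeffEmb_mem_laurentBaseChange ℂ (jqd_mem_full N hd)⟩

@[simp] theorem coe_jdC (N d : ℕ) [NeZero d] (hd : d ∣ N) :
    ((jdC N d hd : FC N) : LaurentSeries ℂ) = coeffEmb ℂ (qExpand ℚ d jq) := rfl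

/-- the constant `c ∈ ℂ` as an element of `F_ℂ`. -/
abbrev cstC (N : ℕ) (c : ℂ) : FC N := algebraMap ℂ (FC N) c

/-- **D-DEG.** `j` is transcendental over `ℂ` and `[F_ℂ : ℂ(j)] ≤ [SL₂(ℤ) : Γ₀(N)]`. -/
def DegCStatement : Prop :=
  ∀ (N : ℕ) [NeZero N], Transcendental ℂ (jC N) ∧ FiniteDimensional ℂ⟮jC N⟯ (FC N) ∧
    Module.finrank ℂ⟮jC N⟯ (FC N) ≤ (Gamma0 N).index

/-- **D-PT.** the family of germ embeddings of `F_ℂ` at a point `τ₀` fixed by `σ`, indexed by
the left cosets `g Γ₀(N)`; the member at `x` is a germ embedding for the translate by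
`(Quotient.out x)⁻¹`. -/
def PointFamCStatement : Prop :=
  AnCStatement → EmbCStatement →
    ∀ (N : ℕ) [NeZero N] (τ₀ : ℍ) (c : ℂ) (σ : SL(2, ℤ)), σ • τ₀ = τ₀ → ∀ h : ℕ,
      (tayAt τ₀ (fun τ => jAn τ - c)).order = h → IsPrimitiveRoot (denom σ τ₀ ^ 2) h →
      ∃ E : EmbFamily ℂ (FC N) (jC N - cstC N c) (SL(2, ℤ) ⧸ Gamma0 N) σ h,
        ∀ x, IsGermEmbC N (E.ι x) τ₀ (Quotient.out x)

/-- **D-CUSP.** the family of cusp embeddings of `F_ℂ`, indexed by the left cosets `g Γ₀(N)`;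
the member at `x` is a cusp embedding for the translate by `(Quotient.out x)⁻¹`. -/
def CuspFamCStatement : Prop :=
  AnCStatement → EmbCStatement →
    ∀ (N : ℕ) [NeZero N],
      ∃ E : EmbFamily ℂ (FC N) (jC N)⁻¹ (SL(2, ℤ) ⧸ Gamma0 N) ModularGroup.T N,
        ∀ x, IsCuspEmbC N (E.ι x) (Quotient.out x)

/-- **P-DICT assembly.** -/
def DictCAssembly : Prop :=
  DegCStatement → PointFamCStatement → CuspFamCStatement →
    AnCStatement → EmbCStatement → DictCStatement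

end Fermat.Agent.Jac
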