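import Mathlib
import Fermat.Agent.Jac.CanCore
import Fermat.Agent.Jac.DictCDefs
import Fermat.Agent.S24.FICore
import Fermat.Agent.S24.FIWrap
import Fermat.Agent.S24.PrincipalDiv
import Fermat.Agent.S24.PlaceOfEmb

/-!
# IN-JAC, task CAN: canonical representatives of Kummer classes over `ℂ`

`can_of : DegCStatement → CanStatement`.

For `f ≠ 0` in `F_ℂ` choose `n` such that the space
`V = {u | p * ord_v u + ord_v f + p * n * (j)_∞(v) ≥ 0 for all v}` is nonzero, then `u ∈ V`
of maximal `q`-order (the `q`-order is bounded on `V` because principal divisors have degree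
zero), normalised such that `f * u ^ p` has leading `q`-coefficient `1`.  If `σ f = f w ^ p`
then `u' := w * σ u` lies in `V`, has the same `q`-order as `u` and `f * u' ^ p = σ (f * u ^ p)`
has leading coefficient `1`; by maximality `u'` is a constant multiple of `u`, and the constant
is a `p`-th root of unity.
-/

set_option autoImplicit false

open AlgebraicCurve ModularCurve IntermediateField

noncomputable section

namespace Fermat.Agent.Jac

open Fermat.Agent.Jac.CanCore

/-! ### Laurent series lemmas -/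

section series

variable {R S : Type*} [Field R] [Field S]

theorem h4c_coeffMap_eq_zero (σ : R →+* S) (x : LaurentSeries R) :
    coeffMap σ x = 0 ↔ x = 0 := by
  constructor
  · intro h
    ext k
    have := congrArg (fun s : LaurentSeries S => s.coeff k) h
    simp only [coeffMap_coeff, HahnSeries.coeff_zero] at this
    simpa using (map_eq_zero_iff σ σ.injective).mp this
  · rintro rfl
    exact map_zero _

theorem h4c_order_coeffMap (σ : R →+* S) (x : LaurentSeries R) :
    (coeffMap σ x).order = x.order := by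
  rcases eq_or_ne x 0 with rfl | hx
  · simp
  have hx' : coeffMap σ x ≠ 0 := fun h => hx ((h4c_coeffMap_eq_zero σ x).mp h)
  apply le_antisymm
  · apply HahnSeries.order_le_of_coeff_ne_zero
    rw [coeffMap_coeff]
    intro h
    have h2 := (map_eq_zero_iff σ σ.injective).mp h
    exact hx (HahnSeries.coeff_order_eq_zero.mp h2)
  · rw [HahnSeries.le_order_iff_forall hx']
    intro j hj
    rw [coeffMap_coeff, HahnSeries.coeff_eq_zero_of_lt_order hj, map_zero]

theorem h4c_leadingCoeff_coeffMap (σ : R →+* S) (x : LaurentSeries R) :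
    (coeffMap σ x).leadingCoeff = σ x.leadingCoeff := by
  rw [HahnSeries.leadingCoeff_eq, HahnSeries.leadingCoeff_eq, h4c_order_coeffMap,
    coeffMap_coeff]

theorem h4c_leadingCoeff_pow (x : LaurentSeries R) (k : ℕ) :
    (x ^ k).leadingCoeff = x.leadingCoeff ^ k := by
  induction k with
  | zero => simp
  | succ k ih => rw [pow_succ, HahnSeries.leadingCoeff_mul, ih, pow_succ]

theorem h4c_order_single_mul (c : R) (hc : c ≠ 0) (x : LaurentSeries R) :
    (HahnSeries.single 0 c * x).order = x.order := by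
  rcases eq_or_ne x 0 with rfl | hx
  · simp
  have hs : (HahnSeries.single (0 : ℤ) c) ≠ 0 := by
    intro h
    have := congrArg (fun s : LaurentSeries R => s.coeff 0) h
    simp at this
    exact hc this
  rw [HahnSeries.order_mul hs hx, HahnSeries.order_single hc, zero_add]

theorem h4c_leadingCoeff_single_mul (c : R) (x : LaurentSeries R) :
    (HahnSeries.single 0 c * x).leadingCoeff = c * x.leadingCoeff := by
  rw [HahnSeries.leadingCoeff_mul, HahnSeries.leadingCoeff_of_single]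

/-- two nonzero series of the same order: a suitable combination has larger order. -/
theorem h4c_order_lt_sub (a b : LaurentSeries R) (hb : b ≠ 0)
    (hab : a.order = b.order)
    (hne : a - HahnSeries.single 0 (a.leadingCoeff / b.leadingCoeff) * b ≠ 0) :
    a.order < (a - HahnSeries.single 0 (a.leadingCoeff / b.leadingCoeff) * b).order := by
  have hblc : b.leadingCoeff ≠ 0 := HahnSeries.leadingCoeff_ne_zero.mpr hb
  have h1 : a.order + 1 ≤
      (a - HahnSeries.single 0 (a.leadingCoeff / b.leadingCoeff) * b).order := by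
    rw [HahnSeries.le_order_iff_forall hne]
    intro j hj
    rw [HahnSeries.coeff_sub, HahnSeries.coeff_single_zero_mul]
    rcases (Int.lt_add_one_iff.mp hj).lt_or_eq with h | h
    · rw [HahnSeries.coeff_eq_zero_of_lt_order h,
        HahnSeries.coeff_eq_zero_of_lt_order (hab ▸ h), mul_zero, sub_zero]
    · rw [h, ← HahnSeries.leadingCoeff_eq]
      conv_lhs => rw [hab, ← HahnSeries.leadingCoeff_eq]
      rw [div_mul_cancel₀ _ hblc, sub_self]
  omega

end series

/-! ### The function field over `ℂ` -/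

section FC

variable (N : ℕ) [NeZero N]

omit [NeZero N] in
theorem h4c_coe_algebraMap (a : ℂ) :
    ((algebraMap ℂ (FC N) a : FC N) : LaurentSeries ℂ) = HahnSeries.single 0 a := by
  rw [← algebraMap_laurentSeries_eq_single]
  rfl

theorem h4c_coe_jC : ((jC N : FC N) : LaurentSeries ℂ) = jqModC ℂ := by
  rw [coe_jC, ← jqModC_rat]
  exact coeffMap_jqModC (algebraMap ℚ ℂ)

theorem h4c_order_jqModC : (jqModC ℂ).order = -1 := by
  have hne : jqModC ℂ ≠ 0 := by
    intro h
    have := coeff_jqModC_neg_one ℂ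
    rw [h] at this
    simp at this
  apply le_antisymm
  · apply HahnSeries.order_le_of_coeff_ne_zero
    rw [coeff_jqModC_neg_one]
    exact one_ne_zero
  · rw [HahnSeries.le_order_iff_forall hne]
    intro j hj
    exact coeff_jqModC_of_lt ℂ hj

/-- the Galois action fixes `j`. -/
theorem h4c_smul_jC (σ : ℂ ≃ₐ[ℚ] ℂ) :
    arithmeticGalois (modularFunctionFieldFull N) σ • jC N = jC N := by
  apply Subtype.ext
  rw [coe_arithmeticGalois_smul, coe_jC]
  exact coeffMap_coeffEmb σ jq

/-- principal divisors and degree one over `ℂ`, from D-DEG. -/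
theorem h4c_pd [FiniteDimensional ℂ⟮jC N⟯ (FC N)] :
    HasPrincipalDivisors ℂ (FC N) ∧ ∀ v : Place ℂ (FC N), v.deg = 1 := by
  have hZ : Fermat.Agent.S24.ZerosStatement ℂ (FC N) :=
    fun y hy hfin => @Fermat.Agent.S24.FICore.fi_zeros ℂ (FC N) _ _ _ _ _ y hy hfin
  have hFIgen := Fermat.Agent.S24.fi_general_of_zeros hZ
  have halg : Algebra.IsAlgebraic ℂ⟮jC N⟯ (FC N) := Algebra.IsAlgebraic.of_finite _ _
  have hdeg : ∀ v : Place ℂ (FC N), v.deg = 1 :=
    fun v => Fermat.Agent.S24.DiffPlace.place_deg_eq_one (jC N) halg v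
  exact ⟨Fermat.Agent.S24.hasPrincipalDivisors_of hFIgen hdeg (jC N), hdeg⟩

/-- the place at infinity: the `q`-order is a positive multiple of the order at a place. -/
theorem h4c_exists_place_infty :
    ∃ (w : Place ℂ (FC N)) (m : ℕ), 0 < m ∧
      ∀ u : FC N, u ≠ 0 → (u : LaurentSeries ℂ).order = m * w.ord u := by
  have hj0 : jC N ≠ 0 := by
    intro h
    have h2 := congrArg (fun u : FC N => (u : LaurentSeries ℂ).coeff (-1)) h
    simp only [h4c_coe_jC, coeff_jqModC_neg_one] at h2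
    simp at h2
  have key := Fermat.Agent.S24.exists_place_of_emb (K := ℂ) (F := FC N) (jC N)⁻¹
    (RingHom.id ℂ) (algebraMap (FC N) (LaurentSeries ℂ))
    (fun a => by
      show ((algebraMap ℂ (FC N) a : FC N) : LaurentSeries ℂ) = _
      rw [h4c_coe_algebraMap]
      rfl)
    (by
      rw [Fermat.Agent.S24.h87_order_map_inv]
      show 0 < -((jC N : FC N) : LaurentSeries ℂ).order
      rw [h4c_coe_jC, h4c_order_jqModC]
      norm_num)
  obtain ⟨w, m, hm, hw⟩ := key
  exact ⟨w, m, hm, fun u hu => hw u hu⟩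

end FC

/-- **CAN** from D-DEG. -/
theorem can_of (hdeg : DegCStatement) : CanStatement := by
  intro N _ p hp f hf
  obtain ⟨hf0, -⟩ := hf
  obtain ⟨hjtr, hfin, -⟩ := hdeg N
  have := hfin
  have halg : Algebra.IsAlgebraic ℂ⟮jC N⟯ (FC N) := Algebra.IsAlgebraic.of_finite _ _
  obtain ⟨hPD, hdeg1⟩ := h4c_pd N
  have hj0 : jC N ≠ 0 := by
    intro h
    exact hjtr (h ▸ isAlgebraic_zero)
  -- an admissible function
  obtain ⟨n, u₀, hu₀, hadm₀⟩ := exists_adm hPD (jC N) hjtr halg p hp f hf0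
  -- the place at infinity and the bound
  obtain ⟨w, m, hm, hw⟩ := h4c_exists_place_infty N
  obtain ⟨B, hB⟩ := exists_bound hPD hdeg1 (jC N) hj0 p n hp f hf0 w
  -- a function of maximal `q`-order
  have hbdd : ∃ b : ℤ, ∀ z : ℤ,
      (∃ u : FC N, u ≠ 0 ∧ Adm (K := ℂ) p n (jC N) f u ∧ (u : LaurentSeries ℂ).order = z) →
        z ≤ b := by
    refine ⟨m * B, ?_⟩
    rintro z ⟨u, hu, hadm, rfl⟩
    rw [hw u hu]
    exact mul_le_mul_of_nonneg_left (hB u hu hadm) (Int.natCast_nonneg m)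
  have hne : ∃ z : ℤ,
      ∃ u : FC N, u ≠ 0 ∧ Adm (K := ℂ) p n (jC N) f u ∧ (u : LaurentSeries ℂ).order = z :=
    ⟨_, u₀, hu₀, hadm₀, rfl⟩
  obtain ⟨Mx, ⟨u₁, hu₁, hadm₁, hord₁⟩, hmax⟩ := Int.exists_greatest_of_bdd hbdd hne
  -- coercion lemmas
  have hcoe_mul : ∀ a b : FC N, ((a * b : FC N) : LaurentSeries ℂ) = (a : LaurentSeries ℂ) * b :=
    fun _ _ => rfl
  have hcoe_pow : ∀ (a : FC N) (k : ℕ), ((a ^ k : FC N) : LaurentSeries ℂ)
      = (a : LaurentSeries ℂ) ^ k := fun _ _ => rfl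
  have hcoe_sub : ∀ a b : FC N, ((a - b : FC N) : LaurentSeries ℂ) = (a : LaurentSeries ℂ) - b :=
    fun _ _ => rfl
  have hcoe_ne : ∀ a : FC N, a ≠ 0 → (a : LaurentSeries ℂ) ≠ 0 := by
    intro a ha h
    exact ha (Subtype.ext h)
  -- normalisation
  have hlcf : (f : LaurentSeries ℂ).leadingCoeff ≠ 0 :=
    HahnSeries.leadingCoeff_ne_zero.mpr (hcoe_ne f hf0)
  have hlcu₁ : (u₁ : LaurentSeries ℂ).leadingCoeff ≠ 0 :=
    HahnSeries.leadingCoeff_ne_zero.mpr (hcoe_ne u₁ hu₁)
  obtain ⟨c, hc⟩ := IsAlgClosed.exists_pow_nat_eq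
    (((f : LaurentSeries ℂ).leadingCoeff * (u₁ : LaurentSeries ℂ).leadingCoeff ^ p)⁻¹) hp
  have hc0 : c ≠ 0 := by
    rintro rfl
    rw [zero_pow hp.ne'] at hc
    exact (inv_ne_zero (mul_ne_zero hlcf (pow_ne_zero p hlcu₁))) hc.symm
  obtain ⟨u, hu_def⟩ : ∃ u : FC N, u = algebraMap ℂ (FC N) c * u₁ := ⟨_, rfl⟩
  have hcF : algebraMap ℂ (FC N) c ≠ 0 := by
    rwa [Ne, map_eq_zero_iff _ (algebraMap ℂ (FC N)).injective]
  have hu : u ≠ 0 := hu_def ▸ mul_ne_zero hcF hu₁
  have hadm : Adm (K := ℂ) p n (jC N) f u := hu_def ▸ adm_const_mul hadm₁ hc0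
  have hcoe_u : (u : LaurentSeries ℂ) = HahnSeries.single 0 c * (u₁ : LaurentSeries ℂ) := by
    rw [hu_def, hcoe_mul, h4c_coe_algebraMap]
  have hordu : (u : LaurentSeries ℂ).order = Mx := by
    rw [hcoe_u, h4c_order_single_mul c hc0, hord₁]
  have hlcu : (u : LaurentSeries ℂ).leadingCoeff = c * (u₁ : LaurentSeries ℂ).leadingCoeff := by
    rw [hcoe_u, h4c_leadingCoeff_single_mul]
  have hlc : ((f * u ^ p : FC N) : LaurentSeries ℂ).leadingCoeff = 1 := by
    rw [hcoe_mul, hcoe_pow, HahnSeries.leadingCoeff_mul, h4c_leadingCoeff_pow, hlcu, mul_pow,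
      hc]
    field_simp
  refine ⟨u, hu, ?_⟩
  rintro σ ⟨w', hw'0, hw'⟩
  set G := arithmeticGalois (modularFunctionFieldFull N) σ with hG
  obtain ⟨u', hu'_def⟩ : ∃ u' : FC N, u' = w' * (G • u) := ⟨_, rfl⟩
  have hGu : G • u ≠ 0 := by
    intro h
    apply hu
    have := congrArg (fun z => G⁻¹ • z) h
    simpa using this
  have hu' : u' ≠ 0 := hu'_def ▸ mul_ne_zero hw'0 hGu
  have hfu' : G • (f * u ^ p) = f * u' ^ p := by
    rw [smul_mul', smul_pow', hw', hu'_def, mul_pow]
    ring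
  -- `u'` is admissible
  have hadm' : Adm (K := ℂ) p n (jC N) f u' := by
    have h1 : Adm (K := ℂ) p n (jC N) (G • f) (G • u) :=
      adm_smul G (h4c_smul_jC N σ) hadm
    have hGf : G • f ≠ 0 := by
      rw [hw']
      exact mul_ne_zero hf0 (pow_ne_zero p hw'0)
    rw [adm_iff hGf hGu] at h1
    rw [adm_iff hf0 hu']
    intro v
    have h2 := h1 v
    have h3 : G • f * (G • u) ^ p = f * u' ^ p := by
      rw [← smul_pow', ← smul_mul', hfu']
    rwa [h3] at h2
  -- orders and leading coefficients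
  have hcoeG : ∀ z : FC N, ((G • z : FC N) : LaurentSeries ℂ)
      = coeffMap (σ : ℂ →+* ℂ) (z : LaurentSeries ℂ) := fun z => rfl
  have hord_prod : ((f * u' ^ p : FC N) : LaurentSeries ℂ).order
      = ((f * u ^ p : FC N) : LaurentSeries ℂ).order := by
    rw [← hfu', hcoeG, h4c_order_coeffMap]
  have hordu' : (u' : LaurentSeries ℂ).order = Mx := by
    rw [hcoe_mul, hcoe_pow, hcoe_mul, hcoe_pow,
      HahnSeries.order_mul (hcoe_ne f hf0) (pow_ne_zero p (hcoe_ne u' hu')),
      HahnSeries.order_mul (hcoe_ne f hf0) (pow_ne_zero p (hcoe_ne u hu)),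
      HahnSeries.order_pow, HahnSeries.order_pow, hordu] at hord_prod
    have h1 : (p : ℤ) * (u' : LaurentSeries ℂ).order = (p : ℤ) * Mx := by
      simpa [nsmul_eq_mul] using hord_prod
    have hp' : (p : ℤ) ≠ 0 := by exact_mod_cast hp.ne'
    exact mul_left_cancel₀ hp' h1
  have hlc' : ((f * u' ^ p : FC N) : LaurentSeries ℂ).leadingCoeff = 1 := by
    rw [← hfu', hcoeG, h4c_leadingCoeff_coeffMap, hlc]
    exact map_one _
  -- comparison
  obtain ⟨r, hr⟩ : ∃ r : ℂ,
      r = (u' : LaurentSeries ℂ).leadingCoeff / (u : LaurentSeries ℂ).leadingCoeff := ⟨_, rfl⟩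
  have hlcu0 : (u : LaurentSeries ℂ).leadingCoeff ≠ 0 :=
    HahnSeries.leadingCoeff_ne_zero.mpr (hcoe_ne u hu)
  have hlcu'0 : (u' : LaurentSeries ℂ).leadingCoeff ≠ 0 :=
    HahnSeries.leadingCoeff_ne_zero.mpr (hcoe_ne u' hu')
  have hr0 : r ≠ 0 := hr ▸ div_ne_zero hlcu'0 hlcu0
  have hdiff : u' - algebraMap ℂ (FC N) r * u = 0 := by
    by_contra hne'
    have hadmh : Adm (K := ℂ) p n (jC N) f (u' - algebraMap ℂ (FC N) r * u) :=
      adm_sub hadm' (adm_const_mul hadm hr0) hne'
    have hcoeh : ((u' - algebraMap ℂ (FC N) r * u : FC N) : LaurentSeries ℂ)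
        = (u' : LaurentSeries ℂ) - HahnSeries.single 0 r * (u : LaurentSeries ℂ) := by
      rw [hcoe_sub, hcoe_mul, h4c_coe_algebraMap]
    have hlt := h4c_order_lt_sub (u' : LaurentSeries ℂ) (u : LaurentSeries ℂ) (hcoe_ne u hu)
      (hordu'.trans hordu.symm) (by rw [← hr, ← hcoeh]; exact hcoe_ne _ hne')
    rw [← hr, ← hcoeh, hordu'] at hlt
    exact absurd (hmax _ ⟨_, hne', hadmh, rfl⟩) (not_le.mpr hlt)
  have hu'eq : u' = algebraMap ℂ (FC N) r * u := sub_eq_zero.mp hdiff
  -- the constant is a `p`-th root of unity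
  have hrp : r ^ p = 1 := by
    have h1 : (f * u' ^ p : FC N) = algebraMap ℂ (FC N) (r ^ p) * (f * u ^ p) := by
      rw [hu'eq, mul_pow, map_pow]
      ring
    have h2 := hlc'
    rw [h1, hcoe_mul, h4c_coe_algebraMap, h4c_leadingCoeff_single_mul, hlc, mul_one] at h2
    exact h2
  rw [hfu', hu'eq, mul_pow, ← map_pow, hrp, map_one, one_mul]

end Fermat.Agent.Jac
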