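import Mathlib
import Fermat.Agent.S21.E.RHRho.Chart

/-!
# IN-JAC: holomorphic logarithms and `n`-th roots on discs and on the upper half plane

* `exists_log_on_ball`, `exists_root_on_ball` : a nowhere vanishing holomorphic function on a
  disc has a holomorphic logarithm and holomorphic `n`-th roots;
* `exists_mdiff_log`, `exists_mdiff_root` : the same on the upper half plane;
* `root_unique` : two holomorphic functions on `ℍ` with the same `n`-th power differ by a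
  constant `n`-th root of unity (zeros allowed);
* `exists_character` : the character attached to a holomorphic function whose `n`-th power is
  invariant under a subgroup of `SL(2,ℤ)`.
-/

set_option autoImplicit false

open UpperHalfPlane hiding I
open Complex Filter Function Topology Metric
open scoped Manifold MatrixGroups ModularForm

namespace Fermat.Agent.Jac

noncomputable section

/-- a nowhere vanishing holomorphic function on a disc has a holomorphic logarithm -/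
theorem exists_log_on_ball {c : ℂ} {r : ℝ} {u : ℂ → ℂ} (hu : DifferentiableOn ℂ u (ball c r))
    (hu0 : ∀ z ∈ ball c r, u z ≠ 0) :
    ∃ L : ℂ → ℂ, DifferentiableOn ℂ L (ball c r) ∧ ∀ z ∈ ball c r, Complex.exp (L z) = u z := by
  rcases le_or_gt r 0 with hr | hr
  · refine ⟨fun _ => 0, differentiableOn_const _, ?_⟩
    intro z hz
    rw [ball_eq_empty.mpr hr] at hz
    exact absurd hz (Set.notMem_empty z)
  have hc : c ∈ ball c r := mem_ball_self hr
  have hu' : DifferentiableOn ℂ (deriv u) (ball c r) := hu.deriv isOpen_ball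
  have hg : DifferentiableOn ℂ (fun z => deriv u z / u z) (ball c r) := hu'.div hu hu0
  obtain ⟨L0, hL0⟩ := hg.isExactOn_ball
  -- `q = u * exp (-L0)` has zero derivative
  set q : ℂ → ℂ := fun z => u z * Complex.exp (-L0 z) with hq
  have hqd : ∀ z ∈ ball c r, HasDerivAt q 0 z := by
    intro z hz
    have h1 : HasDerivAt u (deriv u z) z :=
      (hu.differentiableAt (isOpen_ball.mem_nhds hz)).hasDerivAt
    have h2 : HasDerivAt (fun z => Complex.exp (-L0 z))
        (Complex.exp (-L0 z) * (-(deriv u z / u z))) z := (hL0 z hz).neg.cexp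
    have h3 := h1.mul h2
    have h4 : deriv u z * Complex.exp (-L0 z) +
        u z * (Complex.exp (-L0 z) * (-(deriv u z / u z))) = 0 := by
      have := hu0 z hz
      field_simp
      ring
    rw [h4] at h3
    exact h3
  have hqdiff : DifferentiableOn ℂ q (ball c r) := fun z hz =>
    (hqd z hz).differentiableAt.differentiableWithinAt
  have hqconst : ∀ z ∈ ball c r, q z = q c := by
    intro z hz
    refine isOpen_ball.is_const_of_deriv_eq_zero (convex_ball c r).isPreconnected hqdiff ?_ hz hc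
    intro x hx
    exact (hqd x hx).deriv
  have hqc : q c ≠ 0 := mul_ne_zero (hu0 c hc) (Complex.exp_ne_zero _)
  refine ⟨fun z => L0 z + Complex.log (q c), ?_, ?_⟩
  · intro z hz
    exact ((hL0 z hz).differentiableAt.add_const _).differentiableWithinAt
  · intro z hz
    rw [Complex.exp_add, Complex.exp_log hqc, ← hqconst z hz, hq]
    simp only
    rw [mul_comm (u z), ← mul_assoc, ← Complex.exp_add]
    simp

/-- a nowhere vanishing holomorphic function on a disc has holomorphic `n`-th roots -/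
theorem exists_root_on_ball {c : ℂ} {r : ℝ} {u : ℂ → ℂ} (hu : DifferentiableOn ℂ u (ball c r))
    (hu0 : ∀ z ∈ ball c r, u z ≠ 0) {n : ℕ} (hn : n ≠ 0) :
    ∃ w : ℂ → ℂ, DifferentiableOn ℂ w (ball c r) ∧ ∀ z ∈ ball c r, w z ^ n = u z := by
  obtain ⟨L, hL, hLu⟩ := exists_log_on_ball hu hu0
  refine ⟨fun z => Complex.exp (L z / n), ?_, ?_⟩
  · exact (hL.div_const _).cexp
  · intro z hz
    rw [← Complex.exp_nat_mul, mul_div_cancel₀ _ (Nat.cast_ne_zero.mpr hn), hLu z hz]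

/-! ### transport to the upper half plane by the chart at `ρ` -/

open Fermat.Agent.S21.E Fermat.Agent.S21.E.RHRho

lemma norm_phi_lt_one (z : ℍ) : ‖phi z‖ < 1 := by
  unfold phi
  have h0 : (z : ℂ) - rhoc ≠ 0 := upper_sub_rhoc_ne z
  rw [norm_div, div_lt_one (norm_pos_iff.mpr h0)]
  have h1 : ‖(z : ℂ) - rho‖ ^ 2 < ‖(z : ℂ) - rhoc‖ ^ 2 := by
    rw [← Complex.normSq_eq_norm_sq, ← Complex.normSq_eq_norm_sq, Complex.normSq_apply,
      Complex.normSq_apply]
    simp only [Complex.sub_re, Complex.sub_im, rho_re, rho_im, rhoc_re, rhoc_im]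
    have h2 : 0 < (z : ℂ).im := z.coe_im_pos
    have h3 : 0 < Real.sqrt 3 := by positivity
    nlinarith [mul_pos h2 h3]
  exact lt_of_pow_lt_pow_left₀ 2 (norm_nonneg _) h1

lemma phi_mem_ball (z : ℍ) : phi z ∈ ball (0 : ℂ) 1 := by
  simpa using norm_phi_lt_one z

lemma differentiableOn_comp_psi {f : ℍ → ℂ} (hf : MDiff f) :
    DifferentiableOn ℂ (fun w => f (psi w)) (ball (0 : ℂ) 1) := by
  have h1 : DifferentiableOn ℂ (f ∘ UpperHalfPlane.ofComplex) {z | 0 < z.im} :=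
    UpperHalfPlane.mdifferentiable_iff.mp hf
  have h2 : DifferentiableOn ℂ psiC (ball (0 : ℂ) 1) := by
    intro w hw
    have hw' : ‖w‖ < 1 := by simpa using hw
    unfold psiC
    refine DifferentiableAt.differentiableWithinAt ?_
    refine DifferentiableAt.div ?_ ?_ (one_sub_ne hw')
    · fun_prop
    · fun_prop
  have : (fun w => f (psi w)) = (f ∘ UpperHalfPlane.ofComplex) ∘ psiC := rfl
  rw [this]
  refine h1.comp h2 ?_
  intro w hw
  have hw' : ‖w‖ < 1 := by simpa using hw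
  exact psiC_im_pos hw'

lemma mdiff_comp_phi {L : ℂ → ℂ} (hL : DifferentiableOn ℂ L (ball (0 : ℂ) 1)) :
    MDiff (fun z : ℍ => L (phi z)) := by
  rw [UpperHalfPlane.mdifferentiable_iff]
  -- the chart as a function on `ℂ`
  set phiC : ℂ → ℂ := fun z => (z - rho) / (z - rhoc) with hphiC
  have hne : ∀ z : ℂ, 0 < z.im → z - rhoc ≠ 0 := fun z hz =>
    upper_sub_rhoc_ne ⟨z, hz⟩
  have h1 : DifferentiableOn ℂ phiC {z | 0 < z.im} := by
    intro z hz
    refine DifferentiableAt.differentiableWithinAt ?_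
    refine DifferentiableAt.div ?_ ?_ (hne z hz)
    · fun_prop
    · fun_prop
  have h2 : DifferentiableOn ℂ (L ∘ phiC) {z | 0 < z.im} := by
    refine hL.comp h1 ?_
    intro z hz
    exact phi_mem_ball ⟨z, hz⟩
  refine h2.congr ?_
  intro z hz
  simp only [Function.comp_apply]
  rw [UpperHalfPlane.ofComplex_apply_of_im_pos hz]
  rfl

/-- a nowhere vanishing holomorphic function on `ℍ` has a holomorphic logarithm -/
theorem exists_mdiff_log {u : ℍ → ℂ} (hu : MDiff u) (hu0 : ∀ z, u z ≠ 0) :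
    ∃ L : ℍ → ℂ, MDiff L ∧ ∀ z, Complex.exp (L z) = u z := by
  obtain ⟨L, hL, hLu⟩ := exists_log_on_ball (differentiableOn_comp_psi hu)
    (fun w _ => hu0 (psi w))
  refine ⟨fun z => L (phi z), mdiff_comp_phi hL, ?_⟩
  intro z
  rw [hLu (phi z) (phi_mem_ball z), psi_phi]

/-- a nowhere vanishing holomorphic function on `ℍ` has holomorphic `n`-th roots -/
theorem exists_mdiff_root {u : ℍ → ℂ} (hu : MDiff u) (hu0 : ∀ z, u z ≠ 0) {n : ℕ}
    (hn : n ≠ 0) : ∃ w : ℍ → ℂ, MDiff w ∧ ∀ z, w z ^ n = u z := by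
  obtain ⟨w, hw, hwu⟩ := exists_root_on_ball (differentiableOn_comp_psi hu)
    (fun w _ => hu0 (psi w)) hn
  refine ⟨fun z => w (phi z), mdiff_comp_phi hw, ?_⟩
  intro z
  rw [hwu (phi z) (phi_mem_ball z), psi_phi]

/-! ### uniqueness of roots up to roots of unity -/

/-- disc version of `root_unique` -/
lemma root_unique_on_ball {W₁ W₂ : ℂ → ℂ} (h₁ : DifferentiableOn ℂ W₁ (ball (0 : ℂ) 1))
    (h₂ : DifferentiableOn ℂ W₂ (ball (0 : ℂ) 1)) {n : ℕ} (hn : n ≠ 0)
    (h : ∀ z ∈ ball (0 : ℂ) 1, W₁ z ^ n = W₂ z ^ n) {a : ℂ} (ha : a ∈ ball (0 : ℂ) 1)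
    (h0 : W₂ a ≠ 0) :
    ∃ ζ : ℂ, ζ ^ n = 1 ∧ ∀ z ∈ ball (0 : ℂ) 1, W₁ z = ζ * W₂ z := by
  set ζ₀ : ℂ := W₁ a / W₂ a with hζ₀
  have hζ₀n : ζ₀ ^ n = 1 := by
    rw [hζ₀, div_pow, h a ha, div_self (pow_ne_zero n h0)]
  refine ⟨ζ₀, hζ₀n, ?_⟩
  have hprim := Complex.isPrimitiveRoot_exp n hn
  have hfac : ∀ x y : ℂ, x ^ n - y ^ n =
      ∏ ζ ∈ Polynomial.nthRootsFinset n (1 : ℂ), (x - ζ * y) := fun x y =>
    hprim.pow_sub_pow_eq_prod_sub_mul x y (Nat.pos_of_ne_zero hn)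
  have hball : ball (0 : ℂ) 1 ∈ 𝓝 a := isOpen_ball.mem_nhds ha
  have hc₁ : ContinuousAt W₁ a := (h₁.differentiableAt hball).continuousAt
  have hc₂ : ContinuousAt W₂ a := (h₂.differentiableAt hball).continuousAt
  have hev : ∀ᶠ z in 𝓝 a, ∀ ζ ∈ Polynomial.nthRootsFinset n (1 : ℂ), ζ ≠ ζ₀ →
      W₁ z - ζ * W₂ z ≠ 0 := by
    rw [Filter.eventually_all_finset]
    intro ζ _
    by_cases hζ : ζ = ζ₀
    · exact Filter.Eventually.of_forall fun z hz => absurd hζ hz
    · have hcont : ContinuousAt (fun z => W₁ z - ζ * W₂ z) a :=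
        hc₁.sub (continuousAt_const.mul hc₂)
      have hne : W₁ a - ζ * W₂ a ≠ 0 := by
        have e : W₁ a = ζ₀ * W₂ a := by rw [hζ₀, div_mul_cancel₀ _ h0]
        rw [e, ← sub_mul]
        exact mul_ne_zero (sub_ne_zero.mpr (Ne.symm hζ)) h0
      filter_upwards [hcont.eventually_ne hne] with z hz _
      exact hz
  have hloc : W₁ =ᶠ[𝓝 a] fun z => ζ₀ * W₂ z := by
    filter_upwards [hev, hball] with z hz hzb
    have hp : ∏ ζ ∈ Polynomial.nthRootsFinset n (1 : ℂ), (W₁ z - ζ * W₂ z) = 0 := by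
      rw [← hfac, h z hzb, sub_self]
    obtain ⟨ζ, hζ, hz0⟩ := Finset.prod_eq_zero_iff.mp hp
    by_cases hζ0 : ζ = ζ₀
    · rw [hζ0] at hz0
      exact sub_eq_zero.mp hz0
    · exact absurd hz0 (hz ζ hζ hζ0)
  have hA₁ : AnalyticOnNhd ℂ W₁ (ball (0 : ℂ) 1) := h₁.analyticOnNhd isOpen_ball
  have hA₂ : AnalyticOnNhd ℂ (fun z => ζ₀ * W₂ z) (ball (0 : ℂ) 1) :=
    (h₂.const_mul ζ₀).analyticOnNhd isOpen_ball
  exact hA₁.eqOn_of_preconnected_of_eventuallyEq hA₂ (convex_ball _ _).isPreconnected ha hloc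

/-- two holomorphic functions on `ℍ` with the same `n`-th power, not identically zero, differ
by a constant `n`-th root of unity -/
theorem root_unique {w₁ w₂ : ℍ → ℂ} (h₁ : MDiff w₁) (h₂ : MDiff w₂) {n : ℕ} (hn : n ≠ 0)
    (h : ∀ z, w₁ z ^ n = w₂ z ^ n) (h0 : ∃ z, w₂ z ≠ 0) :
    ∃ ζ : ℂ, ζ ^ n = 1 ∧ ∀ z, w₁ z = ζ * w₂ z := by
  obtain ⟨z₀, hz₀⟩ := h0
  obtain ⟨ζ, hζ, hζw⟩ := root_unique_on_ball (differentiableOn_comp_psi h₁)
    (differentiableOn_comp_psi h₂) hn (fun w _ => h (psi w)) (phi_mem_ball z₀)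
    (by rwa [psi_phi])
  refine ⟨ζ, hζ, fun z => ?_⟩
  have := hζw (phi z) (phi_mem_ball z)
  rwa [psi_phi] at this

/-! ### the character of a root -/

lemma mdiff_comp_smul {w : ℍ → ℂ} (hw : MDiff w) (γ : SL(2, ℤ)) :
    MDiff (fun z : ℍ => w (γ • z)) := by
  have h := hw.slash 0 ((γ : SL(2, ℤ)) : GL (Fin 2) ℝ)
  have e : (w ∣[(0 : ℤ)] ((γ : SL(2, ℤ)) : GL (Fin 2) ℝ)) = fun z : ℍ => w (γ • z) := by
    ext z
    rw [← ModularForm.SL_slash, ModularForm.SL_slash_apply]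
    simp
  rwa [e] at h

/-- the character attached to a holomorphic function on `ℍ`, not identically zero, whose
`n`-th power is invariant under a subgroup `Γ` of `SL(2,ℤ)` -/
theorem exists_character {w : ℍ → ℂ} (hw : MDiff w) (hw0 : ∃ z, w z ≠ 0) {n : ℕ} (hn : n ≠ 0)
    (Γ : Subgroup SL(2, ℤ)) (hinv : ∀ γ ∈ Γ, ∀ z, w (γ • z) ^ n = w z ^ n) :
    ∃ χ : Γ →* rootsOfUnity n ℂ,
      ∀ (γ : Γ) (z : ℍ), w ((γ : SL(2, ℤ)) • z) = ((χ γ : ℂˣ) : ℂ) * w z := by
  have : NeZero n := ⟨hn⟩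
  obtain ⟨z₀, hz₀⟩ := hw0
  have key : ∀ γ : Γ, ∃ ζ : ℂ, ζ ^ n = 1 ∧ ∀ z, w ((γ : SL(2, ℤ)) • z) = ζ * w z := fun γ =>
    root_unique (mdiff_comp_smul hw γ) hw hn (hinv γ γ.2) ⟨z₀, hz₀⟩
  choose c hc1 hc2 using key
  have hmul : ∀ γ₁ γ₂ : Γ, c (γ₁ * γ₂) = c γ₁ * c γ₂ := by
    intro γ₁ γ₂
    have e1 := hc2 (γ₁ * γ₂) z₀
    rw [Subgroup.coe_mul, mul_smul, hc2 γ₁, hc2 γ₂, ← mul_assoc] at e1
    exact (mul_right_cancel₀ hz₀ e1).symm
  refine ⟨MonoidHom.mk' (fun γ => rootsOfUnity.mkOfPowEq (c γ) (hc1 γ)) ?_, ?_⟩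
  · intro γ₁ γ₂
    apply Subtype.ext
    apply Units.ext
    simp only [Subgroup.coe_mul, Units.val_mul, rootsOfUnity.val_mkOfPowEq_coe]
    exact hmul γ₁ γ₂
  · intro γ z
    simp only [MonoidHom.mk'_apply, rootsOfUnity.val_mkOfPowEq_coe]
    exact hc2 γ z

end

end Fermat.Agent.Jac
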