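import Fermat.Agent.Jac.Skeleton
import Fermat.Agent.Jac.Root

/-!
# IN-JAC, task CHAR: the automorphy character of a holomorphic `p`-th root

`char : CharStatement` and `charUniq : CharUniqStatement`, from the identity-theorem lemma
`root_unique` of `Fermat/Agent/Jac/Root.lean`.
-/

set_option autoImplicit false

open ModularCurve AlgebraicCurve UpperHalfPlane CongruenceSubgroup
open scoped MatrixGroups Manifold

noncomputable section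

namespace Fermat.Agent.Jac

lemma h75_exists_ne_of_ne_zero {f : ℍ → ℂ} (hf : f ≠ 0) : ∃ z, f z ≠ 0 := by
  by_contra h
  apply hf
  funext z
  by_contra hz
  exact h ⟨z, hz⟩

/-- **CHAR.** -/
theorem char : CharStatement := by
  intro N p hp G A _ hA hG0 hinv hAG
  obtain ⟨z₀, hz₀⟩ := h75_exists_ne_of_ne_zero hG0
  have hA0 : ∃ z, A z ≠ 0 := by
    refine ⟨z₀, fun h => hz₀ ?_⟩
    rw [← hAG z₀, h, zero_pow hp.ne']
  obtain ⟨χ, hχ⟩ := exists_character hA hA0 hp.ne' (Gamma0 N) (fun γ hγ z => by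
    rw [hAG, hAG]
    exact hinv ⟨γ, hγ⟩ z)
  refine ⟨(Subgroup.subtype (rootsOfUnity p ℂ)).comp χ, ?_, ?_⟩
  · intro γ τ
    exact hχ γ τ
  · ext γ
    have h1 : ((χ γ : ℂˣ)) ^ p = 1 := (mem_rootsOfUnity p _).mp (χ γ).2
    simp only [MonoidHom.pow_apply, MonoidHom.coe_comp, Subgroup.coe_subtype,
      Function.comp_apply, MonoidHom.one_apply]
    rw [h1]

/-- **CHAR-UNIQ.** -/
theorem charUniq : CharUniqStatement := by
  intro N p hp A A' B B' hA hA' hB hB' hA0 _ hB'0 hBinv hB'inv hpow χ χ' hχ hχ'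
  -- `W₁ = A B'`, `W₂ = A' B`
  have hW₁ : MDiff (fun τ => A τ * B' τ) := hA.mul hB'
  have hW₂ : MDiff (fun τ => A' τ * B τ) := hA'.mul hB
  have hW₁0 : (fun τ => A τ * B' τ) ≠ 0 := by
    intro h
    have : A * B' = 0 := h
    rcases (UpperHalfPlane.mul_eq_zero_iff hA hB').mp this with h1 | h1
    · exact hA0 h1
    · exact hB'0 h1
  obtain ⟨z₀, hz₀⟩ := h75_exists_ne_of_ne_zero hW₁0
  have hz₀' : A' z₀ * B z₀ ≠ 0 := by
    intro h
    apply hz₀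
    have := hpow z₀
    rw [h, zero_pow hp.ne'] at this
    exact pow_eq_zero_iff hp.ne' |>.mp this
  obtain ⟨ζ, -, hζW⟩ := root_unique hW₁ hW₂ hp.ne' hpow ⟨z₀, hz₀'⟩
  have hζ0 : ζ ≠ 0 := by
    intro h
    apply hz₀
    have : A z₀ * B' z₀ = ζ * (A' z₀ * B z₀) := hζW z₀
    rw [this, h, zero_mul]
  ext γ
  have e1 : A ((γ : SL(2, ℤ)) • z₀) * B' ((γ : SL(2, ℤ)) • z₀) =
      ζ * (A' ((γ : SL(2, ℤ)) • z₀) * B ((γ : SL(2, ℤ)) • z₀)) := hζW _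
  rw [hχ γ z₀, hχ' γ z₀, hB'inv γ z₀, hBinv γ z₀] at e1
  have e2 : A z₀ * B' z₀ = ζ * (A' z₀ * B z₀) := hζW z₀
  have e3 : ((χ γ : ℂˣ) : ℂ) * (A' z₀ * B z₀) = ((χ' γ : ℂˣ) : ℂ) * (A' z₀ * B z₀) := by
    apply mul_left_cancel₀ hζ0
    calc ζ * (((χ γ : ℂˣ) : ℂ) * (A' z₀ * B z₀))
        = ((χ γ : ℂˣ) : ℂ) * (ζ * (A' z₀ * B z₀)) := by ring
      _ = ((χ γ : ℂˣ) : ℂ) * (A z₀ * B' z₀) := by rw [e2]
      _ = ((χ γ : ℂˣ) : ℂ) * A z₀ * B' z₀ := by ring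
      _ = ζ * (((χ' γ : ℂˣ) : ℂ) * A' z₀ * B z₀) := e1
      _ = ζ * (((χ' γ : ℂˣ) : ℂ) * (A' z₀ * B z₀)) := by ring
  exact mul_right_cancel₀ hz₀' e3

end Fermat.Agent.Jac
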