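import Mathlib

/-!
# IN-JAC, KC-INJ / CONV: the Lagrange numerator (pure algebra)

For families `a b : ι → R` in a commutative ring, the polynomial

  `h9_lag a b = ∑ i, C (b i) * ∏ j ≠ i, (X - C (a j))`

satisfies `(h9_lag a b).eval (a i₀) = b i₀ * ∏ j ≠ i₀, (a i₀ - a j)`, is compatible with ring
homomorphisms, invariant under simultaneous permutation of `a` and `b`, and has coefficients in
every subring containing all `a i`, `b i`.
-/

set_option autoImplicit false

namespace Fermat.Agent.Jac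

open Polynomial

variable {R : Type*} [CommRing R] {ι : Type*} [Fintype ι] [DecidableEq ι]

/-- The Lagrange numerator `∑ i, b i * ∏ j ≠ i, (X - a j)`. -/
noncomputable def h9_lag (a b : ι → R) : R[X] :=
  ∑ i, C (b i) * ∏ j ∈ Finset.univ.erase i, (X - C (a j))

theorem h9_lag_eval (a b : ι → R) (i₀ : ι) :
    (h9_lag a b).eval (a i₀) = b i₀ * ∏ j ∈ Finset.univ.erase i₀, (a i₀ - a j) := by
  unfold h9_lag
  rw [eval_finsetSum, Finset.sum_eq_single i₀]
  · simp [eval_prod]
  · intro i _ hi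
    rw [eval_mul, eval_prod]
    have hmem : i₀ ∈ Finset.univ.erase i := Finset.mem_erase.mpr ⟨hi.symm, Finset.mem_univ _⟩
    rw [Finset.prod_eq_zero hmem (by simp), mul_zero]
  · intro h
    exact absurd (Finset.mem_univ _) h

theorem h9_lag_map {R' : Type*} [CommRing R'] (φ : R →+* R') (a b : ι → R) :
    (h9_lag a b).map φ = h9_lag (fun i => φ (a i)) (fun i => φ (b i)) := by
  simp [h9_lag, Polynomial.map_sum, Polynomial.map_prod]

theorem h9_lag_comp_equiv (σ : ι ≃ ι) (a b : ι → R) :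
    h9_lag (fun i => a (σ i)) (fun i => b (σ i)) = h9_lag a b := by
  unfold h9_lag
  rw [← Equiv.sum_comp σ (fun i => C (b i) * ∏ j ∈ Finset.univ.erase i, (X - C (a j)))]
  refine Finset.sum_congr rfl fun i _ => ?_
  congr 1
  refine Finset.prod_bij (fun j _ => σ j) ?_ ?_ ?_ ?_
  · intro j hj
    rw [Finset.mem_erase] at hj ⊢
    exact ⟨fun h => hj.1 (σ.injective h), Finset.mem_univ _⟩
  · intro j _ j' _ h
    exact σ.injective h
  · intro j hj
    rw [Finset.mem_erase] at hj
    refine ⟨σ.symm j, ?_, by simp⟩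
    rw [Finset.mem_erase]
    refine ⟨fun h => hj.1 ?_, Finset.mem_univ _⟩
    rw [← h]
    simp
  · intro j _
    rfl

theorem h9_lag_coeff_mem (S : Subring R) (a b : ι → R) (ha : ∀ i, a i ∈ S)
    (hb : ∀ i, b i ∈ S) (k : ℕ) : (h9_lag a b).coeff k ∈ S := by
  have hC : ∀ r ∈ S, (C r : R[X]) ∈ Polynomial.liftsRing S.subtype := by
    intro r hr
    rw [← Polynomial.lifts_iff_liftsRing]
    exact Polynomial.C'_mem_lifts ⟨⟨r, hr⟩, rfl⟩
  have hX : (X : R[X]) ∈ Polynomial.liftsRing S.subtype := by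
    rw [← Polynomial.lifts_iff_liftsRing]
    exact Polynomial.X_mem_lifts _
  have hmem : h9_lag a b ∈ Polynomial.liftsRing S.subtype := by
    unfold h9_lag
    refine Subring.sum_mem _ fun i _ => ?_
    refine Subring.mul_mem _ (hC _ (hb i)) ?_
    refine Subring.prod_mem _ fun j _ => ?_
    exact Subring.sub_mem _ hX (hC _ (ha j))
  rw [← Polynomial.lifts_iff_liftsRing, Polynomial.lifts_iff_coeff_lifts] at hmem
  obtain ⟨x, hx⟩ := hmem k
  rw [← hx]
  exact x.2

end Fermat.Agent.Jac
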