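import Fermat.Agent.Jac.Skeleton
import Fermat.Agent.Jac.ConvAlg
import Fermat.Agent.S28.PartOne
import Fermat.Agent.S24.H20Distinct
import Fermat.Agent.S24.M6Fields

/-!
# IN-JAC, KC-INJ / CONV: invariant holomorphic functions lie in the function field

`h9_conv`: a holomorphic `Γ₀(N)`-invariant function on `ℍ` with Laurent expansions at all cusps
has its `q`-expansion at `∞` in `FC N = ℂ(j(q^d) : d ∣ N) ⊆ ℂ((q))`.

Route (Lagrange interpolation over the cosets of `Γ₀(N)` in `SL(2, ℤ)`, `θ = j(Nτ)`):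
for `b ∈ {A, 1}` the coefficients of `L_b(X) = ∑_q b_q ∏_{q' ≠ q} (X - θ_q')` are
`SL(2, ℤ)`-invariant, holomorphic, with expansions at `∞`, hence polynomials in `j`
(level one theorem of S28); `L_A(θ) = A · E`, `L_1(θ) = E`, `E = ∏_{q' ≠ 1} (θ - θ_q') ≠ 0`.
-/

set_option autoImplicit false

open ModularCurve UpperHalfPlane CongruenceSubgroup Polynomial
open scoped MatrixGroups Manifold

noncomputable section

namespace Fermat.Agent.Jac

open Fermat.Agent.S28 (HasTExp jAn jAt cEmb jSub cosetTranslate)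

/-! ## The ring of holomorphic functions with expansions at all cusps -/

/-- holomorphic functions on `ℍ` with `𝕋`-expansions at all cusps. -/
def h9_cuspRing (N : ℕ) [NeZero N] : Subring (ℍ → ℂ) where
  carrier := {g | MDiff g ∧
    ∀ γ : SL(2, ℤ), ∃ s : LaurentSeries ℂ, HasTExp N (fun τ => g (γ • τ)) s}
  mul_mem' := by
    rintro g₁ g₂ ⟨h₁, e₁⟩ ⟨h₂, e₂⟩
    refine ⟨h₁.mul h₂, fun γ => ?_⟩
    obtain ⟨s₁, hs₁⟩ := e₁ γ
    obtain ⟨s₂, hs₂⟩ := e₂ γ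
    exact ⟨s₁ * s₂, (hs₁.mul (Nat.pos_of_ne_zero (NeZero.ne N)) hs₂).congr fun τ => rfl⟩
  one_mem' := ⟨mdifferentiable_const, fun γ => ⟨1, (HasTExp.one N).congr fun τ => rfl⟩⟩
  add_mem' := by
    rintro g₁ g₂ ⟨h₁, e₁⟩ ⟨h₂, e₂⟩
    refine ⟨h₁.add h₂, fun γ => ?_⟩
    obtain ⟨s₁, hs₁⟩ := e₁ γ
    obtain ⟨s₂, hs₂⟩ := e₂ γ
    exact ⟨s₁ + s₂, (hs₁.add hs₂).congr fun τ => rfl⟩
  zero_mem' := ⟨mdifferentiable_const, fun γ => ⟨0, (HasTExp.zero N).congr fun τ => rfl⟩⟩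
  neg_mem' := by
    rintro g ⟨h, e⟩
    refine ⟨h.neg, fun γ => ?_⟩
    obtain ⟨s, hs⟩ := e γ
    exact ⟨-s, hs.neg.congr fun τ => rfl⟩

theorem h9_mem_cuspRing {N : ℕ} [NeZero N] {g : ℍ → ℂ} :
    g ∈ h9_cuspRing N ↔ MDiff g ∧
      ∀ γ : SL(2, ℤ), ∃ s : LaurentSeries ℂ, HasTExp N (fun τ => g (γ • τ)) s :=
  Iff.rfl

/-- translation by `h ∈ SL(2, ℤ)` as a ring endomorphism of the ring of functions. -/
def h9_tr (h : SL(2, ℤ)) : (ℍ → ℂ) →+* (ℍ → ℂ) :=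
  RingHom.pi fun τ => Pi.evalRingHom (fun _ : ℍ => ℂ) (h • τ)

@[simp]
theorem h9_tr_apply (h : SL(2, ℤ)) (g : ℍ → ℂ) (τ : ℍ) : h9_tr h g τ = g (h • τ) := rfl

theorem h9_tr_mem {N : ℕ} [NeZero N] (h : SL(2, ℤ)) {g : ℍ → ℂ} (hg : g ∈ h9_cuspRing N) :
    h9_tr h g ∈ h9_cuspRing N := by
  refine ⟨Fermat.Agent.S24.M6.mdiff_tr hg.1 h, fun γ => ?_⟩
  obtain ⟨s, hs⟩ := hg.2 (h * γ)
  exact ⟨s, hs.congr fun τ => by rw [h9_tr_apply, mul_smul]⟩

/-! ## Invariant elements are polynomials in `j` -/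

theorem h9_exists_poly_of_invariant {N : ℕ} [NeZero N] {g : ℍ → ℂ} (hg : g ∈ h9_cuspRing N)
    (hinv : ∀ (γ : SL(2, ℤ)) (τ : ℍ), g (γ • τ) = g τ) :
    ∃ Q : ℂ[X], ∀ τ, g τ = Q.eval (jAn τ) := by
  obtain ⟨s, hs⟩ := hg.2 1
  have hs' : HasTExp N g s := hs.congr fun τ => by rw [one_smul]
  have hper : ∀ τ : ℍ, g ((1 : ℝ) +ᵥ τ) = g τ := by
    intro τ
    rw [← UpperHalfPlane.modular_T_smul, hinv]
  obtain ⟨s₁, hs₁, -⟩ := hs'.to_one hper
  -- a bound for the pole order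
  obtain ⟨M, hM⟩ : ∃ M : ℕ, ∀ n : ℤ, n < -(M : ℤ) → s₁.coeff n = 0 := by
    refine ⟨(-s₁.order).toNat, fun n hn => ?_⟩
    apply HahnSeries.coeff_eq_zero_of_lt_order
    have := Int.self_le_toNat (-s₁.order)
    omega
  obtain ⟨Q, -, hQ⟩ := Fermat.Agent.S28.h44_levelOne_poly Fermat.Agent.S28.h44_hasTExp_jAn ⊤
    g hg.1 hinv s₁ hs₁ (fun n => Subring.mem_top _) M hM
  exact ⟨Q.map (⊤ : Subring ℂ).subtype, hQ⟩

/-! ## Expansions of polynomial expressions -/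

theorem h9_hasTExp_eval {g : ℍ → ℂ} {s : LaurentSeries ℂ} (hs : HasTExp 1 g s) (Q : ℂ[X]) :
    HasTExp 1 (fun τ => Q.eval (g τ)) (Polynomial.aeval s Q) := by
  induction Q using Polynomial.induction_on' with
  | add p q hp hq =>
    rw [map_add]
    exact (hp.add hq).congr fun τ => by simp
  | monomial n c =>
    rw [Polynomial.aeval_monomial]
    have h := HasTExp.const_mul one_pos c (hs.pow one_pos n)
    have e : (algebraMap ℂ (LaurentSeries ℂ)) c = HahnSeries.C c :=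
      LaurentSeries.algebraMap_apply ℂ c
    rw [e]
    exact h.congr fun τ => by simp [Polynomial.eval_monomial]

theorem h9_hasTExp_sum_eval {g θ : ℍ → ℂ} {s t : LaurentSeries ℂ} (hs : HasTExp 1 g s)
    (ht : HasTExp 1 θ t) (Q : ℕ → ℂ[X]) (n : ℕ) :
    HasTExp 1 (fun τ => ∑ k ∈ Finset.range n, (Q k).eval (g τ) * θ τ ^ k)
      (∑ k ∈ Finset.range n, Polynomial.aeval s (Q k) * t ^ k) := by
  have h := HasTExp.finset_sum (N := 1) (Finset.range n)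
    (g := fun k τ => (Q k).eval (g τ) * θ τ ^ k)
    (s := fun k => Polynomial.aeval s (Q k) * t ^ k)
    (fun k _ => ((h9_hasTExp_eval hs (Q k)).mul one_pos (ht.pow one_pos k)).congr fun τ => rfl)
  exact h.congr fun τ => by simp [Finset.sum_apply]

theorem h9_aeval_mem {N : ℕ} [NeZero N] {s : LaurentSeries ℂ}
    (hs : s ∈ laurentBaseChange ℂ (modularFunctionFieldFull N)) (Q : ℂ[X]) :
    Polynomial.aeval s Q ∈ laurentBaseChange ℂ (modularFunctionFieldFull N) := by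
  induction Q using Polynomial.induction_on' with
  | add p q hp hq =>
    rw [map_add]
    exact add_mem hp hq
  | monomial n c =>
    rw [Polynomial.aeval_monomial]
    exact mul_mem (IntermediateField.algebraMap_mem _ c) (pow_mem hs n)

theorem h9_sum_mem {N : ℕ} [NeZero N] {s t : LaurentSeries ℂ}
    (hs : s ∈ laurentBaseChange ℂ (modularFunctionFieldFull N))
    (ht : t ∈ laurentBaseChange ℂ (modularFunctionFieldFull N)) (Q : ℕ → ℂ[X]) (n : ℕ) :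
    (∑ k ∈ Finset.range n, Polynomial.aeval s (Q k) * t ^ k) ∈
      laurentBaseChange ℂ (modularFunctionFieldFull N) :=
  sum_mem fun k _ => mul_mem (h9_aeval_mem hs (Q k)) (pow_mem ht k)

theorem h9_cEmb_jq_mem (N : ℕ) [NeZero N] :
    cEmb jq ∈ laurentBaseChange ℂ (modularFunctionFieldFull N) := by
  have h : jq ∈ modularFunctionFieldFull N :=
    modularFunctionField_le_full N (jq_mem N)
  exact coeffEmb_mem_laurentBaseChange ℂ h

theorem h9_cEmb_jSub_mem (N : ℕ) [NeZero N] :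
    cEmb (jSub N) ∈ laurentBaseChange ℂ (modularFunctionFieldFull N) := by
  have h : jSub N ∈ modularFunctionFieldFull N := by
    rw [Fermat.Agent.S28.jSub, dif_neg (NeZero.ne N)]
    exact jqd_mem_full N dvd_rfl
  exact coeffEmb_mem_laurentBaseChange ℂ h

/-! ## The Lagrange data for `Γ₀(N)` -/

section Lagrange

variable (N : ℕ) [NeZero N]

theorem h9_jAt_inv : ∀ γ ∈ Gamma0 N, ∀ τ : ℍ, jAt N (γ • τ) = jAt N τ :=
  fun γ hγ τ => Fermat.Agent.S28.jAt_smul_of_mem_Gamma0 N N dvd_rfl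
    (Nat.pos_of_ne_zero (NeZero.ne N)) γ hγ τ

theorem h9_jAt_mem : jAt N ∈ h9_cuspRing N := by
  refine ⟨Fermat.Agent.S28.holo_jAt N, fun γ => ?_⟩
  obtain ⟨s, hs, -⟩ := (Fermat.Agent.S28.h44_cuspStatement N
    (Nat.pos_of_ne_zero (NeZero.ne N))).1 N dvd_rfl γ
  exact ⟨s, hs⟩

theorem h9_cosetTranslate_mem {f : ℍ → ℂ} (hf : ∀ γ ∈ Gamma0 N, ∀ τ : ℍ, f (γ • τ) = f τ)
    (hmem : f ∈ h9_cuspRing N) (q : SL(2, ℤ) ⧸ Gamma0 N) :
    cosetTranslate (Gamma0 N) f hf q ∈ h9_cuspRing N := by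
  induction q using QuotientGroup.induction_on with
  | H g => exact h9_tr_mem g⁻¹ hmem

omit [NeZero N] in
/-- the coefficients of the Lagrange numerator are `SL(2, ℤ)`-invariant. -/
theorem h9_lag_coeff_smul [Fintype (SL(2, ℤ) ⧸ Gamma0 N)] [DecidableEq (SL(2, ℤ) ⧸ Gamma0 N)]
    {f θ : ℍ → ℂ} (hf : ∀ γ ∈ Gamma0 N, ∀ τ : ℍ, f (γ • τ) = f τ)
    (hθ : ∀ γ ∈ Gamma0 N, ∀ τ : ℍ, θ (γ • τ) = θ τ) (k : ℕ) (h : SL(2, ℤ)) (τ : ℍ) :
    (h9_lag (cosetTranslate (Gamma0 N) θ hθ) (cosetTranslate (Gamma0 N) f hf)).coeff k (h • τ) =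
      (h9_lag (cosetTranslate (Gamma0 N) θ hθ) (cosetTranslate (Gamma0 N) f hf)).coeff k τ := by
  have h1 : (h9_lag (cosetTranslate (Gamma0 N) θ hθ) (cosetTranslate (Gamma0 N) f hf)).map
      (h9_tr h) =
      h9_lag (cosetTranslate (Gamma0 N) θ hθ) (cosetTranslate (Gamma0 N) f hf) := by
    rw [h9_lag_map]
    have e1 : (fun q => h9_tr h (cosetTranslate (Gamma0 N) θ hθ q)) =
        fun q => cosetTranslate (Gamma0 N) θ hθ (MulAction.toPerm (h⁻¹ : SL(2, ℤ)) q) := by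
      funext q τ
      exact Fermat.Agent.S28.cosetTranslate_smul (Gamma0 N) θ hθ h q τ
    have e2 : (fun q => h9_tr h (cosetTranslate (Gamma0 N) f hf q)) =
        fun q => cosetTranslate (Gamma0 N) f hf (MulAction.toPerm (h⁻¹ : SL(2, ℤ)) q) := by
      funext q τ
      exact Fermat.Agent.S28.cosetTranslate_smul (Gamma0 N) f hf h q τ
    rw [e1, e2]
    exact h9_lag_comp_equiv (MulAction.toPerm (h⁻¹ : SL(2, ℤ))) _ _
  have h2 := congrArg (fun P => P.coeff k τ) h1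
  simpa [Polynomial.coeff_map] using h2

/-- the key identity: `b · E = ∑ₖ Qₖ(j) θᵏ` with polynomials `Qₖ`. -/
theorem h9_lag_identity [Fintype (SL(2, ℤ) ⧸ Gamma0 N)] [DecidableEq (SL(2, ℤ) ⧸ Gamma0 N)]
    {f : ℍ → ℂ} (hf : ∀ γ ∈ Gamma0 N, ∀ τ : ℍ, f (γ • τ) = f τ) (hmem : f ∈ h9_cuspRing N) :
    ∃ (Q : ℕ → ℂ[X]) (n : ℕ), ∀ τ : ℍ,
      f τ * ∏ q ∈ Finset.univ.erase (((1 : SL(2, ℤ)) : SL(2, ℤ) ⧸ Gamma0 N)),
          (jAt N τ - cosetTranslate (Gamma0 N) (jAt N) (h9_jAt_inv N) q τ) =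
        ∑ k ∈ Finset.range n, (Q k).eval (jAn τ) * jAt N τ ^ k := by
  set a := cosetTranslate (Gamma0 N) (jAt N) (h9_jAt_inv N) with ha
  set b := cosetTranslate (Gamma0 N) f hf with hb
  have hcoeff : ∀ k : ℕ, ∃ Q : ℂ[X], ∀ τ, (h9_lag a b).coeff k τ = Q.eval (jAn τ) := by
    intro k
    refine h9_exists_poly_of_invariant (N := N) ?_ ?_
    · exact h9_lag_coeff_mem (h9_cuspRing N) a b
        (fun q => h9_cosetTranslate_mem N (h9_jAt_inv N) (h9_jAt_mem N) q)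
        (fun q => h9_cosetTranslate_mem N hf hmem q) k
    · intro γ τ
      exact h9_lag_coeff_smul N hf (h9_jAt_inv N) k γ τ
  choose Q hQ using hcoeff
  refine ⟨Q, (h9_lag a b).natDegree + 1, fun τ => ?_⟩
  have h1 := h9_lag_eval a b ((1 : SL(2, ℤ)) : SL(2, ℤ) ⧸ Gamma0 N)
  have h2 := congrFun h1 τ
  rw [Polynomial.eval_eq_sum_range] at h2
  have ha1 : a ((1 : SL(2, ℤ)) : SL(2, ℤ) ⧸ Gamma0 N) = jAt N := by
    funext τ'
    exact Fermat.Agent.S28.cosetTranslate_one (Gamma0 N) (jAt N) (h9_jAt_inv N) τ'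
  have hb1 : b ((1 : SL(2, ℤ)) : SL(2, ℤ) ⧸ Gamma0 N) = f := by
    funext τ'
    exact Fermat.Agent.S28.cosetTranslate_one (Gamma0 N) f hf τ'
  rw [ha1, hb1] at h2
  simp only [Pi.mul_apply, Finset.prod_apply, Pi.sub_apply, Finset.sum_apply, Pi.pow_apply]
    at h2
  rw [← h2]
  exact Finset.sum_congr rfl fun k _ => by rw [hQ k τ]

/-- the function `E = ∏_{q ≠ 1} (θ - θ_q)` is not identically zero. -/
theorem h9_E_ne_zero [Fintype (SL(2, ℤ) ⧸ Gamma0 N)] [DecidableEq (SL(2, ℤ) ⧸ Gamma0 N)] :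
    (fun τ : ℍ => ∏ q ∈ Finset.univ.erase (((1 : SL(2, ℤ)) : SL(2, ℤ) ⧸ Gamma0 N)),
      (jAt N τ - cosetTranslate (Gamma0 N) (jAt N) (h9_jAt_inv N) q τ)) ≠ 0 := by
  have hN : 0 < N := Nat.pos_of_ne_zero (NeZero.ne N)
  set F : SL(2, ℤ) ⧸ Gamma0 N → ℍ → ℂ :=
    fun q => jAt N - cosetTranslate (Gamma0 N) (jAt N) (h9_jAt_inv N) q with hF
  have hFmem : ∀ q, F q ∈ h9_cuspRing N := fun q =>
    Subring.sub_mem _ (h9_jAt_mem N) (h9_cosetTranslate_mem N (h9_jAt_inv N) (h9_jAt_mem N) q)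
  have hFne : ∀ q ∈ Finset.univ.erase (((1 : SL(2, ℤ)) : SL(2, ℤ) ⧸ Gamma0 N)), F q ≠ 0 := by
    intro q hq h0
    rw [Finset.mem_erase] at hq
    apply hq.1
    induction q using QuotientGroup.induction_on with
    | H g =>
      have h1 : ∀ τ : ℍ, jAt N (g⁻¹ • τ) = jAt N τ := by
        intro τ
        have := congrFun h0 τ
        simp only [hF, Pi.sub_apply, Fermat.Agent.S28.cosetTranslate_mk, Pi.zero_apply] at this
        exact (sub_eq_zero.mp this).symm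
      have h2 : g⁻¹ ∈ Gamma0 N := Fermat.Agent.S24.h20_mem_Gamma0_of_jAt_smul_eq N g⁻¹ h1
      rw [QuotientGroup.eq]
      simpa using h2
  have hex : ∀ q, ∃ s : LaurentSeries ℂ, HasTExp N (F q) s := by
    intro q
    obtain ⟨s, hs⟩ := (hFmem q).2 1
    exact ⟨s, hs.congr fun τ => by rw [one_smul]⟩
  choose s hs using hex
  have hprod := HasTExp.finset_prod hN
    (Finset.univ.erase (((1 : SL(2, ℤ)) : SL(2, ℤ) ⧸ Gamma0 N))) (g := F) (s := s)
    (fun q _ => hs q)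
  have hsne : ∏ q ∈ Finset.univ.erase (((1 : SL(2, ℤ)) : SL(2, ℤ) ⧸ Gamma0 N)), s q ≠ 0 := by
    rw [Finset.prod_ne_zero_iff]
    intro q hq
    exact Fermat.Agent.S24.h23_series_ne_zero (hs q) (hFne q hq)
  have hne := Fermat.Agent.S24.h23_fun_ne_zero hN hprod hsne
  intro h0
  apply hne
  funext τ
  have := congrFun h0 τ
  simpa [hF, Finset.prod_apply] using this

/-- **CONV.**  A holomorphic `Γ₀(N)`-invariant function on `ℍ` with Laurent expansions at all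
cusps has its `q`-expansion in the function field `FC N` of `X₀(N)` over `ℂ`. -/
theorem h9_conv (A : ℍ → ℂ) (hA : MDiff A)
    (hinv : ∀ γ ∈ Gamma0 N, ∀ τ : ℍ, A (γ • τ) = A τ) (hcusp : CuspMero N A) :
    ∃ a : FC N, HasTExp 1 A (a : LaurentSeries ℂ) := by
  classical
  let _ : Fintype (SL(2, ℤ) ⧸ Gamma0 N) := Fintype.ofFinite _
  have hN : 0 < N := Nat.pos_of_ne_zero (NeZero.ne N)
  have hAmem : A ∈ h9_cuspRing N := ⟨hA, hcusp⟩
  have h1inv : ∀ γ ∈ Gamma0 N, ∀ τ : ℍ, (1 : ℍ → ℂ) (γ • τ) = (1 : ℍ → ℂ) τ :=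
    fun _ _ _ => rfl
  set E : ℍ → ℂ := fun τ =>
    ∏ q ∈ Finset.univ.erase (((1 : SL(2, ℤ)) : SL(2, ℤ) ⧸ Gamma0 N)),
      (jAt N τ - cosetTranslate (Gamma0 N) (jAt N) (h9_jAt_inv N) q τ) with hE
  obtain ⟨Q, n, hQ⟩ := h9_lag_identity N hinv hAmem
  obtain ⟨Q', n', hQ'⟩ := h9_lag_identity N h1inv (Subring.one_mem _)
  -- the expansions of `j` and `θ`
  have hj : HasTExp 1 jAn (cEmb jq) := Fermat.Agent.S28.h44_hasTExp_jAn
  have hθ : HasTExp 1 (jAt N) (cEmb (jSub N)) :=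
    (Fermat.Agent.S28.h44_bridgeStatement N hN).2.1 N hN
  have hR := h9_hasTExp_sum_eval hj hθ Q n
  have hR' := h9_hasTExp_sum_eval hj hθ Q' n'
  set sR := ∑ k ∈ Finset.range n, Polynomial.aeval (cEmb jq) (Q k) * cEmb (jSub N) ^ k with hsR
  set sE := ∑ k ∈ Finset.range n', Polynomial.aeval (cEmb jq) (Q' k) * cEmb (jSub N) ^ k
    with hsE
  have hAE : HasTExp 1 (A * E) sR := hR.congr fun τ => (hQ τ).symm
  have hE1 : HasTExp 1 E sE := hR'.congr fun τ => by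
    rw [← hQ' τ]
    simp [hE]
  -- the expansion of `A`
  obtain ⟨s, hs⟩ := hcusp 1
  have hs' : HasTExp N A s := hs.congr fun τ => by rw [one_smul]
  have hper : ∀ τ : ℍ, A ((1 : ℝ) +ᵥ τ) = A τ := by
    intro τ
    rw [← UpperHalfPlane.modular_T_smul]
    refine hinv _ ?_ τ
    rw [CongruenceSubgroup.Gamma0_mem]
    simp [ModularGroup.T]
  obtain ⟨sA, hsA, -⟩ := hs'.to_one hper
  have hmul : sA * sE = sR := HasTExp.unique one_pos (hsA.mul one_pos hE1) hAE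
  have hsE0 : sE ≠ 0 := Fermat.Agent.S24.h23_series_ne_zero hE1 (h9_E_ne_zero N)
  have hsRmem : sR ∈ laurentBaseChange ℂ (modularFunctionFieldFull N) :=
    h9_sum_mem (h9_cEmb_jq_mem N) (h9_cEmb_jSub_mem N) Q n
  have hsEmem : sE ∈ laurentBaseChange ℂ (modularFunctionFieldFull N) :=
    h9_sum_mem (h9_cEmb_jq_mem N) (h9_cEmb_jSub_mem N) Q' n'
  have hsAeq : sA = sR / sE := by
    rw [← hmul, mul_div_assoc, div_self hsE0, mul_one]
  exact ⟨⟨sA, hsAeq ▸ div_mem hsRmem hsEmem⟩, hsA⟩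

end Lagrange

end Fermat.Agent.Jac
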