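import Fermat.Agent.Jac.Skeleton2
import Fermat.Agent.Jac.Conv

/-!
# IN-JAC, task CONV: `conv : ConvStatement`

Wrapper around `h9_conv` (`Fermat/Agent/Jac/Conv.lean`, Lagrange interpolation over the cosets
of `Γ₀(N)`).
-/

set_option autoImplicit false

open ModularCurve UpperHalfPlane CongruenceSubgroup
open scoped MatrixGroups Manifold

namespace Fermat.Agent.Jac

/-- **CONV.** a holomorphic `Γ₀(N)`-invariant function which is meromorphic at all cusps is an
element of the function field over `ℂ`. -/
theorem conv : ConvStatement := by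
  intro N _ A hA hinv hcusp
  obtain ⟨a, ha⟩ := h9_conv N A hA (fun γ hγ τ => hinv ⟨γ, hγ⟩ τ) hcusp
  exact ⟨a, ha, a.2⟩

end Fermat.Agent.Jac
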