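import Fermat.Agent.Jac.DictCDefs
import Fermat.Agent.S24.EmbCusp

/-!
# IN-JAC, task D-CUSP: the family of cusp embeddings of the function field over `ℂ` (helper27)

`cuspFamC : CuspFamCStatement`.  Port of `S24/EmbCusp.lean` (helper84) from `(ℚ̄, embC)` to
`(ℂ, id)`: the cusp embeddings `E_g : F_ℂ → ℂ((𝕋))`, `𝕋 = exp (2πiτ/N)`, indexed by the left
cosets `g Γ₀(N)`, form an `EmbFamily` for `t = 1/j`, the generator `T` of the stabiliser of `∞`
and `h = N`.  The function-level lemmas of `S24/EmbCusp.lean` are reused as they are.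
-/

set_option autoImplicit false

open ModularCurve AlgebraicCurve CongruenceSubgroup IntermediateField UpperHalfPlane
open scoped MatrixGroups Manifold

noncomputable section

namespace Fermat.Agent.Jac

open Fermat.Agent.S24 (Kbar FF embC IsAn EmbFamily jBar jdBar isAn_jBar isAn_jdBar
  h23_series_ne_zero h23_fun_unique mem_Gamma0_of_jAt_smul_eq h84_hasTExp_one_translate h84_p0
  h84_order_p0_inv h84_translate_congr h84_translate_ne_zero h84_out_smul h84_order_comp_T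
  h84_dvd_mul_order_of_periodic)
open Fermat.Agent.S28 (HasTExp jAn jAt cEmb twist tParam)

/-! ## Compatibility of the generators with the coefficient embedding -/

theorem h27_embC_algebraMap (r : ℚ) : embC (algebraMap ℚ Kbar r) = algebraMap ℚ ℂ r := by
  simp [embC]

theorem h27_coeffEmb_eq (x : LaurentSeries ℚ) :
    coeffEmb ℂ x = coeffMap embC (coeffEmb Kbar x) := by
  rw [coeffEmb, coeffEmb, coeffMap_coeffMap]
  exact coeffMap_congr (RingHom.ext fun r => (h27_embC_algebraMap r).symm) x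

theorem h27_isAnC_jC (h1 : AnCStatement) (N : ℕ) [NeZero N] : IsAnC N (jC N) jAn 1 :=
  (h1 N).2.2.2.2.2 (jBar N) (jC N) jAn 1 (h27_coeffEmb_eq jq) (isAn_jBar N)

theorem h27_isAnC_jdC (h1 : AnCStatement) (N : ℕ) [NeZero N] :
    IsAnC N (jdC N N (dvd_refl N)) (jAt N) 1 :=
  (h1 N).2.2.2.2.2 (jdBar N N (dvd_refl N)) (jdC N N (dvd_refl N)) (jAt N) 1
    (h27_coeffEmb_eq (qExpand ℚ N jq)) (isAn_jdBar N N (dvd_refl N))

theorem h27_isAnC_P_ne (h1 : AnCStatement) {N : ℕ} [NeZero N] {f : FC N} {P Q : ℍ → ℂ}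
    (h : IsAnC N f P Q) (hf : f ≠ 0) : P ≠ 0 :=
  fun hP => hf (((h1 N).2.2.1 f P Q h).mpr hP)

/-! ## The chosen cusp embeddings -/

/-- the chosen cusp embedding attached to `g`. -/
def h27_E (h2 : EmbCStatement) (N : ℕ) [NeZero N] (g : SL(2, ℤ)) : FC N →+* LaurentSeries ℂ :=
  Classical.choose ((h2 N).2 g)

theorem h27_E_spec (h2 : EmbCStatement) (N : ℕ) [NeZero N] (g : SL(2, ℤ)) :
    IsCuspEmbC N (h27_E h2 N g) g :=
  Classical.choose_spec ((h2 N).2 g)

theorem h27_E_cst (h2 : EmbCStatement) (N : ℕ) [NeZero N] (g : SL(2, ℤ)) (a : ℂ) :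
    h27_E h2 N g (algebraMap ℂ (FC N) a) = HahnSeries.C a :=
  (h27_E_spec h2 N g).1 a

theorem h27_E_mul (h2 : EmbCStatement) (N : ℕ) [NeZero N] (g : SL(2, ℤ)) {f : FC N}
    {P Q : ℍ → ℂ} {p q : LaurentSeries ℂ} (hf : IsAnC N f P Q)
    (hp : HasTExp N (fun τ => P (g⁻¹ • τ)) p) (hq : HasTExp N (fun τ => Q (g⁻¹ • τ)) q) :
    h27_E h2 N g f * q = p :=
  (h27_E_spec h2 N g).2 f P Q p q hf hp hq

/-- if the numerator is a genuine function with denominator `1`, the embedding is its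
expansion. -/
theorem h27_E_eq (h2 : EmbCStatement) (N : ℕ) [NeZero N] (g : SL(2, ℤ)) {f : FC N}
    {P : ℍ → ℂ} {p : LaurentSeries ℂ} (hf : IsAnC N f P 1)
    (hp : HasTExp N (fun τ => P (g⁻¹ • τ)) p) : h27_E h2 N g f = p := by
  have h := h27_E_mul h2 N g hf hp (h84_hasTExp_one_translate N g)
  rwa [mul_one] at h

theorem h27_E_jC (h1 : AnCStatement) (h2 : EmbCStatement) (N : ℕ) [NeZero N] (g : SL(2, ℤ)) :
    h27_E h2 N g (jC N) = h84_p0 N := by
  refine h27_E_eq h2 N g (h27_isAnC_jC h1 N) ?_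
  exact (Fermat.Agent.S28.Cusp.hasTExp_jAn'.of_one (N := N)).congr
    (fun τ => (Fermat.Agent.S28.jAn_smul g⁻¹ τ).symm)

/-- the order of the embedding of `f = P/Q`. -/
theorem h27_order_E (h2 : EmbCStatement) (N : ℕ) [NeZero N] (g : SL(2, ℤ)) {f : FC N}
    (hf0 : f ≠ 0) {P Q : ℍ → ℂ} {p q : LaurentSeries ℂ} (hf : IsAnC N f P Q)
    (hp : HasTExp N (fun τ => P (g⁻¹ • τ)) p) (hq : HasTExp N (fun τ => Q (g⁻¹ • τ)) q) :
    (h27_E h2 N g f).order = p.order - q.order := by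
  have hq0 : q ≠ 0 := h23_series_ne_zero hq (h84_translate_ne_zero hf.Q_ne g)
  have hE0 : h27_E h2 N g f ≠ 0 := (map_ne_zero _).mpr hf0
  have h := h27_E_mul h2 N g hf hp hq
  have h1 : (h27_E h2 N g f * q).order = (h27_E h2 N g f).order + q.order :=
    HahnSeries.order_mul hE0 hq0
  rw [h] at h1
  omega

/-! ## The family -/

/-- the embedding attached to a coset. -/
def h27_iota (h2 : EmbCStatement) (N : ℕ) [NeZero N] (x : SL(2, ℤ) ⧸ Gamma0 N) :
    FC N →+* LaurentSeries ℂ :=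
  h27_E h2 N (Quotient.out x)

theorem h27_iota_injective (h1 : AnCStatement) (h2 : EmbCStatement) (N : ℕ) [NeZero N] :
    Function.Injective (h27_iota h2 N) := by
  intro x y hxy
  have hAn := h27_isAnC_jdC h1 N
  obtain ⟨px, hpx⟩ := hAn.expP (Quotient.out x)⁻¹
  obtain ⟨py, hpy⟩ := hAn.expP (Quotient.out y)⁻¹
  have hx : h27_iota h2 N x (jdC N N (dvd_refl N)) = px := h27_E_eq h2 N _ hAn hpx
  have hy : h27_iota h2 N y (jdC N N (dvd_refl N)) = py := h27_E_eq h2 N _ hAn hpy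
  have hpxy : px = py := by rw [← hx, ← hy, hxy]
  rw [hpxy] at hpx
  have hfun := h23_fun_unique hpx hpy
  have hmem : (Quotient.out x)⁻¹ * Quotient.out y ∈ Gamma0 N := by
    apply mem_Gamma0_of_jAt_smul_eq
    intro τ
    have h1 := congrFun hfun (Quotient.out y • τ)
    simp only [inv_smul_smul] at h1
    rw [mul_smul]
    exact h1
  have := (QuotientGroup.eq (s := Gamma0 N)).mpr hmem
  rwa [QuotientGroup.out_eq', QuotientGroup.out_eq'] at this

theorem h27_iota_order_smul (h1 : AnCStatement) (h2 : EmbCStatement) (N : ℕ) [NeZero N]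
    (x : SL(2, ℤ) ⧸ Gamma0 N) (f : FC N) :
    (h27_iota h2 N (ModularGroup.T • x) f).order = (h27_iota h2 N x f).order := by
  by_cases hf0 : f = 0
  · subst hf0
    simp
  obtain ⟨P, Q, hAn⟩ := (h1 N).1 f
  set g := Quotient.out x with hg
  set g' := Quotient.out (ModularGroup.T • x) with hg'
  obtain ⟨p, hp⟩ := hAn.expP g⁻¹
  obtain ⟨q, hq⟩ := hAn.expQ g⁻¹
  obtain ⟨p', hp'⟩ := hAn.expP g'⁻¹
  obtain ⟨q', hq'⟩ := hAn.expQ g'⁻¹
  have hcos : (ModularGroup.T * g)⁻¹ * g' ∈ Gamma0 N := h84_out_smul N ModularGroup.T x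
  have key : ∀ {R : ℍ → ℂ}, (∀ γ ∈ Gamma0 N, ∀ τ : ℍ, R (γ • τ) = R τ) →
      ∀ τ : ℍ, R (g'⁻¹ • (ModularGroup.T • τ)) = R (g⁻¹ • τ) := by
    intro R hR τ
    rw [h84_translate_congr hR hcos, mul_inv_rev, mul_smul, inv_smul_smul]
  have hpo : p.order = p'.order :=
    h84_order_comp_T (H := fun τ => P (g'⁻¹ • τ)) hp' (hp.congr fun τ => (key hAn.invP τ).symm)
  have hqo : q.order = q'.order :=
    h84_order_comp_T (H := fun τ => Q (g'⁻¹ • τ)) hq' (hq.congr fun τ => (key hAn.invQ τ).symm)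
  rw [h27_iota, h27_iota, h27_order_E h2 N g' hf0 hAn hp' hq', h27_order_E h2 N g hf0 hAn hp hq,
    hpo, hqo]

theorem h27_iota_dvd (h1 : AnCStatement) (h2 : EmbCStatement) (N : ℕ) [NeZero N]
    (x : SL(2, ℤ) ⧸ Gamma0 N) (k : ℕ) (hk : ModularGroup.T ^ k • x = x) (f : FC N)
    (hf0 : f ≠ 0) : (N : ℤ) ∣ k * (h27_iota h2 N x f).order := by
  obtain ⟨P, Q, hAn⟩ := (h1 N).1 f
  set g := Quotient.out x with hg
  obtain ⟨p, hp⟩ := hAn.expP g⁻¹
  obtain ⟨q, hq⟩ := hAn.expQ g⁻¹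
  have hcos : (ModularGroup.T ^ k * g)⁻¹ * g ∈ Gamma0 N := by
    have := h84_out_smul N (ModularGroup.T ^ k) x
    rwa [hk] at this
  have key : ∀ {R : ℍ → ℂ}, (∀ γ ∈ Gamma0 N, ∀ τ : ℍ, R (γ • τ) = R τ) →
      ∀ τ : ℍ, R (g⁻¹ • (ModularGroup.T ^ k • τ)) = R (g⁻¹ • τ) := by
    intro R hR τ
    rw [h84_translate_congr hR hcos, mul_inv_rev, mul_smul, inv_smul_smul]
  have hp0 : p ≠ 0 := h23_series_ne_zero hp (h84_translate_ne_zero (h27_isAnC_P_ne h1 hAn hf0) g)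
  have hq0 : q ≠ 0 := h23_series_ne_zero hq (h84_translate_ne_zero hAn.Q_ne g)
  have h1' := h84_dvd_mul_order_of_periodic hp hp0 k (key hAn.invP)
  have h2' := h84_dvd_mul_order_of_periodic hq hq0 k (key hAn.invQ)
  rw [h27_iota, h27_order_E h2 N g hf0 hAn hp hq, mul_sub]
  exact dvd_sub h1' h2'

/-- the cusp family over `ℂ`. -/
def h27_cuspFam (h1 : AnCStatement) (h2 : EmbCStatement) (N : ℕ) [NeZero N] :
    EmbFamily ℂ (FC N) (jC N)⁻¹ (SL(2, ℤ) ⧸ Gamma0 N) ModularGroup.T N where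
  θ := RingHom.id ℂ
  ι := h27_iota h2 N
  map_const := fun x a => h27_E_cst h2 N _ a
  map_t := fun x y => by
    rw [h27_iota, h27_iota, map_inv₀, map_inv₀, h27_E_jC h1, h27_E_jC h1]
  order_t := fun x => by
    rw [h27_iota, map_inv₀, h27_E_jC h1, h84_order_p0_inv]
  inj := h27_iota_injective h1 h2 N
  order_smul := fun x f => h27_iota_order_smul h1 h2 N x f
  dvd := fun x k _ hk f hf0 => h27_iota_dvd h1 h2 N x k hk f hf0

/-- **D-CUSP.** the family of cusp embeddings of `F_ℂ`. -/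
theorem cuspFamC : CuspFamCStatement := fun h1 h2 N _ =>
  ⟨h27_cuspFam h1 h2 N, fun x => h27_E_spec h2 N (Quotient.out x)⟩

end Fermat.Agent.Jac
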