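import Fermat.Agent.Jac.Skeleton

/-!
# IN-JAC, task CUSP: `cuspRoot : CuspRootStatement`

A holomorphic `p`-th root `A` of a function `G` with expansions at all cusps, with an automorphy
character for `Γ₀(N)` which is trivial on parabolic elements, has expansions at all cusps.

* `h72_conj_T_pow_mem`, `h72_conj_T_pow_isPar` : `g T^N g⁻¹ ∈ Γ₀(N)` and it has trace `2`;
* `h72_hasTExp_root` : the analytic core: a holomorphic `N`-periodic function `B` on `ℍ` such that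
  `B ^ p` has an expansion in `𝕋 = exp (2πiτ/N)` has such an expansion;
* `cuspRoot` : the interface statement.
-/

set_option autoImplicit false

open ModularCurve UpperHalfPlane CongruenceSubgroup Function
open scoped MatrixGroups Manifold

noncomputable section

namespace Fermat.Agent.Jac

open Fermat.Agent.S28 (HasTExp tParam)

/-! ### conjugates of `T ^ N` -/

theorem h72_conj_T_pow_coe (N : ℕ) (g : SL(2, ℤ)) :
    ((g * ModularGroup.T ^ (N : ℤ) * g⁻¹ : SL(2, ℤ)) : Matrix (Fin 2) (Fin 2) ℤ) =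
      !![1 - (N : ℤ) * (g 0 0 * g 1 0), (N : ℤ) * (g 0 0 * g 0 0);
         -((N : ℤ) * (g 1 0 * g 1 0)), 1 + (N : ℤ) * (g 0 0 * g 1 0)] := by
  have hdet : g 0 0 * g 1 1 - g 0 1 * g 1 0 = 1 := by
    have := g.det_coe
    rwa [Matrix.det_fin_two] at this
  rw [Matrix.SpecialLinearGroup.coe_mul, Matrix.SpecialLinearGroup.coe_mul,
    ModularGroup.coe_T_zpow, Matrix.SpecialLinearGroup.coe_inv, Matrix.adjugate_fin_two]
  ext i j
  fin_cases i <;> fin_cases j
  · simp [Matrix.mul_apply, Fin.sum_univ_two]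
    linear_combination hdet
  · simp [Matrix.mul_apply, Fin.sum_univ_two]
    ring
  · simp [Matrix.mul_apply, Fin.sum_univ_two]
    ring
  · simp [Matrix.mul_apply, Fin.sum_univ_two]
    linear_combination hdet

theorem h72_conj_T_pow_mem (N : ℕ) (g : SL(2, ℤ)) :
    g * ModularGroup.T ^ (N : ℤ) * g⁻¹ ∈ Gamma0 N := by
  rw [Gamma0_mem]
  have h := congrFun (congrFun (h72_conj_T_pow_coe N g) 1) 0
  simp only [Matrix.of_apply, Matrix.cons_val', Matrix.cons_val_zero, Matrix.cons_val_one,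
    Matrix.cons_val_fin_one] at h
  rw [h]
  push_cast
  simp

theorem h72_conj_T_pow_isPar (N : ℕ) (g : SL(2, ℤ)) :
    IsPar (⟨g * ModularGroup.T ^ (N : ℤ) * g⁻¹, h72_conj_T_pow_mem N g⟩ : Gamma0 N) := by
  unfold IsPar
  simp only
  rw [h72_conj_T_pow_coe, Matrix.trace_fin_two_of]
  ring

/-! ### periodicity of `A ∘ g` -/

theorem h72_comp_smul_periodic {N : ℕ} {A : ℍ → ℂ} {χ : Gamma0 N →* ℂˣ}
    (hχ : HasChar N A χ) (hpar : ∀ γ : Gamma0 N, IsPar γ → χ γ = 1) (g : SL(2, ℤ)) (τ : ℍ) :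
    A (g • ((N : ℝ) +ᵥ τ)) = A (g • τ) := by
  have h1 : ((N : ℝ) +ᵥ τ) = ModularGroup.T ^ (N : ℤ) • τ := by
    rw [UpperHalfPlane.modular_T_zpow_smul]
    simp
  have h2 : g • (ModularGroup.T ^ (N : ℤ) • τ) =
      (g * ModularGroup.T ^ (N : ℤ) * g⁻¹) • (g • τ) := by
    rw [mul_smul, mul_smul, inv_smul_smul]
  rw [h1, h2]
  have h3 := hχ ⟨g * ModularGroup.T ^ (N : ℤ) * g⁻¹, h72_conj_T_pow_mem N g⟩ (g • τ)
  simp only at h3
  rw [h3, hpar _ (h72_conj_T_pow_isPar N g)]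
  simp

theorem h72_mdiff_comp_smul {A : ℍ → ℂ} (hA : MDiff A) (g : SL(2, ℤ)) :
    MDiff (fun τ : ℍ => A (g • τ)) := by
  have hdet : 0 < ((g : GL (Fin 2) ℝ)).det.val := by
    simp
  exact hA.comp (UpperHalfPlane.mdifferentiable_smul hdet)

/-! ### the analytic core -/

theorem h72_mdiff_tParam (N : ℕ) : MDiff (fun τ : ℍ => tParam N τ) := by
  have h1 : MDiff (Function.Periodic.qParam (N : ℝ)) :=
    (Function.Periodic.differentiable_qParam (h := (N : ℝ))).mdifferentiable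
  exact h1.comp UpperHalfPlane.mdifferentiable_coe

theorem h72_tParam_vadd {N : ℕ} (hN : 0 < N) (τ : ℍ) :
    tParam N ((N : ℝ) +ᵥ τ) = tParam N τ := by
  have hN' : (N : ℂ) ≠ 0 := by exact_mod_cast hN.ne'
  simp only [tParam, Function.Periodic.qParam, Complex.ofReal_natCast, UpperHalfPlane.coe_vadd]
  have h : 2 * (Real.pi : ℂ) * Complex.I * ((N : ℂ) + (τ : ℂ)) / (N : ℂ) =
      2 * (Real.pi : ℂ) * Complex.I * (τ : ℂ) / (N : ℂ) + 2 * (Real.pi : ℂ) * Complex.I := by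
    field_simp
    ring
  rw [h, Complex.exp_add, Complex.exp_two_pi_mul_I, mul_one]

theorem h72_periodic_mul_tParam {N : ℕ} (hN : 0 < N) {B : ℍ → ℂ}
    (hper : ∀ τ : ℍ, B ((N : ℝ) +ᵥ τ) = B τ) (M : ℕ) :
    Periodic ((fun τ : ℍ => B τ * tParam N τ ^ M) ∘ ofComplex) (N : ℝ) := by
  intro w
  by_cases hw : 0 < Complex.im w
  · have hw' : 0 < Complex.im (w + (N : ℝ)) := by simpa using hw
    simp only [comp_apply, ofComplex_apply_of_im_pos hw', ofComplex_apply_of_im_pos hw]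
    have e : (⟨w + (N : ℝ), hw'⟩ : ℍ) = (N : ℝ) +ᵥ (⟨w, hw⟩ : ℍ) := by
      ext
      simp [add_comm]
    rw [e, hper, h72_tParam_vadd hN]
  · have hw' : Complex.im (w + (N : ℝ)) ≤ 0 := by simpa using hw
    simp only [comp_apply, ofComplex_apply_of_im_nonpos hw',
      ofComplex_apply_of_im_nonpos (not_lt.mp hw)]

/-- a function whose `p`-th power is bounded at `i∞` is bounded at `i∞`. -/
theorem h72_bdd_of_pow {p : ℕ} (hp : 0 < p) {C D : ℍ → ℂ} (hD : IsBoundedAtImInfty D)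
    (hCD : ∀ τ, ‖C τ‖ ^ p ≤ ‖D τ‖) : IsBoundedAtImInfty C := by
  rw [UpperHalfPlane.isBoundedAtImInfty_iff] at hD ⊢
  obtain ⟨K, A₀, hK⟩ := hD
  refine ⟨max 1 K, A₀, fun z hz => ?_⟩
  by_cases h1 : ‖C z‖ ≤ 1
  · exact h1.trans (le_max_left _ _)
  · have h2 : 1 ≤ ‖C z‖ := (not_le.mp h1).le
    calc ‖C z‖ ≤ ‖C z‖ ^ p := le_self_pow₀ h2 hp.ne'
      _ ≤ ‖D z‖ := hCD z
      _ ≤ K := hK z hz
      _ ≤ max 1 K := le_max_right _ _

/-- **analytic core**: a holomorphic `N`-periodic function on `ℍ`, a power of which has an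
expansion in `𝕋 = exp (2πiτ/N)`, has such an expansion. -/
theorem h72_hasTExp_root {N : ℕ} (hN : 0 < N) {p : ℕ} (hp : 0 < p) {B H : ℍ → ℂ}
    (hB : MDiff B) (hper : ∀ τ : ℍ, B ((N : ℝ) +ᵥ τ) = B τ)
    (hpow : ∀ τ, B τ ^ p = H τ) {s : LaurentSeries ℂ} (hH : HasTExp N H s) :
    ∃ s' : LaurentSeries ℂ, HasTExp N B s' := by
  obtain ⟨M, P, -, hsum⟩ := hH
  have hNr : (0 : ℝ) < (N : ℝ) := by exact_mod_cast hN
  have hCper := h72_periodic_mul_tParam hN hper M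
  have hChol : MDiff (fun τ : ℍ => B τ * tParam N τ ^ M) :=
    hB.mul ((h72_mdiff_tParam N).pow M)
  have hDbdd : IsBoundedAtImInfty (fun τ : ℍ => H τ * tParam N τ ^ M) := by
    refine UpperHalfPlane.isBoundedAtImInfty_of_hasSum_qExpansion (h := (N : ℝ))
      (c := fun n => PowerSeries.coeff n P) hNr (fun τ => ?_)
    simpa [smul_eq_mul, tParam] using hsum τ
  have hCbdd : IsBoundedAtImInfty (fun τ : ℍ => B τ * tParam N τ ^ M) := by
    refine h72_bdd_of_pow hp hDbdd (fun τ => ?_)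
    have ht : ‖tParam N τ‖ ≤ 1 := (Function.Periodic.norm_qParam_lt_one hNr τ.im_pos).le
    have ht0 : 0 ≤ ‖tParam N τ‖ := norm_nonneg _
    obtain ⟨k, rfl⟩ : ∃ k, p = k + 1 := ⟨p - 1, by omega⟩
    have e : (B τ * tParam N τ ^ M) ^ (k + 1) =
        (H τ * tParam N τ ^ M) * (tParam N τ ^ M) ^ k := by
      rw [← hpow τ]
      ring
    rw [← norm_pow, e, norm_mul]
    have h1 : ‖(tParam N τ ^ M) ^ k‖ ≤ 1 := by
      rw [norm_pow, norm_pow]
      exact pow_le_one₀ (pow_nonneg ht0 _) (pow_le_one₀ ht0 ht)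
    calc ‖H τ * tParam N τ ^ M‖ * ‖(tParam N τ ^ M) ^ k‖
        ≤ ‖H τ * tParam N τ ^ M‖ * 1 := by gcongr
      _ = ‖H τ * tParam N τ ^ M‖ := mul_one _
  refine ⟨HahnSeries.single (-(M : ℤ)) 1 * HahnSeries.ofPowerSeries ℤ ℂ
    (UpperHalfPlane.qExpansion (N : ℝ) (fun τ : ℍ => B τ * tParam N τ ^ M)), M,
    UpperHalfPlane.qExpansion (N : ℝ) (fun τ : ℍ => B τ * tParam N τ ^ M), rfl, fun τ => ?_⟩
  have := UpperHalfPlane.hasSum_qExpansion hNr hCper hChol hCbdd τ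
  simpa [smul_eq_mul, tParam] using this

/-! ### the interface statement -/

/-- **CUSP-ROOT.** -/
theorem cuspRoot : CuspRootStatement := by
  intro N _ p hp G A χ _ hA hpow hGc hχ hpar g
  obtain ⟨s, hs⟩ := hGc g
  have hN : 0 < N := Nat.pos_of_ne_zero (NeZero.ne N)
  exact h72_hasTExp_root hN hp (h72_mdiff_comp_smul hA g)
    (fun τ => h72_comp_smul_periodic hχ hpar g τ) (fun τ => hpow (g • τ)) hs

end Fermat.Agent.Jac
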