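import Fermat.Agent.Jac.DictCDefs
import Fermat.Agent.S24.DegLe

/-!
# IN-JAC, task D-DEG: `j` is transcendental over `ℂ` and `[F_ℂ : ℂ(j)] ≤ [SL₂(ℤ) : Γ₀(N)]`

Port of `S24/DegLe.lean` (helper52) from `ℚ̄` to `ℂ`.
-/

set_option autoImplicit false

open ModularCurve AlgebraicCurve CongruenceSubgroup IntermediateField UpperHalfPlane
open scoped MatrixGroups Manifold

noncomputable section

namespace Fermat.Agent.Jac

theorem h20c_coeffEmb_jq : coeffEmb ℂ jq = jqModC ℂ := by
  rw [← jqModC_rat]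
  exact coeffMap_jqModC (algebraMap ℚ ℂ)

theorem h20c_transcendental_coeffEmb_jq : Transcendental ℂ (coeffEmb ℂ jq) := by
  rw [h20c_coeffEmb_jq]
  exact P2MW.S_ModularCurve_coeff_jqModC_neg_one.ModularCurve.CharLRows.transcendental_jqModC ℂ

/-- `j` is transcendental over `ℂ`. -/
theorem h20c_transcendental_jC (N : ℕ) [NeZero N] : Transcendental ℂ (jC N) := by
  intro halg
  apply h20c_transcendental_coeffEmb_jq
  have h := (IntermediateField.isAlgebraic_iff (S := laurentBaseChange ℂ (modularFunctionFieldFull N))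
    (x := jC N)).mp halg
  exact h

theorem h20c_coeffEmb_injective : Function.Injective (coeffEmb ℂ) := by
  intro x y h
  ext n
  have := congrArg (fun s : LaurentSeries ℂ => s.coeff n) h
  simpa using this

theorem h20c_coeffEmb_algebraMap (r : ℚ) :
    coeffEmb ℂ (algebraMap ℚ (LaurentSeries ℚ) r) =
      algebraMap ℂ (LaurentSeries ℂ) (algebraMap ℚ ℂ r) := by
  rw [algebraMap_laurentSeries_eq_single, algebraMap_laurentSeries_eq_single, coeffEmb,
    coeffMap_single]

/-- The image in `F` of the ring `ℚ[j(q^d) : d ∣ N]`. -/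
def h20c_imageRing (N : ℕ) : Set (FC N) :=
  {x | ∃ f ∈ Algebra.adjoin ℚ (divisorExpansions N), (x : LaurentSeries ℂ) = coeffEmb ℂ f}

theorem h20c_zero_mem_imageRing (N : ℕ) : (0 : FC N) ∈ h20c_imageRing N :=
  ⟨0, Subalgebra.zero_mem _, by simp⟩

theorem h20c_imageRing_add (N : ℕ) [NeZero N] (a : FC N) (ha : a ∈ h20c_imageRing N) (b : FC N)
    (hb : b ∈ h20c_imageRing N) (m : ℕ) :
    a + ((m : ℕ) : ℂ⟮jC N⟯) • b ∈ h20c_imageRing N := by
  obtain ⟨f, hf, hfa⟩ := ha
  obtain ⟨g, hg, hgb⟩ := hb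
  refine ⟨f + (m : LaurentSeries ℚ) * g,
    Subalgebra.add_mem _ hf (Subalgebra.mul_mem _ (natCast_mem _ m) hg), ?_⟩
  have h1 : ((m : ℕ) : ℂ⟮jC N⟯) • b = (m : FC N) * b := by
    rw [Algebra.smul_def, map_natCast]
  rw [h1, map_add, map_mul, map_natCast, ← hfa, ← hgb]
  push_cast
  rfl

/-- the evaluation `ℚ[Y] → ℂ(j)`, `Y ↦ j`. -/
def h20c_evalGen (N : ℕ) [NeZero N] : Polynomial ℚ →+* ℂ⟮jC N⟯ :=
  Polynomial.eval₂RingHom (algebraMap ℚ ℂ⟮jC N⟯) (AdjoinSimple.gen ℂ (jC N))

theorem h20c_val_comp_evalGen (N : ℕ) [NeZero N] :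
    ((laurentBaseChange ℂ (modularFunctionFieldFull N)).val : FC N →+* LaurentSeries ℂ).comp
      ((algebraMap ℂ⟮jC N⟯ (FC N)).comp (h20c_evalGen N)) =
    (coeffEmb ℂ).comp (Fermat.Agent.S28.evalAtQ jq) := by
  refine Polynomial.ringHom_ext' (Subsingleton.elim _ _) ?_
  simp only [RingHom.comp_apply, h20c_evalGen, Polynomial.coe_eval₂RingHom, Polynomial.eval₂_X,
    Fermat.Agent.S28.evalAtQ]
  rfl

theorem h20c_evalGen_injective (N : ℕ) [NeZero N] : Function.Injective (h20c_evalGen N) := by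
  have h1 : Function.Injective ((coeffEmb ℂ).comp (Fermat.Agent.S28.evalAtQ jq)) := by
    refine h20c_coeffEmb_injective.comp ?_
    have h := transcendental_iff_injective.mp Fermat.Agent.S24.h52_transcendental_jq
    intro P Q hPQ
    apply h
    have e : ∀ R : Polynomial ℚ, Fermat.Agent.S28.evalAtQ jq R = Polynomial.aeval jq R := by
      intro R
      show Polynomial.eval₂ _ jq R = _
      rw [Polynomial.aeval_def]
    rw [← e, ← e]
    exact hPQ
  rw [← h20c_val_comp_evalGen N] at h1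
  have h2 : Function.Injective ((algebraMap ℂ⟮jC N⟯ (FC N)).comp (h20c_evalGen N)) :=
    Function.Injective.of_comp (f := (laurentBaseChange ℂ (modularFunctionFieldFull N)).val) h1
  exact Function.Injective.of_comp (f := algebraMap ℂ⟮jC N⟯ (FC N)) h2

theorem h20c_imageRing_deg (N : ℕ) [NeZero N] (a : FC N) (ha : a ∈ h20c_imageRing N) :
    IsIntegral ℂ⟮jC N⟯ a ∧ (minpoly ℂ⟮jC N⟯ a).natDegree ≤ (Gamma0 N).index := by
  obtain ⟨f, hf, hfa⟩ := ha
  obtain ⟨P, hP0, hPdeg, hPzero⟩ := Fermat.Agent.S24.h52_degLe_rat N hf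
  set p : Polynomial ℂ⟮jC N⟯ := P.map (h20c_evalGen N) with hp
  have hp0 : p ≠ 0 := by
    rw [hp, Ne, Polynomial.map_eq_zero_iff (h20c_evalGen_injective N)]
    exact hP0
  have hroot : Polynomial.aeval a p = 0 := by
    apply Subtype.val_injective
    show (laurentBaseChange ℂ (modularFunctionFieldFull N)).val (Polynomial.aeval a p) = (laurentBaseChange ℂ (modularFunctionFieldFull N)).val 0
    rw [map_zero, Polynomial.aeval_def, hp, Polynomial.eval₂_map]
    have h1 := Polynomial.hom_eval₂ P ((algebraMap ℂ⟮jC N⟯ (FC N)).comp (h20c_evalGen N))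
      ((laurentBaseChange ℂ (modularFunctionFieldFull N)).val : FC N →+* LaurentSeries ℂ) a
    have h2 := Polynomial.hom_eval₂ P (Fermat.Agent.S28.evalAtQ jq) (coeffEmb ℂ) f
    rw [hPzero, map_zero] at h2
    have h3 : (laurentBaseChange ℂ (modularFunctionFieldFull N)).val a = coeffEmb ℂ f := hfa
    erw [h1, h20c_val_comp_evalGen N, h3]
    exact h2.symm
  have hint : IsIntegral ℂ⟮jC N⟯ a := isAlgebraic_iff_isIntegral.mp ⟨p, hp0, hroot⟩
  refine ⟨hint, ?_⟩
  refine (Polynomial.natDegree_le_natDegree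
    (minpoly.degree_le_of_ne_zero ℂ⟮jC N⟯ a hp0 hroot)).trans ?_
  exact (Polynomial.natDegree_map_le).trans hPdeg

theorem h20c_coeffEmb_mem_FC (N : ℕ) {f : LaurentSeries ℚ}
    (hf : f ∈ Algebra.adjoin ℚ (divisorExpansions N)) :
    coeffEmb ℂ f ∈ laurentBaseChange ℂ (modularFunctionFieldFull N) := by
  refine coeffEmb_mem_laurentBaseChange ℂ ?_
  exact (IntermediateField.algebra_adjoin_le_adjoin ℚ _) hf

theorem h20c_imageRing_gen (N : ℕ) [NeZero N] :
    adjoin ℂ⟮jC N⟯ (h20c_imageRing N) = ⊤ := by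
  refine top_unique fun x _ => ?_
  set M : IntermediateField ℂ (FC N) :=
    (adjoin ℂ⟮jC N⟯ (h20c_imageRing N)).restrictScalars ℂ with hM
  -- the image of `F₀` lies in `lift M`
  have key : ∀ f ∈ modularFunctionFieldFull N, coeffEmb ℂ f ∈ lift M := by
    intro f hf
    induction hf using IntermediateField.adjoin_induction with
    | mem y hy =>
      have hy' : y ∈ Algebra.adjoin ℚ (divisorExpansions N) := Algebra.subset_adjoin hy
      have h1 : (⟨coeffEmb ℂ y, h20c_coeffEmb_mem_FC N hy'⟩ : FC N) ∈ M := by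
        rw [hM, IntermediateField.mem_restrictScalars]
        exact subset_adjoin _ _ ⟨y, hy', rfl⟩
      exact (mem_lift (⟨coeffEmb ℂ y, h20c_coeffEmb_mem_FC N hy'⟩ : FC N)).2 h1
    | algebraMap r =>
      rw [h20c_coeffEmb_algebraMap]
      exact (lift M).algebraMap_mem _
    | add y z _ _ hy hz =>
      rw [map_add]
      exact add_mem hy hz
    | inv y _ hy =>
      rw [map_inv₀]
      exact inv_mem hy
    | mul y z _ _ hy hz =>
      rw [map_mul]
      exact mul_mem hy hz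
  have hle : laurentBaseChange ℂ (modularFunctionFieldFull N) ≤ lift M := by
    show adjoin ℂ (⇑(coeffEmb ℂ) '' (modularFunctionFieldFull N : Set (LaurentSeries ℚ)))
      ≤ lift M
    rw [adjoin_le_iff]
    rintro _ ⟨f, hf, rfl⟩
    exact key f hf
  have hx : x ∈ M := (mem_lift x).1 (hle x.2)
  rwa [hM, IntermediateField.mem_restrictScalars] at hx

/-- `[F : ℂ(j)] ≤ [SL₂(ℤ) : Γ₀(N)]`. -/
theorem h20c_finrank_le_index (N : ℕ) [NeZero N] :
    FiniteDimensional ℂ⟮jC N⟯ (FC N) ∧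
      Module.finrank ℂ⟮jC N⟯ (FC N) ≤ (Gamma0 N).index :=
  Fermat.Agent.S24.h52_finrank_le_of_forall_natDegree_le (h20c_imageRing N) (Gamma0 N).index
    ⟨0, h20c_zero_mem_imageRing N⟩ (h20c_imageRing_add N) (h20c_imageRing_deg N)
    (h20c_imageRing_gen N)


/-- **D-DEG.** -/
theorem degC : DegCStatement := fun N _ =>
  ⟨h20c_transcendental_jC N, (h20c_finrank_le_index N).1, (h20c_finrank_le_index N).2⟩

end Fermat.Agent.Jac
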