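import Mathlib
import Fermat.Prelude.Def_ModularCurve_LaurentCoeff

/-!
# IN-JAC, DESC0 (core, field-independent): descent along a coefficient extension

`K ⊆ L` fields, `Φ = coeffMap (algebraMap K L) : K((q)) → L((q))` (coefficientwise).

* `h49_linDisj` : `L` and `K((q))` are linearly disjoint over `K` inside `L((q))`.
* `h49_mem_of_coeffMap_mem_adjoin` : if `F` is an intermediate field of `K((q)) / K` and
  `Φ g` lies in the field generated over `L` by `Φ '' F`, then `g ∈ F`.
* `h49_exists_root_laurent` : `p`-th roots in `K((q))` (`K` algebraically closed, char. 0).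
* `h49_root_descent` : if `h ^ p = Φ f` with `f ≠ 0` then `h = Φ g` with `g ^ p = f`.
-/

set_option autoImplicit false

open ModularCurve

noncomputable section

namespace Fermat.Agent.Jac

section LinDisj

variable {K L : Type*} [Field K] [Field L] [Algebra K L]

theorem h49_coeffMap_injective :
    Function.Injective (coeffMap (algebraMap K L)) := by
  intro x y h
  ext n
  have := congrArg (fun z => z.coeff n) h
  simpa using this

theorem h49_coeff_C_mul (c : L) (x : LaurentSeries L) (n : ℤ) :
    (HahnSeries.C c * x).coeff n = c * x.coeff n := by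
  rw [HahnSeries.C_mul_eq_smul, HahnSeries.coeff_smul, smul_eq_mul]

/-- **linear disjointness** of `L` and `K((q))` over `K` inside `L((q))`. -/
theorem h49_linDisj {ι : Type*} (b : ι → L) (hb : LinearIndependent K b)
    (w : ι →₀ LaurentSeries K)
    (h : (w.sum fun i x => HahnSeries.C (b i) * coeffMap (algebraMap K L) x) = 0) :
    w = 0 := by
  classical
  ext i n
  have hn : (∑ a ∈ w.support, b a * algebraMap K L ((w a).coeff n)) = 0 := by
    have h1 := congrArg (fun z : LaurentSeries L => z.coeff n) h
    simp only [HahnSeries.coeff_zero, Finsupp.sum] at h1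
    have h2 : (∑ a ∈ w.support, HahnSeries.C (b a) * (coeffMap (algebraMap K L)) (w a)).coeff n
        = ∑ a ∈ w.support, (HahnSeries.C (b a) * (coeffMap (algebraMap K L)) (w a)).coeff n :=
      map_sum (HahnSeries.coeff.addMonoidHom n) _ _
    rw [h2] at h1
    rw [← h1]
    refine Finset.sum_congr rfl fun a _ => ?_
    rw [h49_coeff_C_mul, coeffMap_coeff]
  -- linear independence
  have hli := linearIndependent_iff'.mp hb w.support (fun i => (w i).coeff n) (by
    rw [← hn]
    refine Finset.sum_congr rfl fun a _ => ?_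
    rw [Algebra.smul_def, mul_comm])
  by_cases hi : i ∈ w.support
  · simpa using hli i hi
  · have : w i = 0 := by simpa using hi
    simp [this]

/-- the additive submonoid of all `∑ᵢ bᵢ Φ(xᵢ)`, `xᵢ ∈ F`. -/
def h49_repSet {ι : Type*} (b : ι → L) (F : IntermediateField K (LaurentSeries K)) :
    AddSubmonoid (LaurentSeries L) where
  carrier := {z | ∃ x : ι →₀ LaurentSeries K, (∀ i, x i ∈ F) ∧
    z = x.sum fun i y => HahnSeries.C (b i) * coeffMap (algebraMap K L) y}
  zero_mem' := ⟨0, fun i => by simp, by simp⟩
  add_mem' := by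
    classical
    rintro z z' ⟨x, hx, rfl⟩ ⟨x', hx', rfl⟩
    refine ⟨x + x', fun i => by simpa using add_mem (hx i) (hx' i), ?_⟩
    rw [Finsupp.sum_add_index']
    · intro i; simp
    · intro i y y'; simp [mul_add]

theorem h49_mem_repSet_iff {ι : Type*} (b : ι → L) (F : IntermediateField K (LaurentSeries K))
    (z : LaurentSeries L) :
    z ∈ h49_repSet b F ↔ ∃ x : ι →₀ LaurentSeries K, (∀ i, x i ∈ F) ∧
      z = x.sum fun i y => HahnSeries.C (b i) * coeffMap (algebraMap K L) y := Iff.rfl

theorem h49_coeffMap_smul (a : K) (y : LaurentSeries K) :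
    coeffMap (algebraMap K L) (a • y) =
      HahnSeries.C (algebraMap K L a) * coeffMap (algebraMap K L) y := by
  ext n
  rw [h49_coeff_C_mul, coeffMap_coeff, coeffMap_coeff, HahnSeries.coeff_smul, smul_eq_mul,
    map_mul]

theorem h49_gen_mem_repSet {ι : Type*} (b : Module.Basis ι K L)
    (F : IntermediateField K (LaurentSeries K)) (c : L) {y : LaurentSeries K} (hy : y ∈ F) :
    HahnSeries.C c * coeffMap (algebraMap K L) y ∈ h49_repSet (⇑b) F := by
  classical
  refine ⟨(b.repr c).mapRange (fun a => a • y) (by simp), fun i => ?_, ?_⟩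
  · rw [Finsupp.mapRange_apply]
    have h1 : (b.repr c) i • y = algebraMap K (LaurentSeries K) ((b.repr c) i) * y := by
      rw [algebraMap_laurentSeries_eq_single, ← HahnSeries.C_apply, HahnSeries.C_mul_eq_smul]
    rw [h1]
    exact F.mul_mem (F.algebraMap_mem _) hy
  · rw [Finsupp.sum_mapRange_index (by intro i; simp)]
    have hc : c = (b.repr c).sum fun i a => a • b i := by
      conv_lhs => rw [← b.linearCombination_repr c]
      rw [Finsupp.linearCombination_apply]
    conv_lhs => rw [hc]
    rw [Finsupp.sum, Finsupp.sum, map_sum, Finset.sum_mul]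
    refine Finset.sum_congr rfl fun i _ => ?_
    rw [h49_coeffMap_smul, Algebra.smul_def, map_mul]
    ring

theorem h49_adjoin_le_repSet {ι : Type*} (b : Module.Basis ι K L)
    (F : IntermediateField K (LaurentSeries K)) {z : LaurentSeries L}
    (hz : z ∈ Algebra.adjoin L (⇑(coeffMap (algebraMap K L)) '' (F : Set (LaurentSeries K)))) :
    z ∈ h49_repSet (⇑b) F := by
  classical
  induction hz using Algebra.adjoin_induction with
  | mem z hz =>
      obtain ⟨y, hy, rfl⟩ := hz
      simpa using h49_gen_mem_repSet b F 1 hy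
  | algebraMap c =>
      have h1 : algebraMap L (LaurentSeries L) c
          = HahnSeries.C c * coeffMap (algebraMap K L) 1 := by
        rw [map_one, mul_one, algebraMap_laurentSeries_eq_single]
        rfl
      rw [h1]
      exact h49_gen_mem_repSet b F c F.one_mem
  | add z z' _ _ hz hz' => exact add_mem hz hz'
  | mul z z' _ _ hz hz' =>
      obtain ⟨x, hx, rfl⟩ := hz
      obtain ⟨x', hx', rfl⟩ := hz'
      rw [Finsupp.sum, Finsupp.sum, Finset.sum_mul_sum]
      refine AddSubmonoid.sum_mem _ fun i _ => AddSubmonoid.sum_mem _ fun j _ => ?_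
      have : HahnSeries.C (b i) * coeffMap (algebraMap K L) (x i) *
          (HahnSeries.C (b j) * coeffMap (algebraMap K L) (x' j))
          = HahnSeries.C (b i * b j) * coeffMap (algebraMap K L) (x i * x' j) := by
        rw [map_mul, map_mul]; ring
      rw [this]
      exact h49_gen_mem_repSet b F _ (F.mul_mem (hx i) (hx' j))

/-- **descent of membership**: if `Φ g` lies in the field generated over `L` by `Φ '' F`,
then `g ∈ F`. -/
theorem h49_mem_of_coeffMap_mem_adjoin (F : IntermediateField K (LaurentSeries K))
    (g : LaurentSeries K)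
    (hg : coeffMap (algebraMap K L) g ∈ IntermediateField.adjoin L
      (⇑(coeffMap (algebraMap K L)) '' (F : Set (LaurentSeries K)))) :
    g ∈ F := by
  classical
  set b := Module.Basis.ofVectorSpace K L with hb
  obtain ⟨r, hr, s, hs, hrs⟩ := IntermediateField.mem_adjoin_iff_div.mp hg
  by_cases hs0 : s = 0
  · rw [hs0, div_zero] at hrs
    have : g = 0 := h49_coeffMap_injective (by rw [hrs, map_zero])
    rw [this]; exact F.zero_mem
  obtain ⟨x, hx, rfl⟩ := h49_adjoin_le_repSet b F hr
  obtain ⟨y, hy, rfl⟩ := h49_adjoin_le_repSet b F hs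
  -- the relation `Φ g * s = r`
  have hrel : coeffMap (algebraMap K L) g *
      (y.sum fun i z => HahnSeries.C (b i) * coeffMap (algebraMap K L) z)
      = x.sum fun i z => HahnSeries.C (b i) * coeffMap (algebraMap K L) z := by
    rw [hrs, div_mul_cancel₀ _ hs0]
  -- `w := g • y - x`
  have hw : (y.mapRange (fun z => g * z) (by simp) - x) = 0 := by
    apply h49_linDisj (⇑b) b.linearIndependent
    rw [Finsupp.sum_sub_index (by intro i y₁ y₂; simp [mul_sub]),
      Finsupp.sum_mapRange_index (by intro i; simp), ← hrel, sub_eq_zero, Finsupp.sum,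
      Finsupp.sum, Finset.mul_sum]
    refine Finset.sum_congr rfl fun i _ => ?_
    rw [map_mul]; ring
  -- some `y i ≠ 0`
  have hy0 : y ≠ 0 := by
    rintro rfl
    exact hs0 (by simp)
  obtain ⟨i, hi⟩ : ∃ i, y i ≠ 0 := by
    by_contra hcon
    exact hy0 (Finsupp.ext fun i => by
      by_contra hne
      exact hcon ⟨i, hne⟩)
  have hgi : g * y i = x i := by
    have := DFunLike.congr_fun hw i
    simpa [sub_eq_zero] using this
  have : g = x i / y i := by
    rw [eq_div_iff hi, hgi]
  rw [this]
  exact F.div_mem (hx i) (hy i)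

end LinDisj

end Fermat.Agent.Jac
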