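import Fermat.Agent.Jac.Skeleton2
import Fermat.Agent.Jac.Desc0Core

/-!
# IN-JAC, DESC0: `F_ℂ ∩ ℚ̄((q)) = F`

* `desc : DescStatement` : an element of `F_ℂ` with coefficients in `ℚ̄` lies in `F`
  (linear disjointness of `ℂ` and `ℚ̄((q))` over `ℚ̄`).
* `baseChange : BaseChangeStatement` : the coefficient embedding maps `F` into `F_ℂ`.
-/

set_option autoImplicit false

open ModularCurve

noncomputable section

namespace Fermat.Agent.Jac

open Fermat.Agent.S24 (Kbar FF embC)

theorem h49_embC_algebraMap (r : ℚ) : embC (algebraMap ℚ Kbar r) = algebraMap ℚ ℂ r := by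
  simp [embC]

theorem h49_coeffEmb_eq (x : LaurentSeries ℚ) :
    coeffEmb ℂ x = coeffMap embC (coeffEmb Kbar x) := by
  rw [coeffEmb, coeffEmb, coeffMap_coeffMap]
  exact coeffMap_congr (RingHom.ext fun r => (h49_embC_algebraMap r).symm) x

/-- general form of `DescStatement`, for an arbitrary `F₀`. -/
theorem h49_desc_general (F₀ : IntermediateField ℚ (LaurentSeries ℚ)) (y : LaurentSeries Kbar)
    (hy : coeffMap embC y ∈ laurentBaseChange ℂ F₀) : y ∈ laurentBaseChange Kbar F₀ := by
  letI : Algebra Kbar ℂ := embC.toAlgebra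
  have hle : laurentBaseChange ℂ F₀ ≤ IntermediateField.adjoin ℂ
      (⇑(coeffMap (algebraMap Kbar ℂ)) '' ((laurentBaseChange Kbar F₀ :
        IntermediateField Kbar (LaurentSeries Kbar)) : Set (LaurentSeries Kbar))) := by
    refine IntermediateField.adjoin.mono ℂ _ _ ?_
    rintro _ ⟨x, hx, rfl⟩
    exact ⟨coeffEmb Kbar x, coeffEmb_mem_laurentBaseChange Kbar hx, (h49_coeffEmb_eq x).symm⟩
  exact h49_mem_of_coeffMap_mem_adjoin (K := Kbar) (L := ℂ) (laurentBaseChange Kbar F₀) y
    (hle hy)

/-- general form of `BaseChangeStatement`, for an arbitrary `F₀`. -/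
theorem h49_baseChange_general (F₀ : IntermediateField ℚ (LaurentSeries ℚ))
    (y : LaurentSeries Kbar) (hy : y ∈ laurentBaseChange Kbar F₀) :
    coeffMap embC y ∈ laurentBaseChange ℂ F₀ := by
  rw [mem_laurentBaseChange_iff] at hy
  induction hy using Subfield.closure_induction with
  | mem y hy =>
      rcases hy with ⟨a, rfl⟩ | ⟨z, hz, rfl⟩
      · rw [algebraMap_laurentSeries_eq_single, coeffMap_single,
          ← algebraMap_laurentSeries_eq_single]
        exact (laurentBaseChange ℂ F₀).algebraMap_mem _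
      · rw [← h49_coeffEmb_eq]
        exact coeffEmb_mem_laurentBaseChange ℂ hz
  | one => simp
  | add x y _ _ hx hy => simpa using add_mem hx hy
  | neg x _ hx => simpa using neg_mem hx
  | inv x _ hx => simpa using inv_mem hx
  | mul x y _ _ hx hy => simpa using mul_mem hx hy

/-- **DESC0.** -/
theorem desc : DescStatement := fun N _ y hy =>
  h49_desc_general (modularFunctionFieldFull N) y hy

/-- **BC0.** -/
theorem baseChange : BaseChangeStatement := fun N _ y hy =>
  h49_baseChange_general (modularFunctionFieldFull N) y hy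

end Fermat.Agent.Jac
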