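import Fermat.Agent.Jac.Skeleton2
import Fermat.Agent.Jac.Desc0Core

/-!
# IN-JAC, ROOT-SERIES: a `p`-th root in `ℂ((q))` of a series with coefficients in `ℚ̄` has
coefficients in `ℚ̄`

General form: `K` algebraically closed of characteristic `0`, `L ⊇ K` any field.

* `h49_exists_root_powerSeries` : `p`-th roots of power series with nonzero constant term
  (Hensel's lemma in `K⟦q⟧`).
* `h49_exists_root_laurent` : `p`-th roots of Laurent series whose order is divisible by `p`.
* `h49_root_descent` : if `s ^ p = Φ x` then `s = Φ y` for some `y` (with `y ^ p = x`).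
* `rootSeries : RootSeriesStatement`.
-/

set_option autoImplicit false

open ModularCurve

noncomputable section

namespace Fermat.Agent.Jac

open Fermat.Agent.S24 (Kbar FF embC)

section Root

variable {K : Type*} [Field K] [IsAlgClosed K] [CharZero K]

/-- `p`-th roots of power series with nonzero constant coefficient. -/
theorem h49_exists_root_powerSeries (p : ℕ) (hp : 0 < p) (u : PowerSeries K)
    (hu : PowerSeries.constantCoeff u ≠ 0) : ∃ v : PowerSeries K, v ^ p = u := by
  obtain ⟨c₀, hc₀⟩ := IsAlgClosed.exists_pow_nat_eq (PowerSeries.constantCoeff u) hp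
  have hc₀ne : c₀ ≠ 0 := by
    rintro rfl
    rw [zero_pow hp.ne'] at hc₀
    exact hu hc₀.symm
  have h1 : (Polynomial.X ^ p - Polynomial.C u : Polynomial (PowerSeries K)).eval
      (PowerSeries.C c₀) ∈ (Ideal.span {PowerSeries.X} : Ideal (PowerSeries K)) := by
    rw [Ideal.mem_span_singleton, PowerSeries.X_dvd_iff]
    simp [hc₀]
  have h2 : IsUnit (Ideal.Quotient.mk (Ideal.span {PowerSeries.X} : Ideal (PowerSeries K))
      ((Polynomial.X ^ p - Polynomial.C u : Polynomial (PowerSeries K)).derivative.eval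
        (PowerSeries.C c₀))) := by
    apply IsUnit.map
    have h3 : (Polynomial.X ^ p - Polynomial.C u : Polynomial (PowerSeries K)).derivative.eval
        (PowerSeries.C c₀) = PowerSeries.C ((p : K) * c₀ ^ (p - 1)) := by
      simp [Polynomial.derivative_X_pow]
    rw [h3]
    apply IsUnit.map
    exact (mul_ne_zero (Nat.cast_ne_zero.mpr hp.ne') (pow_ne_zero _ hc₀ne)).isUnit
  obtain ⟨a, ha, -⟩ := HenselianRing.is_henselian (R := PowerSeries K)
    (I := Ideal.span {PowerSeries.X})
    (Polynomial.X ^ p - Polynomial.C u) (Polynomial.monic_X_pow_sub_C u hp.ne')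
    (PowerSeries.C c₀) h1 h2
  refine ⟨a, ?_⟩
  have := ha
  simp only [Polynomial.IsRoot, Polynomial.eval_sub, Polynomial.eval_pow, Polynomial.eval_X,
    Polynomial.eval_C, sub_eq_zero] at this
  exact this

/-- `p`-th roots of Laurent series whose order is divisible by `p`. -/
theorem h49_exists_root_laurent (p : ℕ) (hp : 0 < p) (x : LaurentSeries K) (hx : x ≠ 0)
    (k : ℤ) (hk : x.order = p * k) : ∃ g : LaurentSeries K, g ^ p = x := by
  obtain ⟨v, hv⟩ := h49_exists_root_powerSeries p hp x.powerSeriesPart (by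
    rw [← PowerSeries.coeff_zero_eq_constantCoeff_apply, LaurentSeries.powerSeriesPart_coeff]
    simpa using (HahnSeries.coeff_order_eq_zero (x := x)).not.mpr hx)
  refine ⟨HahnSeries.single k 1 * HahnSeries.ofPowerSeries ℤ K v, ?_⟩
  rw [mul_pow, HahnSeries.single_pow, ← map_pow, hv, one_pow, nsmul_eq_mul, ← hk]
  exact LaurentSeries.single_order_mul_powerSeriesPart x

variable {L : Type*} [Field L] [Algebra K L]

omit [IsAlgClosed K] [CharZero K] in
theorem h49_order_coeffMap (x : LaurentSeries K) (hx : x ≠ 0) :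
    (coeffMap (algebraMap K L) x).order = x.order := by
  have hx' : coeffMap (algebraMap K L) x ≠ 0 := fun h =>
    hx (h49_coeffMap_injective (by rw [h, map_zero]))
  apply le_antisymm
  · apply HahnSeries.order_le_of_coeff_ne_zero
    rw [coeffMap_coeff]
    exact fun h => (HahnSeries.coeff_order_eq_zero (x := x)).not.mpr hx
      ((algebraMap K L).injective (by rw [h, map_zero]))
  · apply HahnSeries.order_le_of_coeff_ne_zero
    intro h
    have := (HahnSeries.coeff_order_eq_zero (x := coeffMap (algebraMap K L) x)).not.mpr hx'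
    rw [coeffMap_coeff, h, map_zero] at this
    exact this rfl

/-- **descent of `p`-th roots.** -/
theorem h49_root_descent (p : ℕ) (hp : 0 < p) (x : LaurentSeries K) (s : LaurentSeries L)
    (hs : s ^ p = coeffMap (algebraMap K L) x) :
    ∃ y : LaurentSeries K, s = coeffMap (algebraMap K L) y ∧ y ^ p = x := by
  by_cases hx : x = 0
  · subst hx
    rw [map_zero] at hs
    exact ⟨0, by rw [map_zero]; exact pow_eq_zero_iff hp.ne' |>.mp hs, zero_pow hp.ne'⟩
  have hΦx : coeffMap (algebraMap K L) x ≠ 0 := fun h =>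
    hx (h49_coeffMap_injective (by rw [h, map_zero]))
  have hs0 : s ≠ 0 := by
    rintro rfl
    rw [zero_pow hp.ne'] at hs
    exact hΦx hs.symm
  -- the order of `x` is divisible by `p`
  have hord : x.order = p * s.order := by
    rw [← h49_order_coeffMap (L := L) x hx, ← hs, HahnSeries.order_pow, nsmul_eq_mul]
  obtain ⟨g, hg⟩ := h49_exists_root_laurent p hp x hx s.order hord
  have hg0 : g ≠ 0 := by
    rintro rfl
    rw [zero_pow hp.ne'] at hg
    exact hx hg.symm
  have hΦg : coeffMap (algebraMap K L) g ≠ 0 := fun h =>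
    hg0 (h49_coeffMap_injective (by rw [h, map_zero]))
  -- roots of unity
  have : NeZero (p : K) := ⟨Nat.cast_ne_zero.mpr hp.ne'⟩
  have : NeZero p := ⟨hp.ne'⟩
  obtain ⟨ζ, hζ⟩ := HasEnoughRootsOfUnity.exists_primitiveRoot K p
  let ψ : K →+* LaurentSeries L := (coeffMap (algebraMap K L)).comp (HahnSeries.C)
  have hψinj : Function.Injective ψ := ψ.injective
  have hζ' : IsPrimitiveRoot (ψ ζ) p := hζ.map_of_injective hψinj
  have hpow : (s / coeffMap (algebraMap K L) g) ^ p = 1 := by
    rw [div_pow, ← map_pow, hg, hs, div_self hΦx]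
  obtain ⟨i, -, hi⟩ := hζ'.eq_pow_of_pow_eq_one hpow
  refine ⟨HahnSeries.C (ζ ^ i) * g, ?_, ?_⟩
  · rw [map_mul, map_pow]
    have : s = (s / coeffMap (algebraMap K L) g) * coeffMap (algebraMap K L) g := by
      rw [div_mul_cancel₀ _ hΦg]
    rw [this, ← hi, map_pow]
    rfl
  · rw [mul_pow, hg, ← map_pow, ← pow_mul, mul_comm i p, pow_mul, hζ.pow_eq_one, one_pow,
      map_one, one_mul]

end Root

/-- **ROOT-SERIES.** -/
theorem rootSeries : RootSeriesStatement := by
  intro p hp x s hs
  let _ : Algebra Kbar ℂ := embC.toAlgebra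
  obtain ⟨y, hy, -⟩ := h49_root_descent (K := Kbar) (L := ℂ) p hp x s hs
  exact ⟨y, hy⟩

end Fermat.Agent.Jac
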