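import Fermat.Agent.S24.OrbitPlaces

/-!
# IN-JAC, task P-DICT (core): the pointwise orbit/place dictionary

General in `K`, `F`.  Under the hypotheses of the orbit counting theorem of S24
(`card_zeroPlaces_eq_card_orbits`), every place `v` over `t = 0` is induced by a member `ι x` of
the embedding family, with multiplicity `m`, where `h = m * k` and `k` is a period of `x` under
the generator `g` of the stabiliser.
-/

set_option autoImplicit false

open ModularCurve AlgebraicCurve

noncomputable section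

namespace Fermat.Agent.Jac

open Fermat.Agent.S24 (EmbFamily)

/-- **P-DICT core.** every place over `t = 0` is induced by a member of the family. -/
theorem h24_exists_emb_of_place {K F : Type*} [Field K] [Field F] [Algebra K F]
    (t : F) (n : ℕ)
    (hFI : ∃ s : Finset (Place K F), (∀ v, v ∈ s ↔ 0 < v.ord t) ∧ ∑ v ∈ s, v.ord t = (n : ℤ))
    (hdeg : ∀ v : Place K F, v.deg = 1)
    {G : Type*} [Group G] {X : Type*} [Fintype X] [MulAction G X] (g : G) (h : ℕ) (hh : 0 < h)
    (E : EmbFamily K F t X g h) (hn : n ≤ Fintype.card X)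
    (v : Place K F) (hv : 0 < v.ord t) :
    ∃ (x : X) (m k : ℕ), 0 < m ∧ 0 < k ∧ h = m * k ∧ g ^ k • x = x ∧
      ∀ f : F, f ≠ 0 → (E.ι x f).order = m * v.ord f := by
  classical
  have hA : ∀ (v : Place K F), 0 < v.ord t → ∀ Y : Finset X,
      (∀ y ∈ Y, ∃ m : ℕ, 0 < m ∧ ∀ f : F, f ≠ 0 → (E.ι y f).order = m * v.ord f) →
      (Y.card : ℤ) ≤ v.ord t := by
    intro v hv Y hY
    have h1 := Fermat.Agent.S24.card_le_ord_of_induce_same_place t v hv E.θ (Y := {y // y ∈ Y})
      (fun y => E.ι y.1) (fun y a => E.map_const y.1 a) (fun y y' => E.map_t y.1 y'.1)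
      (fun y y' hyy' => Subtype.ext (E.inj hyy')) (hdeg v) (fun y => hY y.1 y.2)
    simpa using h1
  have hB : ∀ x : X, ∃ (v : Place K F) (m : ℕ), 0 < m ∧
      ∀ f : F, f ≠ 0 → (E.ι x f).order = m * v.ord f := by
    intro x
    exact Fermat.Agent.S24.exists_place_of_emb t E.θ (E.ι x) (E.map_const x)
      (by rw [E.order_t x]; exact_mod_cast hh)
  obtain ⟨s, hs, hsum⟩ := hFI
  choose vp m hm hvm using hB
  have hhZ : (0 : ℤ) < h := by exact_mod_cast hh
  have hmZ : ∀ x, (0 : ℤ) < m x := fun x => by exact_mod_cast hm x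
  have ht0 : X → t ≠ 0 := by
    intro x ht
    have h1 := E.order_t x
    have h2 : E.ι x t = 0 := (map_eq_zero (E.ι x)).2 ht
    rw [h2, HahnSeries.order_zero] at h1
    omega
  have hht : ∀ x, (h : ℤ) = m x * (vp x).ord t := by
    intro x
    rw [← hvm x t (ht0 x), E.order_t x]
  have hpos : ∀ x, 0 < (vp x).ord t := by
    intro x
    have h1 : (0 : ℤ) < m x * (vp x).ord t := by rw [← hht x]; exact hhZ
    exact pos_of_mul_pos_right h1 (hmZ x).le
  have hmem : ∀ x, vp x ∈ s := fun x => (hs _).2 (hpos x)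
  let fib : Place K F → Finset X := fun v => Finset.univ.filter (fun x => vp x = v)
  have hfib_mem : ∀ v x, x ∈ fib v ↔ vp x = v := by
    intro v x
    simp only [fib, Finset.mem_filter, Finset.mem_univ, true_and]
  have hfib_le : ∀ v ∈ s, ((fib v).card : ℤ) ≤ v.ord t := by
    intro v hv
    apply hA v ((hs v).1 hv)
    intro y hy
    have hy' : vp y = v := (hfib_mem v y).1 hy
    exact ⟨m y, hm y, fun f hf => by rw [← hy']; exact hvm y f hf⟩
  have hcard : Fintype.card X = ∑ v ∈ s, (fib v).card := by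
    rw [← Finset.card_univ]
    exact Finset.card_eq_sum_card_fiberwise (fun x _ => hmem x)
  have hcardZ : (Fintype.card X : ℤ) = ∑ v ∈ s, ((fib v).card : ℤ) := by
    rw [hcard]
    push_cast
    rfl
  have hle : (Fintype.card X : ℤ) ≤ n := by
    rw [hcardZ, ← hsum]
    exact Finset.sum_le_sum hfib_le
  have hnX : n = Fintype.card X := by omega
  have hfib_eq : ∀ v ∈ s, ((fib v).card : ℤ) = v.ord t := by
    have hz : ∑ v ∈ s, (v.ord t - ((fib v).card : ℤ)) = 0 := by
      rw [Finset.sum_sub_distrib, hsum, ← hcardZ, hnX]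
      simp
    have h1 := (Finset.sum_eq_zero_iff_of_nonneg
      (fun v hv => sub_nonneg.2 (hfib_le v hv))).1 hz
    intro v hv
    have := h1 v hv
    omega
  have hvg : ∀ x, vp (g • x) = vp x := by
    intro x
    refine Fermat.Agent.S24.OrbitPlaces.place_eq_of_proportional _ _ (m (g • x)) (m x)
      (hm _) (hm _) ?_
    intro f hf
    rw [← hvm (g • x) f hf, ← hvm x f hf, E.order_smul]
  have hvpow : ∀ (k : ℕ) (x : X), vp (g ^ k • x) = vp x := by
    intro k
    induction k with
    | zero => intro x; simp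
    | succ k ih => intro x; rw [pow_succ', mul_smul, hvg, ih]
  -- a point of the fibre over `v`
  have hvs : v ∈ s := (hs v).2 hv
  have hne : (fib v).Nonempty := by
    rw [← Finset.card_pos]
    have := hfib_eq v hvs
    omega
  obtain ⟨x, hx⟩ := hne
  have hxv : vp x = v := (hfib_mem v x).1 hx
  set k := Function.minimalPeriod (g • · : X → X) x with hk
  have hkpos : 0 < k :=
    Function.minimalPeriod_pos_of_mem_periodicPts
      ((MulAction.injective g).mem_periodicPts x)
  have hper : g ^ k • x = x := by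
    have h1 := Function.iterate_minimalPeriod (f := (g • · : X → X)) (x := x)
    rw [smul_iterate] at h1
    exact h1
  obtain ⟨π, hπ0, hπ⟩ := Fermat.Agent.S24.OrbitPlaces.exists_ord_eq_one v
  have hdvd := E.dvd x k hkpos hper π hπ0
  have hvmx : ∀ f : F, f ≠ 0 → (E.ι x f).order = m x * v.ord f := by
    intro f hf
    rw [hvm x f hf, hxv]
  have hhtx : (h : ℤ) = m x * v.ord t := by
    rw [hht x, hxv]
  rw [hvmx π hπ0, hπ, mul_one, hhtx, mul_comm (k : ℤ)] at hdvd
  have hek : v.ord t ∣ (k : ℤ) := (mul_dvd_mul_iff_left (hmZ x).ne').1 hdvd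
  have hekle : v.ord t ≤ k := Int.le_of_dvd (by exact_mod_cast hkpos) hek
  let I : Finset X := (Finset.range k).image (fun i => g ^ i • x)
  have hIsub : I ⊆ fib v := by
    intro z hz
    obtain ⟨i, -, rfl⟩ := Finset.mem_image.1 hz
    exact (hfib_mem v _).2 ((hvpow i x).trans hxv)
  have hIcard : I.card = k := by
    rw [Finset.card_image_of_injOn, Finset.card_range]
    intro i hi j hj hij
    have hi' : i < k := Finset.mem_range.1 hi
    have hj' : j < k := Finset.mem_range.1 hj
    have h1 : (g • · : X → X)^[i] x = (g • · : X → X)^[j] x := by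
      simp only [smul_iterate]
      exact hij
    exact (Function.iterate_eq_iterate_iff_of_lt_minimalPeriod hi' hj').1 h1
  have hfv := hfib_eq v hvs
  have hkle : (k : ℤ) ≤ v.ord t := by
    rw [← hfv, ← hIcard]
    exact_mod_cast Finset.card_le_card hIsub
  have hkeq : v.ord t = k := le_antisymm hekle hkle
  refine ⟨x, m x, k, hm x, hkpos, ?_, hper, hvmx⟩
  have : (h : ℤ) = ((m x * k : ℕ) : ℤ) := by
    rw [hhtx, hkeq]
    push_cast
    rfl
  exact_mod_cast this

end Fermat.Agent.Jac
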