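import Fermat.Agent.Jac.DictCDefs
import Fermat.Agent.Jac.DictCore
import Fermat.Agent.S24.FIGeneral
import Fermat.Agent.S24.EmbCusp
import Fermat.Agent.S24.OrbitCount

/-!
# IN-JAC, task P-DICT: assembly of `DictCStatement`

`dictC_of : DictCAssembly`, i.e. `DictCStatement` from the degree bound over `ℂ` (D-DEG), the
point families (D-PT) and the cusp family (D-CUSP).
-/

set_option autoImplicit false

open ModularCurve AlgebraicCurve UpperHalfPlane CongruenceSubgroup IntermediateField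
open scoped MatrixGroups Manifold

noncomputable section

namespace Fermat.Agent.Jac

open Fermat.Agent.S24 (EmbFamily tayAt FIStatement)
open Fermat.Agent.S28 (HasTExp jAn jAt)

/-! ## group theory -/

/-- the stabiliser condition `g ^ k • x = x` on cosets, as a membership. -/
theorem h24_conj_mem (N : ℕ) (σ : SL(2, ℤ)) (x : SL(2, ℤ) ⧸ Gamma0 N) (hx : σ • x = x) :
    (Quotient.out x : SL(2, ℤ))⁻¹ * σ * Quotient.out x ∈ Gamma0 N := by
  have h1 : σ • ((Quotient.out x : SL(2, ℤ)) : SL(2, ℤ) ⧸ Gamma0 N)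
      = ((σ * Quotient.out x : SL(2, ℤ)) : SL(2, ℤ) ⧸ Gamma0 N) := rfl
  rw [QuotientGroup.out_eq', hx] at h1
  have h2 : ((Quotient.out x : SL(2, ℤ)) : SL(2, ℤ) ⧸ Gamma0 N)
      = ((σ * Quotient.out x : SL(2, ℤ)) : SL(2, ℤ) ⧸ Gamma0 N) := by
    rw [QuotientGroup.out_eq']
    exact h1
  have h3 := QuotientGroup.eq.mp h2
  rwa [← mul_assoc] at h3

/-- translates of a function invariant under `g⁻¹ σ g` are invariant under `σ`. -/
theorem h24_translate_inv {H : ℍ → ℂ} (g σ : SL(2, ℤ))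
    (hinv : ∀ τ : ℍ, H ((g⁻¹ * σ * g) • τ) = H τ) (τ : ℍ) :
    H (g⁻¹ • (σ • τ)) = H (g⁻¹ • τ) := by
  have h := hinv (g⁻¹ • τ)
  rw [mul_smul, mul_smul, smul_inv_smul] at h
  exact h

theorem h24_isOfFinOrder_S : IsOfFinOrder ModularGroup.S := by
  rw [isOfFinOrder_iff_pow_eq_one]
  exact ⟨4, by norm_num, by decide⟩

theorem h24_isOfFinOrder_ST : IsOfFinOrder (ModularGroup.S * ModularGroup.T) := by
  rw [isOfFinOrder_iff_pow_eq_one]
  exact ⟨6, by norm_num, by decide⟩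

/-- conjugates of powers of elements of finite order, as elements of the subgroup. -/
theorem h24_isOfFinOrder_conj (N : ℕ) (σ g : SL(2, ℤ)) (hσ : IsOfFinOrder σ) (k : ℕ)
    (hmem : g⁻¹ * σ ^ k * g ∈ Gamma0 N) :
    IsOfFinOrder (⟨g⁻¹ * σ ^ k * g, hmem⟩ : Gamma0 N) := by
  obtain ⟨n, hn, hσn⟩ := isOfFinOrder_iff_pow_eq_one.mp hσ
  rw [isOfFinOrder_iff_pow_eq_one]
  refine ⟨n, hn, ?_⟩
  apply Subtype.ext
  rw [Subgroup.coe_pow, Subgroup.coe_one]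
  show (g⁻¹ * σ ^ k * g) ^ n = 1
  have h1 : g⁻¹ * σ ^ k * g = g⁻¹ * σ ^ k * g⁻¹⁻¹ := by rw [inv_inv]
  rw [h1, conj_pow, ← pow_mul, mul_comm, pow_mul, hσn, one_pow, mul_one, inv_inv,
    inv_mul_cancel]

/-- conjugates of powers of `T` are parabolic. -/
theorem h24_isPar_conj (N : ℕ) (g : SL(2, ℤ)) (k : ℕ)
    (hmem : g⁻¹ * ModularGroup.T ^ k * g ∈ Gamma0 N) :
    IsPar (⟨g⁻¹ * ModularGroup.T ^ k * g, hmem⟩ : Gamma0 N) := by
  unfold IsPar
  have h1 : (((⟨g⁻¹ * ModularGroup.T ^ k * g, hmem⟩ : Gamma0 N) : SL(2, ℤ)) :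
      Matrix (Fin 2) (Fin 2) ℤ) = (g⁻¹ : SL(2, ℤ)).1 * (ModularGroup.T ^ k).1 * g.1 := by
    simp
  rw [h1, Matrix.trace_mul_cycle]
  have h2 : g.1 * (g⁻¹ : SL(2, ℤ)).1 = 1 := by
    rw [← Matrix.SpecialLinearGroup.coe_mul, mul_inv_cancel]
    rfl
  rw [h2, one_mul]
  have h3 : (ModularGroup.T ^ k : SL(2, ℤ)).1 = !![1, (k : ℤ); 0, 1] := by
    have := ModularGroup.coe_T_zpow (k : ℤ)
    rw [zpow_natCast] at this
    exact this
  rw [h3]
  simp [Matrix.trace, Fin.sum_univ_two]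

/-! ## the two cases -/

section

variable (N : ℕ) [NeZero N]

/-- the bound `n ≤ card X` in the orbit counting theorem. -/
theorem h24_le_card (inst : Fintype (SL(2, ℤ) ⧸ Gamma0 N))
    (hle : Module.finrank ℂ⟮jC N⟯ (FC N) ≤ (Gamma0 N).index) :
    Module.finrank ℂ⟮jC N⟯ (FC N) ≤ Fintype.card (SL(2, ℤ) ⧸ Gamma0 N) := by
  rw [← Nat.card_eq_fintype_card]
  exact hle

theorem h24_hFI_inv (hFI : FIStatement ℂ (FC N) (jC N)) :
    ∃ s : Finset (Place ℂ (FC N)), (∀ v, v ∈ s ↔ 0 < v.ord (jC N)⁻¹) ∧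
      ∑ v ∈ s, v.ord (jC N)⁻¹ = ((Module.finrank ℂ⟮jC N⟯ (FC N) : ℕ) : ℤ) := by
  obtain ⟨s, hs, hsum⟩ := hFI.2
  refine ⟨s, fun v => ?_, ?_⟩
  · rw [hs v, Place.ord_inv]
    constructor <;> intro h <;> omega
  · rw [← hsum]
    exact Finset.sum_congr rfl (fun v _ => Place.ord_inv v _)

/-- the point case. -/
theorem h24_dict_point (hDeg : DegCStatement) (hPt : PointFamCStatement)
    (h1 : AnCStatement) (h2 : EmbCStatement)
    (τ₀ : ℍ) (c : ℂ) (σ : SL(2, ℤ)) (hσ : σ • τ₀ = τ₀) (hfin : IsOfFinOrder σ) (h : ℕ)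
    (hh : 0 < h) (hord : (tayAt τ₀ (fun τ => jAn τ - c)).order = h)
    (hprim : IsPrimitiveRoot (denom σ τ₀ ^ 2) h)
    (v : Place ℂ (FC N)) (hv : 0 < v.ord (jC N - cstC N c)) :
    ∃ (E : FC N →+* LaurentSeries ℂ) (m : ℕ), 0 < m ∧
      (∀ f : FC N, f ≠ 0 → (E f).order = m * v.ord f) ∧
      ∃ (τ₀ : ℍ) (g : SL(2, ℤ)), IsGermEmbC N E τ₀ g ∧
          ∀ H : ℍ → ℂ, MDiff H → H ≠ 0 → EllInv N H →
            m ∣ (tayAt τ₀ (fun τ => H (g⁻¹ • τ))).order.toNat := by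
  obtain ⟨htr, hfd, hle⟩ := hDeg N
  have := hfd
  have halg : Algebra.IsAlgebraic ℂ⟮jC N⟯ (FC N) := Algebra.IsAlgebraic.of_finite _ _
  have hdeg : ∀ v : Place ℂ (FC N), v.deg = 1 := fun v =>
    Fermat.Agent.S24.DiffPlace.place_deg_eq_one (jC N) halg v
  have hFI : FIStatement ℂ (FC N) (jC N) := Fermat.Agent.S24.fi_general (jC N) htr
  have := Fermat.Agent.S24.finite_coset_Gamma0 N
  let inst : Fintype (SL(2, ℤ) ⧸ Gamma0 N) := Fintype.ofFinite _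
  obtain ⟨E, hE⟩ := hPt h1 h2 N τ₀ c σ hσ h hord hprim
  obtain ⟨x, m, k, hm, hk, hmk, hper, hordE⟩ :=
    h24_exists_emb_of_place (jC N - cstC N c) _ (hFI.1 c) hdeg σ h hh E
      (h24_le_card N inst hle) v hv
  refine ⟨E.ι x, m, hm, hordE, τ₀, Quotient.out x, hE x, ?_⟩
  intro H hH hH0 hEll
  set g : SL(2, ℤ) := Quotient.out x with hg
  have hmem : g⁻¹ * σ ^ k * g ∈ Gamma0 N := h24_conj_mem N (σ ^ k) x hper
  have hinvγ : ∀ τ : ℍ, H ((g⁻¹ * σ ^ k * g) • τ) = H τ := fun τ =>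
    hEll ⟨g⁻¹ * σ ^ k * g, hmem⟩ (h24_isOfFinOrder_conj N σ g hfin k hmem) τ
  set H' : ℍ → ℂ := fun τ => H (g⁻¹ • τ) with hH'
  have hmd : MDiff H' := Fermat.Agent.S24.h25_mdiff_comp_smul hH _
  have hne : H' ≠ 0 := by
    intro h0
    apply hH0
    funext τ
    have := congrFun h0 (g • τ)
    simpa [hH'] using this
  have hinv' : ∀ τ : ℍ, H' ((σ ^ k) • τ) = H' τ := fun τ =>
    h24_translate_inv g (σ ^ k) hinvγ τ
  have hd := Fermat.Agent.S24.M6.dvd_mul_order_of_isPrimitiveRoot σ τ₀ hσ h hprim k H' hinv'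
    (Fermat.Agent.S24.M6.analyticAt_comp_ofComplex hmd τ₀).meromorphicAt
    (Fermat.Agent.S24.M6.meromorphicOrderAt_ne_top_of_ne_zero hmd hne τ₀)
  rw [Fermat.Agent.S24.M6.meromorphicOrderAt_untop₀_eq hmd τ₀, hmk] at hd
  have hkZ : (k : ℤ) ≠ 0 := by exact_mod_cast hk.ne'
  have hd2 : ((m : ℤ)) ∣ ((tayAt τ₀ H').order.toNat : ℤ) := by
    have : (k : ℤ) * m ∣ k * ((tayAt τ₀ H').order.toNat : ℤ) := by
      have e : ((m * k : ℕ) : ℤ) = (k : ℤ) * m := by push_cast; ring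
      rw [← e]
      exact hd
    exact (mul_dvd_mul_iff_left hkZ).mp this
  exact_mod_cast hd2

/-- the cusp case. -/
theorem h24_dict_cusp (hDeg : DegCStatement) (hCusp : CuspFamCStatement)
    (h1 : AnCStatement) (h2 : EmbCStatement)
    (v : Place ℂ (FC N)) (hv : v.ord (jC N) < 0) :
    ∃ (E : FC N →+* LaurentSeries ℂ) (m : ℕ), 0 < m ∧
      (∀ f : FC N, f ≠ 0 → (E f).order = m * v.ord f) ∧
      ∃ g : SL(2, ℤ), IsCuspEmbC N E g ∧
          ∀ (H : ℍ → ℂ) (s : LaurentSeries ℂ), MDiff H → ParInv N H →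
            HasTExp N (fun τ => H (g⁻¹ • τ)) s → s ≠ 0 → (m : ℤ) ∣ s.order := by
  obtain ⟨htr, hfd, hle⟩ := hDeg N
  have := hfd
  have halg : Algebra.IsAlgebraic ℂ⟮jC N⟯ (FC N) := Algebra.IsAlgebraic.of_finite _ _
  have hdeg : ∀ v : Place ℂ (FC N), v.deg = 1 := fun v =>
    Fermat.Agent.S24.DiffPlace.place_deg_eq_one (jC N) halg v
  have hFI : FIStatement ℂ (FC N) (jC N) := Fermat.Agent.S24.fi_general (jC N) htr
  have := Fermat.Agent.S24.finite_coset_Gamma0 N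
  let inst : Fintype (SL(2, ℤ) ⧸ Gamma0 N) := Fintype.ofFinite _
  obtain ⟨E, hE⟩ := hCusp h1 h2 N
  have hv' : 0 < v.ord (jC N)⁻¹ := by
    rw [Place.ord_inv]
    omega
  obtain ⟨x, m, k, hm, hk, hmk, hper, hordE⟩ :=
    h24_exists_emb_of_place (jC N)⁻¹ _ (h24_hFI_inv N hFI) hdeg ModularGroup.T N
      (Nat.pos_of_ne_zero (NeZero.ne N)) E (h24_le_card N inst hle) v hv'
  refine ⟨E.ι x, m, hm, hordE, Quotient.out x, hE x, ?_⟩
  intro H s _ hPar hexp hs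
  set g : SL(2, ℤ) := Quotient.out x with hg
  have hmem : g⁻¹ * ModularGroup.T ^ k * g ∈ Gamma0 N :=
    h24_conj_mem N (ModularGroup.T ^ k) x hper
  have hinvγ : ∀ τ : ℍ, H ((g⁻¹ * ModularGroup.T ^ k * g) • τ) = H τ := fun τ =>
    hPar ⟨g⁻¹ * ModularGroup.T ^ k * g, hmem⟩ (h24_isPar_conj N g k hmem) τ
  have hinv' : ∀ τ : ℍ, (fun τ => H (g⁻¹ • τ)) (ModularGroup.T ^ k • τ)
      = (fun τ => H (g⁻¹ • τ)) τ := fun τ =>
    h24_translate_inv g (ModularGroup.T ^ k) hinvγ τ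
  have hd := Fermat.Agent.S24.h84_dvd_mul_order_of_periodic hexp hs k hinv'
  rw [hmk] at hd
  have hkZ : (k : ℤ) ≠ 0 := by exact_mod_cast hk.ne'
  have : (k : ℤ) * m ∣ k * s.order := by
    have e : ((m * k : ℕ) : ℤ) = (k : ℤ) * m := by push_cast; ring
    rw [← e]
    exact hd
  exact (mul_dvd_mul_iff_left hkZ).mp this

end

/-! ## assembly -/

/-- **P-DICT.** `DictCStatement` from D-DEG, D-PT, D-CUSP (and P-AN1, P-EMB). -/
theorem dictC_of : DictCAssembly := by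
  intro hDeg hPt hCusp h1 h2 N _ v
  obtain ⟨htr, hfd, hle⟩ := hDeg N
  have := hfd
  have halg : Algebra.IsAlgebraic ℂ⟮jC N⟯ (FC N) := Algebra.IsAlgebraic.of_finite _ _
  by_cases hpole : v.ord (jC N) < 0
  · obtain ⟨E, m, hm, hordE, g, hg, hdvd⟩ := h24_dict_cusp N hDeg hCusp h1 h2 v hpole
    exact ⟨E, m, hm, hordE, Or.inr ⟨g, hg, hdvd⟩⟩
  · have hreg : 0 ≤ v.ord (jC N) := by omega
    obtain ⟨c, hc⟩ := Fermat.Agent.S24.DiffPlace.exists_ord_sub_const_pos (jC N) halg v htr hreg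
    have key : ∃ (τ₀ : ℍ) (σ : SL(2, ℤ)) (h : ℕ), σ • τ₀ = τ₀ ∧ IsOfFinOrder σ ∧ 0 < h ∧
        (tayAt τ₀ (fun τ => jAn τ - c)).order = h ∧ IsPrimitiveRoot (denom σ τ₀ ^ 2) h := by
      by_cases hc0 : c = 0
      · subst hc0
        refine ⟨Fermat.Agent.S24.ptRho, ModularGroup.S * ModularGroup.T, 3,
          Fermat.Agent.S24.M6.ST_smul_ptRho, h24_isOfFinOrder_ST, by norm_num, ?_,
          Fermat.Agent.S24.M6.isPrimitiveRoot_ST_ptRho⟩
        have e : (fun τ => jAn τ - (0 : ℂ)) = jAn := by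
          funext τ
          rw [sub_zero]
        rw [e, Fermat.Agent.S24.order_tayAt_jAn_ptRho]
        rfl
      by_cases hc1 : c = 1728
      · subst hc1
        refine ⟨Fermat.Agent.S24.ptI, ModularGroup.S, 2, Fermat.Agent.S24.M6.S_smul_ptI,
          h24_isOfFinOrder_S, by norm_num, ?_, Fermat.Agent.S24.M6.isPrimitiveRoot_S_ptI⟩
        rw [Fermat.Agent.S24.order_tayAt_jAn_sub_ptI]
        rfl
      · obtain ⟨τ₀, hτ₀⟩ := Fermat.Agent.S24.exists_jAn_eq c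
        refine ⟨τ₀, 1, 1, one_smul _ _, IsOfFinOrder.one, one_pos, ?_,
          Fermat.Agent.S24.M6.isPrimitiveRoot_one_generic τ₀⟩
        have := Fermat.Agent.S24.order_tayAt_jAn_sub τ₀ (by rw [hτ₀]; exact hc0)
          (by rw [hτ₀]; exact hc1)
        rw [hτ₀] at this
        rw [this]
        rfl
    obtain ⟨τ₀, σ, h, hσ, hfin, hh, hord, hprim⟩ := key
    obtain ⟨E, m, hm, hordE, τ₁, g, hg, hdvd⟩ :=
      h24_dict_point N hDeg hPt h1 h2 τ₀ c σ hσ hfin h hh hord hprim v hc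
    exact ⟨E, m, hm, hordE, Or.inl ⟨τ₁, g, hg, hdvd⟩⟩

end Fermat.Agent.Jac
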