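import Fermat.Agent.Jac.Skeleton2
import Fermat.Agent.S24.TayAx
import Fermat.Agent.S24.CuspEmb

/-!
# IN-JAC, task P-EMB: germ and cusp embeddings of the function field over `ℂ`

Port of `S24/GermEmb.lean` and `S24/CuspEmb.lean` from `(ℚ̄, embC)` to `(ℂ, id)`:
for `τ₀ ∈ ℍ` (resp. the cusp `∞`) and `g ∈ SL(2, ℤ)` there is a ring homomorphism
`E : F_ℂ → ℂ((s))` sending `f = P / Q` (in the sense of `IsAnC`) to the quotient of the Taylor
series at `τ₀` (resp. of the `𝕋`-expansions) of `P ∘ g⁻¹` and `Q ∘ g⁻¹`.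
-/

set_option autoImplicit false

open ModularCurve AlgebraicCurve CongruenceSubgroup IntermediateField UpperHalfPlane
open scoped MatrixGroups Manifold

noncomputable section

namespace Fermat.Agent.Jac

open Fermat.Agent.S24 (tayAt TayAxioms germOf germOf_mul germOf_add germOf_const germOf_one
  germOf_ne_zero h25_tayAxioms h25_fun_unique h25_exp_ne_zero h25_fun_ne_zero h46_ExpSys h46_Good
  h46_emb h46_emb_algebraMap h19_cuspExp h19_cuspExp_expSys h19_emb_mul_eq_of_rel)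
open Fermat.Agent.S28 (HasTExp jAn jAt cEmb scaleH)

/-! ## closure properties of `IsAnC` -/

theorem h46c_isAnC_unique {N : ℕ} {f : FC N} {P Q P' Q' : ℍ → ℂ}
    (h : IsAnC N f P Q) (h' : IsAnC N f P' Q') : P * Q' = P' * Q := by
  obtain ⟨p, q, hp, hq, hrel⟩ := h.rel
  obtain ⟨p', q', hp', hq', hrel'⟩ := h'.rel
  have h1 : HasTExp 1 (P * Q') (p * q') := hp.mul one_pos hq'
  have h2 : HasTExp 1 (P' * Q) (p' * q) := hp'.mul one_pos hq
  have h3 : p * q' = p' * q := by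
    rw [← hrel, ← hrel']
    ring
  rw [h3] at h1
  exact h25_fun_unique h1 h2

theorem h46c_isAnC_cst (N : ℕ) (a : ℂ) :
    IsAnC N (algebraMap ℂ (FC N) a) (fun _ => a) 1 where
  holoP := mdifferentiable_const
  holoQ := mdifferentiable_const
  Q_ne := by
    intro h
    have := congrFun h UpperHalfPlane.I
    simp at this
  invP _ _ _ := rfl
  invQ _ _ _ := rfl
  expP _ := ⟨_, HasTExp.const N _⟩
  expQ _ := ⟨_, HasTExp.one N⟩
  rel := by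
    refine ⟨HahnSeries.C a, 1, HasTExp.const 1 _, HasTExp.one 1, ?_⟩
    rw [mul_one]
    have : ((algebraMap ℂ (FC N) a : FC N) : LaurentSeries ℂ)
        = algebraMap ℂ (LaurentSeries ℂ) a := rfl
    rw [this, algebraMap_laurentSeries_eq_single]
    rfl

theorem h46c_isAnC_add {N : ℕ} [NeZero N] {f₁ f₂ : FC N} {P₁ Q₁ P₂ Q₂ : ℍ → ℂ}
    (h₁ : IsAnC N f₁ P₁ Q₁) (h₂ : IsAnC N f₂ P₂ Q₂) :
    IsAnC N (f₁ + f₂) (P₁ * Q₂ + P₂ * Q₁) (Q₁ * Q₂) := by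
  have hN : 0 < N := Nat.pos_of_ne_zero (NeZero.ne N)
  obtain ⟨p₁, q₁, hp₁, hq₁, hrel₁⟩ := h₁.rel
  obtain ⟨p₂, q₂, hp₂, hq₂, hrel₂⟩ := h₂.rel
  refine ⟨(h₁.holoP.mul h₂.holoQ).add (h₂.holoP.mul h₁.holoQ), h₁.holoQ.mul h₂.holoQ, ?_, ?_, ?_,
    ?_, ?_, ?_⟩
  · exact h25_fun_ne_zero one_pos (hq₁.mul one_pos hq₂)
      (mul_ne_zero (h25_exp_ne_zero hq₁ h₁.Q_ne) (h25_exp_ne_zero hq₂ h₂.Q_ne))
  · intro γ hγ τ
    simp only [Pi.add_apply, Pi.mul_apply, h₁.invP γ hγ τ, h₂.invP γ hγ τ, h₁.invQ γ hγ τ,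
      h₂.invQ γ hγ τ]
  · intro γ hγ τ
    simp only [Pi.mul_apply, h₁.invQ γ hγ τ, h₂.invQ γ hγ τ]
  · intro g
    obtain ⟨s₁, hs₁⟩ := h₁.expP g
    obtain ⟨t₁, ht₁⟩ := h₁.expQ g
    obtain ⟨s₂, hs₂⟩ := h₂.expP g
    obtain ⟨t₂, ht₂⟩ := h₂.expQ g
    exact ⟨s₁ * t₂ + s₂ * t₁, (hs₁.mul hN ht₂).add (hs₂.mul hN ht₁)⟩
  · intro g
    obtain ⟨t₁, ht₁⟩ := h₁.expQ g
    obtain ⟨t₂, ht₂⟩ := h₂.expQ g
    exact ⟨t₁ * t₂, ht₁.mul hN ht₂⟩
  · refine ⟨p₁ * q₂ + p₂ * q₁, q₁ * q₂, (hp₁.mul one_pos hq₂).add (hp₂.mul one_pos hq₁),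
      hq₁.mul one_pos hq₂, ?_⟩
    have : ((f₁ + f₂ : FC N) : LaurentSeries ℂ)
        = (f₁ : LaurentSeries ℂ) + (f₂ : LaurentSeries ℂ) := rfl
    rw [this, ← hrel₁, ← hrel₂]
    ring

theorem h46c_isAnC_mul {N : ℕ} [NeZero N] {f₁ f₂ : FC N} {P₁ Q₁ P₂ Q₂ : ℍ → ℂ}
    (h₁ : IsAnC N f₁ P₁ Q₁) (h₂ : IsAnC N f₂ P₂ Q₂) :
    IsAnC N (f₁ * f₂) (P₁ * P₂) (Q₁ * Q₂) := by
  have hN : 0 < N := Nat.pos_of_ne_zero (NeZero.ne N)
  obtain ⟨p₁, q₁, hp₁, hq₁, hrel₁⟩ := h₁.rel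
  obtain ⟨p₂, q₂, hp₂, hq₂, hrel₂⟩ := h₂.rel
  refine ⟨h₁.holoP.mul h₂.holoP, h₁.holoQ.mul h₂.holoQ, ?_, ?_, ?_, ?_, ?_, ?_⟩
  · exact h25_fun_ne_zero one_pos (hq₁.mul one_pos hq₂)
      (mul_ne_zero (h25_exp_ne_zero hq₁ h₁.Q_ne) (h25_exp_ne_zero hq₂ h₂.Q_ne))
  · intro γ hγ τ
    simp only [Pi.mul_apply, h₁.invP γ hγ τ, h₂.invP γ hγ τ]
  · intro γ hγ τ
    simp only [Pi.mul_apply, h₁.invQ γ hγ τ, h₂.invQ γ hγ τ]
  · intro g
    obtain ⟨s₁, hs₁⟩ := h₁.expP g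
    obtain ⟨s₂, hs₂⟩ := h₂.expP g
    exact ⟨s₁ * s₂, hs₁.mul hN hs₂⟩
  · intro g
    obtain ⟨t₁, ht₁⟩ := h₁.expQ g
    obtain ⟨t₂, ht₂⟩ := h₂.expQ g
    exact ⟨t₁ * t₂, ht₁.mul hN ht₂⟩
  · refine ⟨p₁ * p₂, q₁ * q₂, hp₁.mul one_pos hp₂, hq₁.mul one_pos hq₂, ?_⟩
    have : ((f₁ * f₂ : FC N) : LaurentSeries ℂ)
        = (f₁ : LaurentSeries ℂ) * (f₂ : LaurentSeries ℂ) := rfl
    rw [this, ← hrel₁, ← hrel₂]
    ring

/-! ## the germ embedding -/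

section Germ

variable {N : ℕ} [NeZero N]

/-- The value of the germ embedding at `f`, computed from a chosen representation. -/
def h46c_germEmbFun (hex : ∀ f : FC N, ∃ P Q : ℍ → ℂ, IsAnC N f P Q) (τ₀ : ℍ) (g : SL(2, ℤ))
    (f : FC N) : LaurentSeries ℂ :=
  germOf τ₀ g (hex f).choose / germOf τ₀ g (hex f).choose_spec.choose

omit [NeZero N] in
/-- The germ embedding is computed by any representation. -/
theorem h46c_germEmbFun_spec (hT : TayAxioms)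
    (hex : ∀ f : FC N, ∃ P Q : ℍ → ℂ, IsAnC N f P Q)
    (τ₀ : ℍ) (g : SL(2, ℤ)) {f : FC N} {P Q : ℍ → ℂ} (h : IsAnC N f P Q) :
    h46c_germEmbFun hex τ₀ g f * germOf τ₀ g Q = germOf τ₀ g P := by
  have h' : IsAnC N f (hex f).choose (hex f).choose_spec.choose :=
    (hex f).choose_spec.choose_spec
  have hu : P * (hex f).choose_spec.choose = (hex f).choose * Q := h46c_isAnC_unique h h'
  have h1 : germOf τ₀ g P * germOf τ₀ g (hex f).choose_spec.choose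
      = germOf τ₀ g (hex f).choose * germOf τ₀ g Q := by
    rw [← germOf_mul hT τ₀ g h.holoP h'.holoQ, ← germOf_mul hT τ₀ g h'.holoP h.holoQ, hu]
  have hne : germOf τ₀ g (hex f).choose_spec.choose ≠ 0 :=
    germOf_ne_zero hT τ₀ g h'.holoQ h'.Q_ne
  rw [h46c_germEmbFun, div_mul_eq_mul_div, div_eq_iff hne, ← h1]

omit [NeZero N] in
/-- Characterisation of the value of the germ embedding. -/
theorem h46c_germEmbFun_eq (hT : TayAxioms)
    (hex : ∀ f : FC N, ∃ P Q : ℍ → ℂ, IsAnC N f P Q)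
    (τ₀ : ℍ) (g : SL(2, ℤ)) {f : FC N} {P Q : ℍ → ℂ} (h : IsAnC N f P Q) :
    h46c_germEmbFun hex τ₀ g f = germOf τ₀ g P / germOf τ₀ g Q := by
  rw [eq_div_iff (germOf_ne_zero hT τ₀ g h.holoQ h.Q_ne)]
  exact h46c_germEmbFun_spec hT hex τ₀ g h

/-- The germ embedding as a ring homomorphism. -/
def h46c_germEmb (hT : TayAxioms) (hex : ∀ f : FC N, ∃ P Q : ℍ → ℂ, IsAnC N f P Q) (τ₀ : ℍ)
    (g : SL(2, ℤ)) : FC N →+* LaurentSeries ℂ where
  toFun := h46c_germEmbFun hex τ₀ g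
  map_one' := by
    have h : IsAnC N (1 : FC N) (fun _ => (1 : ℂ)) 1 := by
      have := h46c_isAnC_cst N 1
      rwa [show algebraMap ℂ (FC N) 1 = (1 : FC N) from map_one _] at this
    rw [h46c_germEmbFun_eq hT hex τ₀ g h, germOf_const hT, germOf_one hT, map_one, div_one]
  map_zero' := by
    have h : IsAnC N (0 : FC N) (fun _ => (0 : ℂ)) 1 := by
      have := h46c_isAnC_cst N 0
      rwa [show algebraMap ℂ (FC N) 0 = (0 : FC N) from map_zero _] at this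
    rw [h46c_germEmbFun_eq hT hex τ₀ g h, germOf_const hT, germOf_one hT, map_zero, div_one]
  map_add' f₁ f₂ := by
    obtain ⟨P₁, Q₁, h₁⟩ := hex f₁
    obtain ⟨P₂, Q₂, h₂⟩ := hex f₂
    have hne₁ := germOf_ne_zero hT τ₀ g h₁.holoQ h₁.Q_ne
    have hne₂ := germOf_ne_zero hT τ₀ g h₂.holoQ h₂.Q_ne
    rw [h46c_germEmbFun_eq hT hex τ₀ g (h46c_isAnC_add h₁ h₂),
      h46c_germEmbFun_eq hT hex τ₀ g h₁, h46c_germEmbFun_eq hT hex τ₀ g h₂,
      germOf_add hT τ₀ g (h₁.holoP.mul h₂.holoQ) (h₂.holoP.mul h₁.holoQ),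
      germOf_mul hT τ₀ g h₁.holoP h₂.holoQ, germOf_mul hT τ₀ g h₂.holoP h₁.holoQ,
      germOf_mul hT τ₀ g h₁.holoQ h₂.holoQ]
    field_simp
  map_mul' f₁ f₂ := by
    obtain ⟨P₁, Q₁, h₁⟩ := hex f₁
    obtain ⟨P₂, Q₂, h₂⟩ := hex f₂
    have hne₁ := germOf_ne_zero hT τ₀ g h₁.holoQ h₁.Q_ne
    have hne₂ := germOf_ne_zero hT τ₀ g h₂.holoQ h₂.Q_ne
    rw [h46c_germEmbFun_eq hT hex τ₀ g (h46c_isAnC_mul h₁ h₂),
      h46c_germEmbFun_eq hT hex τ₀ g h₁, h46c_germEmbFun_eq hT hex τ₀ g h₂,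
      germOf_mul hT τ₀ g h₁.holoP h₂.holoP, germOf_mul hT τ₀ g h₁.holoQ h₂.holoQ]
    field_simp

theorem h46c_isGermEmbC (hex : ∀ f : FC N, ∃ P Q : ℍ → ℂ, IsAnC N f P Q) (τ₀ : ℍ)
    (g : SL(2, ℤ)) : IsGermEmbC N (h46c_germEmb h25_tayAxioms hex τ₀ g) τ₀ g := by
  refine ⟨fun a => ?_, fun f P Q h => ?_⟩
  · show h46c_germEmbFun hex τ₀ g (algebraMap ℂ (FC N) a) = _
    rw [h46c_germEmbFun_eq h25_tayAxioms hex τ₀ g (h46c_isAnC_cst N a),
      germOf_const h25_tayAxioms, germOf_one h25_tayAxioms, div_one]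
  · exact h46c_germEmbFun_spec h25_tayAxioms hex τ₀ g h

end Germ

/-! ## the cusp embedding -/

/-- `coeffMap id ∘ coeffEmb ℂ = cEmb`. -/
theorem h46c_coeffMap_id_coeffEmb (x : LaurentSeries ℚ) :
    coeffMap (RingHom.id ℂ) (coeffEmb ℂ x) = cEmb x := by
  rw [coeffMap_id, coeffEmb, cEmb]

/-- the `q`-expansion of `j(dτ)`. -/
theorem h46c_hasTExp_jAt_coeffEmb (d : ℕ) [NeZero d] :
    HasTExp 1 (jAt d) (coeffMap (RingHom.id ℂ) (coeffEmb ℂ (qExpand ℚ d jq))) := by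
  rw [h46c_coeffMap_id_coeffEmb]
  have h := HasTExp.scale Fermat.Agent.S28.Cusp.hasTExp_jAn' d
  have e : cEmb (qExpand ℚ d jq) = qExpand ℂ d (cEmb jq) := coeffMap_qExpand _ d jq
  rw [e]
  exact h

/-- the generators are good. -/
theorem h46c_good_gen (N : ℕ) [NeZero N] (g : SL(2, ℤ)) :
    ∀ x ∈ (⇑(coeffEmb ℂ) '' divisorExpansions N),
      h46_Good (RingHom.id ℂ) (h19_cuspExp N g) x := by
  rintro _ ⟨x, ⟨d, hd0, hd, rfl⟩, rfl⟩
  have := hd0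
  obtain ⟨s, hs, -, -⟩ := Fermat.Agent.S28.hasTExp_jAt_translate N d (NeZero.pos N) hd g⁻¹
  exact ⟨jAt d, s, h46c_hasTExp_jAt_coeffEmb d, hs⟩

/-- the function field over `ℂ` is generated by the `j(q^d)`. -/
theorem h46c_adjoin_coeffEmb_eq (N : ℕ) :
    laurentBaseChange ℂ (modularFunctionFieldFull N) =
      IntermediateField.adjoin ℂ (⇑(coeffEmb ℂ) '' divisorExpansions N) := by
  apply le_antisymm
  · rw [laurentBaseChange, IntermediateField.adjoin_le_iff]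
    rintro _ ⟨x, hx, rfl⟩
    rw [SetLike.mem_coe, modularFunctionFieldFull] at hx
    induction hx using IntermediateField.adjoin_induction with
    | mem x hx => exact IntermediateField.subset_adjoin _ _ ⟨x, hx, rfl⟩
    | algebraMap a =>
      have : coeffEmb ℂ (algebraMap ℚ (LaurentSeries ℚ) a)
          = algebraMap ℂ (LaurentSeries ℂ) (algebraMap ℚ ℂ a) := by
        rw [algebraMap_laurentSeries_eq_single, algebraMap_laurentSeries_eq_single, coeffEmb,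
          coeffMap_single]
      rw [this]
      exact IntermediateField.algebraMap_mem _ _
    | add x y _ _ hx hy => rw [map_add]; exact add_mem hx hy
    | inv x _ hx => rw [map_inv₀]; exact inv_mem hx
    | mul x y _ _ hx hy => rw [map_mul]; exact mul_mem hx hy
  · apply IntermediateField.adjoin.mono
    apply Set.image_mono
    exact IntermediateField.subset_adjoin ℚ _

/-- the cusp embedding on `ℂ(j(q^d) : d ∣ N)`. -/
def h46c_cuspEmb0 (N : ℕ) [NeZero N] (g : SL(2, ℤ)) :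
    IntermediateField.adjoin ℂ (⇑(coeffEmb ℂ) '' divisorExpansions N) →+*
      LaurentSeries ℂ :=
  h46_emb (h19_cuspExp_expSys N g) (h46c_good_gen N g)

/-- the cusp embedding of the function field over `ℂ`. -/
def h46c_cuspEmb (N : ℕ) [NeZero N] (g : SL(2, ℤ)) : FC N →+* LaurentSeries ℂ :=
  (h46c_cuspEmb0 N g).comp
    (IntermediateField.inclusion (h46c_adjoin_coeffEmb_eq N).le).toRingHom

theorem h46c_cuspEmb_cst (N : ℕ) [NeZero N] (g : SL(2, ℤ)) (a : ℂ) :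
    h46c_cuspEmb N g (algebraMap ℂ (FC N) a) = HahnSeries.C a := by
  have h := h46_emb_algebraMap (h19_cuspExp_expSys N g) (h46c_good_gen N g) a
  rw [RingHom.id_apply] at h
  rw [← h]
  rfl

theorem h46c_cuspEmb_mul_eq (N : ℕ) [NeZero N] (g : SL(2, ℤ)) (f : FC N) (P Q : ℍ → ℂ)
    (p q : LaurentSeries ℂ) (hf : IsAnC N f P Q)
    (hp : HasTExp N (fun τ => P (g⁻¹ • τ)) p) (hq : HasTExp N (fun τ => Q (g⁻¹ • τ)) q) :
    h46c_cuspEmb N g f * q = p := by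
  obtain ⟨p₁, q₁, hP, hQ, hrel⟩ := hf.rel
  refine h19_emb_mul_eq_of_rel (h19_cuspExp_expSys N g) (h46c_good_gen N g)
    (IntermediateField.inclusion (h46c_adjoin_coeffEmb_eq N).le f) hP hQ ?_ hp hq
  rw [coeffMap_id]
  exact hrel

theorem h46c_isCuspEmbC (N : ℕ) [NeZero N] (g : SL(2, ℤ)) :
    IsCuspEmbC N (h46c_cuspEmb N g) g :=
  ⟨h46c_cuspEmb_cst N g, h46c_cuspEmb_mul_eq N g⟩

/-! ## the statement -/

/-- germ and cusp embeddings of `F_ℂ`, from the existence of analytic representations. -/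
theorem embC_of_exists
    (hex : ∀ (N : ℕ) [NeZero N] (f : FC N), ∃ P Q : ℍ → ℂ, IsAnC N f P Q) :
    EmbCStatement := fun N _ =>
  ⟨fun τ₀ g => ⟨_, h46c_isGermEmbC (hex N) τ₀ g⟩, fun g => ⟨_, h46c_isCuspEmbC N g⟩⟩

/-- **P-EMB.** -/
theorem embC (h : AnCStatement) : EmbCStatement :=
  embC_of_exists fun N _ => (h N).1

end Fermat.Agent.Jac
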