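import Fermat.Agent.Jac.DictCDefs
import Fermat.Agent.S24.TayAx

/-!
# IN-JAC, task D-PT: the family of germ embeddings of `F_ℂ` at a point of `ℍ`

Port of `S24/EmbPointCore.lean` (helper23) from `(ℚ̄, embC)` to `(ℂ, id)`.  The analytic
representation (`AnCStatement`, P-AN1) and the germ embeddings (`EmbCStatement`, P-EMB) are
hypotheses, as in `PointFamCStatement`.
-/

set_option autoImplicit false

open ModularCurve AlgebraicCurve UpperHalfPlane CongruenceSubgroup IntermediateField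
open scoped MatrixGroups Manifold

noncomputable section

namespace Fermat.Agent.Jac

open Fermat.Agent.S24 (EmbFamily tayAt germOf Kbar FF embC IsAn)
open Fermat.Agent.S28 (HasTExp jAn jAt)

section Family

variable (h2 : EmbCStatement) (N : ℕ) [NeZero N] (τ₀ : ℍ)

/-- the germ embedding of `F_ℂ` at `τ₀` of the translate by `g⁻¹`. -/
def h25_EC (g : SL(2, ℤ)) : FC N →+* LaurentSeries ℂ :=
  ((h2 N).1 τ₀ g).choose

theorem h25_EC_isGermEmbC (g : SL(2, ℤ)) : IsGermEmbC N (h25_EC h2 N τ₀ g) τ₀ g :=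
  ((h2 N).1 τ₀ g).choose_spec

theorem h25_EC_cst (g : SL(2, ℤ)) (a : ℂ) :
    h25_EC h2 N τ₀ g (algebraMap ℂ (FC N) a) = HahnSeries.C a :=
  (h25_EC_isGermEmbC h2 N τ₀ g).1 a

theorem h25_EC_spec (g : SL(2, ℤ)) {f : FC N} {P Q : ℍ → ℂ} (h : IsAnC N f P Q) :
    h25_EC h2 N τ₀ g f * germOf τ₀ g Q = germOf τ₀ g P :=
  (h25_EC_isGermEmbC h2 N τ₀ g).2 f P Q h

theorem h25_EC_eq (g : SL(2, ℤ)) {f : FC N} {P Q : ℍ → ℂ} (h : IsAnC N f P Q) :
    h25_EC h2 N τ₀ g f = germOf τ₀ g P / germOf τ₀ g Q := by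
  rw [eq_div_iff (Fermat.Agent.S24.germOf_ne_zero Fermat.Agent.S24.h25_tayAxioms τ₀ g
    h.holoQ h.Q_ne)]
  exact h25_EC_spec h2 N τ₀ g h

theorem h25_EC_order (g : SL(2, ℤ)) {f : FC N} (hf : f ≠ 0) {P Q : ℍ → ℂ}
    (h : IsAnC N f P Q) :
    (h25_EC h2 N τ₀ g f).order = (germOf τ₀ g P).order - (germOf τ₀ g Q).order := by
  have hQ := Fermat.Agent.S24.germOf_ne_zero Fermat.Agent.S24.h25_tayAxioms τ₀ g h.holoQ h.Q_ne
  have hE : h25_EC h2 N τ₀ g f ≠ 0 := by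
    rw [Ne, map_eq_zero]
    exact hf
  have e1 := h25_EC_spec h2 N τ₀ g h
  have e2 := HahnSeries.order_mul hE hQ
  rw [e1] at e2
  rw [e2]
  ring

/-- the embedding only depends on the coset `g Γ₀(N)`. -/
theorem h25_EC_mul_right (h1 : AnCStatement) (g γ : SL(2, ℤ)) (hγ : γ ∈ Gamma0 N) :
    h25_EC h2 N τ₀ (g * γ) = h25_EC h2 N τ₀ g := by
  ext1 f
  obtain ⟨P, Q, h⟩ := (h1 N).1 f
  rw [h25_EC_eq h2 N τ₀ (g * γ) h, h25_EC_eq h2 N τ₀ g h,
    Fermat.Agent.S24.h23_germOf_mul_right τ₀ g γ hγ h.invP,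
    Fermat.Agent.S24.h23_germOf_mul_right τ₀ g γ hγ h.invQ]

/-- the order of `E_{σ g} f` equals the order of `E_g f` if `σ` fixes `τ₀`. -/
theorem h25_EC_order_mul_left (h1 : AnCStatement) (σ g : SL(2, ℤ)) (hσ : σ • τ₀ = τ₀)
    (f : FC N) :
    (h25_EC h2 N τ₀ (σ * g) f).order = (h25_EC h2 N τ₀ g f).order := by
  by_cases hf : f = 0
  · subst hf
    simp
  obtain ⟨P, Q, h⟩ := (h1 N).1 f
  rw [h25_EC_order h2 N τ₀ (σ * g) hf h, h25_EC_order h2 N τ₀ g hf h,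
    Fermat.Agent.S24.h23_germOf_order_mul_left τ₀ σ g hσ h.holoP,
    Fermat.Agent.S24.h23_germOf_order_mul_left τ₀ σ g hσ h.holoQ]

/-- the analytic representation of `j` over `ℂ`. -/
theorem h25_isAnC_jC (h1 : AnCStatement) : IsAnC N (jC N) jAn 1 := by
  refine (h1 N).2.2.2.2.2 (Fermat.Agent.S24.jBar N) (jC N) jAn 1 ?_
    (Fermat.Agent.S24.isAn_jBar N)
  rw [coe_jC, Fermat.Agent.S24.coe_jBar, Fermat.Agent.S24.h23_coeffMap_embC_coeffEmb]
  rfl

/-- the analytic representation of `j(Nτ)` over `ℂ`. -/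
theorem h25_isAnC_jdC (h1 : AnCStatement) : IsAnC N (jdC N N dvd_rfl) (jAt N) 1 := by
  refine (h1 N).2.2.2.2.2 (Fermat.Agent.S24.jdBar N N dvd_rfl) (jdC N N dvd_rfl) (jAt N) 1 ?_
    (Fermat.Agent.S24.isAn_jdBar N N dvd_rfl)
  rw [coe_jdC, Fermat.Agent.S24.coe_jdBar, Fermat.Agent.S24.h23_coeffMap_embC_coeffEmb]
  rfl

/-- the value of the embeddings at `j`. -/
theorem h25_EC_jC (h1 : AnCStatement) (g : SL(2, ℤ)) :
    h25_EC h2 N τ₀ g (jC N) = HahnSeries.ofPowerSeries ℤ ℂ (tayAt τ₀ jAn) := by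
  have h := h25_EC_spec h2 N τ₀ g (h25_isAnC_jC N h1)
  have e1 : germOf τ₀ g (1 : ℍ → ℂ) = 1 :=
    Fermat.Agent.S24.germOf_one Fermat.Agent.S24.h25_tayAxioms τ₀ g
  have e2 : germOf τ₀ g jAn = HahnSeries.ofPowerSeries ℤ ℂ (tayAt τ₀ jAn) := by
    have e : (fun τ => jAn (g⁻¹ • τ)) = jAn := funext fun τ => Fermat.Agent.S28.jAn_smul g⁻¹ τ
    rw [germOf, e]
  rw [e1, mul_one, e2] at h
  exact h

/-- the value of the embeddings at `t = j - c`. -/
theorem h25_EC_t (h1 : AnCStatement) (g : SL(2, ℤ)) (c : ℂ) :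
    h25_EC h2 N τ₀ g (jC N - cstC N c) =
      HahnSeries.ofPowerSeries ℤ ℂ (tayAt τ₀ (fun τ => jAn τ - c)) := by
  rw [map_sub, h25_EC_jC h2 N τ₀ h1, h25_EC_cst]
  have e : (fun τ => jAn τ - c) = jAn + fun _ => -c := by
    funext τ
    simp [sub_eq_add_neg]
  have hj : MDiff jAn := Fermat.Agent.S28.holo_jAn
  have hc : MDiff (fun _ : ℍ => -c) := mdifferentiable_const
  have e1 : tayAt τ₀ (jAn + fun _ => -c) = tayAt τ₀ jAn + PowerSeries.C (-c) := by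
    rw [Fermat.Agent.S24.h25_tayAxioms.add hj hc τ₀, Fermat.Agent.S24.h25_tayAxioms.const]
  rw [e, e1, RingHom.map_add, HahnSeries.ofPowerSeries_C, RingHom.map_neg, sub_eq_add_neg]

/-- the value of the embeddings at `j(Nτ)`. -/
theorem h25_EC_jN (h1 : AnCStatement) (g : SL(2, ℤ)) :
    h25_EC h2 N τ₀ g (jdC N N dvd_rfl) = germOf τ₀ g (jAt N) := by
  have h := h25_EC_spec h2 N τ₀ g (h25_isAnC_jdC N h1)
  have e1 : germOf τ₀ g (1 : ℍ → ℂ) = 1 :=
    Fermat.Agent.S24.germOf_one Fermat.Agent.S24.h25_tayAxioms τ₀ g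
  rw [e1, mul_one] at h
  exact h

/-- the embeddings of distinct cosets are distinct. -/
theorem h25_EC_injective (h1 : AnCStatement) {g g' : SL(2, ℤ)}
    (h : h25_EC h2 N τ₀ g = h25_EC h2 N τ₀ g') :
    g⁻¹ * g' ∈ Gamma0 N := by
  have hT := Fermat.Agent.S24.h25_tayAxioms
  have e1 : germOf τ₀ g (jAt N) = germOf τ₀ g' (jAt N) := by
    rw [← h25_EC_jN h2 N τ₀ h1 g, ← h25_EC_jN h2 N τ₀ h1 g', h]
  rw [germOf, germOf] at e1
  have e2 := HahnSeries.ofPowerSeries_injective (Γ := ℤ) (R := ℂ) e1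
  have hm : MDiff (fun τ => jAt N (g⁻¹ • τ)) :=
    Fermat.Agent.S24.h25_mdiff_comp_smul (Fermat.Agent.S28.holo_jAt N) g⁻¹
  have hm' : MDiff (fun τ => jAt N (g'⁻¹ • τ)) :=
    Fermat.Agent.S24.h25_mdiff_comp_smul (Fermat.Agent.S28.holo_jAt N) g'⁻¹
  have hcst : MDiff (fun _ : ℍ => (-1 : ℂ)) := mdifferentiable_const
  have hneg : MDiff ((fun _ : ℍ => (-1 : ℂ)) * (fun τ : ℍ => jAt N (g'⁻¹ • τ))) :=
    hcst.mul hm'
  have e3 : tayAt τ₀ ((fun τ : ℍ => jAt N (g⁻¹ • τ)) +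
      (fun _ : ℍ => (-1 : ℂ)) * (fun τ : ℍ => jAt N (g'⁻¹ • τ))) = 0 := by
    rw [hT.add hm hneg, hT.mul hcst hm', hT.const, e2]
    simp
  have e4 := (hT.eq_zero_iff (hm.add hneg) τ₀).mp e3
  have e5 : ∀ τ : ℍ, jAt N (g⁻¹ • τ) = jAt N (g'⁻¹ • τ) := by
    intro τ
    have := congrFun e4 τ
    simp only [Pi.add_apply, Pi.mul_apply, Pi.zero_apply] at this
    linear_combination this
  apply Fermat.Agent.S24.mem_Gamma0_of_jAt_smul_eq N
  intro τ
  have := e5 (g' • τ)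
  rw [inv_smul_smul] at this
  rw [mul_smul]
  exact this

end Family

/-- **D-PT.** The family of germ embeddings of `F_ℂ` at `τ₀`. -/
theorem pointFamC : PointFamCStatement := by
  intro h1 h2 N _ τ₀ c σ hσ h hord hprim
  classical
  have hout : ∀ x : SL(2, ℤ) ⧸ Gamma0 N,
      ((Quotient.out x : SL(2, ℤ)) : SL(2, ℤ) ⧸ Gamma0 N) = x :=
    fun x => QuotientGroup.out_eq' x
  have hrep : ∀ (g : SL(2, ℤ)) (x : SL(2, ℤ) ⧸ Gamma0 N),
      ∃ γ ∈ Gamma0 N, (Quotient.out (g • x) : SL(2, ℤ)) = g * Quotient.out x * γ := by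
    intro g x
    refine ⟨(g * Quotient.out x)⁻¹ * Quotient.out (g • x), ?_, by group⟩
    rw [← QuotientGroup.eq, hout]
    conv_rhs => rw [← hout x]
    rfl
  refine ⟨{
    θ := RingHom.id ℂ
    ι := fun x => h25_EC h2 N τ₀ (Quotient.out x)
    map_const := fun x a => h25_EC_cst h2 N τ₀ _ a
    map_t := fun x y => by rw [h25_EC_t h2 N τ₀ h1, h25_EC_t h2 N τ₀ h1]
    order_t := fun x => by
      rw [h25_EC_t h2 N τ₀ h1, Fermat.Agent.S24.h23_order_ofPowerSeries, hord, ENat.toNat_natCast]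
    inj := fun x y hxy => by
      have e1 := h25_EC_injective h2 N τ₀ h1 hxy
      rw [← hout x, ← hout y]
      exact QuotientGroup.eq.mpr e1
    order_smul := fun x f => by
      obtain ⟨γ, hγ, e⟩ := hrep σ x
      show (h25_EC h2 N τ₀ (Quotient.out (σ • x)) f).order = _
      rw [e, h25_EC_mul_right h2 N τ₀ h1 _ γ hγ, h25_EC_order_mul_left h2 N τ₀ h1 σ _ hσ]
    dvd := fun x k hk hx f hf => by
      obtain ⟨P, Q, hPQ⟩ := (h1 N).1 f
      have hP0 : P ≠ 0 := fun hP => hf (((h1 N).2.2.1 f P Q hPQ).mpr hP)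
      have hmem : (Quotient.out x : SL(2, ℤ))⁻¹ * (σ ^ k * Quotient.out x) ∈ Gamma0 N := by
        rw [← QuotientGroup.eq, hout]
        have e1 : σ ^ k • ((Quotient.out x : SL(2, ℤ)) : SL(2, ℤ) ⧸ Gamma0 N)
            = ((σ ^ k * Quotient.out x : SL(2, ℤ)) : SL(2, ℤ) ⧸ Gamma0 N) := rfl
        rw [hout, hx] at e1
        exact e1
      have key : ∀ H : ℍ → ℂ, MDiff H → H ≠ 0 →
          (∀ γ ∈ Gamma0 N, ∀ τ : ℍ, H (γ • τ) = H τ) →
          (h : ℤ) ∣ k * (germOf τ₀ (Quotient.out x) H).order := by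
        intro H hH hH0 hinv
        set H' : ℍ → ℂ := fun τ => H ((Quotient.out x : SL(2, ℤ))⁻¹ • τ) with hH'
        have hmd : MDiff H' := Fermat.Agent.S24.h25_mdiff_comp_smul hH _
        have hne : H' ≠ 0 := by
          intro h0
          apply hH0
          funext τ
          have := congrFun h0 ((Quotient.out x : SL(2, ℤ)) • τ)
          simpa [hH'] using this
        have hinv' : ∀ τ : ℍ, H' ((σ ^ k) • τ) = H' τ := by
          intro τ
          show H ((Quotient.out x : SL(2, ℤ))⁻¹ • (σ ^ k) • τ)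
            = H ((Quotient.out x : SL(2, ℤ))⁻¹ • τ)
          rw [← hinv _ hmem ((Quotient.out x : SL(2, ℤ))⁻¹ • τ)]
          congr 1
          simp only [mul_smul, smul_inv_smul]
        have := Fermat.Agent.S24.M6.dvd_mul_order_of_isPrimitiveRoot σ τ₀ hσ h hprim k H' hinv'
          (Fermat.Agent.S24.M6.analyticAt_comp_ofComplex hmd τ₀).meromorphicAt
          (Fermat.Agent.S24.M6.meromorphicOrderAt_ne_top_of_ne_zero hmd hne τ₀)
        rw [Fermat.Agent.S24.M6.meromorphicOrderAt_untop₀_eq hmd τ₀] at this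
        rw [Fermat.Agent.S24.h23_germOf_order]
        exact this
      show (h : ℤ) ∣ k * (h25_EC h2 N τ₀ (Quotient.out x) f).order
      rw [h25_EC_order h2 N τ₀ _ hf hPQ, mul_sub]
      exact dvd_sub (key P hPQ.holoP hP0 hPQ.invP) (key Q hPQ.holoQ hPQ.Q_ne hPQ.invQ) },
    fun x => h25_EC_isGermEmbC h2 N τ₀ (Quotient.out x)⟩

end Fermat.Agent.Jac
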