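import Fermat.Agent.Jac.DictC
import Fermat.Agent.Jac.DegC
import Fermat.Agent.Jac.PointFamC
import Fermat.Agent.Jac.CuspFamC
import Fermat.Agent.Jac.AnC
import Fermat.Agent.Jac.EmbC

/-!
# IN-JAC, P-DICT: the dictionary `DictCStatement`, unconditional

Glue of the landed modules D-DEG (`degC`), D-PT (`pointFamC`), D-CUSP (`cuspFamC`), P-AN1 (`anC`),
P-EMB (`embC`) through the assembly `dictC_of : DictCAssembly` of `Jac/DictC.lean`.

Every place of `F_C` (the function field of `X₀(N)` over `ℂ`) is induced by a point of the upper
half plane or by a cusp.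
-/

set_option autoImplicit false

namespace Fermat.Agent.Jac

/-- **P-DICT**, relative to the two ported S24 interfaces. -/
theorem dictC_of_an (h1 : AnCStatement) (h2 : EmbCStatement) : DictCStatement :=
  dictC_of degC pointFamC cuspFamC h1 h2

/-- **P-DICT**, unconditional. -/
theorem dictC : DictCStatement :=
  dictC_of_an anC (Fermat.Agent.Jac.embC anC)

end Fermat.Agent.Jac
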