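import Fermat.Agent.Jac.EisDefs
import Fermat.Agent.S28.Bridge
import Fermat.Agent.S28.Invariance

/-!
# IN-JAC, task EIS-ASM (helper55): the Eisenstein series with character

`A = E_χ / Δ`, `E_χ = eisW 12 w_χ`, where `w_χ v = (χ γ)⁻¹` if `v` is the bottom row of
`γ ∈ Γ₀(N)` and `0` otherwise.  Main result: `eisAssembly : EisAssembly`.
-/

set_option autoImplicit false

open ModularCurve UpperHalfPlane CongruenceSubgroup Matrix
open scoped MatrixGroups Manifold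

noncomputable section

namespace Fermat.Agent.Jac

open Fermat.Agent.S28 (HasTExp)

/-! ## bottom rows -/

/-- the bottom row of an element of `SL(2, ℤ)`. -/
def h55_row (γ : SL(2, ℤ)) : Fin 2 → ℤ := (γ : Matrix (Fin 2) (Fin 2) ℤ) 1

theorem h55_row_mul (γ γ' : SL(2, ℤ)) :
    h55_row (γ * γ') = h55_row γ ᵥ* (γ' : Matrix (Fin 2) (Fin 2) ℤ) := by
  simp only [h55_row, Matrix.SpecialLinearGroup.coe_mul]
  exact Matrix.mul_apply_eq_vecMul _ _ _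

theorem h55_row_one : h55_row 1 = ![0, 1] := by
  ext i
  fin_cases i <;> simp [h55_row]

theorem h55_vecMul_inv_cancel (g : SL(2, ℤ)) (v : Fin 2 → ℤ) :
    (v ᵥ* (g : Matrix (Fin 2) (Fin 2) ℤ)) ᵥ* ((g⁻¹ : SL(2, ℤ)) : Matrix (Fin 2) (Fin 2) ℤ) = v := by
  rw [Matrix.vecMul_vecMul, ← Matrix.SpecialLinearGroup.coe_mul, mul_inv_cancel,
    Matrix.SpecialLinearGroup.coe_one, Matrix.vecMul_one]

theorem h55_trace_of_row (γ : SL(2, ℤ)) (h : h55_row γ = ![0, 1]) :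
    (γ : Matrix (Fin 2) (Fin 2) ℤ).trace = 2 := by
  have h10 : (γ : Matrix (Fin 2) (Fin 2) ℤ) 1 0 = 0 := by
    have := congrFun h 0
    simpa [h55_row] using this
  have h11 : (γ : Matrix (Fin 2) (Fin 2) ℤ) 1 1 = 1 := by
    have := congrFun h 1
    simpa [h55_row] using this
  have hdet := γ.det_coe
  rw [Matrix.det_fin_two, h10, h11] at hdet
  rw [Matrix.trace_fin_two, h11]
  linarith

/-! ## the character weight -/

section weight

variable {N : ℕ} (χ : Gamma0 N →* ℂˣ)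

theorem h55_chi_eq_of_row_eq (hpar : ∀ γ : Gamma0 N, IsPar γ → χ γ = 1) (γ γ' : Gamma0 N)
    (h : h55_row (γ : SL(2, ℤ)) = h55_row (γ' : SL(2, ℤ))) : χ γ = χ γ' := by
  have hrow : h55_row ((γ' * γ⁻¹ : Gamma0 N) : SL(2, ℤ)) = ![0, 1] := by
    rw [Subgroup.coe_mul, h55_row_mul, ← h, ← h55_row_mul, Subgroup.coe_inv, mul_inv_cancel,
      h55_row_one]
  have hp : IsPar (γ' * γ⁻¹) := by
    unfold IsPar
    rw [h55_trace_of_row _ hrow]
    norm_num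
  have h1 := hpar _ hp
  rw [map_mul, map_inv, mul_inv_eq_one] at h1
  exact h1.symm

open Classical in
/-- the weight function of the Eisenstein series with character `χ`. -/
def h55_wchi (v : Fin 2 → ℤ) : ℂ :=
  if h : ∃ γ : Gamma0 N, h55_row (γ : SL(2, ℤ)) = v then (((χ h.choose)⁻¹ : ℂˣ) : ℂ) else 0

theorem h55_wchi_row (hpar : ∀ γ : Gamma0 N, IsPar γ → χ γ = 1) (γ : Gamma0 N) :
    h55_wchi χ (h55_row (γ : SL(2, ℤ))) = (((χ γ)⁻¹ : ℂˣ) : ℂ) := by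
  have hex : ∃ γ' : Gamma0 N, h55_row (γ' : SL(2, ℤ)) = h55_row (γ : SL(2, ℤ)) := ⟨γ, rfl⟩
  rw [h55_wchi, dif_pos hex, h55_chi_eq_of_row_eq χ hpar _ _ hex.choose_spec]

theorem h55_wchi_of_not (v : Fin 2 → ℤ)
    (h : ¬ ∃ γ : Gamma0 N, h55_row (γ : SL(2, ℤ)) = v) : h55_wchi χ v = 0 := by
  rw [h55_wchi, dif_neg h]

theorem h55_norm_chi (n : ℕ) (hn : 0 < n) (hχ : χ ^ n = 1) (γ : Gamma0 N) :
    ‖((χ γ : ℂˣ) : ℂ)‖ = 1 := by
  have h1 : (χ γ) ^ n = 1 := by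
    have := congrArg (fun f : Gamma0 N →* ℂˣ => f γ) hχ
    simpa using this
  have h2 : ((χ γ : ℂˣ) : ℂ) ^ n = 1 := by
    have := congrArg Units.val h1
    simpa using this
  exact Complex.norm_eq_one_of_pow_eq_one h2 hn.ne'

theorem h55_wchi_norm_le (n : ℕ) (hn : 0 < n) (hχ : χ ^ n = 1) (v : Fin 2 → ℤ) :
    ‖h55_wchi χ v‖ ≤ 1 := by
  by_cases h : ∃ γ : Gamma0 N, h55_row (γ : SL(2, ℤ)) = v
  · rw [h55_wchi, dif_pos h, Units.val_inv_eq_inv_val, norm_inv, h55_norm_chi χ n hn hχ]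
    simp
  · rw [h55_wchi_of_not χ v h]
    simp

theorem h55_wchi_vecMul (hpar : ∀ γ : Gamma0 N, IsPar γ → χ γ = 1) (γ₀ : Gamma0 N)
    (v : Fin 2 → ℤ) :
    h55_wchi χ (v ᵥ* ((γ₀ : SL(2, ℤ)) : Matrix (Fin 2) (Fin 2) ℤ)) =
      (((χ γ₀)⁻¹ : ℂˣ) : ℂ) * h55_wchi χ v := by
  by_cases h : ∃ γ : Gamma0 N, h55_row (γ : SL(2, ℤ)) = v
  · obtain ⟨γ, rfl⟩ := h
    rw [← h55_row_mul, ← Subgroup.coe_mul, h55_wchi_row χ hpar, h55_wchi_row χ hpar, map_mul,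
      mul_inv, Units.val_mul, mul_comm]
  · have h' : ¬ ∃ γ : Gamma0 N,
        h55_row (γ : SL(2, ℤ)) = v ᵥ* ((γ₀ : SL(2, ℤ)) : Matrix (Fin 2) (Fin 2) ℤ) := by
      rintro ⟨γ', hγ'⟩
      apply h
      refine ⟨γ' * γ₀⁻¹, ?_⟩
      rw [Subgroup.coe_mul, h55_row_mul, hγ', Subgroup.coe_inv, h55_vecMul_inv_cancel]
    rw [h55_wchi_of_not χ _ h', h55_wchi_of_not χ _ h, mul_zero]

theorem h55_wchi_zero_one (hpar : ∀ γ : Gamma0 N, IsPar γ → χ γ = 1) :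
    h55_wchi χ ![0, 1] = 1 := by
  have := h55_wchi_row χ hpar 1
  rw [Subgroup.coe_one, h55_row_one, map_one] at this
  simpa using this

end weight

/-! ## translated weights -/

theorem h55_eisTw_norm_le (w : (Fin 2 → ℤ) → ℂ) (hw : ∀ v, ‖w v‖ ≤ 1) (g : SL(2, ℤ))
    (v : Fin 2 → ℤ) : ‖eisTw w g v‖ ≤ 1 := hw _

theorem h55_eisTw_one (w : (Fin 2 → ℤ) → ℂ) : eisTw w 1 = w := by
  funext v
  simp [eisTw]

theorem h55_eisTw_eisTw (w : (Fin 2 → ℤ) → ℂ) (g h : SL(2, ℤ)) :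
    eisTw (eisTw w g) h = eisTw w (g * h) := by
  funext v
  simp only [eisTw]
  rw [Matrix.vecMul_vecMul, ← Matrix.SpecialLinearGroup.coe_mul, ← _root_.mul_inv_rev]

section weight

variable {N : ℕ} (χ : Gamma0 N →* ℂˣ)

theorem h55_eisTw_wchi_mul (hpar : ∀ γ : Gamma0 N, IsPar γ → χ γ = 1) (γ₀ : Gamma0 N)
    (g : SL(2, ℤ)) :
    eisTw (h55_wchi χ) ((γ₀ : SL(2, ℤ)) * g) =
      fun v => ((χ γ₀ : ℂˣ) : ℂ) * eisTw (h55_wchi χ) g v := by
  funext v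
  simp only [eisTw]
  rw [_root_.mul_inv_rev, Matrix.SpecialLinearGroup.coe_mul, ← Matrix.vecMul_vecMul]
  have := h55_wchi_vecMul χ hpar γ₀⁻¹
    (v ᵥ* ((g⁻¹ : SL(2, ℤ)) : Matrix (Fin 2) (Fin 2) ℤ))
  rw [Subgroup.coe_inv] at this
  rw [this, map_inv, inv_inv]

theorem h55_eisW_const_mul (k : ℤ) (c : ℂ) (w : (Fin 2 → ℤ) → ℂ) (τ : ℍ) :
    eisW k (fun v => c * w v) τ = c * eisW k w τ := by
  simp only [eisW, mul_assoc]
  exact tsum_mul_left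

end weight

/-! ## the quotient by `Δ` -/

theorem h55_quot_smul (hS : EisSlashStatement) (w : (Fin 2 → ℤ) → ℂ) (hw : ∀ v, ‖w v‖ ≤ 1)
    (g : SL(2, ℤ)) (τ : ℍ) :
    eisW 12 w (g • τ) * (ModularForm.discriminant (g • τ))⁻¹ =
      eisW 12 (eisTw w g) τ * (ModularForm.discriminant τ)⁻¹ := by
  rw [hS 12 (by norm_num) w hw g τ, Fermat.Agent.S28.discriminant_smul]
  have hd : denom (g : GL (Fin 2) ℝ) (τ : ℂ) ≠ 0 := denom_ne_zero _ _
  have h1 : ((g 1 0 : ℂ) * (τ : ℂ) + (g 1 1 : ℂ)) = denom (g : GL (Fin 2) ℝ) (τ : ℂ) :=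
    (ModularGroup.denom_apply g τ).symm
  rw [h1]
  have h12 : denom (g : GL (Fin 2) ℝ) (τ : ℂ) ^ (12 : ℤ) =
      denom (g : GL (Fin 2) ℝ) (τ : ℂ) ^ 12 := by norm_cast
  rw [h12]
  have hΔ : ModularForm.discriminant τ ≠ 0 := ModularForm.discriminant_ne_zero τ
  field_simp

theorem h55_mdiff_quot (F : ℍ → ℂ) (hF : MDiff F) :
    MDiff (fun τ => F τ * (ModularForm.discriminant τ)⁻¹) := by
  have hΔ := Fermat.Agent.S28.holo_discriminant
  rw [Fermat.Agent.S28.Holo, UpperHalfPlane.mdifferentiable_iff] at hΔ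
  rw [UpperHalfPlane.mdifferentiable_iff] at hF ⊢
  refine (hF.mul (hΔ.inv ?_)).congr ?_
  · intro z _
    exact ModularForm.discriminant_ne_zero _
  · intro z _
    rfl

section weight

variable {N : ℕ} (χ : Gamma0 N →* ℂˣ)

/-- the function `A = E_χ / Δ`. -/
def h55_A (τ : ℍ) : ℂ := eisW 12 (h55_wchi χ) τ * (ModularForm.discriminant τ)⁻¹

theorem h55_hasChar (hS : EisSlashStatement) (n : ℕ) (hn : 0 < n) (hχ : χ ^ n = 1)
    (hpar : ∀ γ : Gamma0 N, IsPar γ → χ γ = 1) : HasChar N (h55_A χ) χ := by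
  intro γ τ
  unfold h55_A
  rw [h55_quot_smul hS _ (h55_wchi_norm_le χ n hn hχ) (γ : SL(2, ℤ)) τ]
  have := h55_eisTw_wchi_mul χ hpar γ 1
  rw [mul_one, h55_eisTw_one] at this
  rw [this, h55_eisW_const_mul]
  ring

theorem h55_neg_one_mem (N : ℕ) : (-1 : SL(2, ℤ)) ∈ Gamma0 N := by
  rw [Gamma0_mem]
  simp

theorem h55_wchi_zero_neg_one (hpar : ∀ γ : Gamma0 N, IsPar γ → χ γ = 1) :
    h55_wchi χ ![0, -1] = 1 := by
  have hp : IsPar (⟨-1, h55_neg_one_mem N⟩ : Gamma0 N) := by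
    unfold IsPar
    simp
  have hrow : h55_row (-1 : SL(2, ℤ)) = ![0, -1] := by
    ext i
    fin_cases i <;> simp [h55_row]
  have := h55_wchi_row χ hpar ⟨-1, h55_neg_one_mem N⟩
  simp only at this
  rw [hrow, hpar _ hp] at this
  simpa using this

theorem h55_wchi_zero_other (d : ℤ) (h1 : d ≠ 1) (h2 : d ≠ -1) : h55_wchi χ ![0, d] = 0 := by
  apply h55_wchi_of_not
  rintro ⟨γ, hγ⟩
  have h10 : ((γ : SL(2, ℤ)) : Matrix (Fin 2) (Fin 2) ℤ) 1 0 = 0 := by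
    have := congrFun hγ 0
    simpa [h55_row] using this
  have h11 : ((γ : SL(2, ℤ)) : Matrix (Fin 2) (Fin 2) ℤ) 1 1 = d := by
    have := congrFun hγ 1
    simpa [h55_row] using this
  have hdet := (γ : SL(2, ℤ)).det_coe
  rw [Matrix.det_fin_two, h10, h11] at hdet
  have hu : IsUnit d := by
    refine IsUnit.of_mul_eq_one (((γ : SL(2, ℤ)) : Matrix (Fin 2) (Fin 2) ℤ) 0 0) ?_
    linarith
  rcases Int.isUnit_iff.mp hu with h | h
  · exact h1 h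
  · exact h2 h

theorem h55_A_ne_zero (hNZ : EisNeZeroStatement) (n : ℕ) (hn : 0 < n) (hχ : χ ^ n = 1)
    (hpar : ∀ γ : Gamma0 N, IsPar γ → χ γ = 1) : h55_A χ ≠ 0 := by
  intro h0
  apply hNZ (h55_wchi χ) (h55_wchi_norm_le χ n hn hχ) (h55_wchi_zero_one χ hpar)
    (h55_wchi_zero_neg_one χ hpar) (h55_wchi_zero_other χ)
  funext τ
  have := congrFun h0 τ
  simp only [h55_A, Pi.zero_apply, mul_eq_zero, inv_eq_zero] at this
  rcases this with h | h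
  · exact h
  · exact absurd h (ModularForm.discriminant_ne_zero τ)

theorem h55_periodic [NeZero N] (hS : EisSlashStatement) (n : ℕ) (hn : 0 < n) (hχ : χ ^ n = 1)
    (hpar : ∀ γ : Gamma0 N, IsPar γ → χ γ = 1) (g : SL(2, ℤ)) (τ : ℍ) :
    eisW 12 (eisTw (h55_wchi χ) g) ((N : ℝ) +ᵥ τ) = eisW 12 (eisTw (h55_wchi χ) g) τ := by
  have hT : ((N : ℝ) +ᵥ τ) = (ModularGroup.T ^ (N : ℤ)) • τ := by
    rw [UpperHalfPlane.modular_T_zpow_smul]
    simp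
  rw [hT, hS 12 (by norm_num) _ (h55_eisTw_norm_le _ (h55_wchi_norm_le χ n hn hχ) g) _ τ]
  have hden : denom ((ModularGroup.T ^ (N : ℤ) : SL(2, ℤ)) : GL (Fin 2) ℝ) (τ : ℂ) = 1 := by
    rw [ModularGroup.denom_apply, ModularGroup.coe_T_zpow]
    simp
  rw [hden, _root_.one_zpow, one_mul, h55_eisTw_eisTw]
  set δ : SL(2, ℤ) := g * ModularGroup.T ^ (N : ℤ) * g⁻¹ with hδ
  have hδmem : δ ∈ Gamma0 N := by
    have h1 : ModularGroup.T ^ (N : ℤ) ∈ Gamma N := by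
      simpa using ModularGroup_T_pow_mem_Gamma N N dvd_rfl
    have h2 : δ ∈ Gamma N := (Gamma_normal N).conj_mem _ h1 g
    exact Gamma0_mem.mpr (Gamma_mem.mp h2).2.2.1
  have hδpar : IsPar (⟨δ, hδmem⟩ : Gamma0 N) := by
    unfold IsPar
    have : (δ : Matrix (Fin 2) (Fin 2) ℤ).trace = 2 := by
      rw [hδ, Matrix.SpecialLinearGroup.coe_mul, Matrix.SpecialLinearGroup.coe_mul,
        Matrix.trace_mul_cycle, ← Matrix.SpecialLinearGroup.coe_mul,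
        ← Matrix.SpecialLinearGroup.coe_mul, inv_mul_cancel, one_mul, ModularGroup.coe_T_zpow,
        Matrix.trace_fin_two]
      simp
    simp only [this]
    norm_num
  have hgT : g * ModularGroup.T ^ (N : ℤ) = δ * g := by
    rw [hδ]
    group
  rw [hgT]
  have := h55_eisTw_wchi_mul χ hpar ⟨δ, hδmem⟩ g
  simp only at this
  rw [this, hpar _ hδpar]
  simp

theorem h55_cuspMero [NeZero N] (hM : EisMDiffStatement) (hS : EisSlashStatement)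
    (hB : EisBddStatement) (hC : EisCuspExpStatement) (n : ℕ) (hn : 0 < n) (hχ : χ ^ n = 1)
    (hpar : ∀ γ : Gamma0 N, IsPar γ → χ γ = 1) : CuspMero N (h55_A χ) := by
  intro g
  have hN : 0 < N := Nat.pos_of_ne_zero (NeZero.ne N)
  have hw := h55_eisTw_norm_le _ (h55_wchi_norm_le χ n hn hχ) g
  obtain ⟨p, hp⟩ := hC N hN (eisW 12 (eisTw (h55_wchi χ) g)) (hM 12 (by norm_num) _ hw).2
    (h55_periodic χ hS n hn hχ hpar g) (hB 12 (by norm_num) _ hw)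
  have hΔ := (Fermat.Agent.S28.h19_hasTExp_deltaAn_inv).of_one (N := N)
  refine ⟨_, (hp.mul hN hΔ).congr ?_⟩
  intro τ
  simp only [Pi.mul_apply, h55_A]
  rw [h55_quot_smul hS _ (h55_wchi_norm_le χ n hn hχ) g τ]
  rfl

end weight

/-- **EIS-ASM.** -/
theorem eisAssembly : EisAssembly := by
  intro hM hS hB hNZ hC N _ χ n hn hχ hpar
  exact ⟨h55_A χ,
    h55_mdiff_quot _ (hM 12 (by norm_num) _ (h55_wchi_norm_le χ n hn hχ)).2,
    h55_A_ne_zero χ hNZ n hn hχ hpar,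
    h55_hasChar χ hS n hn hχ hpar,
    h55_cuspMero χ hM hS hB hC n hn hχ hpar⟩

end Fermat.Agent.Jac
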