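import Mathlib
import Fermat.Agent.S28.ADefs

/-!
# IN-JAC, EIS (analytic half): weighted Eisenstein sums

For a bounded weight function `w : (Fin 2 → ℤ) → ℂ` and `k ≥ 3` we study
`wE w k τ = ∑' v, w v * (v 0 * τ + v 1) ^ (-k)`:
summability, holomorphy, a uniform bound on `{1 ≤ im τ}`, reindexing under `SL(2, ℤ)`,
the limit at `i∞`; and the abstract cusp expansion of a periodic bounded holomorphic function.
-/

set_option autoImplicit false

open UpperHalfPlane EisensteinSeries Filter Topology Complex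
open scoped MatrixGroups Manifold

noncomputable section

namespace Fermat.Agent.Jac.EisAn

/-- the weighted Eisenstein sum `∑_v w(v) (v₀ τ + v₁)^(-k)` over all integer vectors. -/
def wE (w : (Fin 2 → ℤ) → ℂ) (k : ℤ) (τ : ℍ) : ℂ :=
  ∑' v : Fin 2 → ℤ, w v * eisSummand k v τ

variable {w : (Fin 2 → ℤ) → ℂ} {k : ℤ}

theorem h20_norm_term_le (hw : ∀ v, ‖w v‖ ≤ 1) (v : Fin 2 → ℤ) (τ : ℍ) :
    ‖w v * eisSummand k v τ‖ ≤ ‖eisSummand k v τ‖ := by
  rw [norm_mul]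
  exact mul_le_of_le_one_left (norm_nonneg _) (hw v)

/-- **(B1a)** absolute summability. -/
theorem h20_summable (hw : ∀ v, ‖w v‖ ≤ 1) (hk : 3 ≤ k) (τ : ℍ) :
    Summable (fun v : Fin 2 → ℤ => w v * eisSummand k v τ) :=
  Summable.of_norm_bounded (summable_norm_eisSummand hk τ) (fun v => h20_norm_term_le hw v τ)

theorem h20_summable_norm (hw : ∀ v, ‖w v‖ ≤ 1) (hk : 3 ≤ k) (τ : ℍ) :
    Summable (fun v : Fin 2 → ℤ => ‖w v * eisSummand k v τ‖) :=
  Summable.of_nonneg_of_le (fun _ => norm_nonneg _) (fun v => h20_norm_term_le hw v τ)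
    (summable_norm_eisSummand hk τ)

theorem h20_hasSum (hw : ∀ v, ‖w v‖ ≤ 1) (hk : 3 ≤ k) (τ : ℍ) :
    HasSum (fun v : Fin 2 → ℤ => w v * eisSummand k v τ) (wE w k τ) :=
  (h20_summable hw hk τ).hasSum

/-- locally uniform convergence of the partial sums. -/
theorem h20_tendstoLocallyUniformly (hw : ∀ v, ‖w v‖ ≤ 1) (hk : 3 ≤ k) :
    TendstoLocallyUniformly
      (fun (s : Finset (Fin 2 → ℤ)) ↦ (∑ x ∈ s, w x * eisSummand k x ·))
      (wE w k ·) Filter.atTop := by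
  have hk' : (2 : ℝ) < k := by norm_cast
  have p_sum : Summable fun x : Fin 2 → ℤ ↦ ‖x‖ ^ (-k) :=
    mod_cast (summable_one_div_norm_rpow hk')
  simp only [tendstoLocallyUniformly_iff_forall_isCompact, wE]
  intro K hK
  obtain ⟨A, B, hB, HABK⟩ := subset_verticalStrip_of_isCompact hK
  refine (tendstoUniformlyOn_tsum (hu := p_sum.mul_left <| r ⟨⟨A, B⟩, hB⟩ ^ (-k : ℝ))
    (fun p z hz ↦ ?_)).mono HABK
  refine (h20_norm_term_le hw p z).trans ?_
  simpa only [eisSummand, one_div, ← zpow_neg, norm_zpow, ← Real.rpow_intCast,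
    Int.cast_neg] using summand_bound_of_mem_verticalStrip (by positivity) p hB hz

theorem h20_tendstoLocallyUniformlyOn (hw : ∀ v, ‖w v‖ ≤ 1) (hk : 3 ≤ k) :
    TendstoLocallyUniformlyOn (fun (s : Finset (Fin 2 → ℤ)) ↦
      ↑ₕ(fun (z : ℍ) ↦ ∑ x ∈ s, w x * eisSummand k x z)) (↑ₕ(wE w k))
          Filter.atTop {z : ℂ | 0 < z.im} := by
  rw [← upperHalfPlaneSet, ← range_coe, ← Set.image_univ]
  apply TendstoLocallyUniformlyOn.comp (s := ⊤) _ _ _ (OpenPartialHomeomorph.continuousOn_symm _)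
  · simp only [Set.top_eq_univ, tendstoLocallyUniformlyOn_univ]
    exact h20_tendstoLocallyUniformly hw hk
  · simp only [IsOpenEmbedding.toOpenPartialHomeomorph_target, Set.top_eq_univ,
      Set.mapsTo_range_iff, Set.mem_univ, forall_const]

/-- **(B1b)** holomorphy. -/
theorem h20_mdiff (hw : ∀ v, ‖w v‖ ≤ 1) (hk : 3 ≤ k) : MDiff (wE w k) := by
  intro τ
  suffices DifferentiableAt ℂ (↑ₕ(wE w k)) τ.1 by
    convert!
      MDifferentiableAt.comp τ (DifferentiableAt.mdifferentiableAt this) τ.mdifferentiable_coe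
    exact funext fun z ↦ (comp_ofComplex (wE w k) z).symm
  refine DifferentiableOn.differentiableAt ?_ (isOpen_upperHalfPlaneSet.mem_nhds τ.2)
  refine (h20_tendstoLocallyUniformlyOn hw hk).differentiableOn
    (Eventually.of_forall fun s ↦ ?_) isOpen_upperHalfPlaneSet
  have : (↑ₕ(fun (z : ℍ) ↦ ∑ x ∈ s, w x * eisSummand k x z)) =
      fun z : ℂ => ∑ x ∈ s, w x * (↑ₕ(eisSummand k x)) z := by
    funext z
    simp [Function.comp]
  rw [this]
  exact DifferentiableOn.fun_sum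
    fun x _ ↦ (eisSummand_extension_differentiableOn k x).const_mul (w x)

/-! ### reindexing under `SL(2, ℤ)` -/

/-- right multiplication by `g ∈ SL(2, ℤ)` on integer row vectors. -/
def h20_vecMulEquiv (g : SL(2, ℤ)) : (Fin 2 → ℤ) ≃ (Fin 2 → ℤ) where
  toFun v := Matrix.vecMul v (g : Matrix (Fin 2) (Fin 2) ℤ)
  invFun v := Matrix.vecMul v ((g⁻¹ : SL(2, ℤ)) : Matrix (Fin 2) (Fin 2) ℤ)
  left_inv v := by
    simp only [Matrix.vecMul_vecMul]
    rw [← Matrix.SpecialLinearGroup.coe_mul, mul_inv_cancel, Matrix.SpecialLinearGroup.coe_one,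
      Matrix.vecMul_one]
  right_inv v := by
    simp only [Matrix.vecMul_vecMul]
    rw [← Matrix.SpecialLinearGroup.coe_mul, inv_mul_cancel, Matrix.SpecialLinearGroup.coe_one,
      Matrix.vecMul_one]

@[simp] theorem h20_vecMulEquiv_apply (g : SL(2, ℤ)) (v : Fin 2 → ℤ) :
    h20_vecMulEquiv g v = Matrix.vecMul v (g : Matrix (Fin 2) (Fin 2) ℤ) := rfl

@[simp] theorem h20_vecMulEquiv_symm_apply (g : SL(2, ℤ)) (v : Fin 2 → ℤ) :
    (h20_vecMulEquiv g).symm v =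
      Matrix.vecMul v ((g⁻¹ : SL(2, ℤ)) : Matrix (Fin 2) (Fin 2) ℤ) := rfl

/-- **(B2)** reindexing: `wE w k (g • τ) = (denom g τ)^k * wE (w ∘ (· ᵥ* g⁻¹)) k τ`. -/
theorem h20_wE_smul (w : (Fin 2 → ℤ) → ℂ) (k : ℤ) (g : SL(2, ℤ)) (τ : ℍ) :
    wE w k (g • τ) = (denom g τ) ^ k *
      wE (fun v => w (Matrix.vecMul v ((g⁻¹ : SL(2, ℤ)) : Matrix (Fin 2) (Fin 2) ℤ))) k τ := by
  unfold wE
  have hre := (h20_vecMulEquiv g).tsum_eq (fun u : Fin 2 → ℤ =>
    w (Matrix.vecMul u ((g⁻¹ : SL(2, ℤ)) : Matrix (Fin 2) (Fin 2) ℤ)) * eisSummand k u τ)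
  rw [← hre, ← tsum_mul_left]
  refine tsum_congr fun v => ?_
  have hv : Matrix.vecMul (Matrix.vecMul v (g : Matrix (Fin 2) (Fin 2) ℤ))
      ((g⁻¹ : SL(2, ℤ)) : Matrix (Fin 2) (Fin 2) ℤ) = v := (h20_vecMulEquiv g).left_inv v
  simp only [h20_vecMulEquiv_apply]
  rw [hv, eisSummand_SL2_apply]
  ring

/-! ### translation invariance and the uniform bound -/

/-- the total absolute Eisenstein sum. -/
def absE (k : ℤ) (τ : ℍ) : ℝ := ∑' v : Fin 2 → ℤ, ‖eisSummand k v τ‖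

/-- the absolute Eisenstein sum over the vectors with `v 0 ≠ 0`. -/
def absE' (k : ℤ) (τ : ℍ) : ℝ :=
  ∑' v : Fin 2 → ℤ, if v 0 = 0 then 0 else ‖eisSummand k v τ‖

/-- the shear `(c, d) ↦ (c, c n + d)`. -/
def h20_shear (n : ℤ) : (Fin 2 → ℤ) ≃ (Fin 2 → ℤ) where
  toFun v := ![v 0, v 0 * n + v 1]
  invFun v := ![v 0, v 1 - v 0 * n]
  left_inv v := by
    ext i
    fin_cases i <;> simp
  right_inv v := by
    ext i
    fin_cases i <;> simp

@[simp] theorem h20_shear_apply_zero (n : ℤ) (v : Fin 2 → ℤ) : h20_shear n v 0 = v 0 := rfl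

@[simp] theorem h20_shear_apply_one (n : ℤ) (v : Fin 2 → ℤ) :
    h20_shear n v 1 = v 0 * n + v 1 := rfl

theorem h20_eisSummand_vadd (k : ℤ) (v : Fin 2 → ℤ) (n : ℤ) (τ : ℍ) :
    eisSummand k v (((n : ℝ)) +ᵥ τ) = eisSummand k (h20_shear n v) τ := by
  simp only [eisSummand, h20_shear_apply_zero, h20_shear_apply_one, UpperHalfPlane.coe_vadd]
  congr 1
  push_cast
  ring

theorem h20_absE_vadd (k : ℤ) (n : ℤ) (τ : ℍ) : absE k ((n : ℝ) +ᵥ τ) = absE k τ := by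
  unfold absE
  rw [← (h20_shear n).tsum_eq (fun v => ‖eisSummand k v τ‖)]
  exact tsum_congr fun v => by rw [h20_eisSummand_vadd]

theorem h20_absE'_vadd (k : ℤ) (n : ℤ) (τ : ℍ) : absE' k ((n : ℝ) +ᵥ τ) = absE' k τ := by
  unfold absE'
  rw [← (h20_shear n).tsum_eq (fun v => if v 0 = 0 then 0 else ‖eisSummand k v τ‖)]
  exact tsum_congr fun v => by rw [h20_eisSummand_vadd, h20_shear_apply_zero]

/-- every point can be translated by an integer into the strip `|re| ≤ 1`. -/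
theorem h20_exists_vadd_mem_strip (τ : ℍ) :
    ∃ n : ℤ, ((n : ℝ) +ᵥ τ) ∈ verticalStrip 1 τ.im := by
  refine ⟨-⌊τ.re⌋, ?_⟩
  rw [mem_verticalStrip_iff]
  constructor
  · rw [UpperHalfPlane.vadd_re]
    push_cast
    rw [abs_le]
    constructor
    · linarith [Int.floor_le τ.re]
    · linarith [Int.lt_floor_add_one τ.re]
  · rw [UpperHalfPlane.vadd_im]

theorem h20_norm_wE_le_absE (hw : ∀ v, ‖w v‖ ≤ 1) (hk : 3 ≤ k) (τ : ℍ) :
    ‖wE w k τ‖ ≤ absE k τ := by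
  unfold wE absE
  refine (norm_tsum_le_tsum_norm (h20_summable_norm hw hk τ)).trans ?_
  exact (h20_summable_norm hw hk τ).tsum_le_tsum (fun v => h20_norm_term_le hw v τ)
    (summable_norm_eisSummand hk τ)

/-- bound of `absE` on `{B ≤ im τ}`. -/
theorem h20_absE_le (hk : 3 ≤ k) {B : ℝ} (hB : 0 < B) (τ : ℍ) (hτ : B ≤ τ.im) :
    absE k τ ≤ ∑' x : Fin 2 → ℤ, r ⟨⟨1, B⟩, hB⟩ ^ (-k) * ‖x‖ ^ (-k) := by
  obtain ⟨n, hn⟩ := h20_exists_vadd_mem_strip τ
  have hn' : ((n : ℝ) +ᵥ τ) ∈ verticalStrip 1 B := verticalStrip_anti_right 1 hτ hn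
  rw [← h20_absE_vadd k n τ]
  unfold absE
  have hk' : (2 : ℝ) < k := by norm_cast
  refine (summable_norm_eisSummand hk _).tsum_le_tsum (fun x => ?_) ?_
  · simp_rw [eisSummand, norm_zpow]
    exact_mod_cast
      summand_bound_of_mem_verticalStrip (lt_trans two_pos hk').le x hB hn'
  · exact_mod_cast (summable_one_div_norm_rpow hk').mul_left <| r ⟨⟨1, B⟩, hB⟩ ^ (-k)

/-- **(B1c)** the uniform bound: a constant depending only on `k` bounds all weighted Eisenstein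
sums with weights of norm `≤ 1` on `{1 ≤ im τ}`. -/
theorem h20_exists_bound (hk : 3 ≤ k) :
    ∃ C : ℝ, ∀ (w : (Fin 2 → ℤ) → ℂ), (∀ v, ‖w v‖ ≤ 1) → ∀ τ : ℍ, 1 ≤ τ.im → ‖wE w k τ‖ ≤ C :=
  ⟨_, fun _ hw τ hτ => (h20_norm_wE_le_absE hw hk τ).trans (h20_absE_le hk one_pos τ hτ)⟩

theorem h20_isBoundedAtImInfty (hw : ∀ v, ‖w v‖ ≤ 1) (hk : 3 ≤ k) :
    IsBoundedAtImInfty (wE w k) := by
  obtain ⟨C, hC⟩ := h20_exists_bound hk
  rw [UpperHalfPlane.isBoundedAtImInfty_iff]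
  exact ⟨C, 1, fun τ hτ => hC w hw τ hτ⟩

/-! ### the limit at `i∞` -/

theorem h20_summable_absE' (hk : 3 ≤ k) (τ : ℍ) :
    Summable (fun v : Fin 2 → ℤ => if v 0 = 0 then 0 else ‖eisSummand k v τ‖) := by
  refine Summable.of_nonneg_of_le (fun v => ?_) (fun v => ?_) (summable_norm_eisSummand hk τ)
  · split_ifs
    · exact le_rfl
    · exact norm_nonneg _
  · split_ifs
    · exact norm_nonneg _
    · exact le_rfl

/-- for `k ≥ 4` the part of the Eisenstein sum with `c ≠ 0` is `O(1 / im τ)`. -/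
theorem h20_absE'_le (hk : 4 ≤ k) (τ : ℍ) (hτ : 1 ≤ τ.im) :
    absE' k τ ≤ (τ.im)⁻¹ * ∑' x : Fin 2 → ℤ,
      r ⟨⟨1, 1⟩, one_pos⟩ ^ (-((k : ℝ) - 1)) * ‖x‖ ^ (-((k : ℝ) - 1)) := by
  obtain ⟨n, hn⟩ := h20_exists_vadd_mem_strip τ
  have hn' : ((n : ℝ) +ᵥ τ) ∈ verticalStrip 1 1 := verticalStrip_anti_right 1 hτ hn
  have him : ((n : ℝ) +ᵥ τ).im = τ.im := UpperHalfPlane.vadd_im _ _
  set z : ℍ := (n : ℝ) +ᵥ τ with hz
  have hy : 0 < τ.im := τ.im_pos
  rw [← h20_absE'_vadd k n τ, ← hz]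
  unfold absE'
  have hk' : (2 : ℝ) < (k : ℝ) - 1 := by
    have : (4 : ℝ) ≤ (k : ℝ) := by exact_mod_cast hk
    linarith
  have hk0 : (0 : ℝ) ≤ (k : ℝ) - 1 := by linarith
  have hsum : Summable fun x : Fin 2 → ℤ =>
      r ⟨⟨1, 1⟩, one_pos⟩ ^ (-((k : ℝ) - 1)) * ‖x‖ ^ (-((k : ℝ) - 1)) :=
    (summable_one_div_norm_rpow hk').mul_left _
  rw [← tsum_mul_left]
  refine (h20_summable_absE' (by linarith) z).tsum_le_tsum (fun v => ?_) (hsum.mul_left _)
  have hb := summand_bound_of_mem_verticalStrip hk0 v one_pos hn'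
  have hbnn : 0 ≤ r ⟨⟨1, 1⟩, one_pos⟩ ^ (-((k : ℝ) - 1)) * ‖v‖ ^ (-((k : ℝ) - 1)) :=
    mul_nonneg (Real.rpow_nonneg (r_pos _).le _) (Real.rpow_nonneg (norm_nonneg _) _)
  split_ifs with h0
  · exact mul_nonneg (inv_nonneg.mpr hy.le) hbnn
  · -- the main estimate
    have hv0 : (1 : ℝ) ≤ |((v 0 : ℤ) : ℝ)| := by
      have : (1 : ℤ) ≤ |v 0| := Int.one_le_abs h0
      exact_mod_cast this
    have hx_im : τ.im ≤ ‖(v 0 : ℂ) * (z : ℂ) + v 1‖ := by
      have h1 : ((v 0 : ℂ) * (z : ℂ) + v 1).im = (v 0 : ℝ) * τ.im := by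
        simp [← him]
      calc τ.im ≤ |((v 0 : ℤ) : ℝ)| * τ.im := le_mul_of_one_le_left hy.le hv0
        _ = |((v 0 : ℂ) * (z : ℂ) + v 1).im| := by rw [h1, abs_mul, abs_of_pos hy]
        _ ≤ ‖(v 0 : ℂ) * (z : ℂ) + v 1‖ := Complex.abs_im_le_norm _
    have hx0 : 0 < ‖(v 0 : ℂ) * (z : ℂ) + v 1‖ := lt_of_lt_of_le hy hx_im
    have e1 : ‖eisSummand k v z‖ = ‖(v 0 : ℂ) * (z : ℂ) + v 1‖ ^ (-1 : ℝ) *
        ‖(v 0 : ℂ) * (z : ℂ) + v 1‖ ^ (-((k : ℝ) - 1)) := by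
      rw [eisSummand, norm_zpow, ← Real.rpow_add hx0, ← Real.rpow_intCast]
      congr 1
      push_cast
      ring
    rw [e1]
    refine mul_le_mul ?_ hb (Real.rpow_nonneg hx0.le _) (inv_nonneg.mpr hy.le)
    rw [Real.rpow_neg_one]
    exact inv_anti₀ hy hx_im

/-- the constant term of the weighted Eisenstein sum: the contribution of the vectors `(0, d)`. -/
def wE0 (w : (Fin 2 → ℤ) → ℂ) (k : ℤ) : ℂ :=
  ∑' v : Fin 2 → ℤ, if v 0 = 0 then w v * ((v 1 : ℤ) : ℂ) ^ (-k) else 0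

theorem h20_eisSummand_of_zero (k : ℤ) {v : Fin 2 → ℤ} (h0 : v 0 = 0) (τ : ℍ) :
    eisSummand k v τ = ((v 1 : ℤ) : ℂ) ^ (-k) := by
  simp [eisSummand, h0]

theorem h20_summable_wE0 (hw : ∀ v, ‖w v‖ ≤ 1) (hk : 3 ≤ k) :
    Summable (fun v : Fin 2 → ℤ => if v 0 = 0 then w v * ((v 1 : ℤ) : ℂ) ^ (-k) else 0) := by
  refine Summable.of_norm_bounded (h20_summable_norm hw hk UpperHalfPlane.I) (fun v => ?_)
  split_ifs with h0
  · rw [h20_eisSummand_of_zero k h0]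
  · rw [norm_zero]
    exact norm_nonneg _

theorem h20_norm_wE_sub_le (hw : ∀ v, ‖w v‖ ≤ 1) (hk : 3 ≤ k) (τ : ℍ) :
    ‖wE w k τ - wE0 w k‖ ≤ absE' k τ := by
  unfold wE wE0 absE'
  rw [← (h20_summable hw hk τ).tsum_sub (h20_summable_wE0 hw hk)]
  have hterm : ∀ v : Fin 2 → ℤ,
      ‖w v * eisSummand k v τ - (if v 0 = 0 then w v * ((v 1 : ℤ) : ℂ) ^ (-k) else 0)‖ ≤
        if v 0 = 0 then 0 else ‖eisSummand k v τ‖ := by
    intro v
    split_ifs with h0
    · rw [h20_eisSummand_of_zero k h0, sub_self, norm_zero]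
    · rw [sub_zero]
      exact h20_norm_term_le hw v τ
  have hs : Summable fun v : Fin 2 → ℤ =>
      ‖w v * eisSummand k v τ - (if v 0 = 0 then w v * ((v 1 : ℤ) : ℂ) ^ (-k) else 0)‖ :=
    Summable.of_nonneg_of_le (fun _ => norm_nonneg _) hterm (h20_summable_absE' hk τ)
  exact (norm_tsum_le_tsum_norm hs).trans (hs.tsum_le_tsum hterm (h20_summable_absE' hk τ))

/-- **(B3)** the limit at `i∞` (general weights). -/
theorem h20_tendsto_wE0 (hw : ∀ v, ‖w v‖ ≤ 1) (hk : 4 ≤ k) :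
    Tendsto (wE w k) atImInfty (𝓝 (wE0 w k)) := by
  rw [tendsto_iff_norm_sub_tendsto_zero]
  set C : ℝ := ∑' x : Fin 2 → ℤ,
      r ⟨⟨1, 1⟩, one_pos⟩ ^ (-((k : ℝ) - 1)) * ‖x‖ ^ (-((k : ℝ) - 1)) with hC
  have hlim : Tendsto (fun τ : ℍ => (τ.im)⁻¹ * C) atImInfty (𝓝 0) := by
    have h1 : Tendsto (fun τ : ℍ => τ.im) atImInfty atTop := tendsto_comap
    have h2 := (tendsto_inv_atTop_zero.comp h1).mul_const C
    simpa using h2
  refine squeeze_zero' (Eventually.of_forall fun _ => norm_nonneg _) ?_ hlim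
  have hev : ∀ᶠ τ : ℍ in atImInfty, 1 ≤ τ.im :=
    (atImInfty_mem _).mpr ⟨1, fun τ hτ => hτ⟩
  filter_upwards [hev] with τ hτ
  exact (h20_norm_wE_sub_le hw (by linarith) τ).trans (h20_absE'_le hk τ hτ)

/-- evaluation of the constant term for weights supported on coprime vectors. -/
theorem h20_wE0_eq (k : ℤ) (hcop : ∀ v : Fin 2 → ℤ, ¬ IsCoprime (v 0) (v 1) → w v = 0) :
    wE0 w k = w ![0, 1] + (-1) ^ k * w ![0, -1] := by
  unfold wE0
  have hne : (![0, 1] : Fin 2 → ℤ) ≠ ![0, -1] := by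
    intro h
    have := congrFun h 1
    simp at this
  rw [tsum_eq_sum (s := {![0, 1], ![0, -1]}) (fun v hv => ?_), Finset.sum_pair hne]
  · simp only [Matrix.cons_val_zero, Matrix.cons_val_one, if_true, Int.cast_one,
      one_zpow, mul_one, Int.cast_neg]
    rw [mul_comm (w ![0, -1]), ← inv_zpow', inv_neg_one]
  · split_ifs with h0
    · rw [hcop v ?_, zero_mul]
      intro hc
      rw [h0, isCoprime_zero_left, Int.isUnit_iff] at hc
      apply hv
      rw [Finset.mem_insert, Finset.mem_singleton]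
      rcases hc with h1 | h1
      · left
        ext i
        fin_cases i
        · simpa using h0
        · simpa using h1
      · right
        ext i
        fin_cases i
        · simpa using h0
        · simpa using h1
    · rfl

/-- **(B3)** the limit at `i∞` for weights supported on coprime vectors. -/
theorem h20_tendsto_wE (hw : ∀ v, ‖w v‖ ≤ 1) (hk : 4 ≤ k)
    (hcop : ∀ v : Fin 2 → ℤ, ¬ IsCoprime (v 0) (v 1) → w v = 0) :
    Tendsto (wE w k) atImInfty (𝓝 (w ![0, 1] + (-1) ^ k * w ![0, -1])) := by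
  rw [← h20_wE0_eq k hcop]
  exact h20_tendsto_wE0 hw hk

/-- a function with a nonzero limit at `i∞` is not identically zero. -/
theorem h20_ne_zero_of_tendsto {G : ℍ → ℂ} {c : ℂ} (h : Tendsto G atImInfty (𝓝 c))
    (hc : c ≠ 0) : G ≠ 0 := by
  intro h0
  rw [h0] at h
  have : Tendsto (0 : ℍ → ℂ) atImInfty (𝓝 0) := tendsto_const_nhds
  exact hc (tendsto_nhds_unique h this)

/-! ### the abstract cusp expansion -/

open Fermat.Agent.S28 in
/-- **(B4)** a holomorphic function on `ℍ` which is `N`-periodic and bounded at `i∞` has a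
power series expansion in `exp (2πiτ/N)`, valid on all of `ℍ`. -/
theorem h20_hasTExp_of_periodic_bounded {N : ℕ} (hN : 0 < N) {G : ℍ → ℂ} (hG : MDiff G)
    (hper : ∀ τ : ℍ, G (((N : ℝ)) +ᵥ τ) = G τ) (hbdd : IsBoundedAtImInfty G) :
    HasTExp N G (HahnSeries.ofPowerSeries ℤ ℂ (UpperHalfPlane.qExpansion (N : ℝ) G)) := by
  have hh : (0 : ℝ) < (N : ℝ) := by exact_mod_cast hN
  have hperiodic : Function.Periodic (G ∘ ofComplex) (N : ℝ) := by
    intro z
    by_cases hz : 0 < z.im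
    · have hz' : 0 < (z + (N : ℝ)).im := by simpa using hz
      simp only [Function.comp_apply, ofComplex_apply_of_im_pos hz',
        ofComplex_apply_of_im_pos hz]
      rw [← hper ⟨z, hz⟩]
      congr 1
      ext
      simp [add_comm]
    · have hz0 : z.im ≤ 0 := not_lt.mp hz
      have hz' : (z + (N : ℝ)).im ≤ 0 := by simpa using hz0
      simp only [Function.comp_apply, ofComplex_apply_of_im_nonpos hz',
        ofComplex_apply_of_im_nonpos hz0]
  refine ⟨0, UpperHalfPlane.qExpansion (N : ℝ) G, by simp, fun τ => ?_⟩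
  have h := UpperHalfPlane.hasSum_qExpansion hh hperiodic hG hbdd τ
  simpa [tParam, smul_eq_mul] using h

end Fermat.Agent.Jac.EisAn
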