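import Fermat.Agent.Jac.EisDefs
import Fermat.Agent.Jac.EisAnalyticCore

/-!
# IN-JAC, task EIS: EIS-SLASH and EIS-CUSPEXP (helper20)

* `eisSlash : EisSlashStatement`
* `eisCuspExp : EisCuspExpStatement`

and, as independent second proofs (same core file), `h20_eisMDiff : EisMDiffStatement`,
`h20_eisBdd : EisBddStatement`, `h20_eisNeZero : EisNeZeroStatement`.
-/

set_option autoImplicit false

open UpperHalfPlane Matrix Filter Topology
open scoped MatrixGroups Manifold

noncomputable section

namespace Fermat.Agent.Jac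

open Fermat.Agent.S28 (HasTExp)

theorem h20_eisW_eq (k : ℤ) (w : (Fin 2 → ℤ) → ℂ) : eisW k w = EisAn.wE w k := rfl

/-- **EIS-SLASH.** -/
theorem eisSlash : EisSlashStatement := by
  intro k _ w _ g τ
  rw [h20_eisW_eq, h20_eisW_eq]
  exact EisAn.h20_wE_smul w k g τ

/-- **EIS-CUSPEXP.** -/
theorem eisCuspExp : EisCuspExpStatement := by
  intro N hN F hF hper hbdd
  exact ⟨_, EisAn.h20_hasTExp_of_periodic_bounded hN hF hper hbdd⟩

/-- second proof of EIS-MDIFF. -/
theorem h20_eisMDiff : EisMDiffStatement := by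
  intro k hk w hw
  exact ⟨fun τ => EisAn.h20_summable hw hk τ, EisAn.h20_mdiff hw hk⟩

/-- second proof of EIS-BDD. -/
theorem h20_eisBdd : EisBddStatement := by
  intro k hk w hw
  exact EisAn.h20_isBoundedAtImInfty hw hk

/-- the limit of a weighted Eisenstein sum of weight `k ≥ 4` at `i∞` when the weight vanishes
at `(0, d)`, `d ≠ ±1`. -/
theorem h20_eisW_tendsto {k : ℤ} (hk : 4 ≤ k) {w : (Fin 2 → ℤ) → ℂ} (hw : ∀ v, ‖w v‖ ≤ 1)
    (h0 : ∀ d : ℤ, d ≠ 1 → d ≠ -1 → w ![0, d] = 0) :
    Tendsto (eisW k w) atImInfty (𝓝 (w ![0, 1] + (-1) ^ k * w ![0, -1])) := by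
  have hlim := EisAn.h20_tendsto_wE0 hw hk
  have hval : EisAn.wE0 w k = w ![0, 1] + (-1) ^ k * w ![0, -1] := by
    unfold EisAn.wE0
    have hne : (![0, 1] : Fin 2 → ℤ) ≠ ![0, -1] := by
      intro h
      have := congrFun h 1
      simp at this
    rw [tsum_eq_sum (s := {![0, 1], ![0, -1]}) (fun v hv => ?_), Finset.sum_pair hne]
    · simp only [Matrix.cons_val_zero, Matrix.cons_val_one, if_true, Int.cast_one,
        _root_.one_zpow, mul_one, Int.cast_neg]
      rw [mul_comm (w ![0, -1]), ← _root_.inv_zpow', inv_neg_one]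
    · split_ifs with hv0
      · have hv' : v = ![0, v 1] := by
          ext i
          fin_cases i
          · simpa using hv0
          · simp
        have h1 : v 1 ≠ 1 := by
          intro h1
          apply hv
          rw [Finset.mem_insert]
          left
          rw [hv', h1]
        have h2 : v 1 ≠ -1 := by
          intro h2
          apply hv
          rw [Finset.mem_insert, Finset.mem_singleton]
          right
          rw [hv', h2]
        rw [hv', h0 (v 1) h1 h2, zero_mul]
      · rfl
  rw [← hval]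
  exact hlim

/-- second proof of EIS-NZ. -/
theorem h20_eisNeZero : EisNeZeroStatement := by
  intro w hw h1 h2 h0
  have hlim := h20_eisW_tendsto (k := 12) (by norm_num) hw h0
  rw [h1, h2] at hlim
  refine EisAn.h20_ne_zero_of_tendsto hlim ?_
  norm_num

end Fermat.Agent.Jac
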