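import Fermat.Agent.Jac.Skeleton
import Mathlib.NumberTheory.ModularForms.EisensteinSeries.Defs

/-!
# IN-JAC, task EIS: common definitions and the frozen sub-interfaces (helper55)

`eisW k w τ = ∑' v, w v * (v 0 * τ + v 1) ^ (-k)` is the weighted Eisenstein sum over all
integer vectors `v`; for the Eisenstein series with character `χ` of `Γ₀(N)` the weight is
`w v = (χ γ)⁻¹` if `v` is the bottom row of `γ ∈ Γ₀(N)` and `0` otherwise.

Everything here is a definition or a `def ... : Prop`; nothing is assumed.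
-/

set_option autoImplicit false

open UpperHalfPlane Matrix
open scoped MatrixGroups Manifold

noncomputable section

namespace Fermat.Agent.Jac

open Fermat.Agent.S28 (HasTExp)

/-- the weighted Eisenstein sum of weight `k` with weight function `w`. -/
def eisW (k : ℤ) (w : (Fin 2 → ℤ) → ℂ) (τ : ℍ) : ℂ :=
  ∑' v : Fin 2 → ℤ, w v * EisensteinSeries.eisSummand k v τ

/-- the weight function translated by `g`: `v ↦ w (v g⁻¹)`. -/
def eisTw (w : (Fin 2 → ℤ) → ℂ) (g : SL(2, ℤ)) : (Fin 2 → ℤ) → ℂ :=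
  fun v => w (v ᵥ* ((g⁻¹ : SL(2, ℤ)) : Matrix (Fin 2) (Fin 2) ℤ))

/-- **EIS-MDIFF.** summability and holomorphy of weighted Eisenstein sums. -/
def EisMDiffStatement : Prop :=
  ∀ (k : ℤ), 3 ≤ k → ∀ w : (Fin 2 → ℤ) → ℂ, (∀ v, ‖w v‖ ≤ 1) →
    (∀ τ : ℍ, Summable fun v : Fin 2 → ℤ => w v * EisensteinSeries.eisSummand k v τ) ∧
      MDiff (eisW k w)

/-- **EIS-SLASH.** the transformation law under `SL(2, ℤ)`. -/
def EisSlashStatement : Prop :=
  ∀ (k : ℤ), 3 ≤ k → ∀ w : (Fin 2 → ℤ) → ℂ, (∀ v, ‖w v‖ ≤ 1) →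
    ∀ (g : SL(2, ℤ)) (τ : ℍ), eisW k w (g • τ) = (denom g τ) ^ k * eisW k (eisTw w g) τ

/-- **EIS-BDD.** weighted Eisenstein sums are bounded at `i∞`. -/
def EisBddStatement : Prop :=
  ∀ (k : ℤ), 3 ≤ k → ∀ w : (Fin 2 → ℤ) → ℂ, (∀ v, ‖w v‖ ≤ 1) →
    IsBoundedAtImInfty (eisW k w)

/-- **EIS-NZ.** a weighted Eisenstein sum of weight `12` whose weight is `1` at `(0, ±1)` and
`0` at the other `(0, d)` is not the zero function (its limit along `i y`, `y → ∞`, is `2`). -/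
def EisNeZeroStatement : Prop :=
  ∀ w : (Fin 2 → ℤ) → ℂ, (∀ v, ‖w v‖ ≤ 1) → w ![0, 1] = 1 → w ![0, -1] = 1 →
    (∀ d : ℤ, d ≠ 1 → d ≠ -1 → w ![0, d] = 0) → eisW 12 w ≠ 0

/-- **EIS-CUSPEXP.** a holomorphic, `N`-periodic function on `ℍ` which is bounded at `i∞` has a
power series expansion in `exp (2πiτ/N)`, valid on all of `ℍ`. -/
def EisCuspExpStatement : Prop :=
  ∀ (N : ℕ), 0 < N → ∀ F : ℍ → ℂ, MDiff F → (∀ τ : ℍ, F ((N : ℝ) +ᵥ τ) = F τ) →
    IsBoundedAtImInfty F →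
    ∃ p : PowerSeries ℂ, HasTExp N F (HahnSeries.ofPowerSeries ℤ ℂ p)

/-- **EIS-ASM.** the assembly of `EisStatement` (character weight, periodicity of the
translates, quotient by `Δ`). -/
def EisAssembly : Prop :=
  EisMDiffStatement → EisSlashStatement → EisBddStatement → EisNeZeroStatement →
    EisCuspExpStatement → EisStatement

end Fermat.Agent.Jac
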