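import Mathlib
import Fermat.Agent.Jac.EisDefs

/-!
# IN-JAC, task EIS, part b (helper10): weighted Eisenstein sums at the cusp `∞`

* `eisBdd : EisBddStatement`, `eisNeZero : EisNeZeroStatement` (the two frozen sub-interfaces
  of `EisDefs.lean` assigned to helper10), and also `h10_eisSlash : EisSlashStatement`,
  `h10_eisCuspExp : EisCuspExpStatement`.
* `h10_summable_eisW`           : absolute convergence (`3 ≤ k`, `‖w v‖ ≤ 1`).
* `h10_isBoundedAtImInfty_eisW` : boundedness at `i∞`.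
* `h10_tendsto_eisW`            : `eisW k w → 2` at `i∞` if `4 ≤ k` is even, `w (0, ±1) = 1` and
  `w (0, d) = 0` for `d ≠ ±1`;  `h10_eisW_ne_zero`.
* `h10_hasTExp_of_periodic`     : a holomorphic function on `ℍ` of period `N` which is bounded at
  `i∞` has an expansion in `exp (2πiτ/N)`.
-/

set_option autoImplicit false

open UpperHalfPlane EisensteinSeries Filter Topology
open scoped MatrixGroups Manifold

noncomputable section

namespace Fermat.Agent.Jac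

open Fermat.Agent.S28 (HasTExp tParam)

/-- right multiplication by `γ ∈ SL(2, ℤ)` as a permutation of `ℤ²`. -/
def h10_vecMulEquiv (γ : SL(2, ℤ)) : (Fin 2 → ℤ) ≃ (Fin 2 → ℤ) where
  toFun v := Matrix.vecMul v (γ : Matrix (Fin 2) (Fin 2) ℤ)
  invFun v := Matrix.vecMul v ((γ⁻¹ : SL(2, ℤ)) : Matrix (Fin 2) (Fin 2) ℤ)
  left_inv v := by
    simp_rw [Matrix.vecMul_vecMul, ← Matrix.SpecialLinearGroup.coe_mul, mul_inv_cancel,
      Matrix.SpecialLinearGroup.coe_one, Matrix.vecMul_one]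
  right_inv v := by
    simp_rw [Matrix.vecMul_vecMul, ← Matrix.SpecialLinearGroup.coe_mul, inv_mul_cancel,
      Matrix.SpecialLinearGroup.coe_one, Matrix.vecMul_one]

lemma h10_vecMulEquiv_apply (γ : SL(2, ℤ)) (v : Fin 2 → ℤ) :
    h10_vecMulEquiv γ v = Matrix.vecMul v (γ : Matrix (Fin 2) (Fin 2) ℤ) := rfl

lemma h10_vecMulEquiv_symm_apply (γ : SL(2, ℤ)) (v : Fin 2 → ℤ) :
    (h10_vecMulEquiv γ).symm v
      = Matrix.vecMul v ((γ⁻¹ : SL(2, ℤ)) : Matrix (Fin 2) (Fin 2) ℤ) := rfl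

/-- **transformation law** of weighted Eisenstein sums (no convergence hypothesis needed). -/
theorem h10_eisW_smul (k : ℤ) (w : (Fin 2 → ℤ) → ℂ) (γ : SL(2, ℤ)) (τ : ℍ) :
    eisW k w (γ • τ) = denom γ τ ^ k *
      eisW k (fun v => w (Matrix.vecMul v ((γ⁻¹ : SL(2, ℤ)) : Matrix (Fin 2) (Fin 2) ℤ))) τ := by
  unfold eisW
  rw [← tsum_mul_left]
  have h := (h10_vecMulEquiv γ).tsum_eq (fun v => denom γ τ ^ k *
    (w (Matrix.vecMul v ((γ⁻¹ : SL(2, ℤ)) : Matrix (Fin 2) (Fin 2) ℤ)) * eisSummand k v τ))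
  rw [← h]
  refine tsum_congr fun v => ?_
  have h1 : Matrix.vecMul (h10_vecMulEquiv γ v) ((γ⁻¹ : SL(2, ℤ)) : Matrix (Fin 2) (Fin 2) ℤ)
      = v := (h10_vecMulEquiv γ).left_inv v
  rw [h1, eisSummand_SL2_apply, h10_vecMulEquiv_apply]
  ring

/-- absolute convergence. -/
theorem h10_summable_eisW {k : ℤ} (hk : 3 ≤ k) {w : (Fin 2 → ℤ) → ℂ} (hw : ∀ v, ‖w v‖ ≤ 1)
    (τ : ℍ) : Summable fun v : Fin 2 → ℤ => w v * eisSummand k v τ := by
  refine Summable.of_norm_bounded (summable_norm_eisSummand hk τ) (fun v => ?_)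
  rw [norm_mul]
  calc ‖w v‖ * ‖eisSummand k v τ‖ ≤ 1 * ‖eisSummand k v τ‖ :=
        mul_le_mul_of_nonneg_right (hw v) (norm_nonneg _)
    _ = ‖eisSummand k v τ‖ := one_mul _

/-- the sum of the weights is dominated by the sum of the norms of the summands. -/
lemma h10_norm_eisW_le {k : ℤ} (hk : 3 ≤ k) {w : (Fin 2 → ℤ) → ℂ} (hw : ∀ v, ‖w v‖ ≤ 1)
    (τ : ℍ) : ‖eisW k w τ‖ ≤ ∑' v : Fin 2 → ℤ, ‖eisSummand k v τ‖ := by
  unfold eisW
  refine (norm_tsum_le_tsum_norm (h10_summable_eisW hk hw τ).norm).trans ?_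
  refine Summable.tsum_le_tsum (fun v => ?_) (h10_summable_eisW hk hw τ).norm
    (summable_norm_eisSummand hk τ)
  rw [norm_mul]
  calc ‖w v‖ * ‖eisSummand k v τ‖ ≤ 1 * ‖eisSummand k v τ‖ :=
        mul_le_mul_of_nonneg_right (hw v) (norm_nonneg _)
    _ = ‖eisSummand k v τ‖ := one_mul _

lemma h10_denom_T_zpow (n : ℤ) (τ : ℍ) (g : SL(2, ℤ)) (hg : g = ModularGroup.T ^ n) :
    denom g τ = 1 := by
  rw [ModularGroup.denom_apply]
  have h := ModularGroup.coe_T_zpow n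
  have h10 : g 1 0 = 0 := by
    show (g.1) 1 0 = 0
    rw [hg, h]; rfl
  have h11 : g 1 1 = 1 := by
    show (g.1) 1 1 = 1
    rw [hg, h]; rfl
  rw [h10, h11]
  simp

/-- uniform bound on a vertical strip. -/
lemma h10_norm_eisW_le_of_mem_strip {k : ℤ} (hk : 3 ≤ k) {w : (Fin 2 → ℤ) → ℂ}
    (hw : ∀ v, ‖w v‖ ≤ 1) {τ : ℍ} (hτ : τ ∈ verticalStrip 1 1) :
    ‖eisW k w τ‖ ≤ ∑' x : Fin 2 → ℤ, r ⟨⟨1, 1⟩, one_pos⟩ ^ (-k) * ‖x‖ ^ (-k) := by
  refine (h10_norm_eisW_le hk hw τ).trans ?_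
  have hk' : (2 : ℝ) < k := by norm_cast
  refine (summable_norm_eisSummand hk τ).tsum_le_tsum (fun x => ?_) ?_
  · simp_rw [eisSummand, norm_zpow]
    exact_mod_cast summand_bound_of_mem_verticalStrip (lt_trans two_pos hk').le x one_pos hτ
  · exact_mod_cast (summable_one_div_norm_rpow hk').mul_left <| r ⟨⟨1, 1⟩, one_pos⟩ ^ (-k)

/-- every point can be moved into the strip `|Re| ≤ 1` by a translation. -/
lemma h10_exists_T_zpow_mem_strip (τ : ℍ) :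
    ∃ m : ℤ, ModularGroup.T ^ m • τ ∈ verticalStrip 1 τ.im := by
  obtain ⟨n, hn⟩ := ModularGroup_T_zpow_mem_verticalStrip τ one_pos
  exact ⟨((1 : ℕ) : ℤ) * n, by simpa using hn⟩

/-- moving the argument by a translation changes the weights only. -/
lemma h10_eisW_eq_T_zpow (k : ℤ) (w : (Fin 2 → ℤ) → ℂ) (m : ℤ) (τ : ℍ) :
    eisW k w τ = eisW k (fun v => w (Matrix.vecMul v
      ((ModularGroup.T ^ m : SL(2, ℤ)) : Matrix (Fin 2) (Fin 2) ℤ))) (ModularGroup.T ^ m • τ) := by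
  have key := h10_eisW_smul k w (ModularGroup.T ^ (-m)) (ModularGroup.T ^ m • τ)
  rw [h10_denom_T_zpow (-m) _ _ rfl, one_zpow, one_mul, zpow_neg, inv_smul_smul, inv_inv] at key
  exact key

/-- **boundedness at `i∞`** of weighted Eisenstein sums. -/
theorem h10_isBoundedAtImInfty_eisW {k : ℤ} (hk : 3 ≤ k) {w : (Fin 2 → ℤ) → ℂ}
    (hw : ∀ v, ‖w v‖ ≤ 1) : IsBoundedAtImInfty (eisW k w) := by
  rw [UpperHalfPlane.isBoundedAtImInfty_iff]
  refine ⟨∑' x : Fin 2 → ℤ, r ⟨⟨1, 1⟩, one_pos⟩ ^ (-k) * ‖x‖ ^ (-k), 1, fun τ hτ => ?_⟩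
  obtain ⟨m, hm⟩ := h10_exists_T_zpow_mem_strip τ
  have hm' : ModularGroup.T ^ m • τ ∈ verticalStrip 1 1 := verticalStrip_anti_right 1 hτ hm
  rw [h10_eisW_eq_T_zpow k w m τ]
  exact h10_norm_eisW_le_of_mem_strip hk (fun v => hw _) hm'

/-- the constant of the decay estimate. -/
def h10_decayConst (k : ℤ) : ℝ :=
  ∑' x : Fin 2 → ℤ, r ⟨⟨1, 1⟩, one_pos⟩ ^ (-(k - 1)) * ‖x‖ ^ (-(k - 1))

lemma h10_norm_linear_ge_im (v : Fin 2 → ℤ) (hv : v 0 ≠ 0) (τ : ℍ) :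
    τ.im ≤ ‖(v 0 : ℂ) * (τ : ℂ) + (v 1 : ℂ)‖ := by
  have h1 : ((v 0 : ℂ) * (τ : ℂ) + (v 1 : ℂ)).im = (v 0 : ℝ) * τ.im := by
    simp
  have h2 : |((v 0 : ℂ) * (τ : ℂ) + (v 1 : ℂ)).im| ≤ ‖(v 0 : ℂ) * (τ : ℂ) + (v 1 : ℂ)‖ :=
    Complex.abs_im_le_norm _
  rw [h1, abs_mul, abs_of_pos τ.im_pos] at h2
  have h3 : (1 : ℝ) ≤ |(v 0 : ℝ)| := by
    have : (1 : ℤ) ≤ |v 0| := Int.one_le_abs hv
    exact_mod_cast this
  calc τ.im = 1 * τ.im := (one_mul _).symm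
    _ ≤ |(v 0 : ℝ)| * τ.im := mul_le_mul_of_nonneg_right h3 τ.im_pos.le
    _ ≤ _ := h2

/-- termwise decay estimate on the strip. -/
lemma h10_norm_eisSummand_le {k : ℤ} (hk : 4 ≤ k) (v : Fin 2 → ℤ) (hv : v 0 ≠ 0) {τ : ℍ}
    (hτ : τ ∈ verticalStrip 1 1) :
    ‖eisSummand k v τ‖ ≤ r ⟨⟨1, 1⟩, one_pos⟩ ^ (-(k - 1)) * ‖v‖ ^ (-(k - 1)) / τ.im := by
  have hpos : 0 < ‖(v 0 : ℂ) * (τ : ℂ) + (v 1 : ℂ)‖ := lt_of_lt_of_le τ.im_pos
    (h10_norm_linear_ge_im v hv τ)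
  have hk' : (0 : ℝ) ≤ ((k - 1 : ℤ) : ℝ) := by
    have : (0 : ℤ) ≤ k - 1 := by omega
    exact_mod_cast this
  have hb : ‖(v 0 : ℂ) * (τ : ℂ) + (v 1 : ℂ)‖ ^ (-(k - 1)) ≤
      r ⟨⟨1, 1⟩, one_pos⟩ ^ (-(k - 1)) * ‖v‖ ^ (-(k - 1)) := by
    have := summand_bound_of_mem_verticalStrip hk' v one_pos hτ
    exact_mod_cast this
  have hsplit : ‖eisSummand k v τ‖ = ‖(v 0 : ℂ) * (τ : ℂ) + (v 1 : ℂ)‖ ^ (-(k - 1)) *
      ‖(v 0 : ℂ) * (τ : ℂ) + (v 1 : ℂ)‖⁻¹ := by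
    rw [eisSummand, norm_zpow, ← zpow_neg_one, ← zpow_add₀ hpos.ne']
    congr 1
    ring
  rw [hsplit, div_eq_mul_inv]
  have hinv : ‖(v 0 : ℂ) * (τ : ℂ) + (v 1 : ℂ)‖⁻¹ ≤ (τ.im)⁻¹ :=
    inv_anti₀ τ.im_pos (h10_norm_linear_ge_im v hv τ)
  exact mul_le_mul hb hinv (inv_nonneg.2 hpos.le)
    (mul_nonneg (zpow_nonneg (r_pos _).le _) (zpow_nonneg (norm_nonneg _) _))

lemma h10_summable_decay {k : ℤ} (hk : 4 ≤ k) :
    Summable fun x : Fin 2 → ℤ => r ⟨⟨1, 1⟩, one_pos⟩ ^ (-(k - 1)) * ‖x‖ ^ (-(k - 1)) := by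
  have hk' : (2 : ℝ) < ((k - 1 : ℤ) : ℝ) := by
    have : (2 : ℤ) < k - 1 := by omega
    exact_mod_cast this
  have := (summable_one_div_norm_rpow hk').mul_left (r ⟨⟨1, 1⟩, one_pos⟩ ^ (-(k - 1)))
  exact_mod_cast this

/-- decay of the part of the sum with `v 0 ≠ 0`, on the strip. -/
lemma h10_norm_eisW_le_div_im_of_mem_strip {k : ℤ} (hk : 4 ≤ k) {w : (Fin 2 → ℤ) → ℂ}
    (hw : ∀ v, ‖w v‖ ≤ 1) (hw0 : ∀ v, v 0 = 0 → w v = 0) {τ : ℍ}
    (hτ : τ ∈ verticalStrip 1 1) : ‖eisW k w τ‖ ≤ h10_decayConst k / τ.im := by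
  unfold eisW h10_decayConst
  have hs := h10_summable_eisW (by omega : 3 ≤ k) hw τ
  refine (norm_tsum_le_tsum_norm hs.norm).trans ?_
  rw [← tsum_div_const]
  refine hs.norm.tsum_le_tsum (fun v => ?_) ((h10_summable_decay hk).div_const _)
  by_cases hv : v 0 = 0
  · rw [hw0 v hv, zero_mul, norm_zero]
    exact div_nonneg (mul_nonneg (zpow_nonneg (r_pos _).le _) (zpow_nonneg (norm_nonneg _) _))
      τ.im_pos.le
  · rw [norm_mul]
    calc ‖w v‖ * ‖eisSummand k v τ‖ ≤ 1 * ‖eisSummand k v τ‖ :=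
          mul_le_mul_of_nonneg_right (hw v) (norm_nonneg _)
      _ = ‖eisSummand k v τ‖ := one_mul _
      _ ≤ _ := h10_norm_eisSummand_le hk v hv hτ

lemma h10_vecMul_T_zpow_zero (m : ℤ) (v : Fin 2 → ℤ) :
    (Matrix.vecMul v ((ModularGroup.T ^ m : SL(2, ℤ)) : Matrix (Fin 2) (Fin 2) ℤ)) 0 = v 0 := by
  rw [ModularGroup.coe_T_zpow]
  simp [Matrix.vecMul]
  rfl

/-- decay of the part of the sum with `v 0 ≠ 0`. -/
lemma h10_norm_eisW_le_div_im {k : ℤ} (hk : 4 ≤ k) {w : (Fin 2 → ℤ) → ℂ}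
    (hw : ∀ v, ‖w v‖ ≤ 1) (hw0 : ∀ v, v 0 = 0 → w v = 0) {τ : ℍ} (hτ : 1 ≤ τ.im) :
    ‖eisW k w τ‖ ≤ h10_decayConst k / τ.im := by
  obtain ⟨m, hm⟩ := h10_exists_T_zpow_mem_strip τ
  have hm' : ModularGroup.T ^ m • τ ∈ verticalStrip 1 1 := verticalStrip_anti_right 1 hτ hm
  rw [h10_eisW_eq_T_zpow k w m τ]
  have him : (ModularGroup.T ^ m • τ).im = τ.im := ModularGroup.im_T_zpow_smul τ m
  rw [← him]
  refine h10_norm_eisW_le_div_im_of_mem_strip hk (fun v => hw _) (fun v hv => hw0 _ ?_) hm'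
  rw [h10_vecMul_T_zpow_zero, hv]

/-- **limit at `i∞`**. -/
theorem h10_tendsto_eisW {k : ℤ} (hk : 4 ≤ k) (hk2 : Even k) {w : (Fin 2 → ℤ) → ℂ}
    (hw : ∀ v, ‖w v‖ ≤ 1) (h1 : w ![0, 1] = 1) (h2 : w ![0, -1] = 1)
    (h0 : ∀ v : Fin 2 → ℤ, v 0 = 0 → v 1 ≠ 1 → v 1 ≠ -1 → w v = 0) :
    Tendsto (eisW k w) atImInfty (𝓝 2) := by
  classical
  set w' : (Fin 2 → ℤ) → ℂ := fun v => if v 0 = 0 then 0 else w v with hw'def
  set w'' : (Fin 2 → ℤ) → ℂ := fun v => if v 0 = 0 then w v else 0 with hw''def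
  have hw'1 : ∀ v, ‖w' v‖ ≤ 1 := fun v => by
    simp only [hw'def]; split_ifs
    · simp
    · exact hw v
  have hw''1 : ∀ v, ‖w'' v‖ ≤ 1 := fun v => by
    simp only [hw''def]; split_ifs
    · exact hw v
    · simp
  have hw'0 : ∀ v, v 0 = 0 → w' v = 0 := fun v hv => by simp [hw'def, hv]
  have hsplit : ∀ τ, eisW k w τ = eisW k w' τ + eisW k w'' τ := fun τ => by
    unfold eisW
    rw [← (h10_summable_eisW (by omega) hw'1 τ).tsum_add (h10_summable_eisW (by omega) hw''1 τ)]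
    refine tsum_congr fun v => ?_
    simp only [hw'def, hw''def]
    split_ifs <;> ring
  have hconst : ∀ τ, eisW k w'' τ = 2 := fun τ => by
    unfold eisW
    have hne : (![0, 1] : Fin 2 → ℤ) ≠ ![0, -1] := by
      intro h
      have := congrFun h 1
      simp at this
    rw [tsum_eq_sum (s := {![0, 1], ![0, -1]})]
    · rw [Finset.sum_pair hne]
      simp only [hw''def, eisSummand]
      simp only [Matrix.cons_val_zero, Matrix.cons_val_one, if_true, h1, h2]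
      have hm1 : ((-1 : ℂ)) ^ (-k) = 1 := by
        rw [zpow_neg, hk2.neg_one_zpow, inv_one]
      simp [hm1]
      norm_num
    · intro v hv
      simp only [Finset.mem_insert, Finset.mem_singleton, not_or] at hv
      simp only [hw''def]
      split_ifs with hv0
      · have hv1 : v 1 ≠ 1 := by
          intro h
          apply hv.1
          ext i
          fin_cases i <;> simp [hv0, h]
        have hv2 : v 1 ≠ -1 := by
          intro h
          apply hv.2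
          ext i
          fin_cases i <;> simp [hv0, h]
        rw [h0 v hv0 hv1 hv2, zero_mul]
      · rw [zero_mul]
  rw [tendsto_iff_norm_sub_tendsto_zero]
  have hlim : Tendsto (fun τ : ℍ => h10_decayConst k / τ.im) atImInfty (𝓝 0) :=
    tendsto_const_nhds.div_atTop tendsto_comap
  refine squeeze_zero' (Eventually.of_forall fun τ => norm_nonneg _) ?_ hlim
  have hmem : {τ : ℍ | 1 ≤ τ.im} ∈ atImInfty := (atImInfty_mem _).2 ⟨1, fun z hz => hz⟩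
  filter_upwards [hmem] with τ hτ
  rw [hsplit τ, hconst τ, add_sub_cancel_right]
  exact h10_norm_eisW_le_div_im hk hw'1 hw'0 hτ

/-- **non-vanishing**. -/
theorem h10_eisW_ne_zero {k : ℤ} (hk : 4 ≤ k) (hk2 : Even k) {w : (Fin 2 → ℤ) → ℂ}
    (hw : ∀ v, ‖w v‖ ≤ 1) (h1 : w ![0, 1] = 1) (h2 : w ![0, -1] = 1)
    (h0 : ∀ v : Fin 2 → ℤ, v 0 = 0 → v 1 ≠ 1 → v 1 ≠ -1 → w v = 0) :
    eisW k w ≠ 0 := by
  intro h
  have h1' := h10_tendsto_eisW hk hk2 hw h1 h2 h0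
  rw [h] at h1'
  have h2' : Tendsto (0 : ℍ → ℂ) atImInfty (𝓝 0) := tendsto_const_nhds
  have := tendsto_nhds_unique h1' h2'
  norm_num at this

/-- the generic `q`-expansion: holomorphic, periodic and bounded at `i∞`. -/
theorem h10_hasTExp_of_periodic (N : ℕ) (hN : 0 < N) (F : ℍ → ℂ) (hF : MDiff F)
    (hper : ∀ τ : ℍ, F ((N : ℝ) +ᵥ τ) = F τ) (hbdd : IsBoundedAtImInfty F) :
    ∃ p : PowerSeries ℂ, HasTExp N F (HahnSeries.ofPowerSeries ℤ ℂ p) := by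
  have hN' : (0 : ℝ) < (N : ℝ) := by exact_mod_cast hN
  have hperiodic : Function.Periodic (F ∘ ofComplex) (N : ℝ) := by
    intro w
    by_cases hw : 0 < Complex.im w
    · have hw' : 0 < Complex.im (w + (N : ℝ)) := by simpa using hw
      simp only [Function.comp_apply, ofComplex_apply_of_im_pos hw',
        ofComplex_apply_of_im_pos hw]
      rw [← hper ⟨w, hw⟩]
      congr 1
      ext
      simp [add_comm]
    · have hw0 : Complex.im w ≤ 0 := not_lt.1 hw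
      have hw' : Complex.im (w + ((N : ℝ) : ℂ)) ≤ 0 := by simpa using hw0
      rw [Function.comp_apply, Function.comp_apply, ofComplex_apply_of_im_nonpos hw',
        ofComplex_apply_of_im_nonpos hw0]
  refine ⟨qExpansion (N : ℝ) F, 0, qExpansion (N : ℝ) F, by simp, fun τ => ?_⟩
  have h := UpperHalfPlane.hasSum_qExpansion hN' hperiodic hF hbdd τ
  simpa [tParam] using h

/-! ## the frozen sub-interfaces -/

/-- **EIS-BDD.** -/
theorem eisBdd : EisBddStatement := fun _ hk _ hw => h10_isBoundedAtImInfty_eisW hk hw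

/-- **EIS-NZ.** -/
theorem eisNeZero : EisNeZeroStatement := by
  intro w hw h1 h2 h0
  refine h10_eisW_ne_zero (k := 12) (by norm_num) (by decide) hw h1 h2 (fun v hv0 hv1 hv2 => ?_)
  have hv : v = ![0, v 1] := by
    ext i
    fin_cases i
    · simpa using hv0
    · simp
  rw [hv]
  exact h0 (v 1) hv1 hv2

/-- **EIS-SLASH** (also proved here; no hypothesis on `k`, `w` is needed). -/
theorem h10_eisSlash : EisSlashStatement := fun k _ w _ g τ => h10_eisW_smul k w g τ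

/-- **EIS-CUSPEXP** (also proved here). -/
theorem h10_eisCuspExp : EisCuspExpStatement := fun N hN F hF hper hbdd =>
  h10_hasTExp_of_periodic N hN F hF hper hbdd

end Fermat.Agent.Jac

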