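import Mathlib

/-!
# IN-JAC, module EIS (analytic core): weighted Eisenstein series

For a bounded weight `w : (Fin 2 → ℤ) → ℂ` and `k ≥ 3` we study
`h45_eisW w k z = ∑_v w v (v 0 z + v 1)^(-k)`:

* `h45_eisW_smul`: the transformation formula under `SL(2, ℤ)` (the weight is transported);
* `h45_eisW_mdiff`: holomorphy;
* `h45_eisW_isBoundedAtImInfty`: boundedness at `i∞`;
* `h45_eisW_tendsto`: the limit along the imaginary axis.
-/

set_option autoImplicit false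

open UpperHalfPlane EisensteinSeries Matrix Filter Complex
open scoped MatrixGroups Manifold Topology

noncomputable section

namespace Fermat.Agent.Jac

/-- The weighted Eisenstein series `∑_v w v (v 0 z + v 1)^(-k)`. -/
def h45_eisW (w : (Fin 2 → ℤ) → ℂ) (k : ℤ) (z : ℍ) : ℂ :=
  ∑' v : Fin 2 → ℤ, w v * eisSummand k v z

/-- Right multiplication by an element of `SL(2, ℤ)` on row vectors. -/
def h45_vecMulEquiv (A : SL(2, ℤ)) : (Fin 2 → ℤ) ≃ (Fin 2 → ℤ) where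
  toFun v := v ᵥ* A.1
  invFun v := v ᵥ* (A⁻¹).1
  left_inv v := by
    show (v ᵥ* A.1) ᵥ* (A⁻¹).1 = v
    rw [Matrix.vecMul_vecMul, ← Matrix.SpecialLinearGroup.coe_mul, mul_inv_cancel]
    simp
  right_inv v := by
    show (v ᵥ* (A⁻¹).1) ᵥ* A.1 = v
    rw [Matrix.vecMul_vecMul, ← Matrix.SpecialLinearGroup.coe_mul, inv_mul_cancel]
    simp

@[simp] theorem h45_vecMulEquiv_apply (A : SL(2, ℤ)) (v : Fin 2 → ℤ) :
    h45_vecMulEquiv A v = v ᵥ* A.1 := rfl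

@[simp] theorem h45_vecMulEquiv_symm_apply (A : SL(2, ℤ)) (v : Fin 2 → ℤ) :
    (h45_vecMulEquiv A).symm v = v ᵥ* (A⁻¹).1 := rfl

/-- The transformation formula. -/
theorem h45_eisW_smul (w : (Fin 2 → ℤ) → ℂ) (k : ℤ) (A : SL(2, ℤ)) (z : ℍ) :
    h45_eisW w k (A • z) =
      denom A z ^ k * h45_eisW (fun u ↦ w (u ᵥ* (A⁻¹).1)) k z := by
  unfold h45_eisW
  rw [← tsum_mul_left]
  conv_rhs => rw [← (h45_vecMulEquiv A).tsum_eq]
  refine tsum_congr fun v ↦ ?_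
  have h1 : (v ᵥ* A.1) ᵥ* (A⁻¹).1 = v := (h45_vecMulEquiv A).left_inv v
  simp only [h45_vecMulEquiv_apply, h1, eisSummand_SL2_apply]
  ring

section bounded

variable {w : (Fin 2 → ℤ) → ℂ} {C : ℝ}

theorem h45_summable (hw : ∀ v, ‖w v‖ ≤ C) {k : ℤ} (hk : 3 ≤ k) (z : ℍ) :
    Summable fun v : Fin 2 → ℤ ↦ w v * eisSummand k v z := by
  have hC : 0 ≤ C := (norm_nonneg _).trans (hw 0)
  refine Summable.of_norm_bounded (g := fun v ↦ C * ‖eisSummand k v z‖)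
    ((summable_norm_eisSummand hk z).mul_left C) fun v ↦ ?_
  rw [norm_mul]
  exact mul_le_mul_of_nonneg_right (hw v) (norm_nonneg _)

theorem h45_norm_le (hw : ∀ v, ‖w v‖ ≤ C) {k : ℤ} (hk : 3 ≤ k) (z : ℍ) :
    ‖h45_eisW w k z‖ ≤ C * ∑' v : Fin 2 → ℤ, ‖eisSummand k v z‖ := by
  have hC : 0 ≤ C := (norm_nonneg _).trans (hw 0)
  unfold h45_eisW
  rw [← tsum_mul_left]
  refine tsum_of_norm_bounded (g := fun v ↦ C * ‖eisSummand k v z‖)
    ((summable_norm_eisSummand hk z).mul_left C).hasSum fun v ↦ ?_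
  rw [norm_mul]
  exact mul_le_mul_of_nonneg_right (hw v) (norm_nonneg _)

theorem h45_tendstoLocallyUniformly (hw : ∀ v, ‖w v‖ ≤ C) {k : ℤ} (hk : 3 ≤ k) :
    TendstoLocallyUniformly (fun (s : Finset (Fin 2 → ℤ)) ↦ (∑ x ∈ s, w x * eisSummand k x ·))
      (h45_eisW w k ·) Filter.atTop := by
  have hC : 0 ≤ C := (norm_nonneg _).trans (hw 0)
  have hk' : (2 : ℝ) < k := by norm_cast
  have p_sum : Summable fun x : Fin 2 → ℤ ↦ ‖x‖ ^ (-k) :=
    mod_cast (summable_one_div_norm_rpow hk')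
  simp only [tendstoLocallyUniformly_iff_forall_isCompact, h45_eisW]
  intro K hK
  obtain ⟨A, B, hB, HABK⟩ := subset_verticalStrip_of_isCompact hK
  refine (tendstoUniformlyOn_tsum
    (hu := (p_sum.mul_left <| r ⟨⟨A, B⟩, hB⟩ ^ (-k : ℝ)).mul_left C)
    (fun p z hz ↦ ?_)).mono HABK
  rw [norm_mul]
  refine mul_le_mul (hw p) ?_ (norm_nonneg _) hC
  simpa only [eisSummand, one_div, ← _root_.zpow_neg, norm_zpow, ← Real.rpow_intCast,
    Int.cast_neg] using summand_bound_of_mem_verticalStrip (by positivity) p hB hz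

theorem h45_tendstoLocallyUniformlyOn (hw : ∀ v, ‖w v‖ ≤ C) {k : ℤ} (hk : 3 ≤ k) :
    TendstoLocallyUniformlyOn (fun (s : Finset (Fin 2 → ℤ)) ↦
      ↑ₕ(fun (z : ℍ) ↦ ∑ x ∈ s, w x * eisSummand k x z)) (↑ₕ(h45_eisW w k))
          Filter.atTop {z : ℂ | 0 < z.im} := by
  rw [← upperHalfPlaneSet, ← UpperHalfPlane.range_coe, ← Set.image_univ]
  apply TendstoLocallyUniformlyOn.comp (s := ⊤) _ _ _ (OpenPartialHomeomorph.continuousOn_symm _)
  · simp only [Set.top_eq_univ, tendstoLocallyUniformlyOn_univ]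
    apply h45_tendstoLocallyUniformly hw hk
  · exact fun _ _ ↦ Set.mem_univ _

/-- Weighted Eisenstein series are holomorphic. -/
theorem h45_eisW_mdiff (hw : ∀ v, ‖w v‖ ≤ C) {k : ℤ} (hk : 3 ≤ k) :
    MDiff (h45_eisW w k) := by
  intro τ
  suffices DifferentiableAt ℂ (↑ₕ(h45_eisW w k)) τ.1 by
    convert!
      MDifferentiableAt.comp τ (DifferentiableAt.mdifferentiableAt this) τ.mdifferentiable_coe
    exact funext fun z ↦ (comp_ofComplex (h45_eisW w k) z).symm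
  refine DifferentiableOn.differentiableAt ?_ (isOpen_upperHalfPlaneSet.mem_nhds τ.2)
  refine (h45_tendstoLocallyUniformlyOn hw hk).differentiableOn
    (Eventually.of_forall fun s ↦ ?_) isOpen_upperHalfPlaneSet
  have : (↑ₕ(fun (z : ℍ) ↦ ∑ x ∈ s, w x * eisSummand k x z)) =
      fun z : ℂ ↦ ∑ x ∈ s, w x * (↑ₕ(eisSummand k x)) z := by
    funext z
    simp [Function.comp]
  rw [this]
  exact DifferentiableOn.fun_sum fun x _ ↦
    (eisSummand_extension_differentiableOn k x).const_mul (w x)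

/-- Weighted Eisenstein series are bounded at `i∞`. -/
theorem h45_eisW_isBoundedAtImInfty (hw : ∀ v, ‖w v‖ ≤ C) {k : ℤ} (hk : 3 ≤ k) :
    IsBoundedAtImInfty (h45_eisW w k) := by
  have hC : 0 ≤ C := (norm_nonneg _).trans (hw 0)
  have hk' : (2 : ℝ) < k := by norm_cast
  rw [UpperHalfPlane.isBoundedAtImInfty_iff]
  refine ⟨C * ∑' (x : Fin 2 → ℤ), r ⟨⟨1, 2⟩, Nat.ofNat_pos⟩ ^ (-k) * ‖x‖ ^ (-k), 2, ?_⟩
  intro z hz
  obtain ⟨n, hn⟩ := ModularGroup_T_zpow_mem_verticalStrip z (N := 1) one_pos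
  set z' : ℍ := ModularGroup.T ^ (((1 : ℕ) : ℤ) * n) • z with hz'
  set B : SL(2, ℤ) := ModularGroup.T ^ (-(((1 : ℕ) : ℤ) * n)) with hB
  have hzz : z = B • z' := by
    rw [hz', hB, ← mul_smul, ← _root_.zpow_add, neg_add_cancel, _root_.zpow_zero, one_smul]
  have hden : denom B z' = 1 := by
    rw [ModularGroup.denom_apply, hB, ModularGroup.coe_T_zpow]
    simp
  have h1 : h45_eisW w k z = h45_eisW (fun u ↦ w (u ᵥ* (B⁻¹).1)) k z' := by
    conv_lhs => rw [hzz]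
    rw [h45_eisW_smul, hden, _root_.one_zpow, one_mul]
  rw [h1]
  refine (h45_norm_le (fun v ↦ hw _) hk z').trans ?_
  refine mul_le_mul_of_nonneg_left ?_ hC
  apply (summable_norm_eisSummand hk _).tsum_le_tsum _
  · exact_mod_cast (summable_one_div_norm_rpow hk').mul_left <| r ⟨⟨1, 2⟩, Nat.ofNat_pos⟩ ^ (-k)
  · intro x
    simp_rw [eisSummand, norm_zpow]
    have hmem : z' ∈ verticalStrip (1 : ℕ) 2 := verticalStrip_anti_right _ hz hn
    exact_mod_cast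
      summand_bound_of_mem_verticalStrip (lt_trans two_pos hk').le x two_pos
        (by simpa using hmem)

/-- The point `i * max y 1` of the upper half plane. -/
def h45_iy (y : ℝ) : ℍ := ⟨⟨0, max y 1⟩, lt_of_lt_of_le one_pos (le_max_right y 1)⟩

theorem h45_iy_coe (y : ℝ) : ((h45_iy y : ℍ) : ℂ) = ⟨0, max y 1⟩ := rfl

theorem h45_iy_mem (y : ℝ) : h45_iy y ∈ verticalStrip 0 1 := by
  rw [mem_verticalStrip_iff]
  refine ⟨?_, le_max_right y 1⟩
  show |(0 : ℝ)| ≤ 0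
  simp

theorem h45_norm_linear_iy (v : Fin 2 → ℤ) (y : ℝ) :
    |(v 0 : ℝ)| * y ≤ ‖(v 0 : ℂ) * ((h45_iy y : ℍ) : ℂ) + (v 1 : ℂ)‖ := by
  have h1 : ((v 0 : ℂ) * ((h45_iy y : ℍ) : ℂ) + (v 1 : ℂ)).im = (v 0 : ℝ) * max y 1 := by
    rw [h45_iy_coe]
    simp
  calc |(v 0 : ℝ)| * y ≤ |(v 0 : ℝ)| * max y 1 :=
        mul_le_mul_of_nonneg_left (le_max_left y 1) (abs_nonneg _)
    _ = |(v 0 : ℝ) * max y 1| := by
        rw [abs_mul, abs_of_pos (lt_of_lt_of_le one_pos (le_max_right y 1))]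
    _ = |((v 0 : ℂ) * ((h45_iy y : ℍ) : ℂ) + (v 1 : ℂ)).im| := by rw [h1]
    _ ≤ ‖(v 0 : ℂ) * ((h45_iy y : ℍ) : ℂ) + (v 1 : ℂ)‖ := Complex.abs_im_le_norm _

theorem h45_eisSummand_tendsto {k : ℤ} (hk : 3 ≤ k) (v : Fin 2 → ℤ) :
    Tendsto (fun y : ℝ ↦ eisSummand k v (h45_iy y)) atTop
      (𝓝 (if v 0 = 0 then ((v 1 : ℂ)) ^ (-k) else 0)) := by
  split_ifs with h0
  · have : ∀ y : ℝ, eisSummand k v (h45_iy y) = ((v 1 : ℂ)) ^ (-k) := by
      intro y
      simp [eisSummand, h0]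
    simp_rw [this]
    exact tendsto_const_nhds
  · rw [tendsto_zero_iff_norm_tendsto_zero]
    have hpos : 0 < |(v 0 : ℝ)| := abs_pos.mpr (by exact_mod_cast h0)
    have h1 : Tendsto (fun y : ℝ ↦ |(v 0 : ℝ)| * y) atTop atTop :=
      tendsto_id.const_mul_atTop hpos
    have h2 : Tendsto (fun y : ℝ ↦ ‖(v 0 : ℂ) * ((h45_iy y : ℍ) : ℂ) + (v 1 : ℂ)‖) atTop atTop :=
      tendsto_atTop_mono (h45_norm_linear_iy v) h1
    have h3 := (tendsto_zpow_atTop_zero (𝕜 := ℝ) (n := -k) (by omega)).comp h2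
    refine h3.congr fun y ↦ ?_
    simp [eisSummand, norm_zpow]

/-- The limit of a weighted Eisenstein series along the imaginary axis. -/
theorem h45_eisW_tendsto (hw : ∀ v, ‖w v‖ ≤ C) {k : ℤ} (hk : 3 ≤ k) :
    Tendsto (fun y : ℝ ↦ h45_eisW w k (h45_iy y)) atTop
      (𝓝 (∑' v : Fin 2 → ℤ, if v 0 = 0 then w v * ((v 1 : ℂ)) ^ (-k) else 0)) := by
  have hC : 0 ≤ C := (norm_nonneg _).trans (hw 0)
  have hk' : (2 : ℝ) < k := by norm_cast
  have p_sum : Summable fun x : Fin 2 → ℤ ↦ ‖x‖ ^ (-k) :=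
    mod_cast (summable_one_div_norm_rpow hk')
  unfold h45_eisW
  refine tendsto_tsum_of_dominated_convergence
    (bound := fun v ↦ C * (r ⟨⟨0, 1⟩, one_pos⟩ ^ (-k : ℝ) * ‖v‖ ^ (-k)))
    ((p_sum.mul_left _).mul_left C) (fun v ↦ ?_) (Eventually.of_forall fun y v ↦ ?_)
  · have h := (h45_eisSummand_tendsto hk v).const_mul (w v)
    refine h.congr' ?_ |>.mono_right ?_
    · exact Eventually.of_forall fun y ↦ rfl
    · split_ifs <;> simp
  · rw [norm_mul]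
    refine mul_le_mul (hw v) ?_ (norm_nonneg _) hC
    simpa only [eisSummand, one_div, ← _root_.zpow_neg, norm_zpow, ← Real.rpow_intCast,
      Int.cast_neg] using
      summand_bound_of_mem_verticalStrip (k := k) (by positivity) v one_pos (h45_iy_mem y)

end bounded

end Fermat.Agent.Jac
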