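import Fermat.Agent.Jac.Skeleton
import Fermat.Agent.Jac.EisWeighted

/-!
# IN-JAC, module EIS: the weight attached to a character of `Γ₀(N)`

For a character `χ : Γ₀(N) → ℂˣ` which is trivial on parabolic elements and on `±1`, the weight
`h45_wChar N χ v = χ(γ)⁻¹` if `v` is the bottom row of `γ ∈ Γ₀(N)` (and `0` otherwise) is well
defined, bounded by `1` if `χ` has finite order, and satisfies
`h45_wChar N χ (u ᵥ* γ₀⁻¹) = χ γ₀ * h45_wChar N χ u` for `γ₀ ∈ Γ₀(N)`.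
-/

set_option autoImplicit false

open UpperHalfPlane EisensteinSeries Matrix Filter Complex CongruenceSubgroup
open scoped MatrixGroups Manifold Topology

noncomputable section

namespace Fermat.Agent.Jac

/-- The bottom row of a matrix in `SL(2, ℤ)`. -/
def h45_row (γ : SL(2, ℤ)) : Fin 2 → ℤ := γ.1 1

theorem h45_row_mul (γ δ : SL(2, ℤ)) : h45_row (γ * δ) = h45_row γ ᵥ* δ.1 := by
  unfold h45_row
  rw [Matrix.SpecialLinearGroup.coe_mul]
  exact Matrix.mul_apply_eq_vecMul _ _ _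

theorem h45_row_one : h45_row 1 = ![0, 1] := by
  unfold h45_row
  ext i
  fin_cases i <;> simp

theorem h45_row_injective_aux {δ : SL(2, ℤ)} (h : h45_row δ = ![0, 1]) :
    (δ.1).trace = 2 := by
  have h10 : δ.1 1 0 = 0 := by
    have := congrFun h 0
    simpa [h45_row] using this
  have h11 : δ.1 1 1 = 1 := by
    have := congrFun h 1
    simpa [h45_row] using this
  have hdet := δ.2
  rw [Matrix.det_fin_two, h10, h11] at hdet
  rw [Matrix.trace_fin_two, h11]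
  linarith

variable {N : ℕ}

open Classical in
/-- The weight attached to a character of `Γ₀(N)`. -/
def h45_wChar (N : ℕ) (χ : Gamma0 N →* ℂˣ) (v : Fin 2 → ℤ) : ℂ :=
  if h : ∃ γ : Gamma0 N, h45_row (γ : SL(2, ℤ)) = v then ((χ h.choose : ℂˣ) : ℂ)⁻¹ else 0

theorem h45_isPar_of_row_eq {γ γ' : Gamma0 N}
    (h : h45_row (γ' : SL(2, ℤ)) = h45_row (γ : SL(2, ℤ))) : IsPar (γ' * γ⁻¹) := by
  have h1 : h45_row ((γ' * γ⁻¹ : Gamma0 N) : SL(2, ℤ)) = ![0, 1] := by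
    rw [Subgroup.coe_mul, h45_row_mul, h, ← h45_row_mul, Subgroup.coe_inv, mul_inv_cancel,
      h45_row_one]
  unfold IsPar
  rw [h45_row_injective_aux h1]
  norm_num

theorem h45_wChar_row {χ : Gamma0 N →* ℂˣ} (hχ : ∀ γ : Gamma0 N, IsPar γ → χ γ = 1)
    (γ : Gamma0 N) : h45_wChar N χ (h45_row (γ : SL(2, ℤ))) = ((χ γ : ℂˣ) : ℂ)⁻¹ := by
  have hex : ∃ γ' : Gamma0 N, h45_row (γ' : SL(2, ℤ)) = h45_row (γ : SL(2, ℤ)) := ⟨γ, rfl⟩
  unfold h45_wChar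
  rw [dif_pos hex]
  have h1 := hχ _ (h45_isPar_of_row_eq hex.choose_spec)
  rw [map_mul, map_inv, mul_inv_eq_one] at h1
  rw [h1]

theorem h45_wChar_of_not {χ : Gamma0 N →* ℂˣ} {v : Fin 2 → ℤ}
    (h : ¬ ∃ γ : Gamma0 N, h45_row (γ : SL(2, ℤ)) = v) : h45_wChar N χ v = 0 := by
  unfold h45_wChar
  rw [dif_neg h]

theorem h45_norm_char {χ : Gamma0 N →* ℂˣ} {n : ℕ} (hn : 0 < n) (hχn : χ ^ n = 1)
    (γ : Gamma0 N) : ‖((χ γ : ℂˣ) : ℂ)‖ = 1 := by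
  apply Complex.norm_eq_one_of_pow_eq_one (n := n) _ hn.ne'
  have h1 : (χ γ) ^ n = 1 := by
    have := DFunLike.congr_fun hχn γ
    simpa using this
  rw [← Units.val_pow_eq_pow_val, h1, Units.val_one]

theorem h45_wChar_norm_le {χ : Gamma0 N →* ℂˣ} {n : ℕ} (hn : 0 < n) (hχn : χ ^ n = 1)
    (v : Fin 2 → ℤ) : ‖h45_wChar N χ v‖ ≤ 1 := by
  unfold h45_wChar
  split_ifs with h
  · rw [norm_inv, h45_norm_char hn hχn, inv_one]
  · simp

/-- The transformation behaviour of the weight. -/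
theorem h45_wChar_vecMul {χ : Gamma0 N →* ℂˣ} (hχ : ∀ γ : Gamma0 N, IsPar γ → χ γ = 1)
    (γ₀ : Gamma0 N) (u : Fin 2 → ℤ) :
    h45_wChar N χ (u ᵥ* (((γ₀ : SL(2, ℤ)))⁻¹).1) = ((χ γ₀ : ℂˣ) : ℂ) * h45_wChar N χ u := by
  by_cases h : ∃ γ : Gamma0 N, h45_row (γ : SL(2, ℤ)) = u
  · obtain ⟨γ, rfl⟩ := h
    have h1 : h45_row (γ : SL(2, ℤ)) ᵥ* (((γ₀ : SL(2, ℤ)))⁻¹).1 =
        h45_row ((γ * γ₀⁻¹ : Gamma0 N) : SL(2, ℤ)) := by
      rw [Subgroup.coe_mul, Subgroup.coe_inv, h45_row_mul]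
    rw [h1, h45_wChar_row hχ, h45_wChar_row hχ, map_mul, map_inv]
    simp only [Units.val_mul, Units.val_inv_eq_inv_val, mul_inv, inv_inv]
    ring
  · have h' : ¬ ∃ γ : Gamma0 N,
        h45_row (γ : SL(2, ℤ)) = u ᵥ* (((γ₀ : SL(2, ℤ)))⁻¹).1 := by
      rintro ⟨γ, hγ⟩
      apply h
      refine ⟨γ * γ₀, ?_⟩
      rw [Subgroup.coe_mul, h45_row_mul, hγ, Matrix.vecMul_vecMul,
        ← Matrix.SpecialLinearGroup.coe_mul, inv_mul_cancel]
      simp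
    rw [h45_wChar_of_not h, h45_wChar_of_not h', mul_zero]

end Fermat.Agent.Jac
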