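import Fermat.Agent.Jac.Eis
import Fermat.Agent.Jac.EisAnalytic

/-!
# IN-JAC, task EIS: the final statement

`eis : EisStatement`, from the assembly `eisAssembly` (helper55, `Jac/Eis.lean`) and the analytic
sub-interfaces proved in `Jac/EisAnalytic.lean` (helper20).
-/

set_option autoImplicit false

namespace Fermat.Agent.Jac

/-- **EIS.** every finite-order character of `Γ₀(N)` which is trivial on parabolic elements and
on `±1` is the automorphy character of a nonzero holomorphic function on `ℍ` with expansions
at all cusps. -/
theorem eis : EisStatement :=
  eisAssembly h20_eisMDiff eisSlash h20_eisBdd h20_eisNeZero eisCuspExp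

end Fermat.Agent.Jac
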