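import Fermat.Agent.Jac.EisDefs
import Fermat.Agent.Jac.EisWeighted

/-!
# IN-JAC, task EIS-MDIFF: summability and holomorphy of weighted Eisenstein sums

`eisMDiff : EisMDiffStatement`, from the Mathlib-only library `Jac/EisWeighted.lean`.
-/

set_option autoImplicit false

open UpperHalfPlane Matrix
open scoped MatrixGroups Manifold

noncomputable section

namespace Fermat.Agent.Jac

theorem h45_eisW_eq (k : ℤ) (w : (Fin 2 → ℤ) → ℂ) : eisW k w = h45_eisW w k := rfl

/-- **EIS-MDIFF.** -/
theorem eisMDiff : EisMDiffStatement := by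
  intro k hk w hw
  exact ⟨fun τ ↦ h45_summable hw hk τ, h45_eisW_mdiff hw hk⟩

end Fermat.Agent.Jac
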