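import Mathlib

/-!
# IN-JAC, depth-1 module: `Γ₀(N)` is finitely generated, `Hom(Γ₀(N), A)` is finite

* `Fermat.Agent.Jac.sl2z_fg` : `SL(2, ℤ)` is finitely generated (by `S` and `T`);
* `Fermat.Agent.Jac.fg_of_finiteIndex_sl2z` : every finite-index subgroup of `SL(2, ℤ)` is
  finitely generated (Schreier);
* `Fermat.Agent.Jac.gamma0_fg`, `gamma1_fg`, `gamma_fg`;
* `Fermat.Agent.Jac.finite_monoidHom_of_fg` : `Hom(G, A)` is finite for `G` finitely generated
  and `A` finite;
* `Fermat.Agent.Jac.finite_hom_gamma0` : `Hom(Γ₀(N), A)` is finite for finite `A`;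
* `Fermat.Agent.Jac.finite_hom_gamma0_rootsOfUnity` : `Hom(Γ₀(N), μ_p(ℂ))` is finite.
-/

set_option autoImplicit false

open Matrix Matrix.SpecialLinearGroup CongruenceSubgroup
open scoped MatrixGroups

namespace Fermat.Agent.Jac

/-- `SL(2, ℤ)` is finitely generated. -/
instance sl2z_fg : Group.FG (SL(2, ℤ)) := by
  rw [Group.fg_iff]
  refine ⟨{ModularGroup.S, ModularGroup.T}, SpecialLinearGroup.SL2Z_generators, ?_⟩
  exact (Set.finite_singleton _).insert _

/-- Every finite-index subgroup of `SL(2, ℤ)` is finitely generated. -/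
theorem fg_of_finiteIndex_sl2z (Γ : Subgroup (SL(2, ℤ))) [Γ.FiniteIndex] : Group.FG Γ :=
  inferInstance

/-- `Γ₀(N)` is finitely generated. -/
theorem gamma0_fg (N : ℕ) [NeZero N] : Group.FG (Gamma0 N) := inferInstance

/-- `Γ₁(N)` is finitely generated. -/
theorem gamma1_fg (N : ℕ) [NeZero N] : Group.FG (Gamma1 N) := inferInstance

/-- `Γ(N)` is finitely generated. -/
theorem gamma_fg (N : ℕ) [NeZero N] : Group.FG (Gamma N) := inferInstance

/-- Two homomorphisms out of a group agreeing on a generating set are equal; hence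
`Hom(G, A)` is finite if `G` is finitely generated and `A` is finite. -/
theorem finite_monoidHom_of_fg (G A : Type*) [Group G] [Group.FG G] [Monoid A] [Finite A] :
    Finite (G →* A) := by
  obtain ⟨S, hS⟩ := Group.fg_def.mp (inferInstance : Group.FG G)
  -- restriction to the finite generating set is injective
  let r : (G →* A) → (S → A) := fun f s => f s
  have hr : Function.Injective r := by
    intro f g hfg
    apply MonoidHom.eq_of_eqOn_dense (s := (S : Set G)) hS
    intro x hx
    exact congrFun hfg ⟨x, hx⟩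
  exact Finite.of_injective r hr

/-- `Hom(Γ, A)` is finite for every finite-index subgroup `Γ` of `SL(2, ℤ)` and finite `A`. -/
theorem finite_hom_of_finiteIndex_sl2z (Γ : Subgroup (SL(2, ℤ))) [Γ.FiniteIndex]
    (A : Type*) [Monoid A] [Finite A] : Finite (Γ →* A) :=
  finite_monoidHom_of_fg Γ A

/-- `Hom(Γ₀(N), A)` is finite for finite `A`. -/
theorem finite_hom_gamma0 (N : ℕ) [NeZero N] (A : Type*) [Monoid A] [Finite A] :
    Finite (Gamma0 N →* A) :=
  finite_monoidHom_of_fg (Gamma0 N) A

/-- `Hom(Γ₀(N), μ_p(ℂ))` is finite. -/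
theorem finite_hom_gamma0_rootsOfUnity (N : ℕ) [NeZero N] (p : ℕ) [NeZero p] :
    Finite (Gamma0 N →* rootsOfUnity p ℂ) :=
  finite_monoidHom_of_fg (Gamma0 N) (rootsOfUnity p ℂ)

/-- Cardinality bound: if `G` is generated by a finite set `S`, then
`#Hom(G, A) ≤ #A ^ #S`. -/
theorem card_monoidHom_le (G A : Type*) [Group G] [Monoid A] [Finite A]
    (S : Finset G) (hS : Subgroup.closure (S : Set G) = ⊤) :
    Nat.card (G →* A) ≤ Nat.card A ^ S.card := by
  classical
  let r : (G →* A) → (S → A) := fun f s => f s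
  have hr : Function.Injective r := by
    intro f g hfg
    apply MonoidHom.eq_of_eqOn_dense (s := (S : Set G)) hS
    intro x hx
    exact congrFun hfg ⟨x, hx⟩
  have h1 : Nat.card (G →* A) ≤ Nat.card (S → A) := Nat.card_le_card_of_injective r hr
  have h2 : Nat.card (S → A) = Nat.card A ^ S.card := by
    rw [Nat.card_fun]
    simp
  rw [h2] at h1
  exact h1

end Fermat.Agent.Jac
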