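import Fermat.Agent.Jac.Skeleton
import Fermat.Agent.Jac.H18FinGen

/-!
# IN-JAC, task FG: `Hom(Γ₀(N), μ_p)` is finite
-/

set_option autoImplicit false

open CongruenceSubgroup
open scoped MatrixGroups

namespace Fermat.Agent.Jac

/-- A character of order dividing `p` takes values in the `p`-th roots of unity. -/
def h18_toRootsOfUnity (N p : ℕ) (χ : {χ : Gamma0 N →* ℂˣ // χ ^ p = 1}) :
    Gamma0 N →* rootsOfUnity p ℂ where
  toFun γ := ⟨χ.1 γ, by
    rw [mem_rootsOfUnity]
    have h := congrArg (fun ψ : Gamma0 N →* ℂˣ => ψ γ) χ.2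
    simpa using h⟩
  map_one' := by
    apply Subtype.ext
    simp
  map_mul' a b := by
    apply Subtype.ext
    simp

theorem h18_toRootsOfUnity_injective (N p : ℕ) :
    Function.Injective (h18_toRootsOfUnity N p) := by
  intro χ χ' h
  apply Subtype.ext
  ext γ
  have h1 := congrArg (fun ψ : Gamma0 N →* rootsOfUnity p ℂ => ((ψ γ : ℂˣ) : ℂ)) h
  exact h1

/-- **FG.** `Hom(Γ₀(N), μ_p)` is finite. -/
theorem finChar : FinCharStatement := by
  intro N _ p hp
  have : NeZero p := ⟨hp.ne'⟩
  have : Finite (Gamma0 N →* rootsOfUnity p ℂ) := finite_hom_gamma0_rootsOfUnity N p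
  exact Finite.of_injective _ (h18_toRootsOfUnity_injective N p)

end Fermat.Agent.Jac
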