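import Fermat.Agent.Jac.Skeleton2
import Fermat.Agent.S24.Tay
import Fermat.Agent.S28.TExp

/-!
# IN-JAC, task FINC: finiteness of `Sel(F_ℂ)` modulo `p`-th powers

Every `f ∈ Sel(F_ℂ)` has a Kummer character `χ_f` with `χ_f ^ p = 1` (ORD over `ℂ`, ROOT, CHAR);
two elements with the same character differ by a `p`-th power (CHAR-UNIQ, CUSP-ROOT, CONV);
there are only finitely many characters (FG).
-/

set_option autoImplicit false

open ModularCurve AlgebraicCurve UpperHalfPlane CongruenceSubgroup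
open scoped MatrixGroups Manifold

noncomputable section

namespace Fermat.Agent.Jac

open Fermat.Agent.S24 (Kbar FF embC IsAn tayAt)
open Fermat.Agent.S28 (HasTExp)

/-- a function on `ℍ` which is not the zero function is nonzero somewhere. -/
theorem h70_exists_ne {f : ℍ → ℂ} (hf : f ≠ 0) : ∃ z, f z ≠ 0 := by
  by_contra h
  exact hf (funext fun z => by_contra fun hz => h ⟨z, hz⟩)

/-- the product of two nonzero holomorphic functions on `ℍ` is nonzero. -/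
theorem h70_mul_ne_zero {f g : ℍ → ℂ} (hf : MDiff f) (hg : MDiff g) (hf0 : f ≠ 0)
    (hg0 : g ≠ 0) : f * g ≠ 0 := by
  intro h
  have h1 : Fermat.Agent.S24.tayAt UpperHalfPlane.I (f * g) = 0 :=
    (Fermat.Agent.S24.tayAt_eq_zero_iff (hf.mul hg) UpperHalfPlane.I).mpr h
  rw [Fermat.Agent.S24.tayAt_mul hf hg] at h1
  rcases mul_eq_zero.mp h1 with h2 | h2
  · exact hf0 ((Fermat.Agent.S24.tayAt_eq_zero_iff hf UpperHalfPlane.I).mp h2)
  · exact hg0 ((Fermat.Agent.S24.tayAt_eq_zero_iff hg UpperHalfPlane.I).mp h2)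

/-- powers of a nonzero holomorphic function are nonzero. -/
theorem h70_pow_ne_zero {f : ℍ → ℂ} (hf : MDiff f) (hf0 : f ≠ 0) (n : ℕ) : f ^ n ≠ 0 := by
  induction n with
  | zero =>
    rw [pow_zero]
    intro h
    have := congrFun h UpperHalfPlane.I
    simp at this
  | succ n ih =>
    rw [pow_succ]
    exact h70_mul_ne_zero (hf.pow n) hf ih hf0

/-- Taylor series of a power. -/
theorem h70_tayAt_pow {f : ℍ → ℂ} (hf : MDiff f) (τ₀ : ℍ) (n : ℕ) :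
    tayAt τ₀ (f ^ n) = tayAt τ₀ f ^ n := by
  induction n with
  | zero =>
    rw [pow_zero, pow_zero]
    have h := Fermat.Agent.S24.tayAt_const 1 τ₀
    rw [map_one] at h
    exact h
  | succ n ih =>
    rw [pow_succ, pow_succ, Fermat.Agent.S24.tayAt_mul (hf.pow n) hf, ih]

/-- the order of the Taylor series of `P * Q ^ (p - 1)`. -/
theorem h70_order_root_fun {P Q : ℍ → ℂ} (hP : MDiff P) (hQ : MDiff Q) (hP0 : P ≠ 0)
    (hQ0 : Q ≠ 0) (p : ℕ) (τ₀ : ℍ) :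
    (tayAt τ₀ (P * Q ^ (p - 1))).order.toNat
      = (tayAt τ₀ P).order.toNat + (p - 1) * (tayAt τ₀ Q).order.toNat := by
  have hP1 : tayAt τ₀ P ≠ 0 := fun h => hP0 ((Fermat.Agent.S24.tayAt_eq_zero_iff hP τ₀).mp h)
  have hQ1 : tayAt τ₀ Q ≠ 0 := fun h => hQ0 ((Fermat.Agent.S24.tayAt_eq_zero_iff hQ τ₀).mp h)
  rw [Fermat.Agent.S24.tayAt_mul hP (hQ.pow _), h70_tayAt_pow hQ]
  have e1 : (tayAt τ₀ P).order = ((tayAt τ₀ P).order.toNat : ℕ∞) :=
    (ENat.natCast_toNat (PowerSeries.order_eq_top.not.mpr hP1)).symm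
  have e2 : (tayAt τ₀ Q).order = ((tayAt τ₀ Q).order.toNat : ℕ∞) :=
    (ENat.natCast_toNat (PowerSeries.order_eq_top.not.mpr hQ1)).symm
  rw [PowerSeries.order_mul, PowerSeries.order_pow]
  conv_lhs => rw [e1, e2]
  rw [nsmul_eq_mul]
  norm_cast

/-- **Kummer root with character, function level** (from ROOT and CHAR). -/
theorem h70_exists_root_char (hRoot : RootStatement) (hChar : CharStatement)
    (N p : ℕ) (hp : 0 < p) {P Q : ℍ → ℂ} (hP : MDiff P) (hQ : MDiff Q) (hP0 : P ≠ 0)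
    (hQ0 : Q ≠ 0)
    (invP : ∀ γ ∈ Gamma0 N, ∀ τ : ℍ, P (γ • τ) = P τ)
    (invQ : ∀ γ ∈ Gamma0 N, ∀ τ : ℍ, Q (γ • τ) = Q τ)
    (hord : ∀ τ₀ : ℍ,
      (p : ℤ) ∣ ((tayAt τ₀ P).order.toNat : ℤ) - ((tayAt τ₀ Q).order.toNat : ℤ)) :
    ∃ (A : ℍ → ℂ) (χ : Gamma0 N →* ℂˣ), MDiff A ∧ A ≠ 0 ∧
      (∀ τ, A τ ^ p = P τ * Q τ ^ (p - 1)) ∧ HasChar N A χ ∧ χ ^ p = 1 := by
  have hG : MDiff (P * Q ^ (p - 1)) := hP.mul (hQ.pow _)
  have hG0 : P * Q ^ (p - 1) ≠ 0 := h70_mul_ne_zero hP (hQ.pow _) hP0 (h70_pow_ne_zero hQ hQ0 _)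
  have hdvd : ∀ τ₀ : ℍ, p ∣ (tayAt τ₀ (P * Q ^ (p - 1))).order.toNat := by
    intro τ₀
    rw [h70_order_root_fun hP hQ hP0 hQ0 p τ₀]
    have h := hord τ₀
    have h2 : (p : ℤ) ∣ (((tayAt τ₀ P).order.toNat + (p - 1) * (tayAt τ₀ Q).order.toNat : ℕ) : ℤ) := by
      have e : (((tayAt τ₀ P).order.toNat + (p - 1) * (tayAt τ₀ Q).order.toNat : ℕ) : ℤ)
          = (((tayAt τ₀ P).order.toNat : ℤ) - ((tayAt τ₀ Q).order.toNat : ℤ))
            + (p : ℤ) * ((tayAt τ₀ Q).order.toNat : ℤ) := by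
        push_cast [Nat.cast_sub (Nat.one_le_of_lt hp)]
        ring
      rw [e]
      exact dvd_add h (dvd_mul_right _ _)
    exact_mod_cast h2
  obtain ⟨A, hA, hAp⟩ := hRoot p hp (P * Q ^ (p - 1)) hG hG0 hdvd
  have hinv : ∀ (γ : Gamma0 N) (τ : ℍ),
      (P * Q ^ (p - 1)) ((γ : SL(2, ℤ)) • τ) = (P * Q ^ (p - 1)) τ := by
    intro γ τ
    simp only [Pi.mul_apply, Pi.pow_apply]
    rw [invP γ γ.2 τ, invQ γ γ.2 τ]
  obtain ⟨χ, hχ, hχp⟩ := hChar N p hp (P * Q ^ (p - 1)) A hG hA hG0 hinv hAp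
  have hA0 : A ≠ 0 := by
    rintro rfl
    obtain ⟨z, hz⟩ := h70_exists_ne hG0
    apply hz
    rw [← hAp z]
    simp [hp.ne']
  exact ⟨A, χ, hA, hA0, fun τ => by rw [hAp τ]; rfl, hχ, hχp⟩

/-- a nonzero function with an expansion has a nonzero expansion. -/
theorem h70_series_ne_zero {N : ℕ} {g : ℍ → ℂ} {s : LaurentSeries ℂ} (h : HasTExp N g s)
    (hg : g ≠ 0) : s ≠ 0 := by
  rintro rfl
  apply hg
  funext τ
  have h' := Fermat.Agent.S28.hasTExp_iff.mp h τ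
  simp only [HahnSeries.coeff_zero, zero_mul] at h'
  simpa using h'.unique hasSum_zero

/-- `Sel(F_ℂ)` is closed under `f * s⁻¹`. -/
theorem h70_isSelC_mul_inv {N p : ℕ} {f s : FC N} (hf : IsSelC N p f) (hs : IsSelC N p s) :
    IsSelC N p (f * s⁻¹) := by
  refine ⟨mul_ne_zero hf.1 (inv_ne_zero hs.1), fun v => ?_⟩
  rw [v.ord_mul hf.1 (inv_ne_zero hs.1), v.ord_inv]
  exact dvd_add (hf.2 v) ((dvd_neg).mpr (hs.2 v))

/-- existence of the Kummer character over `ℂ`. -/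
theorem h70_exists_kummerCharC (hAn : AnCStatement) (hOrd : OrdDvdCStatement)
    (hRoot : RootStatement) (hChar : CharStatement) (N : ℕ) [NeZero N] (p : ℕ) (hp : 0 < p)
    {f : FC N} (hf : IsSelC N p f) :
    ∃ χ : Gamma0 N →* ℂˣ, KummerCharC N p f χ ∧ χ ^ p = 1 := by
  obtain ⟨hex, -, hzero, -, -, -⟩ := hAn N
  obtain ⟨P, Q, han⟩ := hex f
  have hP0 : P ≠ 0 := fun h => hf.1 ((hzero f P Q han).mpr h)
  obtain ⟨A, χ, hA, -, hAp, hAχ, hχp⟩ := h70_exists_root_char hRoot hChar N p hp han.holoP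
    han.holoQ hP0 han.Q_ne han.invP han.invQ (hOrd N p f hf P Q han)
  exact ⟨χ, ⟨P, Q, A, han, hA, hAp, hAχ⟩, hχp⟩

/-- two elements of `Sel(F_ℂ)` with the same Kummer character differ by a `p`-th power. -/
theorem h70_eq_mul_pow (hAn : AnCStatement) (hOrd : OrdDvdCStatement) (hRoot : RootStatement)
    (hChar : CharStatement) (hUniq : CharUniqStatement) (hCusp : CuspRootStatement)
    (hConv : ConvStatement) (N : ℕ) [NeZero N] (p : ℕ) (hp : 0 < p) {f s : FC N}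
    (hf : IsSelC N p f) (hs : IsSelC N p s) (χ : Gamma0 N →* ℂˣ)
    (hfχ : KummerCharC N p f χ) (hsχ : KummerCharC N p s χ) :
    ∃ w : FC N, w ≠ 0 ∧ f = s * w ^ p := by
  have hN : 0 < N := Nat.pos_of_ne_zero (NeZero.ne N)
  obtain ⟨-, -, hzero, hmul, hinv, -⟩ := hAn N
  obtain ⟨Pf, Qf, Af, hanf, hAf, hAfp, hAfχ⟩ := hfχ
  obtain ⟨Ps, Qs, As, hans, hAs, hAsp, hAsχ⟩ := hsχ
  have hPf0 : Pf ≠ 0 := fun h => hf.1 ((hzero f Pf Qf hanf).mpr h)
  have hPs0 : Ps ≠ 0 := fun h => hs.1 ((hzero s Ps Qs hans).mpr h)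
  have hanh : IsAnC N (f * s⁻¹) (Pf * Qs) (Qf * Ps) :=
    hmul f s⁻¹ Pf Qf Qs Ps hanf (hinv s Ps Qs hans hs.1)
  have hh : IsSelC N p (f * s⁻¹) := h70_isSelC_mul_inv hf hs
  have hP'0 : Pf * Qs ≠ 0 := h70_mul_ne_zero hanf.holoP hans.holoQ hPf0 hans.Q_ne
  obtain ⟨A', χ', hA', hA'0, hA'p, hA'χ, -⟩ := h70_exists_root_char hRoot hChar N p hp
    hanh.holoP hanh.holoQ hP'0 hanh.Q_ne hanh.invP hanh.invQ (hOrd N p (f * s⁻¹) hh _ _ hanh)
  -- the character of `A'` is trivial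
  have hAs0 : As ≠ 0 := by
    rintro rfl
    obtain ⟨z, hz⟩ := h70_exists_ne
      (h70_mul_ne_zero hans.holoP (hans.holoQ.pow (p - 1)) hPs0
        (h70_pow_ne_zero hans.holoQ hans.Q_ne _))
    apply hz
    have := hAsp z
    simp only [Pi.zero_apply, zero_pow hp.ne'] at this
    simp only [Pi.mul_apply, Pi.pow_apply]
    exact this.symm
  have hχ' : χ' * χ = χ := by
    refine hUniq N p hp (A' * As) Af (Ps * Qs) (fun _ => 1) (hA'.mul hAs) hAf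
      (hans.holoP.mul hans.holoQ) mdifferentiable_const
      (h70_mul_ne_zero hA' hAs hA'0 hAs0)
      (h70_mul_ne_zero hans.holoP hans.holoQ hPs0 hans.Q_ne) ?_ ?_ ?_ ?_ (χ' * χ) χ ?_ hAfχ
    · intro h
      have := congrFun h UpperHalfPlane.I
      simp at this
    · intro γ τ
      simp only [Pi.mul_apply]
      rw [hans.invP γ γ.2 τ, hans.invQ γ γ.2 τ]
    · intro γ τ
      rfl
    · intro τ
      have h1 := hA'p τ
      have h2 := hAsp τ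
      have h3 := hAfp τ
      simp only [Pi.mul_apply] at h1 ⊢
      obtain ⟨k, rfl⟩ : ∃ k, p = k + 1 := Nat.exists_eq_succ_of_ne_zero hp.ne'
      simp only [Nat.add_sub_cancel] at h1 h2 h3
      rw [mul_one, mul_pow, mul_pow, h1, h2, h3]
      ring
    · intro γ τ
      simp only [Pi.mul_apply, MonoidHom.mul_apply, Units.val_mul]
      rw [hA'χ γ τ, hAsχ γ τ]
      ring
  have hχ'1 : χ' = 1 := mul_right_cancel (hχ'.trans (one_mul χ).symm)
  have hA'inv : ∀ (γ : Gamma0 N) (τ : ℍ), A' ((γ : SL(2, ℤ)) • τ) = A' τ := by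
    intro γ τ
    have := hA'χ γ τ
    rw [hχ'1] at this
    simpa using this
  -- `A'` is meromorphic at the cusps
  have hGcusp : CuspMero N (fun τ => (Pf * Qs) τ * (Qf * Ps) τ ^ (p - 1)) := by
    intro g
    obtain ⟨sP, hsP⟩ := hanh.expP g
    obtain ⟨sQ, hsQ⟩ := hanh.expQ g
    exact ⟨sP * sQ ^ (p - 1), hsP.mul hN (hsQ.pow hN (p - 1))⟩
  have hA'cusp : CuspMero N A' :=
    hCusp N p hp (fun τ => (Pf * Qs) τ * (Qf * Ps) τ ^ (p - 1)) A' 1
      (hanh.holoP.mul (hanh.holoQ.pow (p - 1))) hA' hA'p hGcusp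
      (fun γ τ => by rw [hA'inv γ τ]; simp) (fun _ _ => rfl)
  obtain ⟨sA, hsA, hsAmem⟩ := hConv N A' hA' hA'inv hA'cusp
  obtain ⟨p₁, q₁, hp₁, hq₁, hrel⟩ := hanh.rel
  obtain ⟨sQ, hsQ, hsQmem⟩ := hConv N (Qf * Ps) hanh.holoQ
    (fun γ τ => hanh.invQ γ γ.2 τ) hanh.expQ
  have hq : sQ = q₁ := hsQ.unique one_pos hq₁
  have hq₁0 : q₁ ≠ 0 := h70_series_ne_zero hq₁ hanh.Q_ne
  have hpow : sA ^ p = p₁ * q₁ ^ (p - 1) := by
    have h1 : HasTExp 1 (A' ^ p) (sA ^ p) := hsA.pow one_pos p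
    have h2 : HasTExp 1 ((Pf * Qs) * (Qf * Ps) ^ (p - 1)) (p₁ * q₁ ^ (p - 1)) :=
      hp₁.mul one_pos (hq₁.pow one_pos (p - 1))
    have h3 : A' ^ p = (Pf * Qs) * (Qf * Ps) ^ (p - 1) := by
      funext τ
      exact hA'p τ
    rw [h3] at h1
    exact h1.unique one_pos h2
  have hpow' : sA ^ p = ((f * s⁻¹ : FC N) : LaurentSeries ℂ) * q₁ ^ p := by
    rw [hpow, ← hrel]
    obtain ⟨k, rfl⟩ : ∃ k, p = k + 1 := Nat.exists_eq_succ_of_ne_zero hp.ne'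
    simp only [Nat.add_sub_cancel]
    ring
  let wA : FC N := ⟨sA, hsAmem⟩
  let wQ : FC N := ⟨q₁, hq ▸ hsQmem⟩
  have hwQ0 : wQ ≠ 0 := by
    intro h
    exact hq₁0 (congrArg Subtype.val h)
  have hw : (wA * wQ⁻¹) ^ p = f * s⁻¹ := by
    have e : wA ^ p = (f * s⁻¹) * wQ ^ p := by
      apply Subtype.ext
      push_cast
      exact hpow'
    rw [mul_pow, e, inv_pow, mul_assoc, mul_inv_cancel₀ (pow_ne_zero p hwQ0), mul_one]
  refine ⟨wA * wQ⁻¹, ?_, ?_⟩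
  · intro h0
    rw [h0, zero_pow hp.ne'] at hw
    exact hh.1 hw.symm
  · rw [hw, mul_comm f, ← mul_assoc, mul_inv_cancel₀ hs.1, one_mul]

/-- **FINC.** -/
theorem finCAssembly : FinCAssembly := by
  intro hAn hOrd hRoot hChar hUniq hCusp hConv hFin N _ p hp
  classical
  have hfin : Finite {χ : Gamma0 N →* ℂˣ // χ ^ p = 1} := hFin N p hp
  letI : Fintype {χ : Gamma0 N →* ℂˣ // χ ^ p = 1} := Fintype.ofFinite _
  let rep : {χ : Gamma0 N →* ℂˣ // χ ^ p = 1} → FC N := fun χ =>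
    if h : ∃ s : FC N, IsSelC N p s ∧ KummerCharC N p s χ.1 then h.choose else 1
  refine ⟨Finset.univ.image rep, fun f hf => ?_⟩
  obtain ⟨χ, hfχ, hχp⟩ := h70_exists_kummerCharC hAn hOrd hRoot hChar N p hp hf
  have hex : ∃ s : FC N, IsSelC N p s ∧ KummerCharC N p s χ := ⟨f, hf, hfχ⟩
  have hrep : rep ⟨χ, hχp⟩ = hex.choose := dif_pos hex
  refine ⟨rep ⟨χ, hχp⟩, Finset.mem_image_of_mem _ (Finset.mem_univ _), ?_⟩
  rw [hrep]
  exact h70_eq_mul_pow hAn hOrd hRoot hChar hUniq hCusp hConv N p hp hf hex.choose_spec.1 χ hfχ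
    hex.choose_spec.2

end Fermat.Agent.Jac
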