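import Fermat.Agent.Jac.FinalHK2
import Fermat.Agent.Red.HKComm.Main

/-!
# IN-JAC: the three targets, hypothesis-free

With `Fermat.Agent.Red.HKComm.heckeOperatorsCommuteBar` (helper52's team) the hypothesis
`HeckeOperatorsCommuteBar N` of `heckeKeyModP` and `heckeKeyLattice` is discharged.
-/

set_option autoImplicit false

noncomputable section

namespace Fermat.Agent.Jac

/-- **IN-JAC-key**, hypothesis-free. -/
theorem heckeKeyModPFinal (N : ℕ) [NeZero N] (p : ℕ) (hp : p.Prime) :
    Fermat.Agent.S29.HeckeKeyModP N p :=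
  heckeKeyModP N p hp (Fermat.Agent.Red.HKComm.heckeOperatorsCommuteBar N)

/-- **IN-JAC-key, lattice form**, hypothesis-free. -/
theorem heckeKeyLatticeFinal (N : ℕ) [NeZero N] : Fermat.Agent.S31.HeckeKeyLattice N :=
  heckeKeyLattice N (Fermat.Agent.Red.HKComm.heckeOperatorsCommuteBar N)

end Fermat.Agent.Jac
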