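import Fermat.Agent.Jac.Skeleton2
import Fermat.Agent.Red.GFF
import Fermat.Agent.Red.HKMod

/-!
# IN-JAC, task HKIN: the Hecke inputs `HeckeInputsAlong ℚ̄ N ℓ`

Pure wiring of the landed P-RED modules `Red/HKMod.lean` (modular half: finiteness and
integrality of `α`, `β`, principal divisors of `F_{Nℓ}`) and `Red/GFF.lean` (general function
fields: fundamental identity and norm formula along a finite embedding).
-/

set_option autoImplicit false

open ModularCurve AlgebraicCurve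

noncomputable section

namespace Fermat.Agent.Jac

open Fermat.Agent.S24 (Kbar FF jBar)

/-- The Hecke inputs at `(ℚ̄, N, ℓ)` for arbitrary nonzero `N`, `ℓ`. -/
theorem h3_heckeInputsAlong (N ℓ : ℕ) [NeZero N] [NeZero ℓ] :
    HeckeInputsAlong (AlgebraicClosure ℚ) N ℓ := by
  have := Fermat.Agent.Red.HKMod.hasPrincipalDivisors_FF (N * ℓ)
  have := Fermat.Agent.Red.HKMod.finiteDimensional_jBar (N * ℓ)
  exact Fermat.Agent.Red.HKMod.heckeInputsAlong_of N ℓ
    (Fermat.Agent.Red.GFF.fundamentalIdentityAlong (heckeBetaBar Kbar N ℓ)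
      (Fermat.Agent.Red.HKMod.heckeBetaBarIntegral N ℓ)
      (Fermat.Agent.Red.HKMod.finiteAlong_heckeBetaBar N ℓ) (jBar (N * ℓ)))
    (Fermat.Agent.Red.GFF.normFormulaAlong (heckeAlphaBar Kbar N ℓ)
      (Fermat.Agent.Red.HKMod.finiteAlong_heckeAlphaBar N ℓ) (jBar (N * ℓ)))

/-- **HKIN.** -/
theorem heckeInputs : HeckeInputsStatement := by
  intro N _ ℓ
  have : NeZero (ℓ : ℕ) := ⟨ℓ.2.ne_zero⟩
  exact h3_heckeInputsAlong N (ℓ : ℕ)

end Fermat.Agent.Jac
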