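import Fermat.Agent.Jac.HKM.Poly
import Fermat.Agent.Jac.HKM.Alg
import Fermat.Agent.S29.Integral
import Fermat.Agent.S21.P.Main

/-!
# IN-JAC, task HKM: assembly of `HeckeKeyModP`

`heckeKeyModPAssembly : HeckeKeyModPAssembly`: from the Kummer dictionary (KC-UNIQ, KC-MUL,
KC-SURJ, KC-HECKE), the cohomological Hecke operators (COH), their compatibility with periods
(PER) and the lattice statements (LAM, LAM-FG) to `Fermat.Agent.S29.HeckeKeyModP N p`.
-/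

set_option autoImplicit false
set_option linter.unusedSectionVars false

open ModularCurve AlgebraicCurve UpperHalfPlane CongruenceSubgroup
open scoped MatrixGroups

noncomputable section

namespace Fermat.Agent.Jac

open Fermat.Agent.S24 (Kbar FF)
open Fermat.Agent.S29.LK (evalOfCommute evalOfCommute_X evalOfCommute_C)
open HKM

namespace HKM

variable {N : ℕ} [NeZero N]

theorem h57_isAddTorsionFree_Lam (N : ℕ) : IsAddTorsionFree (h57_Lam N) := by
  refine ⟨fun n hn φ ψ h => ?_⟩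
  apply Subtype.ext
  refine AddMonoidHom.ext fun γ => ?_
  have h1 := congrArg (fun χ : h57_Lam N => (χ : Additive (Gamma0 N) →+ ℤ) γ) h
  have hn' : (n : ℤ) ≠ 0 := by exact_mod_cast hn
  have h2 : (n : ℤ) * φ.1 γ = (n : ℤ) * ψ.1 γ := by
    simpa [nsmul_eq_mul] using h1
  exact mul_left_cancel₀ hn' h2

/-- division of an integral parabolic hom by `p` -/
theorem h57_exists_div (p : ℕ) (hp : p ≠ 0) (φ : h57_Lam N)
    (h : ∀ γ : Gamma0 N, (p : ℤ) ∣ φ.1 (Additive.ofMul γ)) :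
    ∃ ψ : h57_Lam N, φ = p • ψ := by
  have hp' : (p : ℤ) ≠ 0 := by exact_mod_cast hp
  have hdiv : ∀ γ : Additive (Gamma0 N), (p : ℤ) ∣ φ.1 γ := fun γ => h (Additive.toMul γ)
  let ψ : Additive (Gamma0 N) →+ ℤ :=
    { toFun := fun γ => φ.1 γ / (p : ℤ)
      map_zero' := by simp
      map_add' := fun a b => by
        rw [map_add]
        exact Int.add_ediv_of_dvd_left (hdiv a) }
  have hψ : ψ ∈ h57_Lam N := by
    intro γ hγ
    show φ.1 (Additive.ofMul γ) / (p : ℤ) = 0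
    rw [φ.2 γ hγ, Int.zero_ediv]
  refine ⟨⟨ψ, hψ⟩, ?_⟩
  apply Subtype.ext
  refine AddMonoidHom.ext fun γ => ?_
  show φ.1 γ = (p • ψ) γ
  rw [AddMonoidHom.smul_apply, nsmul_eq_mul]
  show φ.1 γ = (p : ℤ) * (φ.1 γ / (p : ℤ))
  rw [Int.mul_ediv_cancel' (hdiv γ)]

theorem h57_periodMap_ne_zero (g : CuspForm (Gamma0 N) 2) (hg : g ≠ 0) :
    periodMap N g ≠ 0 := by
  intro h
  apply hg
  refine Fermat.Agent.S21.P.Inject.eq_zero_of_periodMap_add N g
    ⟨_, Fermat.Agent.S21.P.hasEquivariantPrimitive_canonPrim N g⟩ ?_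
  rw [h, map_zero, add_zero]

theorem h57_periodMap_mem_span (hLam : LatticeSpanStatement) (g : CuspForm (Gamma0 N) 2) :
    periodMap N g ∈ Submodule.span ℂ (Set.range (h57_j N)) := by
  obtain ⟨r, a, φs, hφs, hsum⟩ := hLam N (periodMap N g)
    (Fermat.Agent.S21.P.periodMap_mem_parabolicHoms N g)
  have h1 : periodMap N g = ∑ i, a i • h57_j N ⟨φs i, hφs i⟩ := by
    refine AddMonoidHom.ext fun γ => ?_
    obtain ⟨γ, rfl⟩ := Additive.ofMul.surjective γ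
    rw [hsum γ, AddMonoidHom.finsetSum_apply]
    refine Finset.sum_congr rfl fun i _ => ?_
    rfl
  rw [h1]
  exact Submodule.sum_mem _ fun i _ =>
    Submodule.smul_mem _ _ (Submodule.subset_span ⟨_, rfl⟩)

theorem h57_periodMap_eigen (hCoh : CohHeckeStatement) (hPer : PeriodHeckeStatement)
    {g : CuspForm (Gamma0 N) 2} (hg : g.IsNormalizedEigenform) {ℓ : ℕ} (hℓ : ℓ.Prime)
    (hℓN : ¬ ℓ ∣ N) :
    h57_SC hCoh N ℓ (periodMap N g) = ModularFormClass.qCoeff g ℓ • periodMap N g := by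
  rw [h57_SC_apply, h57_Tfun_eq_of hCoh ⟨hℓ, hℓN⟩ (hPer N ℓ hℓ hℓN g),
    Fermat.Agent.S29.Integral.heckeTLin_apply hg hℓ hℓN]
  exact (Fermat.Agent.S21.P.periodMapLinear N).map_smul _ g

end HKM

/-- **HKM.** assembly of `HeckeKeyModP`. -/
theorem heckeKeyModPAssembly : HeckeKeyModPAssembly := by
  intro hPD hUniq hMul hSurj hHecke hCoh hPer hLam hLamFG N _ p hp hcomm P hvars hkill g hg
  classical
  have hfin : Module.Finite ℤ (h57_Lam N) := Module.Finite.iff_fg.mpr (hLamFG N)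
  have htf : IsAddTorsionFree (h57_Lam N) := h57_isAddTorsionFree_Lam N
  have hT : ∀ ℓ ℓ' : Nat.Primes, h57_TLam hCoh N (ℓ : ℕ) * h57_TLam hCoh N (ℓ' : ℕ)
      = h57_TLam hCoh N (ℓ' : ℕ) * h57_TLam hCoh N (ℓ : ℕ) :=
    fun ℓ ℓ' => h57_TLam_comm hPD hUniq hMul hSurj hHecke hCoh hcomm ℓ ℓ'
  have hvarsN : ∀ ℓ ∈ P.vars, ¬ (ℓ : ℕ) ∣ N := fun ℓ hℓ h =>
    hvars ℓ hℓ (Dvd.dvd.mul_right h p)
  have hkill' : ∀ x : JZero N, p • x = 0 → heckeEvalBar hcomm P x = 0 := fun x hx =>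
    (heckeModuleBar_smul_def hcomm P x).symm.trans (hkill x hx)
  -- the lattice condition
  have hP : ∀ φ : h57_Lam N, ∃ ψ : h57_Lam N,
      evalOfCommute (fun ℓ : Nat.Primes => h57_TLam hCoh N (ℓ : ℕ)) hT P φ = p • ψ := by
    intro φ
    obtain ⟨x, hx, hQ⟩ := h57_Trip_surj hPD hSurj hp φ
    have h1 := h57_poly_step hMul hHecke hCoh hcomm hp.pos hT P x φ hQ
    rw [h57_subst_eq P hvarsN, hkill' x hx] at h1
    have h2 := h57_Trip_zero_eq hUniq hMul hp.pos h1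
    exact h57_exists_div p hp.ne_zero _ ((h57_E_eq_one_iff hp.ne_zero _).mp h2)
  -- the eigenvector
  have hv0 : periodMap N g ≠ 0 :=
    h57_periodMap_ne_zero g (Fermat.Agent.S29.Integral.ne_zero hg)
  have hspan := h57_periodMap_mem_span hLam g
  have hv : ∀ ℓ : Nat.Primes, h57_SC hCoh N (ℓ : ℕ) (periodMap N g)
      = (if ¬ (ℓ : ℕ) ∣ N then ModularFormClass.qCoeff g ℓ else 0) • periodMap N g := by
    intro ℓ
    by_cases hℓ : (ℓ : ℕ) ∣ N
    · have hbad : ¬ h57_Good N (ℓ : ℕ) := fun hgd => hgd.2 hℓ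
      rw [if_neg (not_not.mpr hℓ), zero_smul, h57_SC_apply, h57_Tfun_bad hCoh hbad]
    · rw [if_pos hℓ]
      exact h57_periodMap_eigen hCoh hPer hg ℓ.2 hℓ
  obtain ⟨b, hb⟩ := h57_key (fun ℓ : Nat.Primes => h57_TLam hCoh N (ℓ : ℕ)) hT
    (fun ℓ : Nat.Primes => h57_SC hCoh N (ℓ : ℕ)) (h57_j N)
    (fun i x => h57_SC_j hCoh (i : ℕ) x) (periodMap N g) hv0 hspan _ hv P p hp.ne_zero hP
  refine ⟨b, ?_⟩
  rw [← hb]
  exact h57_aeval_congr _ _ P (fun ℓ hℓ => by rw [if_pos (hvarsN ℓ hℓ)])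

end Fermat.Agent.Jac
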