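import Fermat.Agent.Jac.Skeleton2

/-!
# IN-JAC, task HNORM: `T_ℓ` on Kummer functions is `f ↦ Norm_α (β f)`

`theorem heckeNorm_spec (h : HeckeInputsStatement) : HeckeNormStatement`.
-/

set_option autoImplicit false
set_option linter.style.haveILetI false

open ModularCurve AlgebraicCurve

noncomputable section

namespace Fermat.Agent.Jac

open Fermat.Agent.S24 (Kbar FF)

/-- **HNORM.** Under the Hecke inputs, the Prelude's `T_ℓ` sends the class of `D` with
`div f = p • D` to the class of `D'` with `div (Norm_α (β f)) = p • D'`. -/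
theorem heckeNorm_spec (h : HeckeInputsStatement) : HeckeNormStatement := by
  intro N _ p ℓ
  haveI : NeZero (ℓ : ℕ) := ⟨ℓ.2.ne_zero⟩
  intro D f hf hD
  obtain ⟨hα, hβ, hP, hfin, hFI, hN⟩ := h N ℓ
  haveI := hP
  have hβf : heckeBetaBar Kbar N (ℓ : ℕ) f ≠ 0 := by
    intro h0
    exact hf ((heckeBetaBar Kbar N (ℓ : ℕ)).toRingHom.injective (by simpa using h0))
  refine ⟨?_, Pic0.degZeroCorrespondence (heckeBetaBar Kbar N (ℓ : ℕ))
    (heckeAlphaBar Kbar N (ℓ : ℕ)) hβ hα hFI D, ?_, ?_⟩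
  · letI := algebraAlong (heckeAlphaBar Kbar N (ℓ : ℕ))
    haveI : Module.Finite (FF N) (FF (N * (ℓ : ℕ))) := hfin
    exact Algebra.norm_ne_zero_iff.mpr hβf
  · rw [heckeOperatorBar_apply, heckeOperatorAlong_eq hα hβ hFI hfin hN]
    rfl
  · intro v
    have hE : ∀ w : Place Kbar (FF (N * (ℓ : ℕ))),
        Divisor.pullbackAlong (heckeBetaBar Kbar N (ℓ : ℕ)) hβ (p • (D : Divisor Kbar (FF N))) w
          = w.ord (heckeBetaBar Kbar N (ℓ : ℕ) f) := by
      intro w
      letI := algebraAlong (heckeBetaBar Kbar N (ℓ : ℕ))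
      haveI := isScalarTower_along (heckeBetaBar Kbar N (ℓ : ℕ))
      haveI := isIntegral_along (heckeBetaBar Kbar N (ℓ : ℕ)) hβ
      refine Divisor.pullback_apply_eq_ord (F' := FF (N * (ℓ : ℕ))) (f := f) ?_ w
      intro v'
      rw [Finsupp.smul_apply, nsmul_eq_mul, hD v']
    have hnorm : Divisor.pushforwardAlong (heckeAlphaBar Kbar N (ℓ : ℕ)) hα
        (Divisor.pullbackAlong (heckeBetaBar Kbar N (ℓ : ℕ)) hβ
          (p • (D : Divisor Kbar (FF N)))) v = v.ord (heckeNorm N (ℓ : ℕ) f) := by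
      letI := algebraAlong (heckeAlphaBar Kbar N (ℓ : ℕ))
      haveI := isScalarTower_along (heckeAlphaBar Kbar N (ℓ : ℕ))
      haveI := isIntegral_along (heckeAlphaBar Kbar N (ℓ : ℕ)) hα
      haveI : Module.Finite (FF N) (FF (N * (ℓ : ℕ))) := hfin
      exact hN _ hβf _ hE v
    rw [← hnorm, map_nsmul, map_nsmul, Finsupp.smul_apply, nsmul_eq_mul]
    rfl

end Fermat.Agent.Jac
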