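import Fermat.Agent.Jac.Skeleton2
import Fermat.Agent.S24.Tay
import Fermat.Agent.S28.TExp

/-!
# IN-JAC, task KC-SURJ: the assembly `KummerSurjAssembly`

Every character `χ = exp (2πi φ / p)`, `φ` an integral parabolic hom, is the Kummer character
of some `f₀ ∈ F` all of whose orders are divisible by `p`:
`EIS` gives a holomorphic `A` with character `χ`, `SELC` puts `A ^ p` into `F_ℂ`,
`RIG` descends its class to `F`, `BCORD` transports the divisibility of the orders,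
`KC-EX` gives a Kummer character `χ₀` of `f₀`, and `CHAR-UNIQ` (via the analytic dictionary
`P-AN1`) shows `χ₀ = χ`.
-/

set_option autoImplicit false

open ModularCurve AlgebraicCurve UpperHalfPlane CongruenceSubgroup
open scoped MatrixGroups Manifold

noncomputable section

namespace Fermat.Agent.Jac

open Fermat.Agent.S24 (Kbar FF embC IsAn tayAt)
open Fermat.Agent.S28 (HasTExp)

/-- a product of nonzero holomorphic functions on `ℍ` is nonzero. -/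
theorem h31_mul_ne_zero {P Q : ℍ → ℂ} (hP : MDiff P) (hQ : MDiff Q) (hP0 : P ≠ 0)
    (hQ0 : Q ≠ 0) : P * Q ≠ 0 := by
  intro h
  have h1 : tayAt UpperHalfPlane.I (P * Q) = 0 :=
    (Fermat.Agent.S24.tayAt_eq_zero_iff (hP.mul hQ) _).mpr h
  rw [Fermat.Agent.S24.tayAt_mul hP hQ] at h1
  rcases mul_eq_zero.mp h1 with h2 | h2
  · exact hP0 ((Fermat.Agent.S24.tayAt_eq_zero_iff hP _).mp h2)
  · exact hQ0 ((Fermat.Agent.S24.tayAt_eq_zero_iff hQ _).mp h2)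

/-- a power of a nonzero holomorphic function on `ℍ` is nonzero. -/
theorem h31_pow_ne_zero {P : ℍ → ℂ} (hP : MDiff P) (hP0 : P ≠ 0) (n : ℕ) : P ^ n ≠ 0 := by
  induction n with
  | zero =>
    rw [pow_zero]
    intro h
    have := congrFun h UpperHalfPlane.I
    simp at this
  | succ n ih =>
    rw [pow_succ]
    exact h31_mul_ne_zero (hP.pow n) hP ih hP0

/-- `χ = exp (2πi φ / p)` has order dividing `p`. -/
theorem h31_expChar_pow {N p : ℕ} (hp : 0 < p) {φ : Additive (Gamma0 N) →+ ℤ}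
    {χ : Gamma0 N →* ℂˣ} (hχ : IsExpChar N p φ χ) : χ ^ p = 1 := by
  ext γ
  have hp0 : (p : ℂ) ≠ 0 := by exact_mod_cast hp.ne'
  simp only [MonoidHom.pow_apply, Units.val_pow_eq_pow_val, MonoidHom.one_apply, Units.val_one]
  rw [hχ γ, ← Complex.exp_nat_mul]
  have : (p : ℂ) * (2 * Real.pi * Complex.I * (φ (Additive.ofMul γ) : ℂ) / (p : ℂ))
      = (φ (Additive.ofMul γ) : ℂ) * (2 * Real.pi * Complex.I) := by
    field_simp
  rw [this]
  exact Complex.exp_int_mul_two_pi_mul_I _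

/-- `χ = exp (2πi φ / p)` is trivial where `φ` vanishes. -/
theorem h31_expChar_eq_one {N p : ℕ} {φ : Additive (Gamma0 N) →+ ℤ}
    {χ : Gamma0 N →* ℂˣ} (hχ : IsExpChar N p φ χ) (γ : Gamma0 N)
    (h : φ (Additive.ofMul γ) = 0) : χ γ = 1 := by
  apply Units.ext
  rw [hχ γ, h]
  simp

/-- an integer valued hom vanishes on elements of finite order. -/
theorem h31_hom_finOrder {G : Type*} [Group G] (φ : Additive G →+ ℤ) (γ : G)
    (h : IsOfFinOrder γ) : φ (Additive.ofMul γ) = 0 := by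
  obtain ⟨n, hn, hγ⟩ := h.exists_pow_eq_one
  have h1 : n • φ (Additive.ofMul γ) = 0 := by
    rw [← map_nsmul, ← ofMul_pow, hγ]
    exact map_zero φ
  rcases smul_eq_zero.mp h1 with h2 | h2
  · exact absurd h2 hn.ne'
  · exact h2

/-- powers in the analytic dictionary over `ℂ`. -/
theorem h31_isAnC_pow {N : ℕ} [NeZero N] (hAn : AnCStatement) {g : FC N} {P Q : ℍ → ℂ}
    (h : IsAnC N g P Q) (n : ℕ) (hn : 1 ≤ n) : IsAnC N (g ^ n) (P ^ n) (Q ^ n) := by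
  induction n, hn using Nat.le_induction with
  | base => simpa using h
  | succ n _ ih =>
    rw [pow_succ, pow_succ, pow_succ]
    exact (hAn N).2.2.2.1 _ _ _ _ _ _ ih h

/-- **KC-SURJ** from its pieces. -/
theorem kummerSurjAssembly : KummerSurjAssembly := by
  intro hEis hSelC hRig hBC hAn hUniq hEx N _ p hp φ hφ χ hχ
  have hp0 : 0 < p := hp.pos
  have hχp : χ ^ p = 1 := h31_expChar_pow hp0 hχ
  have hχpar : ∀ γ : Gamma0 N, IsPar γ → χ γ = 1 := fun γ hγ =>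
    h31_expChar_eq_one hχ γ (hφ γ hγ)
  have hχfin : ∀ γ : Gamma0 N, IsOfFinOrder γ → χ γ = 1 := fun γ hγ =>
    h31_expChar_eq_one hχ γ (h31_hom_finOrder φ γ hγ)
  -- EIS
  obtain ⟨A, hA, hA0, hAχ, hAc⟩ := hEis N χ p hp0 hχp hχpar
  -- SELC
  obtain ⟨f, ⟨hf0, hfsel⟩, hfexp⟩ := hSelC N p hp0 A χ hA hA0 hAχ hAc hχp hχpar hχfin
  -- RIG
  obtain ⟨f₀, g, hg0, hfg⟩ := hRig N p hp0 f ⟨hf0, hfsel⟩
  -- the element `u = f / g ^ p` of `F_ℂ` is the image of `f₀`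
  set u : FC N := f * (g ^ p)⁻¹ with hu
  have hgp0 : g ^ p ≠ 0 := pow_ne_zero p hg0
  have hgpL : ((g : LaurentSeries ℂ)) ^ p ≠ 0 := by
    have : ((g ^ p : FC N) : LaurentSeries ℂ) ≠ 0 := fun h => hgp0 (Subtype.ext h)
    simpa using this
  have huL : (u : LaurentSeries ℂ) = coeffMap embC (f₀ : LaurentSeries Kbar) := by
    have h1 : (u : LaurentSeries ℂ) = (f : LaurentSeries ℂ) * ((g : LaurentSeries ℂ) ^ p)⁻¹ := by
      simp [hu]
    rw [h1, hfg, mul_assoc, mul_inv_cancel₀ hgpL, mul_one]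
  have hu0 : u ≠ 0 := mul_ne_zero hf0 (inv_ne_zero hgp0)
  have hfu : f = u * g ^ p := by
    rw [hu, mul_assoc, inv_mul_cancel₀ hgp0, mul_one]
  have hf₀0 : f₀ ≠ 0 := by
    intro h
    apply hu0
    apply Subtype.ext
    rw [huL, h]
    simp
  -- BCORD: the orders of `f₀` are divisible by `p`
  have hsel₀ : IsSel N p f₀ := by
    refine ⟨hf₀0, fun v₀ => ?_⟩
    obtain ⟨v, hv⟩ := hBC N v₀
    rw [← hv f₀ u huL, hu, v.ord_mul hf0 (inv_ne_zero hgp0), v.ord_inv]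
    have h1 : v.ord (g ^ p) = (p : ℤ) * v.ord g := by
      have := v.ord_zpow g (p : ℤ)
      simpa using this
    rw [h1]
    exact dvd_add (hfsel v) ((dvd_neg).mpr (dvd_mul_right _ _))
  -- KC-EX
  obtain ⟨χ₀, hK₀, -⟩ := hEx N p hp0 f₀ hsel₀
  obtain ⟨P₀, Q₀, A₀, hAn₀, hA₀, hA₀p, hA₀χ⟩ := hK₀
  -- the analytic dictionary
  obtain ⟨hex, huniq, hzero, hmul, -, hbridge⟩ := hAn N
  obtain ⟨Pg, Qg, hAng⟩ := hex g
  have hAnu : IsAnC N u P₀ Q₀ := hbridge f₀ u P₀ Q₀ huL hAn₀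
  have hAngp : IsAnC N (g ^ p) (Pg ^ p) (Qg ^ p) := h31_isAnC_pow hAn hAng p hp0
  have hAnf₁ : IsAnC N f (P₀ * Pg ^ p) (Q₀ * Qg ^ p) := by
    rw [hfu]
    exact hmul _ _ _ _ _ _ hAnu hAngp
  have hAnf₂ : IsAnC N f (fun τ => A τ ^ p) 1 :=
    { holoP := hA.pow p
      holoQ := mdifferentiable_const
      Q_ne := fun h => by
        have := congrFun h UpperHalfPlane.I
        simp at this
      invP := fun γ hγ τ => by
        have h1 := hAχ ⟨γ, hγ⟩ τ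
        have h2 : ((χ ⟨γ, hγ⟩ : ℂˣ) : ℂ) ^ p = 1 := by
          have := congrArg (fun ψ : Gamma0 N →* ℂˣ => ((ψ ⟨γ, hγ⟩ : ℂˣ) : ℂ)) hχp
          simpa using this
        change A (γ • τ) ^ p = A τ ^ p
        rw [h1, mul_pow, h2, one_mul]
      invQ := fun _ _ _ => rfl
      expP := fun g' => by
        obtain ⟨s, hs⟩ := hAc g'
        exact ⟨s ^ p, hs.pow (Nat.pos_of_ne_zero (NeZero.ne N)) p⟩
      expQ := fun _ => ⟨1, HasTExp.one N⟩
      rel := ⟨(f : LaurentSeries ℂ), 1, hfexp, HasTExp.one 1, mul_one _⟩ }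
  have hkey : (fun τ => A τ ^ p) * (Q₀ * Qg ^ p) = (P₀ * Pg ^ p) * 1 :=
    huniq f _ _ _ _ hAnf₂ hAnf₁
  -- nonvanishing
  have hP₀0 : P₀ ≠ 0 := fun h => hu0 ((hzero u P₀ Q₀ hAnu).mpr h)
  have hPg0 : Pg ≠ 0 := fun h => hg0 ((hzero g Pg Qg hAng).mpr h)
  have hA₀0 : A₀ ≠ 0 := by
    intro h
    have h1 : P₀ * Q₀ ^ (p - 1) = 0 := by
      funext τ
      have := hA₀p τ
      rw [h] at this
      simp only [Pi.zero_apply, zero_pow hp0.ne'] at this
      simpa using this.symm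
    exact h31_mul_ne_zero hAn₀.holoP (hAn₀.holoQ.pow _) hP₀0
      (h31_pow_ne_zero hAn₀.holoQ hAn₀.Q_ne _) h1
  -- CHAR-UNIQ
  have hfinal : χ₀ = χ := by
    refine hUniq N p hp0 A₀ A (Q₀ * Qg) Pg hA₀ hA (hAn₀.holoQ.mul hAng.holoQ) hAng.holoP hA₀0
      (h31_mul_ne_zero hAn₀.holoQ hAng.holoQ hAn₀.Q_ne hAng.Q_ne) hPg0 ?_ ?_ ?_ χ₀ χ hA₀χ hAχ
    · intro γ τ
      change Q₀ _ * Qg _ = Q₀ τ * Qg τ
      rw [hAn₀.invQ γ γ.2 τ, hAng.invQ γ γ.2 τ]
    · intro γ τ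
      exact hAng.invP γ γ.2 τ
    · intro τ
      have h1 := congrFun hkey τ
      simp only [Pi.mul_apply, Pi.pow_apply, Pi.one_apply, mul_one] at h1
      have h2 := hA₀p τ
      have h3 : Q₀ τ * Q₀ τ ^ (p - 1) = Q₀ τ ^ p := by
        rw [← pow_succ']
        congr 1
        omega
      calc (A₀ τ * Pg τ) ^ p = A₀ τ ^ p * Pg τ ^ p := mul_pow _ _ _
        _ = (P₀ τ * Pg τ ^ p) * Q₀ τ ^ (p - 1) := by rw [h2]; ring
        _ = (A τ ^ p * (Q₀ τ * Qg τ ^ p)) * Q₀ τ ^ (p - 1) := by rw [h1]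
        _ = A τ ^ p * (Q₀ τ * Q₀ τ ^ (p - 1)) * Qg τ ^ p := by ring
        _ = A τ ^ p * Q₀ τ ^ p * Qg τ ^ p := by rw [h3]
        _ = (A τ * (Q₀ * Qg) τ) ^ p := by
          simp only [Pi.mul_apply]
          ring
  exact ⟨f₀, hsel₀, hfinal ▸ ⟨P₀, Q₀, A₀, hAn₀, hA₀, hA₀p, hA₀χ⟩⟩

end Fermat.Agent.Jac
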