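import Fermat.Agent.Jac.Skeleton
import Fermat.Agent.Jac.H18FinGen

/-!
# IN-JAC, task LAM: the lattice of integral parabolic homomorphisms

* `latticeSpan : LatticeSpanStatement`: a parabolic hom `ψ : Γ₀(N) → ℂ` has finitely generated
  torsion-free (hence free) range; its coordinates in a `ℤ`-basis of the range are integral
  parabolic homs.
* `latticeFG : LatticeFGStatement`: evaluation at a finite generating set embeds
  `Hom(Γ₀(N), ℤ)` into a finite free `ℤ`-module.
-/

set_option autoImplicit false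

open ModularCurve CongruenceSubgroup
open scoped MatrixGroups

noncomputable section

namespace Fermat.Agent.Jac

/-- generic form of LAM: span. -/
theorem h32_span_of_fg (Γ : Subgroup SL(2, ℤ)) [Group.FG Γ] (ψ : Additive Γ →+ ℂ)
    (hψ : ψ ∈ Period.parabolicHoms ℂ Γ ℂ) :
    ∃ (r : ℕ) (a : Fin r → ℂ) (φ : Fin r → (Additive Γ →+ ℤ)),
      (∀ i, φ i ∈ Period.parabolicHoms ℤ Γ ℤ) ∧
      ∀ γ : Γ, ψ (Additive.ofMul γ) = ∑ i, a i * (φ i (Additive.ofMul γ) : ℂ) := by
  classical
  -- the range of `ψ` is a finitely generated torsion-free `ℤ`-module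
  have hfg : AddGroup.FG (Additive Γ) := inferInstance
  have hfgR : AddGroup.FG ψ.range := AddGroup.fg_range ψ
  have : Module.Finite ℤ ψ.range := Module.Finite.iff_addGroup_fg.mpr hfgR
  have : Module.Free ℤ ψ.range := Module.free_of_finite_type_torsion_free'
  let b : Module.Basis (Fin (Module.finrank ℤ ψ.range)) ℤ ψ.range := Module.finBasis ℤ ψ.range
  refine ⟨Module.finrank ℤ ψ.range, fun i => ((b i : ψ.range) : ℂ),
    fun i => ((b.coord i : ψ.range →ₗ[ℤ] ℤ).toAddMonoidHom).comp ψ.rangeRestrict, ?_, ?_⟩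
  · intro i γ hγ
    have h0 : ψ (Additive.ofMul γ) = 0 := hψ γ hγ
    have h1 : ψ.rangeRestrict (Additive.ofMul γ) = 0 := by
      apply Subtype.ext
      exact h0
    simp [h1]
  · intro γ
    have h1 := b.sum_repr (ψ.rangeRestrict (Additive.ofMul γ))
    have h2 := congrArg ψ.range.subtype h1
    rw [map_sum] at h2
    have h3 : ψ.range.subtype (ψ.rangeRestrict (Additive.ofMul γ)) = ψ (Additive.ofMul γ) := rfl
    rw [h3] at h2
    rw [← h2]
    refine Finset.sum_congr rfl fun i _ => ?_
    simp [mul_comm]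

/-- generic form of LAM-FG. -/
theorem h32_fg_of_fg (Γ : Subgroup SL(2, ℤ)) [Group.FG Γ] :
    (Period.parabolicHoms ℤ Γ ℤ).FG := by
  classical
  have hfg : AddGroup.FG (Additive Γ) := inferInstance
  obtain ⟨S, hS⟩ := AddGroup.fg_def.mp hfg
  -- evaluation at the generators
  let ev : (Additive Γ →+ ℤ) →ₗ[ℤ] (S → ℤ) :=
    { toFun := fun φ s => φ s
      map_add' := fun φ φ' => by ext s; simp
      map_smul' := fun c φ => by ext s; simp }
  have hinj : Function.Injective ev := by
    intro φ φ' h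
    refine AddMonoidHom.eq_of_eqOn_dense hS ?_
    intro s hs
    exact congrFun h ⟨s, hs⟩
  have : Module.Finite ℤ (Additive Γ →+ ℤ) := Module.Finite.of_injective ev hinj
  have : IsNoetherian ℤ (Additive Γ →+ ℤ) := isNoetherian_of_isNoetherianRing_of_finite ℤ _
  exact IsNoetherian.noetherian _

/-- **LAM.** -/
theorem latticeSpan : LatticeSpanStatement := by
  intro N _ ψ hψ
  exact h32_span_of_fg (Gamma0 N) ψ hψ

/-- **LAM-FG.** -/
theorem latticeFG : LatticeFGStatement := by
  intro N _
  exact h32_fg_of_fg (Gamma0 N)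

end Fermat.Agent.Jac
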