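import Fermat.Agent.Jac.Skeleton2
import Fermat.Agent.S23.AutDescent

/-!
# IN-JAC, task ORBIT: a complex number fixed by a subgroup of finite index of `Aut(ℂ/ℚ)` is
algebraic, i.e. lies in the range of the fixed embedding `embC : ℚ̄ → ℂ`.

* transcendental case: for `c` transcendental and `n : ℕ` there is `σ_n ∈ Aut(ℂ/ℚ)` with
  `σ_n c = c + n`; as `H` has finitely many cosets, two of the `σ_n` lie in the same coset and
  then `c + n = c + m`, a contradiction;
* an algebraic number lies in the range of `embC` because `ℚ̄` is algebraically closed.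
-/

set_option autoImplicit false

noncomputable section

namespace Fermat.Agent.Jac

open Fermat.Agent.S24 (Kbar embC)
open MvPolynomial

/-- For `z` transcendental over `ℚ` in an algebraically closed field `K` of characteristic zero
and `r : ℚ` there is a ring automorphism of `K` with `σ z = z + r`. -/
theorem h3_exists_ringEquiv_translate {K : Type*} [Field K] [IsAlgClosed K] [CharZero K]
    {z : K} (hz : Transcendental ℚ z) (r : ℚ) :
    ∃ σ : K ≃+* K, σ z = z + algebraMap ℚ K r := by
  classical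
  have h1 : AlgebraicIndepOn ℚ id ({z} : Set K) := by
    rw [AlgebraicIndepOn]
    refine (algebraicIndependent_singleton_iff (⟨z, rfl⟩ : ({z} : Set K))).mpr ?_
    simpa using hz
  obtain ⟨t, hzt, ht⟩ := exists_isTranscendenceBasis_superset h1
  let v : t → K := (↑)
  have : IsAlgClosure (Algebra.adjoin ℚ (Set.range v)) K :=
    IsAlgClosed.isAlgClosure_of_transcendence_basis v ht
  let i0 : t := ⟨z, hzt rfl⟩
  let e0 := Fermat.Agent.S23.H8.translateEquiv t (fun i => if i = i0 then r else 0)
  let e : Algebra.adjoin ℚ (Set.range v) ≃+* Algebra.adjoin ℚ (Set.range v) :=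
    (ht.1.aevalEquiv.symm.trans (e0.trans ht.1.aevalEquiv)).toRingEquiv
  refine ⟨IsAlgClosure.equivOfEquiv K K e, ?_⟩
  have hzA : z = algebraMap (Algebra.adjoin ℚ (Set.range v)) K (ht.1.aevalEquiv (X i0)) := by
    rw [AlgebraicIndependent.algebraMap_aevalEquiv]
    simp [v, i0]
  have he : e (ht.1.aevalEquiv (X i0)) = ht.1.aevalEquiv (X i0 + C r) := by
    simp [e, e0]
  conv_lhs => rw [hzA]
  rw [IsAlgClosure.equivOfEquiv_algebraMap, he, AlgebraicIndependent.algebraMap_aevalEquiv]
  simp [v, i0]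

/-- For `c : ℂ` transcendental over `ℚ` and `n : ℕ` there is `σ ∈ Aut(ℂ/ℚ)` with
`σ c = c + n`. -/
theorem h3_exists_algEquiv_translate {c : ℂ} (hc : Transcendental ℚ c) (n : ℕ) :
    ∃ σ : ℂ ≃ₐ[ℚ] ℂ, σ c = c + (n : ℂ) := by
  obtain ⟨σ, hσ⟩ := h3_exists_ringEquiv_translate hc (n : ℚ)
  refine ⟨AlgEquiv.ofRingEquiv (f := σ) (fun r => by simp), ?_⟩
  have : (AlgEquiv.ofRingEquiv (f := σ) (fun r => by simp) : ℂ ≃ₐ[ℚ] ℂ) c = σ c := rfl
  rw [this, hσ]
  simp

/-- An algebraic complex number lies in the range of `embC`. -/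
theorem h3_mem_range_embC_of_isAlgebraic {c : ℂ} (hc : IsAlgebraic ℚ c) :
    c ∈ Set.range embC := by
  let _ : Algebra Kbar ℂ := embC.toAlgebra
  have : IsScalarTower ℚ Kbar ℂ := IsScalarTower.of_algebraMap_eq (fun r => by
    simp [RingHom.algebraMap_toAlgebra])
  have hc' : IsIntegral Kbar c := (hc.isIntegral).tower_top
  have hdeg : (minpoly Kbar c).degree = 1 :=
    IsAlgClosed.degree_eq_one_of_irreducible Kbar (minpoly.irreducible hc')
  have := minpoly.mem_range_of_degree_eq_one Kbar c hdeg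
  simpa [RingHom.algebraMap_toAlgebra] using this

/-- **ORBIT.** -/
theorem orbit : OrbitStatement := by
  intro H hH c hc
  by_cases halg : IsAlgebraic ℚ c
  · exact h3_mem_range_embC_of_isAlgebraic halg
  · exfalso
    have htr : Transcendental ℚ c := halg
    choose σ hσ using fun n : ℕ => h3_exists_algEquiv_translate htr n
    have : Finite ((ℂ ≃ₐ[ℚ] ℂ) ⧸ H) := H.finite_quotient_of_finiteIndex
    obtain ⟨n, m, hnm, h⟩ := Finite.exists_ne_map_eq_of_infinite
      (fun n : ℕ => (QuotientGroup.mk (σ n) : (ℂ ≃ₐ[ℚ] ℂ) ⧸ H))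
    have hmem : (σ n)⁻¹ * σ m ∈ H := QuotientGroup.eq.mp h
    have h1 := hc _ hmem
    have h2 : σ m c = σ n c := by
      have := congrArg (σ n) h1
      simpa [AlgEquiv.mul_apply] using this
    rw [hσ, hσ] at h2
    have h3 : (m : ℂ) = (n : ℂ) := add_left_cancel h2
    exact hnm (Nat.cast_injective h3).symm

end Fermat.Agent.Jac
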