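import Fermat.Agent.Jac.Skeleton2
import Fermat.Agent.S24.PlaceOfEmb
import Fermat.Agent.S24.Tay

/-!
# IN-JAC, task P-ORD: orders on `ℍ` of elements of `Sel(F_ℂ)` are divisible by `p`

Let `f ∈ F_ℂ` be nonzero with all orders at places divisible by `p`, and `f = P / Q`
analytically.  The germ embedding `E` at `(τ₀, 1)` satisfies `E f * tay Q = tay P`, hence
`ord (E f) = ord_τ₀ P - ord_τ₀ Q`.  Either some `t` has `ord (E t) > 0`; then `E` induces a place
`v` of `F_ℂ` with `ord ∘ E = m * v.ord` (`S24.exists_place_of_emb`, `θ = id`), and `p ∣ v.ord f`.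
Or `ord ∘ E ≤ 0` on `F_ℂ`, hence (inverses) `ord ∘ E = 0` on `F_ℂˣ`, and `p ∣ 0`.

Main statements: `Fermat.Agent.Jac.ordDvdC_of_emb`, `Fermat.Agent.Jac.ordDvdC`.
-/

set_option autoImplicit false

open ModularCurve AlgebraicCurve UpperHalfPlane CongruenceSubgroup
open scoped MatrixGroups Manifold

noncomputable section

namespace Fermat.Agent.Jac

open Fermat.Agent.S24 (Kbar FF embC IsAn tayAt)
open Fermat.Agent.S28 (HasTExp)

/-- the order of a nonzero power series, viewed as a Laurent series. -/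
theorem h11_order_ofPowerSeries {p : PowerSeries ℂ} (hp : p ≠ 0) :
    (HahnSeries.ofPowerSeries ℤ ℂ p).order = (p.order.toNat : ℤ) := by
  have hx : HahnSeries.ofPowerSeries ℤ ℂ p ≠ 0 := by
    intro h
    apply hp
    apply HahnSeries.ofPowerSeries_injective (Γ := ℤ) (R := ℂ)
    rw [h, map_zero]
  have hcn : PowerSeries.coeff p.order.toNat p ≠ 0 := PowerSeries.coeff_order hp
  apply le_antisymm
  · apply HahnSeries.order_le_of_coeff_ne_zero
    rw [HahnSeries.ofPowerSeries_apply_coeff]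
    exact hcn
  · by_contra hlt
    rw [not_le] at hlt
    have h1 : (HahnSeries.ofPowerSeries ℤ ℂ p).coeff (HahnSeries.ofPowerSeries ℤ ℂ p).order ≠ 0 :=
      fun h => hx (HahnSeries.coeff_order_eq_zero.mp h)
    apply h1
    rcases lt_or_ge (HahnSeries.ofPowerSeries ℤ ℂ p).order 0 with hneg | hnn
    · exact ModularCurve.ofPowerSeries_coeff_of_neg p hneg
    · obtain ⟨m, hm⟩ := Int.eq_ofNat_of_zero_le hnn
      rw [hm, HahnSeries.ofPowerSeries_apply_coeff]
      apply PowerSeries.coeff_of_lt_order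
      rw [hm] at hlt
      have hfin : p.order ≠ ⊤ := ((PowerSeries.order_finite_iff_ne_zero).mpr hp).ne
      rw [← ENat.natCast_toNat hfin]
      exact_mod_cast hlt

/-- the order of the image of `f` under a germ embedding is the difference of the Taylor orders
of numerator and denominator. -/
theorem h11_order_germEmbC {N : ℕ} {E : FC N →+* LaurentSeries ℂ} {τ₀ : ℍ}
    (hE : IsGermEmbC N E τ₀ 1) {f : FC N} (hf : f ≠ 0) {P Q : ℍ → ℂ} (hAn : IsAnC N f P Q) :
    (E f).order = ((tayAt τ₀ P).order.toNat : ℤ) - ((tayAt τ₀ Q).order.toNat : ℤ) := by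
  have hrel := hE.2 f P Q hAn
  simp only [inv_one, one_smul] at hrel
  have hEf : E f ≠ 0 := (map_ne_zero E).mpr hf
  have htQ : tayAt τ₀ Q ≠ 0 := fun h =>
    hAn.Q_ne ((Fermat.Agent.S24.tayAt_eq_zero_iff hAn.holoQ τ₀).mp h)
  have hQ' : HahnSeries.ofPowerSeries ℤ ℂ (tayAt τ₀ Q) ≠ 0 := by
    intro h
    apply htQ
    apply HahnSeries.ofPowerSeries_injective (Γ := ℤ) (R := ℂ)
    rw [h, map_zero]
  have htP : tayAt τ₀ P ≠ 0 := by
    intro h
    rw [h, map_zero] at hrel
    exact mul_ne_zero hEf hQ' hrel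
  have h := HahnSeries.order_mul hEf hQ'
  rw [hrel, h11_order_ofPowerSeries htP, h11_order_ofPowerSeries htQ] at h
  linarith

/-- a ring homomorphism from a field to `ℂ((s))` under which no element has positive order maps
every nonzero element to a series of order `0`. -/
theorem h11_order_eq_zero_of_forall_le {F : Type*} [Field F] (E : F →+* LaurentSeries ℂ)
    (h : ∀ t : F, (E t).order ≤ 0) (f : F) : (E f).order = 0 := by
  have h1 := h f
  have h2 := h f⁻¹
  rw [Fermat.Agent.S24.h87_order_map_inv] at h2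
  linarith

/-- **P-ORD** (from the germ embeddings alone). -/
theorem ordDvdC_of_emb (h2 : EmbCStatement) : OrdDvdCStatement := by
  intro N _ p f hsel P Q hAn τ₀
  obtain ⟨hf0, hdiv⟩ := hsel
  obtain ⟨E, hE⟩ := (h2 N).1 τ₀ 1
  rw [← h11_order_germEmbC hE hf0 hAn]
  by_cases ht : ∃ t : FC N, 0 < (E t).order
  · obtain ⟨t, ht⟩ := ht
    obtain ⟨v, m, -, hv⟩ :=
      Fermat.Agent.S24.exists_place_of_emb (K := ℂ) t (RingHom.id ℂ) E hE.1 ht
    rw [hv f hf0]
    exact Dvd.dvd.mul_left (hdiv v) _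
  · rw [not_exists] at ht
    rw [h11_order_eq_zero_of_forall_le E (fun t => not_lt.mp (ht t)) f]
    exact dvd_zero _

/-- **P-ORD.** orders on `ℍ` of elements of `Sel(F_ℂ)` are divisible by `p`. -/
theorem ordDvdC (_h1 : AnCStatement) (h2 : EmbCStatement) : OrdDvdCStatement :=
  ordDvdC_of_emb h2

end Fermat.Agent.Jac
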