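import Fermat.Agent.Jac.Skeleton
import Fermat.Agent.S21.P.Prim

/-!
# IN-JAC, task PER: the period map is Hecke-equivariant

`periodMap N (T_ℓ g) γ = ∑ i, periodMap N g (c i)` whenever `δ_i γ = c_i δ_{π i}` for the
representatives `δ_i = heckeRep ℓ i` of `T_ℓ`.

Proof: if `G` is the canonical primitive of `g` (`G' = g`, `G → 0` at `i∞`), then
`τ ↦ ∑ i, G (δ_i τ)` is the canonical primitive of `T_ℓ g` (chain rule = Bol's identity in
weight `0`; uniqueness of primitives vanishing at `i∞`).  Hence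
`periodMap (T_ℓ g) γ = ∑ i, (G (δ_i γ z) - G (δ_i z)) = ∑ i, (G (c_i δ_{π i} z) - G (δ_i z))`,
and `π` is a permutation (it is injective because the `δ_i` represent distinct cosets).

* `periodHecke : PeriodHeckeStatement`.
-/

set_option autoImplicit false

open UpperHalfPlane hiding I
open Complex Filter Function Topology
open scoped Manifold MatrixGroups ModularForm
open ModularCurve ModularCurve.Period CongruenceSubgroup
open Fermat.Agent.S22 Fermat.Agent.S21.P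

namespace Fermat.Agent.Jac

noncomputable section

local notation "𝔻" => Derivative.normalizedDerivOfComplex

/-! ### the representatives as elements of `GL₂(ℝ)` -/


/-- the matrix `heckeRep ℓ i` as an element of `GL₂(ℝ)`. -/
def h36_heckeGL (ℓ : ℕ) (i : Fin (ℓ + 1)) : GL (Fin 2) ℝ :=
  if (i : ℕ) < ℓ then ModularForm.heckeMatrix ℓ i else ModularForm.heckeDiagMatrix ℓ

lemma h36_val_heckeGL {ℓ : ℕ} (hℓ : ℓ ≠ 0) (i : Fin (ℓ + 1)) :
    ((h36_heckeGL ℓ i : GL (Fin 2) ℝ) : Matrix (Fin 2) (Fin 2) ℝ) =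
      (heckeRep ℓ i).map (Int.castRingHom ℝ) := by
  unfold h36_heckeGL heckeRep
  split_ifs with h
  · rw [ModularForm.val_heckeMatrix hℓ]
    ext a b
    fin_cases a <;> fin_cases b <;> simp
  · rw [ModularForm.val_heckeDiagMatrix hℓ]
    ext a b
    fin_cases a <;> fin_cases b <;> simp

lemma h36_det_heckeGL_pos (ℓ : ℕ) (i : Fin (ℓ + 1)) :
    0 < ((h36_heckeGL ℓ i).det : ℝ) := by
  unfold h36_heckeGL
  split_ifs with h
  · exact ModularForm.det_heckeMatrix_pos ℓ i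
  · exact ModularForm.det_heckeDiagMatrix_pos ℓ

lemma h36_heckeGL_smul {ℓ : ℕ} (hℓ : ℓ ≠ 0) (i : Fin (ℓ + 1)) (τ : ℍ) :
    h36_heckeGL ℓ i • τ = heckeAct ℓ i τ := by
  unfold h36_heckeGL heckeAct
  split_ifs with h
  · apply UpperHalfPlane.ext
    rw [ModularForm.coe_heckeMatrix_smul hℓ]
  · apply UpperHalfPlane.ext
    rw [ModularForm.coe_heckeDiagMatrix_smul hℓ]
    unfold Fermat.Agent.S28.scaleH
    rw [dif_pos (Nat.pos_of_ne_zero hℓ)]

lemma h36_decomp_GL {N ℓ : ℕ} (hℓ : ℓ ≠ 0) {γ : Gamma0 N} {π : Fin (ℓ + 1) → Fin (ℓ + 1)}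
    {c : Fin (ℓ + 1) → Gamma0 N} (h : HeckeDecomp N ℓ γ π c) (i : Fin (ℓ + 1)) :
    h36_heckeGL ℓ i * Matrix.SpecialLinearGroup.mapGL ℝ (γ : SL(2, ℤ)) =
      Matrix.SpecialLinearGroup.mapGL ℝ (c i : SL(2, ℤ)) * h36_heckeGL ℓ (π i) := by
  apply Units.ext
  rw [Units.val_mul, Units.val_mul, h36_val_heckeGL hℓ, h36_val_heckeGL hℓ]
  have e : ∀ δ : SL(2, ℤ), ((Matrix.SpecialLinearGroup.mapGL ℝ δ : GL (Fin 2) ℝ) :
      Matrix (Fin 2) (Fin 2) ℝ) = (δ : Matrix (Fin 2) (Fin 2) ℤ).map (Int.castRingHom ℝ) := by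
    intro δ
    ext a b
    simp
  rw [e, e, ← Matrix.map_mul, ← Matrix.map_mul, h i]

lemma h36_decomp_smul {N ℓ : ℕ} (hℓ : ℓ ≠ 0) {γ : Gamma0 N} {π : Fin (ℓ + 1) → Fin (ℓ + 1)}
    {c : Fin (ℓ + 1) → Gamma0 N} (h : HeckeDecomp N ℓ γ π c) (i : Fin (ℓ + 1)) (τ : ℍ) :
    heckeAct ℓ i ((γ : SL(2, ℤ)) • τ) = (c i : SL(2, ℤ)) • heckeAct ℓ (π i) τ := by
  rw [← h36_heckeGL_smul hℓ, ← h36_heckeGL_smul hℓ]
  show h36_heckeGL ℓ i • (Matrix.SpecialLinearGroup.mapGL ℝ (γ : SL(2, ℤ)) • τ) =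
    Matrix.SpecialLinearGroup.mapGL ℝ (c i : SL(2, ℤ)) • (h36_heckeGL ℓ (π i) • τ)
  rw [← mul_smul, ← mul_smul, h36_decomp_GL hℓ h i]

/-! ### `π` is a permutation -/


lemma h36_rep_eq_mul {N ℓ : ℕ} {γ : Gamma0 N} {p : Fin (ℓ + 1) → Fin (ℓ + 1)}
    {c : Fin (ℓ + 1) → Gamma0 N} (h : HeckeDecomp N ℓ γ p c) {i j : Fin (ℓ + 1)}
    (hij : p i = p j) :
    heckeRep ℓ i =
      (((c i : SL(2, ℤ)) * (c j : SL(2, ℤ))⁻¹ : SL(2, ℤ)) : Matrix (Fin 2) (Fin 2) ℤ) *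
        heckeRep ℓ j := by
  have h1 := h i
  have h2 := h j
  rw [hij] at h1
  have hγ : ((γ : SL(2, ℤ)) : Matrix (Fin 2) (Fin 2) ℤ) *
      (((γ : SL(2, ℤ))⁻¹ : SL(2, ℤ)) : Matrix (Fin 2) (Fin 2) ℤ) = 1 := by
    rw [← Matrix.SpecialLinearGroup.coe_mul, mul_inv_cancel, Matrix.SpecialLinearGroup.coe_one]
  have hc : (((c j : SL(2, ℤ))⁻¹ : SL(2, ℤ)) : Matrix (Fin 2) (Fin 2) ℤ) *
      ((c j : SL(2, ℤ)) : Matrix (Fin 2) (Fin 2) ℤ) = 1 := by
    rw [← Matrix.SpecialLinearGroup.coe_mul, inv_mul_cancel, Matrix.SpecialLinearGroup.coe_one]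
  have e1 : heckeRep ℓ i = ((c i : SL(2, ℤ)) : Matrix (Fin 2) (Fin 2) ℤ) * heckeRep ℓ (p j) *
      (((γ : SL(2, ℤ))⁻¹ : SL(2, ℤ)) : Matrix (Fin 2) (Fin 2) ℤ) := by
    rw [← h1, Matrix.mul_assoc, hγ, Matrix.mul_one]
  have e2 : heckeRep ℓ j = ((c j : SL(2, ℤ)) : Matrix (Fin 2) (Fin 2) ℤ) * heckeRep ℓ (p j) *
      (((γ : SL(2, ℤ))⁻¹ : SL(2, ℤ)) : Matrix (Fin 2) (Fin 2) ℤ) := by
    rw [← h2, Matrix.mul_assoc, hγ, Matrix.mul_one]
  rw [Matrix.SpecialLinearGroup.coe_mul]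
  conv_rhs => rw [e2]
  rw [e1]
  simp only [Matrix.mul_assoc]
  rw [← Matrix.mul_assoc _ ((c j : SL(2, ℤ)) : Matrix (Fin 2) (Fin 2) ℤ), hc, Matrix.one_mul]

lemma h36_decomp_injective {N ℓ : ℕ} (hℓ : 2 ≤ ℓ) {γ : Gamma0 N}
    {p : Fin (ℓ + 1) → Fin (ℓ + 1)}
    {c : Fin (ℓ + 1) → Gamma0 N} (h : HeckeDecomp N ℓ γ p c) : Function.Injective p := by
  intro i j hij
  have key := h36_rep_eq_mul h hij
  set M : SL(2, ℤ) := (c i : SL(2, ℤ)) * (c j : SL(2, ℤ))⁻¹ with hM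
  have hdet : (M : Matrix (Fin 2) (Fin 2) ℤ) 0 0 * (M : Matrix (Fin 2) (Fin 2) ℤ) 1 1 -
      (M : Matrix (Fin 2) (Fin 2) ℤ) 0 1 * (M : Matrix (Fin 2) (Fin 2) ℤ) 1 0 = 1 := by
    have := M.2
    rw [Matrix.det_fin_two] at this
    exact this
  have k00 := congrFun (congrFun key 0) 0
  have k01 := congrFun (congrFun key 0) 1
  have k10 := congrFun (congrFun key 1) 0
  have k11 := congrFun (congrFun key 1) 1
  simp only [Matrix.mul_apply, Fin.sum_univ_two] at k00 k01 k10 k11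
  have hℓ' : (2 : ℤ) ≤ (ℓ : ℤ) := by exact_mod_cast hℓ
  have hno : ∀ x : ℤ, x * (ℓ : ℤ) ≠ 1 := by
    intro x hx
    have h1 : (ℓ : ℤ) ∣ 1 := ⟨x, by rw [← hx]; ring⟩
    have h2 := Int.le_of_dvd one_pos h1
    omega
  by_cases hi : (i : ℕ) < ℓ <;> by_cases hj : (j : ℕ) < ℓ
  · simp only [heckeRep, hi, hj, if_true, Matrix.of_apply, Matrix.cons_val_zero,
      Matrix.cons_val_one, Matrix.cons_val', Matrix.cons_val_fin_one] at k00 k01 k10 k11
    simp only [mul_one, mul_zero, add_zero] at k00 k10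
    rw [← k00] at k01
    -- i = j + m01 * ℓ
    have hmod : ((i : ℕ) : ℤ) % ℓ = ((j : ℕ) : ℤ) % ℓ := by
      rw [k01]
      simp [Int.add_mul_emod_self_right]
    rw [Int.emod_eq_of_lt (by positivity) (by exact_mod_cast hi),
      Int.emod_eq_of_lt (by positivity) (by exact_mod_cast hj)] at hmod
    exact Fin.ext (by exact_mod_cast hmod)
  · exfalso
    simp only [heckeRep, hi, hj, if_true, if_false, Matrix.of_apply, Matrix.cons_val_zero,
      Matrix.cons_val_one, Matrix.cons_val', Matrix.cons_val_fin_one] at k00 k01 k10 k11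
    simp only [mul_zero, add_zero] at k00
    exact hno _ k00.symm
  · exfalso
    simp only [heckeRep, hi, hj, if_true, if_false, Matrix.of_apply, Matrix.cons_val_zero,
      Matrix.cons_val_one, Matrix.cons_val', Matrix.cons_val_fin_one] at k00 k01 k10 k11
    simp only [mul_one, mul_zero, add_zero] at k10
    rw [← k10] at k11
    simp only [zero_mul, zero_add] at k11
    exact hno _ k11.symm
  · apply Fin.ext
    have := i.is_lt
    have := j.is_lt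
    omega

/-! ### the chain rule -/

lemma h36_det_heckeGL_pos' (ℓ : ℕ) (i : Fin (ℓ + 1)) :
    0 < (h36_heckeGL ℓ i).val.det := by
  have := h36_det_heckeGL_pos ℓ i
  rwa [Matrix.GeneralLinearGroup.val_det_apply] at this

lemma h36_heckeGL_one_zero {ℓ : ℕ} (hℓ : ℓ ≠ 0) (i : Fin (ℓ + 1)) :
    (h36_heckeGL ℓ i) 1 0 = 0 := by
  unfold h36_heckeGL
  split_ifs with h
  · show ((ModularForm.heckeMatrix ℓ i : GL (Fin 2) ℝ) : Matrix (Fin 2) (Fin 2) ℝ) 1 0 = 0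
    rw [ModularForm.val_heckeMatrix hℓ]; simp
  · show ((ModularForm.heckeDiagMatrix ℓ : GL (Fin 2) ℝ) : Matrix (Fin 2) (Fin 2) ℝ) 1 0 = 0
    rw [ModularForm.val_heckeDiagMatrix hℓ]; simp

/-- `τ ↦ G (M • τ)` is `wslash 0 G M`. -/
lemma h36_wslash_zero (F : ℍ → ℂ) {M : GL (Fin 2) ℝ} (hM : 0 < M.val.det) :
    wslash 0 F M = fun z : ℍ => F (M • z) := by
  ext z
  have hd : ((M.val.det : ℝ) : ℂ) ≠ 0 := by exact_mod_cast hM.ne'
  simp only [wslash, Pi.smul_apply, smul_eq_mul, ModularForm.slash_apply,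
    σ_eq_of_det_pos hM, Nat.cast_zero, neg_zero, zero_add, pow_one, zpow_zero, mul_one,
    zero_sub, zpow_neg, zpow_one, Matrix.GeneralLinearGroup.val_det_apply, abs_of_pos hM]
  field_simp

/-- the derivative of `τ ↦ G (M • τ)`, `G` the canonical primitive of `g`. -/
lemma h36_hasDerivAt_comp_smul (N : ℕ) [NeZero N] (g : CuspForm (Gamma0 N) 2)
    {M : GL (Fin 2) ℝ} (hM : 0 < M.val.det) (τ : ℍ) :
    HasDerivAt ((fun z : ℍ => canonPrim N g (M • z)) ∘ ofComplex) ((⇑g ∣[(2 : ℤ)] M) τ)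
      (τ : ℂ) := by
  have hG : MDiff (canonPrim N g) := canonPrim_mdiff N g
  have hbol := iterate_normalizedDeriv_wslash 0 hG hM
  simp only [zero_add, Function.iterate_one, Nat.cast_zero] at hbol
  have hD : 𝔻 (canonPrim N g) = (2 * Real.pi * I)⁻¹ • ⇑g := by
    ext z
    rw [normalizedDeriv_eq_of_hasDerivAt (canonPrim_hasDerivAt N g z)]
    rfl
  have h := hasDerivAt_of_mdiff (wslash_mdiff 0 hG M) τ
  rw [hbol, hD, smul_slash_of_det_pos hM, h36_wslash_zero _ hM] at h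
  have e : 2 * Real.pi * I * ((2 * Real.pi * I)⁻¹ • (⇑g ∣[(2 : ℤ)] M)) τ = (⇑g ∣[(2 : ℤ)] M) τ := by
    rw [Pi.smul_apply, smul_eq_mul, ← mul_assoc, mul_inv_cancel₀ two_pi_I_ne_zero', one_mul]
  rw [e] at h
  exact h

/-! ### the primitive of `T_ℓ g` -/

/-- the candidate primitive of `T_ℓ g`: `τ ↦ ∑ i, G (δ_i τ)`. -/
def h36_heckePrim (N ℓ : ℕ) (g : CuspForm (Gamma0 N) 2) : ℍ → ℂ :=
  fun τ => ∑ i : Fin (ℓ + 1), canonPrim N g (h36_heckeGL ℓ i • τ)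

lemma h36_sum_slash (ℓ : ℕ) (f : ℍ → ℂ) (τ : ℍ) :
    ∑ i : Fin (ℓ + 1), (f ∣[(2 : ℤ)] h36_heckeGL ℓ i) τ = ModularForm.heckeT 2 ℓ f τ := by
  rw [ModularForm.heckeT_def, Pi.add_apply, Finset.sum_apply, Fin.sum_univ_castSucc,
    ← Fin.sum_univ_eq_sum_range (fun j => (f ∣[(2 : ℤ)] ModularForm.heckeMatrix ℓ j) τ)]
  congr 1
  · refine Finset.sum_congr rfl fun i _ => ?_
    simp [h36_heckeGL, i.is_lt]
  · simp [h36_heckeGL]

lemma h36_heckePrim_hasDerivAt (N ℓ : ℕ) [NeZero N] (hℓ : ℓ.Prime) (hℓN : ¬ ℓ ∣ N)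
    (g : CuspForm (Gamma0 N) 2) (τ : ℍ) :
    HasDerivAt (h36_heckePrim N ℓ g ∘ ofComplex) (CuspForm.heckeTLin 2 hℓ hℓN g τ) (τ : ℂ) := by
  have h := HasDerivAt.sum (u := (Finset.univ : Finset (Fin (ℓ + 1))))
    (fun i _ => h36_hasDerivAt_comp_smul N g (h36_det_heckeGL_pos' ℓ i) τ)
  rw [h36_sum_slash] at h
  have e : (h36_heckePrim N ℓ g ∘ ofComplex) =
      ∑ i : Fin (ℓ + 1), ((fun z : ℍ => canonPrim N g (h36_heckeGL ℓ i • z)) ∘ ofComplex) := by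
    ext w
    simp [h36_heckePrim]
  rw [e]
  exact h

lemma h36_heckePrim_tendsto (N ℓ : ℕ) [NeZero N] (hℓ0 : ℓ ≠ 0) (g : CuspForm (Gamma0 N) 2) :
    Tendsto (h36_heckePrim N ℓ g) atImInfty (𝓝 0) := by
  have h1 : ∀ i : Fin (ℓ + 1),
      Tendsto (fun τ : ℍ => canonPrim N g (h36_heckeGL ℓ i • τ)) atImInfty (𝓝 0) :=
    fun i => (canonPrim_tendsto_zero N g).comp
      (tendsto_smul_atImInfty (h36_heckeGL_one_zero hℓ0 i))
  have h := tendsto_finsetSum (Finset.univ : Finset (Fin (ℓ + 1))) (fun i _ => h1 i)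
  rw [Finset.sum_const_zero] at h
  exact h

/-- `τ ↦ ∑ i, G (δ_i τ)` is the canonical primitive of `T_ℓ g`. -/
lemma h36_heckePrim_eq (N ℓ : ℕ) [NeZero N] (hℓ : ℓ.Prime) (hℓN : ¬ ℓ ∣ N)
    (g : CuspForm (Gamma0 N) 2) :
    h36_heckePrim N ℓ g = canonPrim N (CuspForm.heckeTLin 2 hℓ hℓN g) := by
  have hH := h36_heckePrim_hasDerivAt N ℓ hℓ hℓN g
  have hHm : MDiff (h36_heckePrim N ℓ g) :=
    fun τ => UpperHalfPlane.mdifferentiableAt_iff.mpr (hH τ).differentiableAt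
  have hD : 𝔻 (h36_heckePrim N ℓ g) = 𝔻 (canonPrim N (CuspForm.heckeTLin 2 hℓ hℓN g)) := by
    ext τ
    rw [normalizedDeriv_eq_of_hasDerivAt (hH τ),
      normalizedDeriv_eq_of_hasDerivAt (canonPrim_hasDerivAt N _ τ)]
  exact eq_of_normalizedDeriv_eq hHm (canonPrim_mdiff N _) hD
    (h36_heckePrim_tendsto N ℓ hℓ.ne_zero g) (canonPrim_tendsto_zero N _)

/-! ### the theorem -/

/-- **PER.** the period map is Hecke-equivariant. -/
theorem periodHecke : PeriodHeckeStatement := by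
  intro N _ ℓ hℓ hℓN g γ p c h
  have hℓ0 : ℓ ≠ 0 := hℓ.ne_zero
  have hbij : Function.Bijective p :=
    Finite.injective_iff_bijective.mp (h36_decomp_injective hℓ.two_le h)
  rw [periodMap_apply N _ γ UpperHalfPlane.I, ← h36_heckePrim_eq N ℓ hℓ hℓN g]
  simp only [h36_heckePrim]
  have step : ∀ i : Fin (ℓ + 1),
      canonPrim N g (h36_heckeGL ℓ i • ((γ : SL(2, ℤ)) • UpperHalfPlane.I)) =
        periodMap N g (Additive.ofMul (c i)) +
          canonPrim N g (h36_heckeGL ℓ (p i) • UpperHalfPlane.I) := by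
    intro i
    rw [h36_heckeGL_smul hℓ0, h36_decomp_smul hℓ0 h i,
      periodMap_apply N g (c i) (heckeAct ℓ (p i) UpperHalfPlane.I), h36_heckeGL_smul hℓ0]
    ring
  simp_rw [step]
  rw [Finset.sum_add_distrib,
    Function.Bijective.sum_comp hbij (fun i => canonPrim N g (h36_heckeGL ℓ i • UpperHalfPlane.I))]
  ring

end

end Fermat.Agent.Jac
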