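import Fermat.Agent.Jac.Skeleton2

/-!
# IN-JAC, task RIG: rigidity descent `ℂ → ℚ̄` of Kummer classes (assembly)

`rigAssembly : RigAssembly`, i.e.
`FinCStatement → CanStatement → OrbitStatement → DescStatement → RigStatement`.

Proof.  Let `f ∈ Sel(F_ℂ)`.  `H_f := {σ ∈ Aut(ℂ/ℚ) : σ f ∈ f · (F_ℂ^×)^p}` is a subgroup; it has
finite index because `σ f ∈ Sel(F_ℂ)` for every `σ` and `Sel(F_ℂ)` has finitely many classes
modulo `p`-th powers (FINC).  By CAN there is `u ≠ 0` such that `f u^p` is fixed by `H_f`; hence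
every coefficient of `f u^p` is fixed by `H_f`, so is algebraic (ORBIT), so `f u^p` is the
coefficientwise image of a series `y` over `ℚ̄`, which lies in `F` by DESC0.
-/

set_option autoImplicit false

open ModularCurve AlgebraicCurve

noncomputable section

namespace Fermat.Agent.Jac

open Fermat.Agent.S24 (Kbar FF embC)

namespace H15Rig

variable {N : ℕ}

/-- the arithmetic action of `Aut(ℂ/ℚ)` on `F_ℂ`. -/
abbrev act (N : ℕ) (σ : ℂ ≃ₐ[ℚ] ℂ) : SemilinearAut ℂ (FC N) :=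
  arithmeticGalois (modularFunctionFieldFull N) σ

theorem act_mul (σ τ : ℂ ≃ₐ[ℚ] ℂ) : act N (σ * τ) = act N σ * act N τ :=
  map_mul _ σ τ

theorem act_inv (σ : ℂ ≃ₐ[ℚ] ℂ) : act N σ⁻¹ = (act N σ)⁻¹ :=
  map_inv _ σ

theorem act_one : act N 1 = 1 :=
  map_one _

theorem smul_ne_zero' (g : SemilinearAut ℂ (FC N)) {x : FC N} (hx : x ≠ 0) : g • x ≠ 0 :=
  (smul_ne_zero_iff_ne g).mpr hx

/-- `Sel(F_ℂ)` is stable under `Aut(ℂ/ℚ)`. -/
theorem isSelC_smul (p : ℕ) (σ : ℂ ≃ₐ[ℚ] ℂ) {f : FC N} (hf : IsSelC N p f) :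
    IsSelC N p (act N σ • f) := by
  refine ⟨smul_ne_zero' _ hf.1, fun v => ?_⟩
  have h := SemilinearAut.ord_smul (act N σ) ((act N σ)⁻¹ • v) f
  rw [smul_inv_smul] at h
  rw [h]
  exact hf.2 _

/-- the stabiliser of the class of `f` modulo `p`-th powers. -/
def stab (N p : ℕ) (f : FC N) : Subgroup (ℂ ≃ₐ[ℚ] ℂ) where
  carrier := {σ | ∃ w : FC N, w ≠ 0 ∧ act N σ • f = f * w ^ p}
  one_mem' := ⟨1, one_ne_zero, by rw [act_one, one_smul, one_pow, mul_one]⟩
  mul_mem' := by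
    rintro σ τ ⟨a, ha, hσ⟩ ⟨b, hb, hτ⟩
    refine ⟨a * act N σ • b, mul_ne_zero ha (smul_ne_zero' _ hb), ?_⟩
    rw [act_mul, mul_smul, hτ, smul_mul', smul_pow', hσ, mul_pow, mul_assoc]
  inv_mem' := by
    rintro σ ⟨a, ha, hσ⟩
    have ha' : (act N σ)⁻¹ • a ≠ 0 := smul_ne_zero' _ ha
    refine ⟨((act N σ)⁻¹ • a)⁻¹, inv_ne_zero ha', ?_⟩
    have h := congrArg (fun x => (act N σ)⁻¹ • x) hσ
    simp only [smul_mul', smul_pow', inv_smul_smul] at h
    rw [act_inv, inv_pow, eq_mul_inv_iff_mul_eq₀ (pow_ne_zero _ ha')]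
    exact h.symm

theorem mem_stab {p : ℕ} {f : FC N} {σ : ℂ ≃ₐ[ℚ] ℂ} :
    σ ∈ stab N p f ↔ ∃ w : FC N, w ≠ 0 ∧ act N σ • f = f * w ^ p :=
  Iff.rfl

/-- FINC ⇒ the stabiliser has finite index. -/
theorem stab_finiteIndex [NeZero N] (hFin : FinCStatement) {p : ℕ} (hp : 0 < p) {f : FC N}
    (hf : IsSelC N p f) : (stab N p f).FiniteIndex := by
  classical
  obtain ⟨S, hS⟩ := hFin N p hp
  have key : ∀ σ : ℂ ≃ₐ[ℚ] ℂ, ∃ s : S, ∃ w : FC N, w ≠ 0 ∧ act N σ • f = (s : FC N) * w ^ p := by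
    intro σ
    obtain ⟨s, hs, w, hw, h⟩ := hS _ (isSelC_smul p σ hf)
    exact ⟨⟨s, hs⟩, w, hw, h⟩
  choose cls hcls using key
  have hinj : Function.Injective
      (fun q : (ℂ ≃ₐ[ℚ] ℂ) ⧸ stab N p f => cls q.out) := by
    intro q₁ q₂ h
    simp only at h
    obtain ⟨a, ha, h1⟩ := hcls q₁.out
    obtain ⟨b, hb, h2⟩ := hcls q₂.out
    rw [← QuotientGroup.out_eq' q₁, ← QuotientGroup.out_eq' q₂, QuotientGroup.eq]
    set σ := q₁.out
    set τ := q₂.out
    rw [h] at h1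
    -- τ f = σ f * (b / a)^p
    have h3 : act N τ • f = act N σ • f * (b / a) ^ p := by
      rw [h1, h2, div_pow, mul_assoc, mul_div_cancel₀ _ (pow_ne_zero _ ha)]
    refine ⟨(act N σ)⁻¹ • (b / a), smul_ne_zero' _ (div_ne_zero hb ha), ?_⟩
    rw [act_mul, mul_smul, h3, smul_mul', smul_pow', act_inv, inv_smul_smul]
  have : Finite ((ℂ ≃ₐ[ℚ] ℂ) ⧸ stab N p f) := Finite.of_injective _ hinj
  exact Subgroup.finiteIndex_of_finite_quotient

/-- a series all of whose coefficients are in the range of `embC` is a coefficientwise image. -/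
theorem exists_coeffMap_eq (x : LaurentSeries ℂ) (hx : ∀ n : ℤ, x.coeff n ∈ Set.range embC) :
    ∃ y : LaurentSeries Kbar, coeffMap embC y = x := by
  classical
  choose c hc using hx
  have hinj : Function.Injective embC := embC.injective
  have hsupp : Function.support c = x.support := by
    ext n
    simp only [Function.mem_support, HahnSeries.mem_support, ne_eq]
    rw [← hc n]
    constructor
    · intro h h0
      exact h (hinj (by rw [h0, map_zero]))
    · intro h h0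
      exact h (by rw [h0, map_zero])
  refine ⟨⟨c, by rw [hsupp]; exact x.isPWO_support⟩, ?_⟩
  ext n
  rw [coeffMap_coeff]
  exact hc n

end H15Rig

open H15Rig in
/-- **RIG** (assembly): rigidity descent of Kummer classes from `ℂ` to `ℚ̄`. -/
theorem rigAssembly : RigAssembly := by
  intro hFin hCan hOrb hDesc N _ p hp f hf
  obtain ⟨u, hu, hfix⟩ := hCan N p hp f hf
  -- every coefficient of `f u^p` is fixed by the stabiliser, hence algebraic
  have hcoeff : ∀ n : ℤ, ((f * u ^ p : FC N) : LaurentSeries ℂ).coeff n ∈ Set.range embC := by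
    intro n
    refine hOrb (stab N p f) (stab_finiteIndex hFin hp hf) _ ?_
    intro σ hσ
    have h1 := hfix σ (mem_stab.mp hσ)
    have h2 := congrArg (fun z : FC N => (z : LaurentSeries ℂ).coeff n) h1
    simp only [coe_arithmeticGalois_smul, coeffMap_coeff] at h2
    exact h2
  obtain ⟨y, hy⟩ := exists_coeffMap_eq _ hcoeff
  have hyF : y ∈ modularFunctionFieldBar N := by
    refine hDesc N y ?_
    rw [hy]
    exact (f * u ^ p : FC N).2
  refine ⟨⟨y, hyF⟩, u⁻¹, inv_ne_zero hu, ?_⟩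
  have h3 : f = (f * u ^ p) * (u⁻¹) ^ p := by
    rw [inv_pow, mul_assoc, mul_inv_cancel₀ (pow_ne_zero _ hu), mul_one]
  have h4 : (f : LaurentSeries ℂ)
      = ((f * u ^ p : FC N) : LaurentSeries ℂ) * ((u⁻¹ : FC N) : LaurentSeries ℂ) ^ p := by
    conv_lhs => rw [h3]
    rfl
  rw [h4, hy]

end Fermat.Agent.Jac
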