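import Fermat.Agent.Jac.Skeleton2
import Fermat.Agent.S24.Tay
import Fermat.Agent.S28.TExp

/-!
# IN-JAC, task SELC

`selC : ConvStatement → DictCStatement → SelCStatement`: the `p`-th power of a holomorphic
function with a character of order dividing `p` which is trivial on the parabolic and on the
finite order elements of `Γ₀(N)` is an element of `F_ℂ` all of whose orders are divisible by `p`.
-/

set_option autoImplicit false

open ModularCurve AlgebraicCurve UpperHalfPlane CongruenceSubgroup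
open scoped MatrixGroups Manifold

noncomputable section

namespace Fermat.Agent.Jac

open Fermat.Agent.S24 (Kbar FF embC IsAn tayAt)
open Fermat.Agent.S28 (HasTExp)

/-- a function with expansion `0` vanishes. -/
theorem h29_eq_zero_of_hasTExp_zero {N : ℕ} {G : ℍ → ℂ} (h : HasTExp N G 0) : G = 0 := by
  rw [Fermat.Agent.S28.hasTExp_iff] at h
  funext τ
  have h1 := h τ
  have h2 : HasSum (fun n : ℤ => (0 : LaurentSeries ℂ).coeff n *
      Fermat.Agent.S28.tParam N τ ^ n) 0 := by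
    have : (fun n : ℤ => (0 : LaurentSeries ℂ).coeff n *
        Fermat.Agent.S28.tParam N τ ^ n) = fun _ => 0 := by
      funext n
      simp
    rw [this]
    exact hasSum_zero
  exact h1.unique h2

/-- the Taylor series of a power. -/
theorem h29_tayAt_pow {H : ℍ → ℂ} (hH : MDiff H) (τ₀ : ℍ) (n : ℕ) :
    tayAt τ₀ (H ^ n) = tayAt τ₀ H ^ n := by
  induction n with
  | zero =>
    rw [pow_zero, pow_zero]
    exact (Fermat.Agent.S24.tayAt_const 1 τ₀).trans (map_one _)
  | succ n ih =>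
    rw [pow_succ, pow_succ, Fermat.Agent.S24.tayAt_mul (hH.pow n) hH, ih]

/-- the order of a nonzero power series, viewed as a Laurent series. -/
theorem h29_order_ofPowerSeries {p : PowerSeries ℂ} (hp : p ≠ 0) :
    (HahnSeries.ofPowerSeries ℤ ℂ p).order = (p.order.toNat : ℤ) := by
  have hp' : HahnSeries.ofPowerSeries ℤ ℂ p ≠ 0 := by
    intro h0
    apply hp
    exact HahnSeries.ofPowerSeries_injective (by rw [h0, map_zero])
  have h1 : (HahnSeries.ofPowerSeries ℤ ℂ p).coeff (p.order.toNat : ℤ) ≠ 0 := by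
    rw [HahnSeries.ofPowerSeries_apply_coeff]
    exact PowerSeries.coeff_order hp
  have hle : (HahnSeries.ofPowerSeries ℤ ℂ p).order ≤ (p.order.toNat : ℤ) :=
    HahnSeries.order_le_of_coeff_ne_zero h1
  have h2 : (HahnSeries.ofPowerSeries ℤ ℂ p).coeff (HahnSeries.ofPowerSeries ℤ ℂ p).order ≠ 0 :=
    fun h0 => hp' (HahnSeries.coeff_order_eq_zero.mp h0)
  have hnn : 0 ≤ (HahnSeries.ofPowerSeries ℤ ℂ p).order := by
    by_contra hneg
    exact h2 (ModularCurve.ofPowerSeries_coeff_of_neg p (not_le.mp hneg))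
  obtain ⟨m, hm⟩ := Int.eq_ofNat_of_zero_le hnn
  rw [hm, HahnSeries.ofPowerSeries_apply_coeff] at h2
  have h3 : p.order ≤ m := PowerSeries.order_le m h2
  have h4 : p.order.toNat ≤ m := by
    have := ENat.toNat_le_toNat h3 (ENat.natCast_ne_top m)
    simpa using this
  rw [hm] at hle ⊢
  have h5 : (m : ℤ) ≤ (p.order.toNat : ℤ) := hle
  have h6 : (p.order.toNat : ℤ) ≤ (m : ℤ) := by exact_mod_cast h4
  exact le_antisymm h5 h6

/-- the order of a power of a Laurent series. -/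
theorem h29_order_pow (s : LaurentSeries ℂ) (n : ℕ) : (s ^ n).order = n * s.order := by
  induction n with
  | zero => simp
  | succ n ih =>
    by_cases hs : s = 0
    · subst hs
      simp
    · rw [pow_succ, HahnSeries.order_mul (pow_ne_zero n hs) hs, ih]
      push_cast
      ring

/-- **SELC.** -/
theorem selC (h1 : ConvStatement) (h2 : DictCStatement) : SelCStatement := by
  intro N _ p hp A χ hA hA0 hχ hcusp hχp hpar hell
  have hN : 0 < N := Nat.pos_of_ne_zero (NeZero.ne N)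
  have hGholo : MDiff (fun τ => A τ ^ p) := hA.pow p
  have hχp' : ∀ γ : Gamma0 N, (χ γ : ℂ) ^ p = 1 := by
    intro γ
    have h := congrArg (fun ψ : Gamma0 N →* ℂˣ => ((ψ γ : ℂˣ) : ℂ)) hχp
    simpa using h
  have hGinv : ∀ (γ : Gamma0 N) (τ : ℍ),
      (fun τ => A τ ^ p) ((γ : SL(2, ℤ)) • τ) = (fun τ => A τ ^ p) τ := by
    intro γ τ
    show A ((γ : SL(2, ℤ)) • τ) ^ p = A τ ^ p
    rw [hχ γ τ, mul_pow, hχp' γ, one_mul]
  have hGcusp : CuspMero N (fun τ => A τ ^ p) := by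
    intro g
    obtain ⟨s, hs⟩ := hcusp g
    exact ⟨s ^ p, hs.pow hN p⟩
  obtain ⟨s, hs, hsmem⟩ := h1 N (fun τ => A τ ^ p) hGholo hGinv hGcusp
  have hG0 : (fun τ => A τ ^ p) ≠ 0 := by
    intro h
    apply hA0
    funext τ
    have := congrFun h τ
    exact pow_eq_zero_iff (Nat.pos_iff_ne_zero.mp hp) |>.mp this
  have hs0 : s ≠ 0 := by
    rintro rfl
    exact hG0 (h29_eq_zero_of_hasTExp_zero hs)
  have hf0 : (⟨s, hsmem⟩ : FC N) ≠ 0 := by
    intro h
    exact hs0 (congrArg Subtype.val h)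
  refine ⟨⟨s, hsmem⟩, ⟨hf0, ?_⟩, hs⟩
  intro v
  obtain ⟨E, m, hm, hord, hcase⟩ := h2 N v
  have hAn : IsAnC N (⟨s, hsmem⟩ : FC N) (fun τ => A τ ^ p) (fun _ => 1) := by
    refine ⟨hGholo, mdifferentiable_const, ?_, ?_, ?_, ?_, ?_, ?_⟩
    · intro h
      have := congrFun h UpperHalfPlane.I
      simp at this
    · intro γ hγ τ
      exact hGinv ⟨γ, hγ⟩ τ
    · intro γ _ τ
      rfl
    · intro g
      exact hGcusp g
    · intro g
      exact ⟨1, Fermat.Agent.S28.HasTExp.one N⟩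
    · exact ⟨s, 1, hs, Fermat.Agent.S28.HasTExp.one 1, mul_one _⟩
  have hEf0 : E (⟨s, hsmem⟩ : FC N) ≠ 0 := by
    intro h
    exact hf0 ((map_eq_zero_iff E E.injective).mp h)
  have hordf := hord _ hf0
  have hell' : EllInv N A := by
    intro γ hγ τ
    rw [hχ γ τ, hell γ hγ]
    simp
  have hpar' : ParInv N A := by
    intro γ hγ τ
    rw [hχ γ τ, hpar γ hγ]
    simp
  rcases hcase with ⟨τ₀, g, hE, hdvd⟩ | ⟨g, hE, hdvd⟩
  · -- a point of the upper half plane
    have hAg : MDiff (fun τ => A (g⁻¹ • τ)) := Fermat.Agent.S24.h58_mdiff_comp_smul hA g⁻¹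
    have h3 := hE.2 _ _ _ hAn
    have hone : tayAt τ₀ (fun _ : ℍ => (1 : ℂ)) = 1 :=
      (Fermat.Agent.S24.tayAt_const 1 τ₀).trans (map_one _)
    have hpow : tayAt τ₀ (fun τ => A (g⁻¹ • τ) ^ p) = tayAt τ₀ (fun τ => A (g⁻¹ • τ)) ^ p :=
      h29_tayAt_pow hAg τ₀ p
    rw [hone, map_one, mul_one, hpow, map_pow] at h3
    have hT0 : tayAt τ₀ (fun τ => A (g⁻¹ • τ)) ≠ 0 := by
      intro h
      rw [h, map_zero, zero_pow (Nat.pos_iff_ne_zero.mp hp)] at h3
      exact hEf0 h3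
    obtain ⟨k, hk⟩ := hdvd A hA hA0 hell'
    have hordT : (HahnSeries.ofPowerSeries ℤ ℂ (tayAt τ₀ (fun τ => A (g⁻¹ • τ)))).order
        = ((tayAt τ₀ (fun τ => A (g⁻¹ • τ))).order.toNat : ℤ) := by
      exact h29_order_ofPowerSeries hT0
    rw [h3, h29_order_pow, hordT, hk] at hordf
    refine ⟨k, ?_⟩
    have hm' : (m : ℤ) ≠ 0 := by exact_mod_cast hm.ne'
    apply mul_left_cancel₀ hm'
    rw [← hordf]
    push_cast
    ring
  · -- a cusp
    obtain ⟨sA, hsA⟩ := hcusp g⁻¹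
    have hsAp : HasTExp N (fun τ => A (g⁻¹ • τ) ^ p) (sA ^ p) := hsA.pow hN p
    have h3 := hE.2 _ _ _ (sA ^ p) 1 hAn hsAp (Fermat.Agent.S28.HasTExp.one N)
    rw [mul_one] at h3
    have hsA0 : sA ≠ 0 := by
      rintro rfl
      rw [zero_pow (Nat.pos_iff_ne_zero.mp hp)] at h3
      exact hEf0 h3
    obtain ⟨k, hk⟩ := hdvd A sA hA hpar' hsA hsA0
    rw [h3, h29_order_pow, hk] at hordf
    refine ⟨k, ?_⟩
    have hm' : (m : ℤ) ≠ 0 := by exact_mod_cast hm.ne'
    apply mul_left_cancel₀ hm'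
    rw [← hordf]
    ring

end Fermat.Agent.Jac
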