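import Fermat.Agent.Jac.FinalTFL
import Fermat.Agent.Jac.KummerSurjN
import Fermat.Agent.Jac.EisFinal
import Fermat.Agent.Jac.SelC
import Fermat.Agent.Jac.DictC
import Fermat.Agent.Jac.DegC
import Fermat.Agent.Jac.PointFamC
import Fermat.Agent.Jac.CuspFamC
import Fermat.Agent.Jac.AnC
import Fermat.Agent.Jac.EmbC
import Fermat.Agent.Jac.POrd
import Fermat.Agent.Jac.FinC
import Fermat.Agent.Jac.Rig
import Fermat.Agent.Jac.Orbit
import Fermat.Agent.Jac.BaseChangeOrd
import Fermat.Agent.Jac.HKIn
import Fermat.Agent.Jac.HNorm
import Fermat.Agent.Jac.KCHecke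
import Fermat.Agent.Jac.COH
import Fermat.Agent.Jac.Per
import Fermat.Agent.Jac.Lam
import Fermat.Agent.Jac.HKM

/-!
# IN-JAC, final target 2: the key lemma `HeckeKeyModP N p`

Glue of the landed modules.  The two modules which are not yet landed (CAN, HAN) enter as
hypotheses; the final hypothesis-free theorems are in `FinalHK2.lean`.
-/

set_option autoImplicit false

noncomputable section

namespace Fermat.Agent.Jac

/-- **P-EMB**, unconditional. -/
theorem embCFinal : EmbCStatement := embC anC

/-- **P-DICT**, unconditional. -/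
theorem dictCFinal : DictCStatement :=
  dictC_of degC pointFamC cuspFamC anC embCFinal

/-- **SELC**, unconditional. -/
theorem selCFinal : SelCStatement := selC conv dictCFinal

/-- **FINC**, unconditional. -/
theorem finCFinal : FinCStatement :=
  finCAssembly anC (ordDvdC anC embCFinal) root char charUniq cuspRoot conv finChar

/-- **RIG** from CAN. -/
theorem rigFinal (hCan : CanStatement) : RigStatement :=
  rigAssembly finCFinal hCan orbit desc

/-- **KC-SURJ** (every modulus) from CAN. -/
theorem kummerSurjNFinal (hCan : CanStatement) : KummerSurjStatementN :=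
  kummerSurjAssemblyN eis selCFinal (rigFinal hCan) baseChangeOrd anC charUniq kummerExistsFinal

/-- **KC-SURJ** (prime modulus) from CAN. -/
theorem kummerSurjFinal (hCan : CanStatement) : KummerSurjStatement :=
  fun N _ p hp => kummerSurjNFinal hCan N p hp.pos

/-- **KC-HECKE** from HAN. -/
theorem kummerHeckeFinal (hHan : HeckeAnStatement) : KummerHeckeStatement :=
  kummerHeckeAssembly (heckeNorm_spec heckeInputs) hHan cohHecke

/-- **IN-JAC-key** from CAN and HAN. -/
theorem heckeKeyModP_of (hCan : CanStatement) (hHan : HeckeAnStatement)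
    (N : ℕ) [NeZero N] (p : ℕ) (hp : p.Prime) (h : ModularCurve.HeckeOperatorsCommuteBar N) :
    Fermat.Agent.S29.HeckeKeyModP N p :=
  heckeKeyModPAssembly pd kummerUniqFinal kummerMul (kummerSurjFinal hCan)
    (kummerHeckeFinal hHan) cohHecke periodHecke latticeSpan latticeFG N p hp h

end Fermat.Agent.Jac
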