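import Fermat.Agent.Jac.Skeleton2
import Fermat.Agent.Red.HKMod
import Fermat.Agent.S24.ModFinal
import Fermat.Agent.S24.EmbPoint
import Fermat.Agent.S24.OrbitPlaces
import Fermat.Agent.S21.C1.PrimCount
import Fermat.Agent.S24.Final
import Fermat.Agent.S24.FICore
import Fermat.Agent.S24.FIWrap
import Fermat.Agent.S24.DegLe

/-!
# IN-JAC, task HAN, part 2: the norm as a product over embeddings; `[F_{Nℓ} : α F_N] = ℓ + 1`
-/

set_option autoImplicit false

open ModularCurve AlgebraicCurve IntermediateField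

noncomputable section

namespace Fermat.Agent.Jac

open Fermat.Agent.S24

/-- **Norm = product over embeddings**, for an explicit list of `n = [L : K]` pairwise distinct
embeddings into an arbitrary field. -/
theorem h12_norm_eq_prod {K L Ω : Type*} [Field K] [Field L] [Field Ω] [Algebra K L]
    [FiniteDimensional K L] [Algebra.IsSeparable K L]
    (n : ℕ) (hn : Module.finrank K L = n)
    (σ₀ : K →+* Ω) (σ : Fin n → (L →+* Ω))
    (hcomp : ∀ i k, σ i (algebraMap K L k) = σ₀ k)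
    (hinj : Function.Injective σ) (x : L) :
    σ₀ (Algebra.norm K x) = ∏ i, σ i x := by
  classical
  letI : Algebra K (AlgebraicClosure Ω) :=
    ((algebraMap Ω (AlgebraicClosure Ω)).comp σ₀).toAlgebra
  have halg : ∀ k : K, algebraMap K (AlgebraicClosure Ω) k
      = algebraMap Ω (AlgebraicClosure Ω) (σ₀ k) := fun _ => rfl
  let τ : Fin n → (L →ₐ[K] AlgebraicClosure Ω) := fun i =>
    { toRingHom := (algebraMap Ω (AlgebraicClosure Ω)).comp (σ i)
      commutes' := fun k => by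
        show algebraMap Ω (AlgebraicClosure Ω) (σ i (algebraMap K L k)) = _
        rw [hcomp, halg] }
  have hτ : ∀ i y, τ i y = algebraMap Ω (AlgebraicClosure Ω) (σ i y) := fun _ _ => rfl
  have hτinj : Function.Injective τ := by
    intro i j hij
    apply hinj
    ext y
    have := congrArg (fun f : L →ₐ[K] AlgebraicClosure Ω => f y) hij
    simp only [hτ] at this
    exact (algebraMap Ω (AlgebraicClosure Ω)).injective this
  have hcard : Fintype.card (L →ₐ[K] AlgebraicClosure Ω) = Fintype.card (Fin n) := by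
    rw [AlgHom.card, hn, Fintype.card_fin]
  have hτbij : Function.Bijective τ :=
    (Fintype.bijective_iff_injective_and_card τ).mpr ⟨hτinj, hcard.symm⟩
  have h1 := Algebra.norm_eq_prod_embeddings K (AlgebraicClosure Ω) x
  rw [halg] at h1
  have h2 : ∏ σ' : L →ₐ[K] AlgebraicClosure Ω, σ' x = ∏ i, τ i x :=
    (Function.Bijective.prod_comp hτbij (fun σ' : L →ₐ[K] AlgebraicClosure Ω => σ' x)).symm
  rw [h2] at h1
  apply (algebraMap Ω (AlgebraicClosure Ω)).injective
  rw [h1, map_prod]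
  rfl

/-! ## the degree of `F_{Nℓ}` over `α (F_N)` -/

/-- `IfaceFin`, unconditionally (the wiring of `S24.result`). -/
theorem h12_ifaceFin (M : ℕ) [NeZero M] : IfaceFin M := by
  have hZ : ZerosStatement Kbar (FF M) :=
    fun y hy hfin => @FICore.fi_zeros Kbar (FF M) _ _ _ _ _ y hy hfin
  have hFIgen := fi_general_of_zeros hZ
  have htr := transcendental_jBar M
  have hle := finrank_le_index M
  have hFI : FIStatement Kbar (FF M) (jBar M) := hFIgen (jBar M) htr hle.1
  have hM1c : M1cStatement M := fun t n hfi hdeg inst g h hh E hn =>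
    @card_zeroPlaces_eq_card_orbits Kbar (FF M) _ _ _ t n hfi hdeg _ _ _ inst _ g h hh E hn
  exact ifaceFin_of M htr hle hFI hM1c (exists_embFamily_generic M)

theorem h12_dedekindPsi_mul_prime (N ℓ : ℕ) (hℓ : ℓ.Prime) (hN : ¬ ℓ ∣ N) :
    dedekindPsi (N * ℓ) = dedekindPsi N * (ℓ + 1) := by
  have hcop : N.Coprime ℓ := ((Nat.Prime.coprime_iff_not_dvd hℓ).mpr hN).symm
  rw [Fermat.Agent.S21.C1.dedekindPsi_mul hcop]
  have h1 := Fermat.Agent.S21.C1.dedekindPsi_prime_pow hℓ (k := 1) one_pos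
  simp only [pow_one, Nat.sub_self, pow_zero] at h1
  rw [h1]

theorem h12_dedekindPsi_pos (N : ℕ) [NeZero N] : 0 < dedekindPsi N := by
  rw [dedekindPsi]
  apply Finset.sum_pos'
  · intro i _
    exact Nat.zero_le _
  · refine ⟨1, ?_, ?_⟩
    · simp [NeZero.ne N]
    · simpa using Nat.pos_of_ne_zero (NeZero.ne N)

section Degree

variable (N ℓ : ℕ) [NeZero N] [NeZero ℓ]

/-- **the degree of `F_{Nℓ}` over `α (F_N)` is `ℓ + 1`.** -/
theorem h12_finrank (hℓ : ℓ.Prime) (hN : ¬ ℓ ∣ N) :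
    @Module.finrank (FF N) (FF (N * ℓ)) _ _
      (algebraAlong (heckeAlphaBar Kbar N ℓ)).toModule = ℓ + 1 := by
  letI := algebraAlong (heckeAlphaBar Kbar N ℓ)
  obtain ⟨-, hfdN, hrkN⟩ := h12_ifaceFin N
  obtain ⟨-, hfdM, hrkM⟩ := h12_ifaceFin (N * ℓ)
  letI : Algebra Kbar⟮jBar N⟯ (FF (N * ℓ)) :=
    ((algebraMap (FF N) (FF (N * ℓ))).comp (algebraMap Kbar⟮jBar N⟯ (FF N))).toAlgebra
  haveI : IsScalarTower Kbar⟮jBar N⟯ (FF N) (FF (N * ℓ)) :=
    IsScalarTower.of_algebraMap_eq (fun _ => rfl)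
  have htower := Module.finrank_mul_finrank Kbar⟮jBar N⟯ (FF N) (FF (N * ℓ))
  -- the isomorphism `K(j_N) ≃ K(j_{Nℓ})` induced by `α`
  have hmap : (Kbar⟮jBar N⟯).map (heckeAlphaBar Kbar N ℓ) = Kbar⟮jBar (N * ℓ)⟯ := by
    rw [IntermediateField.adjoin_map, Set.image_singleton,
      Fermat.Agent.Red.HKMod.heckeAlphaBar_jBar]
  let i : Kbar⟮jBar N⟯ ≃ₐ[Kbar] Kbar⟮jBar (N * ℓ)⟯ :=
    (IntermediateField.equivMap Kbar⟮jBar N⟯ (heckeAlphaBar Kbar N ℓ)).trans
      (IntermediateField.equivOfEq hmap)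
  have hi : ∀ a : Kbar⟮jBar N⟯, ((i a : Kbar⟮jBar (N * ℓ)⟯) : FF (N * ℓ))
      = heckeAlphaBar Kbar N ℓ (a : FF N) := fun a => rfl
  have hrk : Module.finrank Kbar⟮jBar N⟯ (FF (N * ℓ))
      = Module.finrank Kbar⟮jBar (N * ℓ)⟯ (FF (N * ℓ)) := by
    refine Algebra.finrank_eq_of_equiv_equiv i.toRingEquiv (RingEquiv.refl _) ?_
    ext a
    rfl
  rw [hrk, hrkM, hrkN, h12_dedekindPsi_mul_prime N ℓ hℓ hN] at htower
  exact Nat.eq_of_mul_eq_mul_left (h12_dedekindPsi_pos N) htower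

end Degree

end Fermat.Agent.Jac
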