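import Fermat.Agent.Jac.HANProd
import Fermat.Agent.Jac.HANNorm

/-!
# IN-JAC, task HAN: analytically the norm along `α` of `β f` is the Hecke product

`heckeAn : HeckeAnStatement`.
-/

set_option autoImplicit false
set_option linter.style.haveILetI false
set_option linter.unusedSectionVars false

open ModularCurve AlgebraicCurve UpperHalfPlane CongruenceSubgroup
open scoped MatrixGroups Manifold

noncomputable section

namespace Fermat.Agent.Jac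

open Fermat.Agent.S24 (Kbar FF embC IsAn tayAt germOf TayAxioms h23_E)
open Fermat.Agent.S28 (HasTExp scaleH affH coe_scaleH coe_affH)

section Main

variable (N ℓ : ℕ) [NeZero N] [NeZero ℓ] (u v : ℤ) (huv : u * ℓ - v * N = 1)

/-- the germ at `τ₀` of the Hecke product. -/
theorem h12_germ_hprod (hT : TayAxioms) (τ₀ : ℍ) {H : ℍ → ℂ} (hH : MDiff H)
    (hinv : ∀ γ ∈ Gamma0 N, ∀ τ : ℍ, H (γ • τ) = H τ) :
    germOf τ₀ 1 (h12_hprod ℓ H)
      = ∏ i : Fin (ℓ + 1), germOf τ₀ (h12_rep N ℓ u v huv i) (fun τ => H (scaleH ℓ τ)) := by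
  have e : (fun τ => h12_hprod ℓ H ((1 : SL(2, ℤ))⁻¹ • τ))
      = ∏ i : Fin (ℓ + 1), h12_fac N ℓ u v huv H i := by
    rw [← h12_hprod_eq N ℓ u v huv hinv]
    funext τ
    rw [inv_one, one_smul]
  rw [germOf, e, h12_tay_finset_prod hT _ _ (fun i _ => h12_fac_mdiff N ℓ u v huv hH i) τ₀,
    map_prod]
  rfl

/-- the embeddings `E_i` restrict to `E_0` along `α`. -/
theorem h12_E_alpha (hT : TayAxioms) (τ₀ : ℍ) (i : Fin (ℓ + 1)) (k : FF N) :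
    h23_E (N * ℓ) hT τ₀ (h12_rep N ℓ u v huv i) (heckeAlphaBar Kbar N ℓ k)
      = h23_E N hT τ₀ 1 k := by
  obtain ⟨P, Q, h⟩ := Fermat.Agent.S24.exists_isAn N k
  have hα := h12_isAn_alpha (ℓ := ℓ) h
  rw [Fermat.Agent.S24.h23_E_eq (N * ℓ) hT τ₀ _ hα, Fermat.Agent.S24.h23_E_eq N hT τ₀ 1 h]
  have hP := Fermat.Agent.S24.h23_germOf_mul_right τ₀ 1 (h12_rep N ℓ u v huv i)
    (h12_rep_mem N ℓ u v huv i) h.invP
  have hQ := Fermat.Agent.S24.h23_germOf_mul_right τ₀ 1 (h12_rep N ℓ u v huv i)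
    (h12_rep_mem N ℓ u v huv i) h.invQ
  rw [one_mul] at hP hQ
  rw [hP, hQ]

/-- **the norm identity on germs.** -/
theorem h12_E_norm (hℓ : ℓ.Prime) (hN : ¬ ℓ ∣ N) (hT : TayAxioms) (τ₀ : ℍ) (x : FF (N * ℓ)) :
    h23_E N hT τ₀ 1
        (letI := algebraAlong (heckeAlphaBar Kbar N ℓ); Algebra.norm (FF N) x)
      = ∏ i : Fin (ℓ + 1), h23_E (N * ℓ) hT τ₀ (h12_rep N ℓ u v huv i) x := by
  letI := algebraAlong (heckeAlphaBar Kbar N ℓ)
  haveI : FiniteDimensional (FF N) (FF (N * ℓ)) :=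
    Fermat.Agent.Red.HKMod.finiteAlong_heckeAlphaBar N ℓ
  haveI : Algebra.IsSeparable (FF N) (FF (N * ℓ)) := inferInstance
  refine h12_norm_eq_prod (ℓ + 1) (h12_finrank N ℓ hℓ hN) (h23_E N hT τ₀ 1)
    (fun i => h23_E (N * ℓ) hT τ₀ (h12_rep N ℓ u v huv i))
    (fun i k => h12_E_alpha N ℓ u v huv hT τ₀ i k) ?_ x
  intro i j hij
  exact h12_rep_injective N ℓ u v huv hℓ hN
    (Fermat.Agent.S24.h23_E_injective (N * ℓ) hT τ₀ hij)

omit [NeZero N] [NeZero ℓ] in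
/-- a holomorphic function is determined by its Taylor series at one point. -/
theorem h12_tay_inj (hT : TayAxioms) (τ₀ : ℍ) {A B : ℍ → ℂ} (hA : MDiff A) (hB : MDiff B)
    (h : tayAt τ₀ A = tayAt τ₀ B) : A = B := by
  have hcst : MDiff (fun _ : ℍ => (-1 : ℂ)) := mdifferentiable_const
  have hneg : MDiff ((fun _ : ℍ => (-1 : ℂ)) * B) := hcst.mul hB
  have h3 : tayAt τ₀ (A + (fun _ : ℍ => (-1 : ℂ)) * B) = 0 := by
    rw [hT.add hA hneg, hT.mul hcst hB, hT.const, h]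
    simp
  have h4 := (hT.eq_zero_iff (hA.add hneg) τ₀).mp h3
  funext τ
  have := congrFun h4 τ
  simp only [Pi.add_apply, Pi.mul_apply, Pi.zero_apply] at this
  linear_combination this

omit [NeZero N] [NeZero ℓ] in
theorem h12_germOf_one (τ₀ : ℍ) (A : ℍ → ℂ) :
    germOf τ₀ 1 A = HahnSeries.ofPowerSeries ℤ ℂ (tayAt τ₀ A) := by
  have e : (fun τ => A ((1 : SL(2, ℤ))⁻¹ • τ)) = A := by
    funext τ
    rw [inv_one, one_smul]
  rw [germOf, e]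

omit [NeZero N] [NeZero ℓ] in
theorem h12_germ_inj (hT : TayAxioms) (τ₀ : ℍ) {A B : ℍ → ℂ} (hA : MDiff A) (hB : MDiff B)
    (h : germOf τ₀ 1 A = germOf τ₀ 1 B) : A = B := by
  rw [h12_germOf_one, h12_germOf_one] at h
  exact h12_tay_inj hT τ₀ hA hB (HahnSeries.ofPowerSeries_injective (Γ := ℤ) (R := ℂ) h)

include huv in
/-- **HAN** for explicit Bézout coefficients. -/
theorem h12_heckeAn_aux (hℓ : ℓ.Prime) (hN : ¬ ℓ ∣ N) {f : FF N} {P Q : ℍ → ℂ}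
    (h : IsAn N f P Q) :
    IsAn N (heckeNorm N ℓ f) (h12_hprod ℓ P) (h12_hprod ℓ Q) := by
  have hT := Fermat.Agent.S24.h25_tayAxioms
  let τ₀ : ℍ := UpperHalfPlane.I
  have hβ := h12_isAn_beta (ℓ := ℓ) h
  have hβP : ∀ γ ∈ Gamma0 (N * ℓ), ∀ τ : ℍ, P (scaleH ℓ (γ • τ)) = P (scaleH ℓ τ) :=
    fun γ hγ τ => hβ.invP γ hγ τ
  have hβQ : ∀ γ ∈ Gamma0 (N * ℓ), ∀ τ : ℍ, Q (scaleH ℓ (γ • τ)) = Q (scaleH ℓ τ) :=
    fun γ hγ τ => hβ.invQ γ hγ τ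
  have hP := h12_hprod_mdiff N ℓ u v huv h.holoP h.invP
  have hQ := h12_hprod_mdiff N ℓ u v huv h.holoQ h.invQ
  -- the germ of the denominator
  have hgQ : germOf τ₀ 1 (h12_hprod ℓ Q) ≠ 0 := by
    rw [h12_germ_hprod N ℓ u v huv hT τ₀ h.holoQ h.invQ]
    exact Finset.prod_ne_zero_iff.mpr fun i _ =>
      Fermat.Agent.S24.germOf_ne_zero hT τ₀ _ hβ.holoQ hβ.Q_ne
  have hQne : h12_hprod ℓ Q ≠ 0 := by
    intro h0
    apply hgQ
    rw [h0, h12_germOf_one, (hT.eq_zero_iff (H := (0 : ℍ → ℂ)) mdifferentiable_const τ₀).mpr rfl,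
      map_zero]
  -- the norm identity
  have hnorm : h23_E N hT τ₀ 1 (heckeNorm N ℓ f) * germOf τ₀ 1 (h12_hprod ℓ Q)
      = germOf τ₀ 1 (h12_hprod ℓ P) := by
    rw [heckeNorm, h12_E_norm N ℓ u v huv hℓ hN hT τ₀,
      h12_germ_hprod N ℓ u v huv hT τ₀ h.holoQ h.invQ,
      h12_germ_hprod N ℓ u v huv hT τ₀ h.holoP h.invP, ← Finset.prod_mul_distrib]
    exact Finset.prod_congr rfl fun i _ => Fermat.Agent.S24.h23_E_spec (N * ℓ) hT τ₀ _ hβ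
  obtain ⟨Ph, Qh, hh⟩ := Fermat.Agent.S24.exists_isAn N (heckeNorm N ℓ f)
  have hspec := Fermat.Agent.S24.h23_E_spec N hT τ₀ 1 hh
  have hfun : h12_hprod ℓ P * Qh = Ph * h12_hprod ℓ Q := by
    apply h12_germ_inj hT τ₀ (hP.mul hh.holoQ) (hh.holoP.mul hQ)
    rw [Fermat.Agent.S24.germOf_mul hT τ₀ 1 hP hh.holoQ,
      Fermat.Agent.S24.germOf_mul hT τ₀ 1 hh.holoP hQ, ← hnorm, ← hspec]
    ring
  obtain ⟨ph, qh, hph, hqh, erel⟩ := hh.rel
  obtain ⟨p', hp'⟩ := h12_hprod_qexp N ℓ u v huv hℓ hN h.invP hβP h.expP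
  obtain ⟨q', hq'⟩ := h12_hprod_qexp N ℓ u v huv hℓ hN h.invQ hβQ h.expQ
  have h1 : HasTExp 1 (h12_hprod ℓ P * Qh) (p' * qh) := hp'.mul one_pos hqh
  have h2 : HasTExp 1 (Ph * h12_hprod ℓ Q) (ph * q') := hph.mul one_pos hq'
  rw [hfun] at h1
  have h3 : p' * qh = ph * q' := HasTExp.unique one_pos h1 h2
  have hqh0 : qh ≠ 0 := Fermat.Agent.S24.h25_exp_ne_zero hqh hh.Q_ne
  refine ⟨hP, hQ, hQne, h12_hprod_inv N ℓ u v huv hℓ hN h.invP hβP,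
    h12_hprod_inv N ℓ u v huv hℓ hN h.invQ hβQ,
    h12_hprod_exp N ℓ u v huv hℓ hN h.invP hβP h.expP,
    h12_hprod_exp N ℓ u v huv hℓ hN h.invQ hβQ h.expQ, p', q', hp', hq', ?_⟩
  apply mul_right_cancel₀ hqh0
  rw [h3, ← erel]
  ring

end Main

/-- **HAN.** analytically the norm is the product over the Hecke representatives. -/
theorem heckeAn : HeckeAnStatement := by
  intro N _ ℓ hN
  haveI : NeZero (ℓ : ℕ) := ⟨ℓ.2.ne_zero⟩
  intro f P Q h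
  have hcop : IsCoprime ((ℓ : ℕ) : ℤ) (N : ℤ) :=
    Nat.isCoprime_iff_coprime.mpr ((Nat.Prime.coprime_iff_not_dvd ℓ.2).mpr hN)
  obtain ⟨a, b, hab⟩ := hcop
  exact h12_heckeAn_aux N (ℓ : ℕ) a (-b) (by linarith) ℓ.2 hN h

end Fermat.Agent.Jac
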