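import Fermat.Agent.Jac.HKL.Compat

/-!
# IN-JAC, task HKL: assembly of the lattice form of the key lemma

`heckeKeyLatticeAssembly : HeckeKeyLatticeAssembly`: from the Kummer dictionary (KC-UNIQ, KC-MUL,
KC-SURJ for every modulus, KC-HECKE), the cohomological Hecke operators (COH), their
compatibility with periods (PER) and the lattice statements (LAM, LAM-FG) to
`Fermat.Agent.S31.HeckeKeyLattice N`.
-/

set_option autoImplicit false
set_option linter.unusedSectionVars false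

open ModularCurve AlgebraicCurve UpperHalfPlane CongruenceSubgroup
open scoped MatrixGroups

noncomputable section

namespace Fermat.Agent.Jac

open Fermat.Agent.S24 (Kbar FF)
open Fermat.Agent.S29.LK (evalOfCommute evalOfCommute_X evalOfCommute_C
  exists_end_of_forall_exists_smul)
open Fermat.Agent.S30 (heckeTAll)
open HKM HKL

namespace HKL

variable {N : ℕ} [NeZero N]

/-- Kummer triples of exponential characters, every modulus -/
theorem h57_Trip_surjN (hPD : PDStatement) (hSurj : KummerSurjStatementN) {q : ℕ}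
    (hq : 0 < q) (φ : h57_Lam N) :
    ∃ x : JZero N, q • x = 0 ∧ h57_Trip N q x (h57_E N q φ.1) := by
  obtain ⟨f, ⟨hf, hsel⟩, hK⟩ := hSurj N q hq φ.1 φ.2 (h57_E N q φ.1) (h57_E_isExpChar q φ.1)
  have := hPD N
  obtain ⟨D₀, hD₀, hdeg⟩ := HasPrincipalDivisors.exists_divisor (K := Kbar) f hf
  have hq0 : (q : ℤ) ≠ 0 := by exact_mod_cast hq.ne'
  set D : Divisor Kbar (FF N) := D₀.mapRange (fun n => n / (q : ℤ)) (Int.zero_ediv _) with hDdef
  have hDv : ∀ v : Place Kbar (FF N), (q : ℤ) * D v = v.ord f := by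
    intro v
    rw [hDdef, Finsupp.mapRange_apply, hD₀]
    exact Int.mul_ediv_cancel' (hsel v)
  have hsm : (q : ℤ) • D = D₀ := by
    ext v
    rw [Finsupp.smul_apply, smul_eq_mul, hDv, hD₀]
  have hdegD : Divisor.degree D = 0 := by
    have h1 : (q : ℤ) * Divisor.degree D = 0 := by
      rw [← smul_eq_mul, ← map_zsmul, hsm, hdeg]
    exact (mul_eq_zero.mp h1).resolve_left hq0
  refine ⟨Pic0.mk ⟨D, hdegD⟩, ?_, ⟨D, hdegD⟩, f, hf, fun v => (hDv v).symm, hK, rfl⟩
  have h2 : q • Pic0.mk (⟨D, hdegD⟩ : Divisor.degZero (K := Kbar) (F := FF N))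
      = Pic0.mk (q • (⟨D, hdegD⟩ : Divisor.degZero (K := Kbar) (F := FF N))) := rfl
  rw [h2]
  apply (QuotientAddGroup.eq_zero_iff _).mpr
  apply AddSubgroup.mem_addSubgroupOf.mpr
  refine ⟨f, hf, fun v => ?_⟩
  rw [AddSubgroup.coe_nsmul, Finsupp.smul_apply, ← hD₀, ← hsm, Finsupp.smul_apply]
  simp

/-- **The lattice step.**  A Hecke polynomial killing `J₀(N)[n]` maps `Λ` into `n Λ`. -/
theorem h57_lattice_step (hPD : PDStatement) (hUniq : KummerUniqStatement)
    (hMul : KummerMulStatement) (hSurj : KummerSurjStatementN) (hHecke : KummerHeckeStatement)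
    (hCoh : CohHeckeStatement) (hcomm : HeckeOperatorsCommuteBar N)
    (hT : ∀ ℓ ℓ' : Nat.Primes, h57_TLam hCoh N (ℓ : ℕ) * h57_TLam hCoh N (ℓ' : ℕ)
      = h57_TLam hCoh N (ℓ' : ℕ) * h57_TLam hCoh N (ℓ : ℕ))
    {n : ℕ} (hn : 0 < n) (P : MvPolynomial Nat.Primes ℤ)
    (hvarsN : ∀ ℓ ∈ P.vars, ¬ (ℓ : ℕ) ∣ N)
    (hkill : ∀ x : JZero N, n • x = 0 → heckeEvalBar hcomm P x = 0) (φ : h57_Lam N) :
    ∃ ψ : h57_Lam N,
      evalOfCommute (fun ℓ : Nat.Primes => h57_TLam hCoh N (ℓ : ℕ)) hT P φ = n • ψ := by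
  obtain ⟨x, hx, hQ⟩ := h57_Trip_surjN hPD hSurj hn φ
  have h1 := h57_poly_step hMul hHecke hCoh hcomm hn hT P x φ hQ
  rw [h57_subst_eq P hvarsN, hkill x hx] at h1
  have h2 := h57_Trip_zero_eq hUniq hMul hn h1
  exact h57_exists_div n hn.ne' _ ((h57_E_eq_one_iff hn.ne' _).mp h2)

/-- the Hecke polynomial `P(T)` on cusp forms is induced by the same polynomial in the
cohomological Hecke operators on the lattice -/
theorem h57_Compat_eval (hCoh : CohHeckeStatement) (hPer : PeriodHeckeStatement)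
    (hT : ∀ ℓ ℓ' : Nat.Primes, h57_TLam hCoh N (ℓ : ℕ) * h57_TLam hCoh N (ℓ' : ℕ)
      = h57_TLam hCoh N (ℓ' : ℕ) * h57_TLam hCoh N (ℓ : ℕ))
    (P : MvPolynomial Nat.Primes ℤ) :
    h57_Compat N
      ((MvPolynomial.aeval (R := ℤ) (heckeTAll N) P : CuspForm.heckeAlgebra N 2 (∅ : Set ℕ)) :
        Module.End ℂ (CuspForm (Gamma0 N) 2))
      (evalOfCommute (fun ℓ : Nat.Primes => h57_TLam hCoh N (ℓ : ℕ)) hT P) := by
  induction P using MvPolynomial.induction_on with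
  | C c =>
    rw [MvPolynomial.aeval_C, evalOfCommute_C, Subalgebra.coe_algebraMap]
    have h := h57_Compat_algebraMap (N := N) c
    rwa [eq_intCast (algebraMap ℤ (Module.End ℤ (h57_Lam N))) c] at h
  | add P Q hP hQ =>
    rw [map_add, map_add, Subalgebra.coe_add]
    exact h57_Compat_add hP hQ
  | mul_X P ℓ hP =>
    rw [map_mul, map_mul, Subalgebra.coe_mul, MvPolynomial.aeval_X, evalOfCommute_X]
    refine h57_Compat_mul hP ?_
    by_cases hℓ : (ℓ : ℕ) ∣ N
    · have hbad : ¬ h57_Good N (ℓ : ℕ) := fun hg => hg.2 hℓ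
      rw [h57_TLam_bad hCoh hbad, heckeTAll, dif_pos hℓ]
      exact h57_Compat_zero
    · rw [heckeTAll, dif_neg hℓ, CuspForm.heckeAlgebra.coe_T]
      exact h57_Compat_T hCoh hPer ℓ.2 hℓ

end HKL

/-- **HKL.** assembly of the lattice form of the key lemma. -/
theorem heckeKeyLatticeAssembly : HeckeKeyLatticeAssembly := by
  intro hPD hUniq hMul hSurjN hHecke hCoh hPer hLam hLamFG N _ hcomm
  classical
  have hSurj : KummerSurjStatement := fun N _ p hp => hSurjN N p hp.pos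
  have htf : IsAddTorsionFree (h57_Lam N) := h57_isAddTorsionFree_Lam N
  have hT : ∀ ℓ ℓ' : Nat.Primes, h57_TLam hCoh N (ℓ : ℕ) * h57_TLam hCoh N (ℓ' : ℕ)
      = h57_TLam hCoh N (ℓ' : ℕ) * h57_TLam hCoh N (ℓ : ℕ) :=
    fun ℓ ℓ' => h57_TLam_comm hPD hUniq hMul hSurj hHecke hCoh hcomm ℓ ℓ'
  refine ⟨h57_L N, h57_L_fg hLam hLamFG, ?_⟩
  intro n P hvars hkill
  have hvarsN : ∀ ℓ ∈ P.vars, ¬ (ℓ : ℕ) ∣ N := fun ℓ hℓ h =>
    hvars ℓ hℓ (Dvd.dvd.mul_right h n)
  have hkill' : ∀ x : JZero N, n • x = 0 → heckeEvalBar hcomm P x = 0 := fun x hx =>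
    (heckeModuleBar_smul_def hcomm P x).symm.trans (hkill x hx)
  have hcompat := h57_Compat_eval hCoh hPer hT P
  rcases Nat.eq_zero_or_pos n with hn | hn
  · -- the modulus `0`: the polynomial kills `J₀(N)`, hence `Λ`, hence the cusp forms
    subst hn
    have hzero : evalOfCommute (fun ℓ : Nat.Primes => h57_TLam hCoh N (ℓ : ℕ)) hT P = 0 := by
      apply LinearMap.ext
      intro φ
      apply Subtype.ext
      refine AddMonoidHom.ext fun γ => ?_
      apply h57_int_eq_zero_of_forall_prime_dvd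
      intro q hq
      obtain ⟨ψ, hψ⟩ := h57_lattice_step hPD hUniq hMul hSurjN hHecke hCoh hcomm hT hq.pos P
        hvarsN (fun x _ => hkill' x (zero_nsmul x)) φ
      rw [hψ]
      refine ⟨ψ.1 γ, ?_⟩
      show (q • ψ.1) γ = (q : ℤ) * ψ.1 γ
      rw [AddMonoidHom.smul_apply, nsmul_eq_mul]
    rw [hzero] at hcompat
    refine ⟨0, Subalgebra.zero_mem _, ?_⟩
    rw [h57_Compat_eq_zero hLam hcompat, smul_zero]
  · obtain ⟨b, hb⟩ := exists_end_of_forall_exists_smul
      (evalOfCommute (fun ℓ : Nat.Primes => h57_TLam hCoh N (ℓ : ℕ)) hT P) n hn.ne'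
      (h57_lattice_step hPD hUniq hMul hSurjN hHecke hCoh hcomm hT hn P hvarsN hkill')
    rw [hb] at hcompat
    have hn' : (n : ℂ) ≠ 0 := Nat.cast_ne_zero.mpr hn.ne'
    refine ⟨_, ⟨b, h57_Compat_div hn.ne' hcompat⟩, ?_⟩
    rw [smul_smul, mul_inv_cancel₀ hn', one_smul]

end Fermat.Agent.Jac
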