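import Fermat.Agent.Jac.FinalHK
import Fermat.Agent.Jac.Can
import Fermat.Agent.Jac.HAN
import Fermat.Agent.Jac.HKL

/-!
# IN-JAC, final targets 2 and 3 (hypothesis-free up to `HeckeOperatorsCommuteBar N`)

* `heckeKeyModP : p.Prime → HeckeOperatorsCommuteBar N → S29.HeckeKeyModP N p`
* `heckeKeyLattice : HeckeOperatorsCommuteBar N → S31.HeckeKeyLattice N`

(`TorsionFiniteLevel N n` is in `FinalTFL.lean`.)
-/

set_option autoImplicit false

noncomputable section

namespace Fermat.Agent.Jac

/-- **CAN**, unconditional. -/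
theorem canFinal : CanStatement := can_of degC

/-- **KC-SURJ** for every modulus, unconditional. -/
theorem kummerSurjN : KummerSurjStatementN := kummerSurjNFinal canFinal

/-- **KC-HECKE**, unconditional. -/
theorem kummerHecke : KummerHeckeStatement := kummerHeckeFinal heckeAn

/-- **IN-JAC-key.**  Hecke relations on `J₀(N)[p]` are visible on eigenforms. -/
theorem heckeKeyModP (N : ℕ) [NeZero N] (p : ℕ) (hp : p.Prime)
    (h : ModularCurve.HeckeOperatorsCommuteBar N) : Fermat.Agent.S29.HeckeKeyModP N p :=
  heckeKeyModP_of canFinal heckeAn N p hp h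

/-- **IN-JAC-key, lattice form.** -/
theorem heckeKeyLattice (N : ℕ) [NeZero N] (h : ModularCurve.HeckeOperatorsCommuteBar N) :
    Fermat.Agent.S31.HeckeKeyLattice N :=
  heckeKeyLatticeAssembly pd kummerUniqFinal kummerMul kummerSurjN kummerHecke cohHecke
    periodHecke latticeSpan latticeFG N h

end Fermat.Agent.Jac
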