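import Fermat.Agent.Jac.Skeleton
import Fermat.Agent.S24.TayAx
import Fermat.Agent.S21.E.Div

/-!
# IN-JAC, task KC: existence, uniqueness and multiplicativity of the Kummer character

* `kummerExists (h1 : OrdDvdStatement) (h2 : RootStatement) (h3 : CharStatement) :
    KummerExistsStatement`
* `kummerUniq (h : CharUniqStatement) : KummerUniqStatement`
* `kummerMul : KummerMulStatement`
-/

set_option autoImplicit false

open ModularCurve AlgebraicCurve UpperHalfPlane CongruenceSubgroup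
open scoped MatrixGroups Manifold Topology

noncomputable section

namespace Fermat.Agent.Jac

open Fermat.Agent.S24

/-! ### Holomorphic functions on `ℍ` form a domain -/

/-- A product of holomorphic functions on `ℍ` vanishes only if one of the factors does. -/
theorem h69_mdiff_eq_zero_or {F G : ℍ → ℂ} (hF : MDiff F) (hG : MDiff G) (h : F * G = 0) :
    F = 0 ∨ G = 0 := by
  have h0 : tayAt UpperHalfPlane.I (F * G) = 0 :=
    (h25_tay_eq_zero_iff (hF.mul hG) UpperHalfPlane.I).mpr h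
  rw [h25_tay_mul hF hG] at h0
  rcases mul_eq_zero.mp h0 with h1 | h1
  · exact Or.inl ((h25_tay_eq_zero_iff hF _).mp h1)
  · exact Or.inr ((h25_tay_eq_zero_iff hG _).mp h1)

theorem h69_mdiff_mul_ne_zero {F G : ℍ → ℂ} (hF : MDiff F) (hG : MDiff G) (hF0 : F ≠ 0)
    (hG0 : G ≠ 0) : F * G ≠ 0 := fun h =>
  (h69_mdiff_eq_zero_or hF hG h).elim hF0 hG0

theorem h69_mdiff_pow_ne_zero {F : ℍ → ℂ} (hF : MDiff F) (hF0 : F ≠ 0) (n : ℕ) : F ^ n ≠ 0 := by
  induction n with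
  | zero =>
    rw [pow_zero]
    intro h
    have := congrFun h UpperHalfPlane.I
    simp at this
  | succ n ih =>
    rw [pow_succ]
    exact h69_mdiff_mul_ne_zero (hF.pow n) hF ih hF0

/-- If `F * G = F * G'` with `F ≠ 0`, all holomorphic, then `G = G'`. -/
theorem h69_mdiff_mul_left_cancel {F G G' : ℍ → ℂ} (hF : MDiff F) (hG : MDiff G)
    (hG' : MDiff G') (hF0 : F ≠ 0) (h : ∀ τ, F τ * G τ = F τ * G' τ) : G = G' := by
  have h1 : F * (G - G') = 0 := by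
    funext τ
    simp only [Pi.mul_apply, Pi.sub_apply, Pi.zero_apply, mul_sub, h τ, sub_self]
  rcases h69_mdiff_eq_zero_or hF (hG.sub hG') h1 with h2 | h2
  · exact absurd h2 hF0
  · exact sub_eq_zero.mp h2

/-- Composition with the action of an element of `SL(2, ℤ)` preserves holomorphy. -/
theorem h69_mdiff_comp_smul {F : ℍ → ℂ} (hF : MDiff F) (γ : SL(2, ℤ)) :
    MDiff (fun τ : ℍ => F (γ • τ)) := by
  have hdet' : 0 < ((γ : GL (Fin 2) ℝ)).det.val := by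
    rw [Matrix.GeneralLinearGroup.val_det_apply]; exact M6.det_coe_SL_pos' γ
  exact hF.comp (UpperHalfPlane.mdifferentiable_smul hdet')

/-! ### Taylor series of powers -/

theorem h69_tay_pow {F : ℍ → ℂ} (hF : MDiff F) (τ₀ : ℍ) (n : ℕ) :
    tayAt τ₀ (F ^ n) = tayAt τ₀ F ^ n := by
  induction n with
  | zero =>
    rw [pow_zero, pow_zero]
    have h := h25_tay_const 1 τ₀
    rw [map_one] at h
    exact h
  | succ n ih =>
    rw [pow_succ, pow_succ, h25_tay_mul (hF.pow n) hF, ih]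

/-! ### Multiplicativity -/

theorem h69_isAn_pow_succ {N : ℕ} [NeZero N] {g : FF N} {P Q : ℍ → ℂ} (h : IsAn N g P Q)
    (n : ℕ) : IsAn N (g ^ (n + 1)) (P ^ (n + 1)) (Q ^ (n + 1)) := by
  induction n with
  | zero => simpa using h
  | succ n ih =>
    rw [pow_succ g, pow_succ P, pow_succ Q]
    exact ih.mul h

theorem h69_kummerChar_mul {N p : ℕ} [NeZero N] {f f' : FF N} {χ χ' : Gamma0 N →* ℂˣ}
    (h : KummerChar N p f χ) (h' : KummerChar N p f' χ') :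
    KummerChar N p (f * f') (χ * χ') := by
  obtain ⟨P, Q, A, hAn, hA, hpow, hχ⟩ := h
  obtain ⟨P', Q', A', hAn', hA', hpow', hχ'⟩ := h'
  refine ⟨P * P', Q * Q', A * A', hAn.mul hAn', hA.mul hA', fun τ => ?_, fun γ τ => ?_⟩
  · simp only [Pi.mul_apply]
    rw [mul_pow, hpow, hpow', mul_pow]
    ring
  · simp only [Pi.mul_apply, MonoidHom.mul_apply, Units.val_mul]
    rw [hχ γ τ, hχ' γ τ]
    ring

theorem h69_kummerChar_pow {N p : ℕ} [NeZero N] (hp : 0 < p) (g : FF N) :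
    KummerChar N p (g ^ p) 1 := by
  obtain ⟨P, Q, hAn⟩ := exists_isAn N g
  obtain ⟨n, rfl⟩ : ∃ n, p = n + 1 := ⟨p - 1, by omega⟩
  refine ⟨P ^ (n + 1), Q ^ (n + 1), P * Q ^ n, h69_isAn_pow_succ hAn n,
    hAn.holoP.mul (hAn.holoQ.pow n), fun τ => ?_, fun γ τ => ?_⟩
  · simp only [Pi.mul_apply, Pi.pow_apply, Nat.add_sub_cancel]
    ring
  · simp only [Pi.mul_apply, Pi.pow_apply, MonoidHom.one_apply, Units.val_one, one_mul]
    rw [hAn.invP γ γ.2 τ, hAn.invQ γ γ.2 τ]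

theorem h69_kummerChar_inv {N p : ℕ} [NeZero N] (hp : 0 < p) {f : FF N}
    {χ : Gamma0 N →* ℂˣ} (hf : f ≠ 0) (h : KummerChar N p f χ) :
    KummerChar N p f⁻¹ χ⁻¹ := by
  obtain ⟨P, Q, A, hAn, hA, hpow, hχ⟩ := h
  obtain ⟨n, rfl⟩ : ∃ n, p = n + 1 := ⟨p - 1, by omega⟩
  simp only [Nat.add_sub_cancel] at hpow ⊢
  have hP := hAn.holoP
  have hQ := hAn.holoQ
  have hP0 : P ≠ 0 := hAn.P_ne hf
  have hQ0 : Q ≠ 0 := hAn.Q_ne
  have hApow : A ^ (n + 1) = P * Q ^ n := by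
    funext τ
    simpa using hpow τ
  have hA0 : A ≠ 0 := by
    rintro rfl
    have : P * Q ^ n = 0 := by rw [← hApow]; exact zero_pow (Nat.succ_ne_zero n)
    exact h69_mdiff_mul_ne_zero hP (hQ.pow n) hP0 (h69_mdiff_pow_ne_zero hQ hQ0 n) this
  have hA0' : ∃ z, A z ≠ 0 := by
    by_contra hcon
    push Not at hcon
    exact hA0 (funext hcon)
  -- the local bound `‖P Q‖ ≤ C ‖A‖`
  have hkey : ∀ z, (P z * Q z) ^ (n + 1) = A z ^ (n + 1) * (P z ^ n * Q z) := by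
    intro z
    rw [hpow z]
    ring
  have hb : ∀ z₀ : ℍ, A z₀ = 0 → ∃ C : ℝ, ∀ᶠ z : ℍ in 𝓝 z₀, ‖(P * Q) z‖ ≤ C * ‖A z‖ := by
    intro z₀ _
    have hcont : Continuous fun z : ℍ => ‖P z ^ n * Q z‖ :=
      (((hP.continuous).pow n).mul hQ.continuous).norm
    have hev : ∀ᶠ z : ℍ in 𝓝 z₀, ‖P z ^ n * Q z‖ < ‖P z₀ ^ n * Q z₀‖ + 1 :=
      hcont.continuousAt.eventually (gt_mem_nhds (lt_add_one _))
    refine ⟨‖P z₀ ^ n * Q z₀‖ + 1, hev.mono fun z hz => ?_⟩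
    set C : ℝ := ‖P z₀ ^ n * Q z₀‖ + 1 with hC
    have hC1 : 1 ≤ C := by
      have := norm_nonneg (P z₀ ^ n * Q z₀)
      linarith
    have hC0 : 0 ≤ C := le_trans zero_le_one hC1
    have h1 : ‖(P * Q) z‖ ^ (n + 1) = ‖A z‖ ^ (n + 1) * ‖P z ^ n * Q z‖ := by
      rw [← norm_pow, Pi.mul_apply, hkey z, norm_mul, norm_pow]
    have h2 : ‖(P * Q) z‖ ^ (n + 1) ≤ (C * ‖A z‖) ^ (n + 1) := by
      rw [h1, mul_pow, mul_comm]
      have h3 : ‖P z ^ n * Q z‖ ≤ C ^ (n + 1) :=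
        le_trans hz.le (le_self_pow₀ hC1 (Nat.succ_ne_zero n))
      exact mul_le_mul_of_nonneg_right h3 (pow_nonneg (norm_nonneg _) _)
    exact le_of_pow_le_pow_left₀ (Nat.succ_ne_zero n) (mul_nonneg hC0 (norm_nonneg _)) h2
  obtain ⟨R, hR, hRmul⟩ := Fermat.Agent.S21.E.exists_mdiff_quotient (hP.mul hQ) hA hA0' hb
  -- `R ^ p = Q * P ^ (p - 1)`
  have hRpow : R ^ (n + 1) = Q * P ^ n := by
    have hApow0 : A ^ (n + 1) ≠ 0 := h69_mdiff_pow_ne_zero hA hA0 (n + 1)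
    refine h69_mdiff_mul_left_cancel (hA.pow (n + 1)) (hR.pow (n + 1)) (hQ.mul (hP.pow n))
      hApow0 fun τ => ?_
    have h1 := hRmul τ
    simp only [Pi.mul_apply, Pi.pow_apply] at h1 ⊢
    calc A τ ^ (n + 1) * R τ ^ (n + 1) = (A τ * R τ) ^ (n + 1) := by ring
      _ = (P τ * Q τ) ^ (n + 1) := by rw [← h1]
      _ = A τ ^ (n + 1) * (Q τ * P τ ^ n) := by rw [hkey τ]; ring
  refine ⟨Q, P, R, hAn.inv hf, hR, fun τ => ?_, fun γ τ => ?_⟩
  · have := congrFun hRpow τ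
    simpa using this
  · -- the character of `R`
    have hRγ : MDiff (fun τ : ℍ => (χ γ : ℂ) * R ((γ : SL(2, ℤ)) • τ)) :=
      (mdifferentiable_const (c := (χ γ : ℂ))).mul (h69_mdiff_comp_smul hR γ)
    have heq : (fun τ : ℍ => (χ γ : ℂ) * R ((γ : SL(2, ℤ)) • τ)) = R := by
      refine h69_mdiff_mul_left_cancel hA hRγ hR hA0 fun τ' => ?_
      have h1 := hRmul ((γ : SL(2, ℤ)) • τ')
      have h2 := hRmul τ'
      simp only [Pi.mul_apply] at h1 h2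
      rw [hAn.invP γ γ.2 τ', hAn.invQ γ γ.2 τ', h2, hχ γ τ'] at h1
      rw [h1]
      ring
    have h3 : (χ γ : ℂ) * R ((γ : SL(2, ℤ)) • τ) = R τ := congrFun heq τ
    rw [MonoidHom.inv_apply, Units.val_inv_eq_inv_val, ← h3]
    field_simp

/-- **KC-MUL.** -/
theorem kummerMul : KummerMulStatement := by
  intro N _ p hp
  exact ⟨fun f f' χ χ' h h' => h69_kummerChar_mul h h',
    fun f χ hf h => h69_kummerChar_inv hp hf h,
    fun g _ => h69_kummerChar_pow hp g⟩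

/-! ### Uniqueness -/

/-- **KC-UNIQ.** -/
theorem kummerUniq (h : CharUniqStatement) : KummerUniqStatement := by
  intro N _ p hp f hf χ χ' hk hk'
  obtain ⟨P, Q, A, hAn, hA, hpow, hχ⟩ := hk
  obtain ⟨P', Q', A', hAn', hA', hpow', hχ'⟩ := hk'
  obtain ⟨n, rfl⟩ : ∃ n, p = n + 1 := ⟨p - 1, by omega⟩
  simp only [Nat.add_sub_cancel] at hpow hpow'
  have hP0 : P ≠ 0 := hAn.P_ne hf
  have hA0 : A ≠ 0 := by
    rintro rfl
    have : P * Q ^ n = 0 := by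
      funext τ
      have := hpow τ
      simp only [Pi.zero_apply, zero_pow (Nat.succ_ne_zero n)] at this
      simpa using this.symm
    exact h69_mdiff_mul_ne_zero hAn.holoP (hAn.holoQ.pow n) hP0
      (h69_mdiff_pow_ne_zero hAn.holoQ hAn.Q_ne n) this
  have huniq := hAn.unique hAn'
  refine h N (n + 1) hp A A' Q Q' hA hA' hAn.holoQ hAn'.holoQ hA0 hAn.Q_ne hAn'.Q_ne
    (fun γ τ => hAn.invQ γ γ.2 τ) (fun γ τ => hAn'.invQ γ γ.2 τ) (fun τ => ?_) χ χ' hχ hχ'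
  have hu := congrFun huniq τ
  simp only [Pi.mul_apply] at hu
  rw [mul_pow, mul_pow, hpow τ, hpow' τ]
  calc P τ * Q τ ^ n * Q' τ ^ (n + 1) = (P τ * Q' τ) * (Q τ ^ n * Q' τ ^ n) := by ring
    _ = (P' τ * Q τ) * (Q τ ^ n * Q' τ ^ n) := by rw [hu]
    _ = P' τ * Q' τ ^ n * Q τ ^ (n + 1) := by ring

/-! ### Existence -/

/-- **KC-EX.** -/
theorem kummerExists (h1 : OrdDvdStatement) (h2 : RootStatement) (h3 : CharStatement) :
    KummerExistsStatement := by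
  intro N _ p hp f hsel
  obtain ⟨P, Q, hAn⟩ := exists_isAn N f
  have hP := hAn.holoP
  have hQ := hAn.holoQ
  have hP0 : P ≠ 0 := hAn.P_ne hsel.1
  have hQ0 : Q ≠ 0 := hAn.Q_ne
  have hG : MDiff (P * Q ^ (p - 1)) := hP.mul (hQ.pow (p - 1))
  have hG0 : P * Q ^ (p - 1) ≠ 0 :=
    h69_mdiff_mul_ne_zero hP (hQ.pow _) hP0 (h69_mdiff_pow_ne_zero hQ hQ0 _)
  have hord : ∀ τ₀ : ℍ, p ∣ (tayAt τ₀ (P * Q ^ (p - 1))).order.toNat := by
    intro τ₀
    have hd := h1 N p f hsel P Q hAn τ₀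
    have htP : tayAt τ₀ P ≠ 0 := fun h => hP0 ((h25_tay_eq_zero_iff hP τ₀).mp h)
    have htQ : tayAt τ₀ Q ≠ 0 := fun h => hQ0 ((h25_tay_eq_zero_iff hQ τ₀).mp h)
    have hoP : (tayAt τ₀ P).order ≠ ⊤ := fun h => htP (PowerSeries.order_eq_top.mp h)
    have hoQ : (tayAt τ₀ Q).order ≠ ⊤ := fun h => htQ (PowerSeries.order_eq_top.mp h)
    have hcalc : (tayAt τ₀ (P * Q ^ (p - 1))).order.toNat
        = (tayAt τ₀ P).order.toNat + (p - 1) * (tayAt τ₀ Q).order.toNat := by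
      have eP : (tayAt τ₀ P).order = (((tayAt τ₀ P).order.toNat : ℕ) : ℕ∞) :=
        (ENat.natCast_toNat hoP).symm
      have eQ : (tayAt τ₀ Q).order = (((tayAt τ₀ Q).order.toNat : ℕ) : ℕ∞) :=
        (ENat.natCast_toNat hoQ).symm
      have e : (tayAt τ₀ (P * Q ^ (p - 1))).order
          = (((tayAt τ₀ P).order.toNat + (p - 1) * (tayAt τ₀ Q).order.toNat : ℕ) : ℕ∞) := by
        rw [h25_tay_mul hP (hQ.pow _), h69_tay_pow hQ, PowerSeries.order_mul,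
          PowerSeries.order_pow, nsmul_eq_mul]
        conv_lhs => rw [eP, eQ]
        push_cast
        rfl
      rw [e, ENat.toNat_natCast]
    rw [hcalc]
    have : ((p : ℤ)) ∣ (((tayAt τ₀ P).order.toNat + (p - 1) * (tayAt τ₀ Q).order.toNat : ℕ) : ℤ) := by
      have e : (((tayAt τ₀ P).order.toNat + (p - 1) * (tayAt τ₀ Q).order.toNat : ℕ) : ℤ)
          = (((tayAt τ₀ P).order.toNat : ℤ) - ((tayAt τ₀ Q).order.toNat : ℤ))
            + (p : ℤ) * ((tayAt τ₀ Q).order.toNat : ℤ) := by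
        push_cast [Nat.cast_sub hp]
        ring
      rw [e]
      exact dvd_add hd (dvd_mul_right _ _)
    exact Int.natCast_dvd_natCast.mp this
  obtain ⟨A, hA, hApow⟩ := h2 p hp (P * Q ^ (p - 1)) hG hG0 hord
  have hinv : ∀ (γ : Gamma0 N) (τ : ℍ),
      (P * Q ^ (p - 1)) ((γ : SL(2, ℤ)) • τ) = (P * Q ^ (p - 1)) τ := by
    intro γ τ
    simp only [Pi.mul_apply, Pi.pow_apply]
    rw [hAn.invP γ γ.2 τ, hAn.invQ γ γ.2 τ]
  obtain ⟨χ, hχ, hχp⟩ := h3 N p hp (P * Q ^ (p - 1)) A hG hA hG0 hinv hApow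
  exact ⟨χ, ⟨P, Q, A, hAn, hA, fun τ => by simpa using hApow τ, hχ⟩, hχp⟩

end Fermat.Agent.Jac

end
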