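import Fermat.Agent.Jac.Skeleton2
import Fermat.Agent.S28.TExp

/-!
# IN-JAC, task KC-INJ: the assembly `KummerInjAssembly`

`CUSP + CONV + DESC0 + ROOT-SERIES ⇒ KC-INJ`: a function `f ∈ F` with trivial Kummer character
is a `p`-th power in `F`.

Let `f = P / Q` and `A` a holomorphic `p`-th root of `P Q^(p-1)` which is `Γ₀(N)`-invariant.
`A` has expansions at all cusps (CUSP), hence its `q`-expansion `s_A` lies in `F_ℂ` (CONV), and
so does the `q`-expansion `s_Q` of `Q`.  Then `(s_A / s_Q)^p = f` in `ℂ((q))`, so `s_A / s_Q` has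
coefficients in `ℚ̄` (ROOT-SERIES) and lies in `F` (DESC0).
-/

set_option autoImplicit false

open ModularCurve AlgebraicCurve UpperHalfPlane CongruenceSubgroup
open scoped MatrixGroups Manifold

noncomputable section

namespace Fermat.Agent.Jac

open Fermat.Agent.S24 (Kbar FF embC IsAn tayAt)
open Fermat.Agent.S28 (HasTExp)

/-- a function with expansion `0` is `0`. -/
private theorem h78_fun_eq_zero {N : ℕ} {G : ℍ → ℂ} (h : HasTExp N G 0) : G = 0 := by
  funext τ
  have h1 := Fermat.Agent.S28.hasTExp_iff.mp h τ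
  have h2 := Fermat.Agent.S28.hasTExp_iff.mp (Fermat.Agent.S28.HasTExp.zero N) τ
  exact h1.unique h2

/-- the coefficient embedding `ℚ̄((q)) → ℂ((q))` is injective. -/
private theorem h78_coeffMap_embC_injective : Function.Injective (coeffMap embC) := by
  intro x y hxy
  ext n
  have := congrArg (fun s => s.coeff n) hxy
  simp only [coeffMap_coeff] at this
  exact embC.injective this

/-- **KC-INJ** from `CUSP`, `CONV`, `DESC0` and `ROOT-SERIES`. -/
theorem kummerInjAssembly : KummerInjAssembly := by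
  intro hCusp hConv hDesc hRoot N _ p hp f _ hK
  obtain ⟨P, Q, A, hAn, hA, hpow, hchar⟩ := hK
  have hN : 0 < N := Nat.pos_of_ne_zero (NeZero.ne N)
  -- `A` is invariant
  have hAinv : ∀ (γ : Gamma0 N) (τ : ℍ), A ((γ : SL(2, ℤ)) • τ) = A τ := by
    intro γ τ
    have := hchar γ τ
    simpa using this
  -- `G = P Q^(p-1)` is holomorphic with expansions at all cusps
  have hGdiff : MDiff (fun τ => P τ * Q τ ^ (p - 1)) := hAn.holoP.mul (hAn.holoQ.pow (p - 1))
  have hGcusp : CuspMero N (fun τ => P τ * Q τ ^ (p - 1)) := by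
    intro g
    obtain ⟨sP, hsP⟩ := hAn.expP g
    obtain ⟨sQ, hsQ⟩ := hAn.expQ g
    exact ⟨sP * sQ ^ (p - 1), (hsP.mul hN (hsQ.pow hN (p - 1))).congr (fun τ => rfl)⟩
  have hAcusp : CuspMero N A :=
    hCusp N p hp _ A 1 hGdiff hA hpow hGcusp hchar (fun _ _ => rfl)
  -- the expansions of `A` and `Q` lie in `F_ℂ`
  obtain ⟨sA, hsA, hsAmem⟩ := hConv N A hA hAinv hAcusp
  obtain ⟨sQ, hsQ, hsQmem⟩ := hConv N Q hAn.holoQ (fun γ τ => hAn.invQ γ γ.2 τ) hAn.expQ
  obtain ⟨pp, qq, hpp, hqq, hrel⟩ := hAn.rel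
  have hsQqq : sQ = qq := HasTExp.unique one_pos hsQ hqq
  subst hsQqq
  have hsQ0 : sQ ≠ 0 := by
    rintro rfl
    exact hAn.Q_ne (h78_fun_eq_zero hsQ)
  -- `s_A ^ p = p_P * s_Q ^ (p - 1)`
  have h1 : sA ^ p = pp * sQ ^ (p - 1) := by
    refine HasTExp.unique one_pos (hsA.pow one_pos p) ?_
    exact (hpp.mul one_pos (hsQ.pow one_pos (p - 1))).congr (fun τ => (hpow τ).symm)
  -- `(s_A / s_Q) ^ p = f`
  have h2 : (sA / sQ) ^ p = coeffMap embC (f : LaurentSeries Kbar) := by
    rw [div_pow, h1, ← hrel]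
    have hp1 : p = (p - 1) + 1 := by omega
    rw [eq_comm, hp1, pow_succ, Nat.add_sub_cancel]
    field_simp
  -- descent
  obtain ⟨y, hy⟩ := hRoot p hp (f : LaurentSeries Kbar) (sA / sQ) h2
  have hymem : coeffMap embC y ∈ laurentBaseChange ℂ (modularFunctionFieldFull N) := by
    rw [← hy]
    exact div_mem hsAmem hsQmem
  have hyF : y ∈ modularFunctionFieldBar N := hDesc N y hymem
  refine ⟨⟨y, hyF⟩, ?_⟩
  apply Subtype.ext
  apply h78_coeffMap_embC_injective
  change coeffMap embC (f : LaurentSeries Kbar) = coeffMap embC (y ^ p)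
  rw [map_pow, ← hy, h2]

end Fermat.Agent.Jac
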