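import Fermat.Agent.Jac.Skeleton
import Fermat.Agent.S24.FICore
import Fermat.Agent.S24.FIWrap
import Fermat.Agent.S24.DegLe
import Fermat.Agent.S24.DiffPlace
import Fermat.Agent.S24.PrincipalDiv

/-!
# IN-JAC, task PD: principal divisors of the function field of `X₀(N)` over `ℚ̄`

`pd : PDStatement`, i.e. `HasPrincipalDivisors Kbar (FF N)` for every level `N`, from the
general function-field theorems of the S24 project (fundamental identity for the zeros of a
transcendental function, all places have degree one, finiteness over `ℚ̄(j)`).
-/

set_option autoImplicit false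

open ModularCurve AlgebraicCurve IntermediateField

noncomputable section

namespace Fermat.Agent.Jac

open Fermat.Agent.S24

/-- **PD.** The function field of `X₀(N)` over `ℚ̄` has principal divisors. -/
theorem pd : PDStatement := by
  intro N _
  have hZ : ZerosStatement Kbar (FF N) :=
    fun y hy hfin => @FICore.fi_zeros Kbar (FF N) _ _ _ _ _ y hy hfin
  have hFIgen := fi_general_of_zeros hZ
  have hle := finrank_le_index N
  have hfin : FiniteDimensional Kbar⟮jBar N⟯ (FF N) := hle.1
  have halg : Algebra.IsAlgebraic Kbar⟮jBar N⟯ (FF N) := Algebra.IsAlgebraic.of_finite _ _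
  exact hasPrincipalDivisors_of hFIgen
    (fun v => DiffPlace.place_deg_eq_one (jBar N) halg v) (jBar N)

end Fermat.Agent.Jac

end
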