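import Fermat.Agent.Jac.Skeleton
import Fermat.Agent.Jac.PD

/-!
# IN-JAC, task OS: every place of `F = ℚ̄(X₀(N))` is fixed by an open subgroup of `G_ℚ`

* `h18_exists_fixing_field` : every element of `F` is fixed by `Gal(ℚ̄/L)` for some finite `L/ℚ`;
* `h18_exists_fixing_field_finset` : the same for finitely many elements;
* `h18_exists_mem_not_mem` : two distinct places are separated by a function;
* `openStab : OpenStabStatement`.
-/

set_option autoImplicit false

open ModularCurve AlgebraicCurve IntermediateField HahnSeries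
open scoped Pointwise

noncomputable section

namespace Fermat.Agent.Jac

open Fermat.Agent.S24 (Kbar FF jBar cst)
open Fermat.Agent.S29 (GQ)

/-! ### Elements of `F` are fixed by open subgroups -/

/-- the property "fixed coefficientwise by an open subgroup of `G_ℚ`" -/
def h18_OpenFixed (x : LaurentSeries Kbar) : Prop :=
  ∃ L : IntermediateField ℚ Kbar, FiniteDimensional ℚ L ∧
    ∀ σ : GQ, (∀ y ∈ L, σ y = y) → coeffMap (σ : Kbar →+* Kbar) x = x

theorem h18_openFixed_algebraMap (a : Kbar) :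
    h18_OpenFixed (algebraMap Kbar (LaurentSeries Kbar) a) := by
  have halg : Algebra.IsAlgebraic ℚ (AlgebraicClosure ℚ) := AlgebraicClosure.isAlgebraic ℚ
  have hint : IsIntegral ℚ a := (halg.isAlgebraic a).isIntegral
  refine ⟨ℚ⟮a⟯, IntermediateField.adjoin.finiteDimensional hint, fun σ hσ => ?_⟩
  have h1 : σ a = a := hσ a (IntermediateField.mem_adjoin_simple_self ℚ a)
  have h2 := coeffMap_algebraMap (L := Kbar) (σ : Kbar →+* Kbar) a
  rw [h2]
  congr 1

theorem h18_openFixed_coeffEmb (x : LaurentSeries ℚ) :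
    h18_OpenFixed (coeffEmb Kbar x) :=
  ⟨⊥, inferInstance, fun σ _ => coeffMap_coeffEmb σ x⟩

theorem h18_openFixed_mul {x y : LaurentSeries Kbar} (hx : h18_OpenFixed x)
    (hy : h18_OpenFixed y) : h18_OpenFixed (x * y) := by
  obtain ⟨L₁, h1, hL₁⟩ := hx
  obtain ⟨L₂, h2, hL₂⟩ := hy
  refine ⟨L₁ ⊔ L₂, IntermediateField.finiteDimensional_sup L₁ L₂, fun σ hσ => ?_⟩
  rw [map_mul, hL₁ σ (fun y hy => hσ y ((le_sup_left : L₁ ≤ L₁ ⊔ L₂) hy)),
    hL₂ σ (fun y hy => hσ y ((le_sup_right : L₂ ≤ L₁ ⊔ L₂) hy))]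

theorem h18_openFixed_add {x y : LaurentSeries Kbar} (hx : h18_OpenFixed x)
    (hy : h18_OpenFixed y) : h18_OpenFixed (x + y) := by
  obtain ⟨L₁, h1, hL₁⟩ := hx
  obtain ⟨L₂, h2, hL₂⟩ := hy
  refine ⟨L₁ ⊔ L₂, IntermediateField.finiteDimensional_sup L₁ L₂, fun σ hσ => ?_⟩
  rw [map_add, hL₁ σ (fun y hy => hσ y ((le_sup_left : L₁ ≤ L₁ ⊔ L₂) hy)),
    hL₂ σ (fun y hy => hσ y ((le_sup_right : L₂ ≤ L₁ ⊔ L₂) hy))]

theorem h18_openFixed_neg {x : LaurentSeries Kbar} (hx : h18_OpenFixed x) :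
    h18_OpenFixed (-x) := by
  obtain ⟨L₁, h1, hL₁⟩ := hx
  exact ⟨L₁, h1, fun σ hσ => by rw [map_neg, hL₁ σ hσ]⟩

theorem h18_openFixed_inv {x : LaurentSeries Kbar} (hx : h18_OpenFixed x) :
    h18_OpenFixed x⁻¹ := by
  obtain ⟨L₁, h1, hL₁⟩ := hx
  exact ⟨L₁, h1, fun σ hσ => by rw [map_inv₀, hL₁ σ hσ]⟩

theorem h18_openFixed_of_mem (N : ℕ) {x : LaurentSeries Kbar}
    (hx : x ∈ modularFunctionFieldBar N) : h18_OpenFixed x := by
  rw [mem_laurentBaseChange_iff] at hx
  induction hx using Subfield.closure_induction with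
  | mem x hx =>
    rcases hx with ⟨a, rfl⟩ | ⟨y, -, rfl⟩
    · exact h18_openFixed_algebraMap a
    · exact h18_openFixed_coeffEmb y
  | one =>
    have := h18_openFixed_algebraMap 1
    rwa [map_one] at this
  | add x y _ _ hx hy => exact h18_openFixed_add hx hy
  | neg x _ hx => exact h18_openFixed_neg hx
  | inv x _ hx => exact h18_openFixed_inv hx
  | mul x y _ _ hx hy => exact h18_openFixed_mul hx hy

/-- Every element of `F` is fixed by `Gal(ℚ̄/L)` for some finite extension `L/ℚ`. -/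
theorem h18_exists_fixing_field (N : ℕ) (f : FF N) :
    ∃ L : IntermediateField ℚ Kbar, FiniteDimensional ℚ L ∧
      ∀ σ : GQ, (∀ y ∈ L, σ y = y) →
        arithmeticGalois (modularFunctionFieldFull N) σ • f = f := by
  obtain ⟨L, hL, h⟩ := h18_openFixed_of_mem N f.2
  exact ⟨L, hL, fun σ hσ => Subtype.ext (h σ hσ)⟩

/-- Finitely many elements of `F` are fixed by `Gal(ℚ̄/L)` for some finite extension `L/ℚ`. -/
theorem h18_exists_fixing_field_finset (N : ℕ) (s : Finset (FF N)) :
    ∃ L : IntermediateField ℚ Kbar, FiniteDimensional ℚ L ∧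
      ∀ σ : GQ, (∀ y ∈ L, σ y = y) → ∀ f ∈ s,
        arithmeticGalois (modularFunctionFieldFull N) σ • f = f := by
  classical
  induction s using Finset.induction_on with
  | empty => exact ⟨⊥, inferInstance, fun σ _ f hf => absurd hf (Finset.notMem_empty f)⟩
  | insert a s _ ih =>
    obtain ⟨L₁, h1, hL₁⟩ := ih
    obtain ⟨L₂, h2, hL₂⟩ := h18_exists_fixing_field N a
    refine ⟨L₁ ⊔ L₂, IntermediateField.finiteDimensional_sup L₁ L₂, fun σ hσ f hf => ?_⟩
    rcases Finset.mem_insert.mp hf with rfl | hf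
    · exact hL₂ σ (fun y hy => hσ y ((le_sup_right : L₂ ≤ L₁ ⊔ L₂) hy))
    · exact hL₁ σ (fun y hy => hσ y ((le_sup_left : L₁ ≤ L₁ ⊔ L₂) hy)) f hf

/-! ### Separation of places -/

section Separation

variable {K F : Type*} [Field K] [Field F] [Algebra K F]

/-- The valuation ring of a place is a maximal proper subring: it is not contained in the
valuation ring of another place. -/
theorem h18_exists_mem_not_mem (v w : Place K F) (h : v ≠ w) :
    ∃ f : F, f ∈ v.toValuationSubring ∧ f ∉ w.toValuationSubring := by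
  by_contra hcon
  push Not at hcon
  -- `O_v ⊆ O_w`
  apply h
  apply Place.ext
  refine le_antisymm (fun x hx => hcon x hx) ?_
  intro x hxw
  by_contra hxv
  -- `x ∈ O_w`, `x ∉ O_v`
  apply w.ne_top'
  have hx0 : x ≠ 0 := fun h0 => hxv (h0 ▸ v.toValuationSubring.zero_mem)
  obtain ⟨π, hπ⟩ := IsDiscreteValuationRing.exists_irreducible v.toValuationSubring
  have hπ0 : (π : F) ≠ 0 := by
    have := hπ.ne_zero
    simpa [ne_eq, ZeroMemClass.coe_eq_zero] using this
  obtain ⟨u, hu⟩ := v.exists_unit_mul_zpow hx0 hπ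
  -- the order of `x` is negative
  have hneg : v.ord x < 0 := by
    by_contra hge
    push Not at hge
    apply hxv
    rw [hu]
    obtain ⟨m, hm⟩ := Int.eq_ofNat_of_zero_le hge
    rw [hm, zpow_natCast]
    exact mul_mem u.1.2 (pow_mem π.2 m)
  obtain ⟨m, hm⟩ : ∃ m : ℕ, v.ord x = -((m : ℤ) + 1) := by
    obtain ⟨m, hm⟩ := Int.eq_ofNat_of_zero_le (show 0 ≤ -v.ord x - 1 by omega)
    exact ⟨m, by omega⟩
  -- `π⁻¹ ∈ O_w`
  have huinv : (((u⁻¹ : v.toValuationSubringˣ) : v.toValuationSubring) : F) ∈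
      w.toValuationSubring := hcon _ (u⁻¹ : v.toValuationSubringˣ).1.2
  have hπw : (π : F) ∈ w.toValuationSubring := hcon _ π.2
  have hpow : (π : F) ^ (-((m : ℤ) + 1)) ∈ w.toValuationSubring := by
    have e1 : (π : F) ^ (-((m : ℤ) + 1)) =
        (((u⁻¹ : v.toValuationSubringˣ) : v.toValuationSubring) : F) * x := by
      rw [hu, hm, ← mul_assoc]
      have e2 : (((u⁻¹ : v.toValuationSubringˣ) : v.toValuationSubring) : F) *
          ((u : v.toValuationSubring) : F) = 1 := by
        rw [← MulMemClass.coe_mul, ← Units.val_mul, inv_mul_cancel, Units.val_one]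
        rfl
      rw [e2, one_mul]
    rw [e1]
    exact mul_mem huinv hxw
  have hπinv : (π : F)⁻¹ ∈ w.toValuationSubring := by
    have e1 : (π : F)⁻¹ = (π : F) ^ m * (π : F) ^ (-((m : ℤ) + 1)) := by
      rw [← zpow_natCast, ← zpow_add₀ hπ0]
      have : (m : ℤ) + -((m : ℤ) + 1) = -1 := by ring
      rw [this, zpow_neg_one]
    rw [e1]
    exact mul_mem (pow_mem hπw m) hpow
  -- hence `O_w = F`
  refine SetLike.ext fun y => ⟨fun _ => ValuationSubring.mem_top y, fun _ => ?_⟩
  rcases eq_or_ne y 0 with rfl | hy0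
  · exact w.toValuationSubring.zero_mem
  obtain ⟨u', hu'⟩ := v.exists_unit_mul_zpow hy0 hπ
  rw [hu']
  refine mul_mem (hcon _ u'.1.2) ?_
  rcases le_or_gt 0 (v.ord y) with hk | hk
  · obtain ⟨k, hk'⟩ := Int.eq_ofNat_of_zero_le hk
    rw [hk', zpow_natCast]
    exact pow_mem hπw k
  · obtain ⟨k, hk'⟩ := Int.eq_ofNat_of_zero_le (show 0 ≤ -v.ord y by omega)
    have e1 : (π : F) ^ (v.ord y) = ((π : F)⁻¹) ^ k := by
      rw [inv_pow, ← zpow_natCast, ← zpow_neg, ← hk', neg_neg]
    rw [e1]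
    exact pow_mem hπinv k

end Separation

/-! ### The theorem -/

/-- **OS.** Every place of `F` is fixed by an open subgroup of `G_ℚ`. -/
theorem openStab : OpenStabStatement := by
  classical
  intro N _ v
  -- a function `t` with `ord_v t ≠ 0`
  obtain ⟨t, ht⟩ : ∃ t : FF N, v.ord t ≠ 0 := by
    rcases lt_or_ge (v.ord (jBar N)) 0 with hneg | hreg
    · exact ⟨jBar N, hneg.ne⟩
    · have hle := Fermat.Agent.S24.finrank_le_index N
      have hfin : FiniteDimensional Kbar⟮jBar N⟯ (FF N) := hle.1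
      have halg : Algebra.IsAlgebraic Kbar⟮jBar N⟯ (FF N) := Algebra.IsAlgebraic.of_finite _ _
      obtain ⟨c, hc⟩ := Fermat.Agent.S24.DiffPlace.exists_ord_sub_const_pos (jBar N) halg v
        (Fermat.Agent.S24.transcendental_jBar N) hreg
      exact ⟨_, hc.ne'⟩
  have ht0 : t ≠ 0 := by
    rintro rfl
    exact ht v.ord_zero
  -- the finitely many places where `t` has nonzero order
  have : HasPrincipalDivisors Kbar (FF N) := pd N
  obtain ⟨D, hD, -⟩ := HasPrincipalDivisors.exists_divisor (K := Kbar) t ht0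
  -- separating functions
  have hsep : ∀ w : Place Kbar (FF N), ∃ f : FF N, w ≠ v →
      f ∈ v.toValuationSubring ∧ f ∉ w.toValuationSubring := by
    intro w
    by_cases hw : w = v
    · exact ⟨1, fun h => absurd hw h⟩
    · obtain ⟨f, hf⟩ := h18_exists_mem_not_mem v w (Ne.symm hw)
      exact ⟨f, fun _ => hf⟩
  choose fsep hfsep using hsep
  obtain ⟨L, hL, hfix⟩ := h18_exists_fixing_field_finset N (insert t (D.support.image fsep))
  refine ⟨L, hL, fun σ hσ => ?_⟩
  set g := arithmeticGalois (modularFunctionFieldFull N) σ with hg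
  have hgt : g • t = t := hfix σ hσ t (Finset.mem_insert_self _ _)
  -- `g • v` is in the support of `D`
  have hmem : g • v ∈ D.support := by
    rw [Finsupp.mem_support_iff, hD]
    have := SemilinearAut.ord_smul g v t
    rw [hgt] at this
    rw [this]
    exact ht
  by_contra hne
  obtain ⟨h1, h2⟩ := hfsep (g • v) hne
  have hgf : g • fsep (g • v) = fsep (g • v) :=
    hfix σ hσ _ (Finset.mem_insert_of_mem (Finset.mem_image_of_mem fsep hmem))
  apply h2
  have h3 := ValuationSubring.smul_mem_pointwise_smul g (fsep (g • v)) v.toValuationSubring h1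
  rw [hgf] at h3
  exact h3

end Fermat.Agent.Jac

end
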