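import Fermat.Agent.Jac.Skeleton
import Fermat.Agent.S24.TayAx
import Fermat.Agent.S24.PlaceOfEmb
import Fermat.Agent.S24.M6Dvd

/-!
# IN-JAC, task ORD: divisibility of analytic orders

If all orders of `f ∈ F = FF N` at the places of `F` are divisible by `p` and `f = P / Q`
analytically (`IsAn N f P Q`), then `p ∣ ord_τ₀ P - ord_τ₀ Q` at every point `τ₀` of the upper
half plane.

Proof: the germ embedding `E : F →+* ℂ((s))` at `τ₀` (`h25_exists_germEmb`, `g = 1`) satisfies
`E f * tay Q = tay P`, so `ord (E f) = ord_τ₀ P - ord_τ₀ Q`.  Either some `t ∈ F` has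
`ord (E t) > 0`; then `ord ∘ E = m * v.ord` for a place `v` (`exists_place_of_emb`) and
`p ∣ v.ord f`.  Or no such `t` exists; then `ord ∘ E = 0` on `F^×`.
-/

set_option autoImplicit false

open ModularCurve AlgebraicCurve UpperHalfPlane CongruenceSubgroup
open scoped MatrixGroups Manifold

noncomputable section

namespace Fermat.Agent.Jac

open Fermat.Agent.S24 (Kbar FF embC IsAn tayAt cst)

/-- the order of the germ of `f` at `τ₀` is divisible by `p` when all orders of `f` at places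
are. -/
theorem h83_dvd_order_germ {N : ℕ} [NeZero N] {p : ℕ} {f : FF N} (hf : IsSel N p f)
    (E : FF N →+* LaurentSeries ℂ)
    (hconst : ∀ a : Kbar, E (cst N a) = HahnSeries.C (embC a)) :
    (p : ℤ) ∣ (E f).order := by
  by_cases ht : ∃ t : FF N, 0 < (E t).order
  · obtain ⟨t, ht⟩ := ht
    obtain ⟨v, m, -, hm⟩ :=
      Fermat.Agent.S24.exists_place_of_emb (K := Kbar) (F := FF N) t embC E hconst ht
    rw [hm f hf.1]
    exact Dvd.dvd.mul_left (hf.2 v) _
  · have h0 : (E f).order = 0 := by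
      have h1 : (E f).order ≤ 0 := by
        by_contra hpos
        exact ht ⟨f, not_le.mp hpos⟩
      have h2 : (E f⁻¹).order ≤ 0 := by
        by_contra hpos
        exact ht ⟨f⁻¹, not_le.mp hpos⟩
      rw [Fermat.Agent.S24.h87_order_map_inv] at h2
      omega
    rw [h0]
    exact dvd_zero _

/-- **ORD.** -/
theorem ordDvd : OrdDvdStatement := by
  intro N _ p f hf P Q hPQ τ₀
  obtain ⟨E, hconst, hE⟩ := Fermat.Agent.S24.h25_exists_germEmb N τ₀ (1 : SL(2, ℤ))
  have hrel := hE f P Q hPQ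
  have hP1 : (fun τ : ℍ => P ((1 : SL(2, ℤ))⁻¹ • τ)) = P := by
    funext τ
    rw [inv_one, one_smul]
  have hQ1 : (fun τ : ℍ => Q ((1 : SL(2, ℤ))⁻¹ • τ)) = Q := by
    funext τ
    rw [inv_one, one_smul]
  rw [hP1, hQ1] at hrel
  have hQ0 : tayAt τ₀ Q ≠ 0 := fun h =>
    hPQ.Q_ne ((Fermat.Agent.S24.h25_tay_eq_zero_iff hPQ.holoQ τ₀).mp h)
  have hQ0' : HahnSeries.ofPowerSeries ℤ ℂ (tayAt τ₀ Q) ≠ 0 := fun h =>
    hQ0 (HahnSeries.ofPowerSeries_injective (by rw [h, map_zero]))
  have hEf : E f ≠ 0 := (map_ne_zero E).mpr hf.1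
  have hP0 : tayAt τ₀ P ≠ 0 := by
    intro h
    rw [h, map_zero] at hrel
    exact mul_ne_zero hEf hQ0' hrel
  have hord := Fermat.Agent.S24.M6.order_eq_sub_of_mul_eq hP0 hQ0 hrel
  rw [← hord]
  exact h83_dvd_order_germ hf E hconst

end Fermat.Agent.Jac
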