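import Mathlib
import Fermat.Agent.Jac.Root

/-!
# IN-JAC: holomorphic `p`-th roots of functions with zeros

* `exists_root_on_ball_of_dvd` : a holomorphic function on a neighbourhood of a closed disc,
  not locally zero, all of whose orders in the open disc are divisible by `p`, has a holomorphic
  `p`-th root on the open disc (extraction of the finitely many zeros);
* `exists_root_on_unit_ball_of_dvd` : the same on the open unit disc (exhaustion by concentric
  discs, gluing by uniqueness of normalised roots).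
-/

set_option autoImplicit false

open Complex Filter Function Topology Metric

namespace Fermat.Agent.Jac

noncomputable section

/-- local existence of roots: extraction of finitely many zeros -/
theorem exists_root_on_ball_of_dvd {c : ℂ} {R : ℝ} {F : ℂ → ℂ}
    (hF : AnalyticOnNhd ℂ F (closedBall c R))
    (hfin : ∀ u ∈ closedBall c R, analyticOrderAt F u ≠ ⊤) {p : ℕ} (hp : p ≠ 0)
    (hdvd : ∀ u ∈ ball c R, p ∣ (analyticOrderAt F u).toNat) :
    ∃ A : ℂ → ℂ, DifferentiableOn ℂ A (ball c R) ∧ ∀ z ∈ ball c R, A z ^ p = F z := by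
  classical
  have hsub : ball c R ⊆ closedBall c R := ball_subset_closedBall
  have hFb : AnalyticOnNhd ℂ F (ball c R) := hF.mono hsub
  have hmero : MeromorphicOn F (closedBall c R) := hF.meromorphicOn
  have hmerob : MeromorphicOn F (ball c R) := hFb.meromorphicOn
  have hsupp : (MeromorphicOn.divisor F (ball c R)).support.Finite :=
    hmero.divisor_ball_support_finite
  have hord : ∀ u : ball c R, meromorphicOrderAt F u ≠ ⊤ := by
    rintro ⟨u, hu⟩
    rw [(hFb u hu).meromorphicOrderAt_eq]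
    obtain ⟨n, hn⟩ := ENat.ne_top_iff_exists.mp (hfin u (hsub hu))
    rw [← hn]
    simp
  obtain ⟨g, hg, hg0, hFg⟩ := hmerob.extract_zeros_poles hord hsupp
  set D := MeromorphicOn.divisor F (ball c R) with hD
  have hDu : ∀ u ∈ ball c R, D u = ((analyticOrderAt F u).toNat : ℤ) := by
    intro u hu
    rw [hD, MeromorphicOn.AnalyticOnNhd.divisor_apply hFb hu]
    obtain ⟨n, hn⟩ := ENat.ne_top_iff_exists.mp (hfin u (hsub hu))
    rw [← hn]
    simp
  have hDnonneg : ∀ u, 0 ≤ D u := fun u => MeromorphicOn.AnalyticOnNhd.divisor_nonneg hFb u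
  have hDsupp : ∀ u, D u ≠ 0 → u ∈ ball c R := fun u hu =>
    D.supportWithinDomain (Function.mem_support.mpr hu)
  set S : Finset ℂ := hsupp.toFinset with hS
  have hmemS : ∀ u, u ∈ S ↔ D u ≠ 0 := by
    intro u
    rw [hS, Set.Finite.mem_toFinset, Function.mem_support]
  -- the factorized rational function, evaluated
  have hφ : ∀ x, (∏ᶠ u, (· - u) ^ D u : ℂ → ℂ) x = ∏ u ∈ S, (x - u) ^ D u := by
    intro x
    rw [Function.FactorizedRational.finprod_eq_fun hsupp]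
    refine finprod_eq_prod_of_mulSupport_subset _ ?_
    intro u hu
    rw [Finset.mem_coe, hmemS]
    intro h0
    rw [Function.mem_mulSupport, h0, zpow_zero] at hu
    exact hu rfl
  -- the root of the rational part
  set k : ℂ → ℕ := fun u => (analyticOrderAt F u).toNat / p with hk
  set ψ : ℂ → ℂ := fun x => ∏ u ∈ S, (x - u) ^ k u with hψ
  have hψφ : ∀ x, ψ x ^ p = ∏ u ∈ S, (x - u) ^ D u := by
    intro x
    rw [hψ]
    simp only
    rw [← Finset.prod_pow]
    refine Finset.prod_congr rfl fun u hu => ?_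
    have hub : u ∈ ball c R := hDsupp u ((hmemS u).mp hu)
    rw [hDu u hub, zpow_natCast, ← pow_mul, hk]
    simp only
    rw [Nat.div_mul_cancel (hdvd u hub)]
  have hψd : Differentiable ℂ ψ := by
    rw [hψ]
    fun_prop
  -- the root of the unit part
  obtain ⟨h, hh, hhg⟩ := exists_root_on_ball hg.differentiableOn (fun z hz => hg0 ⟨z, hz⟩) hp
  refine ⟨fun z => ψ z * h z, hψd.differentiableOn.mul hh, ?_⟩
  intro z hz
  rw [mul_pow, hψφ, hhg z hz, ← hφ]
  -- upgrade the codiscrete equality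
  have hball : ball c R ∈ 𝓝 z := isOpen_ball.mem_nhds hz
  have h1 : {x | F x = ((∏ᶠ u, (· - u) ^ D u : ℂ → ℂ) • g) x} ∪ (ball c R)ᶜ ∈ 𝓝[≠] z :=
    (mem_codiscreteWithin_iff_forall_mem_nhdsNE.mp hFg) z hz
  have h2 : F =ᶠ[𝓝[≠] z] ((∏ᶠ u, (· - u) ^ D u : ℂ → ℂ) • g) := by
    filter_upwards [h1, mem_nhdsWithin_of_mem_nhds hball] with x hx hxb
    rcases hx with hx | hx
    · exact hx
    · exact absurd hxb hx
  have hc1 : ContinuousAt F z := (hFb z hz).continuousAt
  have hc2 : ContinuousAt ((∏ᶠ u, (· - u) ^ D u : ℂ → ℂ) • g) z := by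
    have ha : AnalyticAt ℂ (∏ᶠ u, (· - u) ^ D u : ℂ → ℂ) z :=
      Function.FactorizedRational.analyticAt (hDnonneg z)
    exact (ha.smul (hg z hz)).continuousAt
  have h3 := (hc1.eventuallyEq_nhds_iff_eventuallyEq_nhdsNE hc2).mp h2
  have h4 := h3.eq_of_nhds
  rw [h4]
  rfl

/-- uniqueness of roots up to a root of unity on an arbitrary disc -/
lemma root_unique_on_ball' {c : ℂ} {R : ℝ} {W₁ W₂ : ℂ → ℂ}
    (h₁ : DifferentiableOn ℂ W₁ (ball c R)) (h₂ : DifferentiableOn ℂ W₂ (ball c R)) {n : ℕ}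
    (hn : n ≠ 0) (h : ∀ z ∈ ball c R, W₁ z ^ n = W₂ z ^ n) {a : ℂ} (ha : a ∈ ball c R)
    (h0 : W₂ a ≠ 0) :
    ∃ ζ : ℂ, ζ ^ n = 1 ∧ ∀ z ∈ ball c R, W₁ z = ζ * W₂ z := by
  set ζ₀ : ℂ := W₁ a / W₂ a with hζ₀
  have hζ₀n : ζ₀ ^ n = 1 := by
    rw [hζ₀, div_pow, h a ha, div_self (pow_ne_zero n h0)]
  refine ⟨ζ₀, hζ₀n, ?_⟩
  have hprim := Complex.isPrimitiveRoot_exp n hn
  have hfac : ∀ x y : ℂ, x ^ n - y ^ n =
      ∏ ζ ∈ Polynomial.nthRootsFinset n (1 : ℂ), (x - ζ * y) := fun x y =>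
    hprim.pow_sub_pow_eq_prod_sub_mul x y (Nat.pos_of_ne_zero hn)
  have hball : ball c R ∈ 𝓝 a := isOpen_ball.mem_nhds ha
  have hc₁ : ContinuousAt W₁ a := (h₁.differentiableAt hball).continuousAt
  have hc₂ : ContinuousAt W₂ a := (h₂.differentiableAt hball).continuousAt
  have hev : ∀ᶠ z in 𝓝 a, ∀ ζ ∈ Polynomial.nthRootsFinset n (1 : ℂ), ζ ≠ ζ₀ →
      W₁ z - ζ * W₂ z ≠ 0 := by
    rw [Filter.eventually_all_finset]
    intro ζ _
    by_cases hζ : ζ = ζ₀
    · exact Filter.Eventually.of_forall fun z hz => absurd hζ hz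
    · have hcont : ContinuousAt (fun z => W₁ z - ζ * W₂ z) a :=
        hc₁.sub (continuousAt_const.mul hc₂)
      have hne : W₁ a - ζ * W₂ a ≠ 0 := by
        have e : W₁ a = ζ₀ * W₂ a := by rw [hζ₀, div_mul_cancel₀ _ h0]
        rw [e, ← sub_mul]
        exact mul_ne_zero (sub_ne_zero.mpr (Ne.symm hζ)) h0
      filter_upwards [hcont.eventually_ne hne] with z hz _
      exact hz
  have hloc : W₁ =ᶠ[𝓝 a] fun z => ζ₀ * W₂ z := by
    filter_upwards [hev, hball] with z hz hzb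
    have hp : ∏ ζ ∈ Polynomial.nthRootsFinset n (1 : ℂ), (W₁ z - ζ * W₂ z) = 0 := by
      rw [← hfac, h z hzb, sub_self]
    obtain ⟨ζ, hζ, hz0⟩ := Finset.prod_eq_zero_iff.mp hp
    by_cases hζ0 : ζ = ζ₀
    · rw [hζ0] at hz0
      exact sub_eq_zero.mp hz0
    · exact absurd hz0 (hz ζ hζ hζ0)
  have hA₁ : AnalyticOnNhd ℂ W₁ (ball c R) := h₁.analyticOnNhd isOpen_ball
  have hA₂ : AnalyticOnNhd ℂ (fun z => ζ₀ * W₂ z) (ball c R) :=
    (h₂.const_mul ζ₀).analyticOnNhd isOpen_ball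
  exact hA₁.eqOn_of_preconnected_of_eventuallyEq hA₂ (convex_ball _ _).isPreconnected ha hloc

/-- two roots on a disc which agree at a point where they do not vanish are equal -/
lemma root_eqOn_ball_of_eq {c : ℂ} {R : ℝ} {W₁ W₂ : ℂ → ℂ}
    (h₁ : DifferentiableOn ℂ W₁ (ball c R)) (h₂ : DifferentiableOn ℂ W₂ (ball c R)) {n : ℕ}
    (hn : n ≠ 0) (h : ∀ z ∈ ball c R, W₁ z ^ n = W₂ z ^ n) {a : ℂ} (ha : a ∈ ball c R)
    (h0 : W₂ a ≠ 0) (hab : W₁ a = W₂ a) : ∀ z ∈ ball c R, W₁ z = W₂ z := by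
  obtain ⟨ζ, -, hζ⟩ := root_unique_on_ball' h₁ h₂ hn h ha h0
  have h1 : ζ = 1 := by
    have := hζ a ha
    rw [hab] at this
    have h2 : (1 : ℂ) * W₂ a = ζ * W₂ a := by rw [one_mul]; exact this
    exact (mul_right_cancel₀ h0 h2).symm
  intro z hz
  rw [hζ z hz, h1, one_mul]

/-- **roots on the unit disc**: a holomorphic function on the open unit disc, not identically
zero, all of whose orders are divisible by `p`, has a holomorphic `p`-th root. -/
theorem exists_root_on_unit_ball_of_dvd {F : ℂ → ℂ} (hF : DifferentiableOn ℂ F (ball (0 : ℂ) 1))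
    {b : ℂ} (hb : b ∈ ball (0 : ℂ) 1) (hFb : F b ≠ 0) {p : ℕ} (hp : p ≠ 0)
    (hdvd : ∀ a ∈ ball (0 : ℂ) 1, p ∣ (analyticOrderAt F a).toNat) :
    ∃ A : ℂ → ℂ, DifferentiableOn ℂ A (ball (0 : ℂ) 1) ∧ ∀ z ∈ ball (0 : ℂ) 1, A z ^ p = F z := by
  classical
  have hA : AnalyticOnNhd ℂ F (ball (0 : ℂ) 1) := hF.analyticOnNhd isOpen_ball
  have hordb : analyticOrderAt F b ≠ ⊤ := by
    rw [(hA b hb).analyticOrderAt_eq_zero.mpr hFb]
    exact ENat.zero_ne_top
  have hfin : ∀ a ∈ ball (0 : ℂ) 1, analyticOrderAt F a ≠ ⊤ := fun a ha =>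
    hA.analyticOrderAt_ne_top_of_isPreconnected (convex_ball _ _).isPreconnected hb ha hordb
  have hb' : ‖b‖ < 1 := by simpa using hb
  -- the exhaustion
  set δ : ℝ := 1 - ‖b‖ with hδ
  have hδ0 : 0 < δ := by rw [hδ]; linarith
  set r : ℕ → ℝ := fun n => 1 - δ / ((n : ℝ) + 2) with hr
  have hpos : ∀ n : ℕ, (0 : ℝ) < (n : ℝ) + 2 := fun n => by positivity
  have hr1 : ∀ n, r n < 1 := by
    intro n
    have : 0 < δ / ((n : ℝ) + 2) := div_pos hδ0 (hpos n)
    simp only [hr]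
    linarith
  have hrb : ∀ n, ‖b‖ < r n := by
    intro n
    have h1 : δ / ((n : ℝ) + 2) < δ := by
      rw [div_lt_iff₀ (hpos n)]
      have : (0 : ℝ) ≤ n := Nat.cast_nonneg n
      nlinarith
    simp only [hr]
    linarith
  have hmono : ∀ n m : ℕ, n ≤ m → r n ≤ r m := by
    intro n m hnm
    have h1 : δ / ((m : ℝ) + 2) ≤ δ / ((n : ℝ) + 2) := by
      apply div_le_div_of_nonneg_left hδ0.le (hpos n)
      have : (n : ℝ) ≤ m := Nat.cast_le.mpr hnm
      linarith
    simp only [hr]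
    linarith
  have hex : ∀ z : ℂ, ‖z‖ < 1 → ∃ n : ℕ, ‖z‖ < r n := by
    intro z hz
    obtain ⟨n, hn⟩ := exists_nat_gt (δ / (1 - ‖z‖))
    refine ⟨n, ?_⟩
    have h1 : 0 < 1 - ‖z‖ := by linarith
    have h2 : δ < (n : ℝ) * (1 - ‖z‖) := (div_lt_iff₀ h1).mp hn
    have h3 : δ / ((n : ℝ) + 2) < 1 - ‖z‖ := by
      rw [div_lt_iff₀ (hpos n)]
      nlinarith
    simp only [hr]
    linarith
  have hsub : ∀ n, closedBall (0 : ℂ) (r n) ⊆ ball (0 : ℂ) 1 := fun n =>
    closedBall_subset_ball (hr1 n)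
  have hsub' : ∀ n, ball (0 : ℂ) (r n) ⊆ ball (0 : ℂ) 1 := fun n =>
    ball_subset_closedBall.trans (hsub n)
  have hbn : ∀ n, b ∈ ball (0 : ℂ) (r n) := fun n => by simpa using hrb n
  -- local roots
  have hloc : ∀ n, ∃ A : ℂ → ℂ, DifferentiableOn ℂ A (ball (0 : ℂ) (r n)) ∧
      ∀ z ∈ ball (0 : ℂ) (r n), A z ^ p = F z := fun n =>
    exists_root_on_ball_of_dvd (hA.mono (hsub n)) (fun u hu => hfin u (hsub n hu)) hp
      (fun u hu => hdvd u (hsub' n hu))
  choose A hAd hAp using hloc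
  -- normalisation at `b`
  set c : ℂ := A 0 b with hc
  have hAb : ∀ n, A n b ≠ 0 := by
    intro n h0
    have := hAp n b (hbn n)
    rw [h0, zero_pow hp] at this
    exact hFb this.symm
  have hc0 : c ≠ 0 := hAb 0
  have hcp : c ^ p = F b := hAp 0 b (hbn 0)
  set A' : ℕ → ℂ → ℂ := fun n z => c / A n b * A n z with hA'
  have hA'd : ∀ n, DifferentiableOn ℂ (A' n) (ball (0 : ℂ) (r n)) := fun n =>
    (hAd n).const_mul _
  have hA'b : ∀ n, A' n b = c := fun n => by
    simp only [hA']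
    rw [div_mul_cancel₀ _ (hAb n)]
  have hA'p : ∀ n, ∀ z ∈ ball (0 : ℂ) (r n), A' n z ^ p = F z := by
    intro n z hz
    simp only [hA']
    rw [mul_pow, div_pow, hcp, hAp n b (hbn n), div_self hFb, one_mul, hAp n z hz]
  -- compatibility
  have hcompat : ∀ n m : ℕ, n ≤ m → ∀ z ∈ ball (0 : ℂ) (r n), A' m z = A' n z := by
    intro n m hnm
    have hsubnm : ball (0 : ℂ) (r n) ⊆ ball (0 : ℂ) (r m) := ball_subset_ball (hmono n m hnm)
    refine root_eqOn_ball_of_eq ((hA'd m).mono hsubnm) (hA'd n) hp ?_ (hbn n) ?_ ?_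
    · intro z hz
      rw [hA'p m z (hsubnm hz), hA'p n z hz]
    · rw [hA'b]; exact hc0
    · rw [hA'b, hA'b]
  have hcompat' : ∀ n m : ℕ, ∀ z, z ∈ ball (0 : ℂ) (r n) → z ∈ ball (0 : ℂ) (r m) →
      A' m z = A' n z := by
    intro n m z hzn hzm
    rcases le_total n m with h | h
    · exact hcompat n m h z hzn
    · exact (hcompat m n h z hzm).symm
  -- gluing
  set idx : ℂ → ℕ := fun z => if h : ‖z‖ < 1 then Classical.choose (hex z h) else 0 with hidx
  have hidx_spec : ∀ z, z ∈ ball (0 : ℂ) 1 → z ∈ ball (0 : ℂ) (r (idx z)) := by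
    intro z hz
    have hz' : ‖z‖ < 1 := by simpa using hz
    have := Classical.choose_spec (hex z hz')
    simp only [hidx, dif_pos hz']
    simpa using this
  refine ⟨fun z => A' (idx z) z, ?_, ?_⟩
  · intro z hz
    have hzn := hidx_spec z hz
    have hnhds : ball (0 : ℂ) (r (idx z)) ∈ 𝓝 z := isOpen_ball.mem_nhds hzn
    have hev : (fun w => A' (idx w) w) =ᶠ[𝓝 z] A' (idx z) := by
      filter_upwards [hnhds] with w hw
      exact hcompat' (idx z) (idx w) w hw (hidx_spec w (hsub' _ hw))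
    have hd : DifferentiableAt ℂ (A' (idx z)) z := (hA'd (idx z)).differentiableAt hnhds
    exact (hd.congr_of_eventuallyEq hev).differentiableWithinAt
  · intro z hz
    exact hA'p (idx z) z (hidx_spec z hz)

end

end Fermat.Agent.Jac
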