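import Fermat.Agent.Jac.Skeleton
import Fermat.Agent.Jac.RootGen
import Fermat.Agent.S24.Tay

/-!
# IN-JAC, task ROOT: holomorphic `p`-th roots on the upper half plane

`root : RootStatement`: a holomorphic function on `ℍ`, not identically zero, all of whose orders
of vanishing are divisible by `p`, has a holomorphic `p`-th root.  Transport to the unit disc by
the chart at `ρ` and `exists_root_on_unit_ball_of_dvd` (`Fermat/Agent/Jac/RootGen.lean`).
-/

set_option autoImplicit false

open ModularCurve AlgebraicCurve UpperHalfPlane CongruenceSubgroup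
open Complex Filter Function Topology Metric
open scoped MatrixGroups Manifold

noncomputable section

namespace Fermat.Agent.Jac

open Fermat.Agent.S21.E Fermat.Agent.S21.E.RHRho

lemma h75_hasDerivAt_psiC {w : ℂ} (hw : ‖w‖ < 1) :
    HasDerivAt psiC (((rho : ℂ) - rhoc) / (1 - w) ^ 2) w := by
  have h1 : HasDerivAt (fun w : ℂ => (rho : ℂ) - rhoc * w) (-rhoc) w := by
    have := ((hasDerivAt_id w).const_mul rhoc).const_sub (rho : ℂ)
    simpa using this
  have h2 : HasDerivAt (fun w : ℂ => (1 : ℂ) - w) (-1) w := by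
    have := (hasDerivAt_id w).const_sub (1 : ℂ)
    simpa using this
  have h3 := h1.div h2 (one_sub_ne hw)
  have e : (-rhoc * (1 - w) - ((rho : ℂ) - rhoc * w) * -1) / (1 - w) ^ 2 =
      ((rho : ℂ) - rhoc) / (1 - w) ^ 2 := by
    congr 1
    ring
  rw [e] at h3
  exact h3

lemma h75_deriv_psiC_ne_zero {w : ℂ} (hw : ‖w‖ < 1) : deriv psiC w ≠ 0 := by
  rw [(h75_hasDerivAt_psiC hw).deriv]
  exact div_ne_zero rho_sub_rhoc_ne (pow_ne_zero 2 (one_sub_ne hw))

lemma h75_analyticAt_psiC {w : ℂ} (hw : ‖w‖ < 1) : AnalyticAt ℂ psiC w := by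
  have h2 : DifferentiableOn ℂ psiC (ball (0 : ℂ) 1) := by
    intro w hw
    have hw' : ‖w‖ < 1 := by simpa using hw
    exact (h75_hasDerivAt_psiC hw').differentiableAt.differentiableWithinAt
  exact h2.analyticAt (isOpen_ball.mem_nhds (by simpa using hw))

/-- the order of `G ∘ ψ` at `a` is the order of `G` at `ψ a` -/
lemma h75_order_comp_psi {G : ℍ → ℂ} (hG : MDiff G) {a : ℂ} (ha : a ∈ ball (0 : ℂ) 1) :
    analyticOrderAt (fun w => G (psi w)) a = (Fermat.Agent.S24.tayAt (psi a) G).order := by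
  have ha' : ‖a‖ < 1 := by simpa using ha
  rw [Fermat.Agent.S24.h58_order_tayAt hG (psi a), psi_coe ha']
  have e : (fun w => G (psi w)) = (G ∘ UpperHalfPlane.ofComplex) ∘ psiC := rfl
  rw [e]
  exact analyticOrderAt_comp_of_deriv_ne_zero (h75_analyticAt_psiC ha')
    (h75_deriv_psiC_ne_zero ha')

/-- **ROOT.** -/
theorem root : RootStatement := by
  intro p hp G hG hG0 hdvd
  obtain ⟨τ, hτ⟩ : ∃ τ, G τ ≠ 0 := by
    by_contra h
    apply hG0
    funext z
    by_contra hz
    exact h ⟨z, hz⟩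
  obtain ⟨A, hA, hAp⟩ := exists_root_on_unit_ball_of_dvd (F := fun w => G (psi w))
    (differentiableOn_comp_psi hG) (phi_mem_ball τ) (by rwa [psi_phi]) hp.ne'
    (fun a ha => by
      rw [h75_order_comp_psi hG ha]
      exact hdvd (psi a))
  refine ⟨fun z => A (phi z), mdiff_comp_phi hA, fun z => ?_⟩
  rw [hAp (phi z) (phi_mem_ball z), psi_phi]

end Fermat.Agent.Jac
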