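import Fermat.Agent.Jac.TFLN
import Fermat.Agent.Jac.PD
import Fermat.Agent.Jac.KC
import Fermat.Agent.Jac.Ord
import Fermat.Agent.Jac.RootFinal
import Fermat.Agent.Jac.Char
import Fermat.Agent.Jac.KummerInj
import Fermat.Agent.Jac.CuspRoot
import Fermat.Agent.Jac.ConvFinal
import Fermat.Agent.Jac.Desc0
import Fermat.Agent.Jac.Desc0Root
import Fermat.Agent.Jac.FG
import Fermat.Agent.Jac.OS

/-!
# IN-JAC, final target 1: `TorsionFiniteLevel N n` for every `0 < n` (unconditional)

Glue of the landed modules PD, ORD, ROOT, CHAR, KC, CUSP, CONV, DESC0, ROOT-SERIES, KC-INJ, FG,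
OS, TFL.
-/

set_option autoImplicit false

noncomputable section

namespace Fermat.Agent.Jac

/-- **KC-EX**, unconditional. -/
theorem kummerExistsFinal : KummerExistsStatement := kummerExists ordDvd root char

/-- **KC-UNIQ**, unconditional. -/
theorem kummerUniqFinal : KummerUniqStatement := kummerUniq charUniq

/-- **KC-INJ**, unconditional. -/
theorem kummerInjFinal : KummerInjStatement := kummerInjAssembly cuspRoot conv desc rootSeries

/-- **IN-JAC-fin.**  `J₀(N)[n]` is finite and fixed pointwise by an open subgroup of `G_ℚ`,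
for every `0 < n`. -/
theorem torsionFiniteLevel (N : ℕ) [NeZero N] (n : ℕ) (hn : 0 < n) :
    Fermat.Agent.S29.TorsionFiniteLevel N n :=
  torsionFiniteLevelAssemblyN pd kummerExistsFinal kummerUniqFinal kummerMul kummerInjFinal
    finChar openStab N n hn

end Fermat.Agent.Jac
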