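import Fermat.Agent.Jac.HANMoebius
import Fermat.Agent.S24.AnRep
import Fermat.Agent.S28.TExp
import Fermat.Agent.S28.Hermite
import Fermat.Prelude.Thm_ModularCurve_coeffMap_qExpand

/-!
# IN-JAC, task HAN, part 3: analytic representations at level `N ℓ`

* `h12_isAn_alpha` : `α f` is represented by the same pair `(P, Q)` at level `N ℓ`;
* `h12_isAn_beta` : `β f` is represented by `(P (ℓ τ), Q (ℓ τ))` at level `N ℓ`.
-/

set_option autoImplicit false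
set_option linter.style.haveILetI false

open ModularCurve AlgebraicCurve UpperHalfPlane CongruenceSubgroup
open scoped MatrixGroups Manifold

noncomputable section

namespace Fermat.Agent.Jac

open Fermat.Agent.S24 (Kbar FF embC IsAn tayAt)
open Fermat.Agent.S28 (HasTExp scaleH affH coe_scaleH coe_affH)

/-- change of period `N → N ℓ` (existence form). -/
theorem h12_hasTExp_mul {N ℓ : ℕ} (hN : 0 < N) (hℓ : 0 < ℓ) {G : ℍ → ℂ} {s : LaurentSeries ℂ}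
    (h : HasTExp N G s) : ∃ t : LaurentSeries ℂ, HasTExp (N * ℓ) G t := by
  haveI : NeZero ℓ := ⟨hℓ.ne'⟩
  have := h.affine (a := 1) (d := 1) (e := ℓ) (b := 0) (N := N * ℓ) one_pos hN
    (Nat.mul_pos hN hℓ) (by ring) id (fun τ => by simp)
  exact ⟨_, this⟩

/-- `τ / d` as a point of the upper half plane. -/
def h12_divH (d : ℕ) (τ : ℍ) : ℍ :=
  if h : 0 < d then affH 1 0 d one_pos (by exact_mod_cast h) τ else τ

theorem h12_coe_divH {d : ℕ} (hd : 0 < d) (τ : ℍ) :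
    ((h12_divH d τ : ℍ) : ℂ) = (τ : ℂ) / (d : ℂ) := by
  rw [h12_divH, dif_pos hd, coe_affH]
  push_cast
  ring

theorem h12_scaleH_divH {d : ℕ} (hd : 0 < d) (τ : ℍ) : scaleH d (h12_divH d τ) = τ := by
  apply UpperHalfPlane.ext
  rw [coe_scaleH hd, h12_coe_divH hd]
  have : (d : ℂ) ≠ 0 := by exact_mod_cast hd.ne'
  field_simp

theorem h12_comp_scaleH_ne_zero {ℓ : ℕ} (hℓ : 0 < ℓ) {Q : ℍ → ℂ} (hQ : Q ≠ 0) :
    (fun τ => Q (scaleH ℓ τ)) ≠ 0 := by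
  intro h0
  apply hQ
  funext τ
  have := congrFun h0 (h12_divH ℓ τ)
  simpa only [h12_scaleH_divH hℓ, Pi.zero_apply] using this

section Level

variable {N ℓ : ℕ} [NeZero N] [NeZero ℓ]

/-- **`α f` at level `N ℓ`.** -/
theorem h12_isAn_alpha {f : FF N} {P Q : ℍ → ℂ} (h : IsAn N f P Q) :
    IsAn (N * ℓ) (heckeAlphaBar Kbar N ℓ f) P Q := by
  have hN : 0 < N := Nat.pos_of_ne_zero (NeZero.ne N)
  have hℓ : 0 < ℓ := Nat.pos_of_ne_zero (NeZero.ne ℓ)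
  refine ⟨h.holoP, h.holoQ, h.Q_ne, fun γ hγ τ => h.invP γ (h12_Gamma0_mul_le N ℓ hγ) τ,
    fun γ hγ τ => h.invQ γ (h12_Gamma0_mul_le N ℓ hγ) τ, fun g => ?_, fun g => ?_, ?_⟩
  · obtain ⟨s, hs⟩ := h.expP g
    exact h12_hasTExp_mul hN hℓ hs
  · obtain ⟨s, hs⟩ := h.expQ g
    exact h12_hasTExp_mul hN hℓ hs
  · obtain ⟨p, q, hp, hq, e⟩ := h.rel
    refine ⟨p, q, hp, hq, ?_⟩
    rw [coe_heckeAlphaBar]
    exact e

/-- for `γ ∈ Γ₀(N ℓ)`: `ℓ (γ τ) = γ' (ℓ τ)` with `γ' ∈ Γ₀(N)`. -/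
theorem h12_scale_smul_Gamma0 (γ : SL(2, ℤ)) (hγ : γ ∈ Gamma0 (N * ℓ)) :
    ∃ γ' ∈ Gamma0 N, ∀ τ : ℍ, scaleH ℓ (γ • τ) = γ' • scaleH ℓ τ := by
  have hℓ : 0 < ℓ := Nat.pos_of_ne_zero (NeZero.ne ℓ)
  rw [h12_mem_Gamma0_iff] at hγ
  obtain ⟨k, hk⟩ := hγ
  have hdet : γ 0 0 * γ 1 1 - γ 0 1 * γ 1 0 = 1 := by
    have := γ.det_coe
    rw [Matrix.det_fin_two] at this
    exact this
  let γ' : SL(2, ℤ) := ⟨!![γ 0 0, (ℓ : ℤ) * γ 0 1; (N : ℤ) * k, γ 1 1], by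
    rw [Matrix.det_fin_two_of]
    rw [hk] at hdet
    push_cast at hdet
    linear_combination hdet⟩
  have g00 : γ' 0 0 = γ 0 0 := rfl
  have g01 : γ' 0 1 = (ℓ : ℤ) * γ 0 1 := rfl
  have g10 : γ' 1 0 = (N : ℤ) * k := rfl
  have g11 : γ' 1 1 = γ 1 1 := rfl
  refine ⟨γ', ?_, fun τ => ?_⟩
  · rw [h12_mem_Gamma0_iff, g10]
    exact dvd_mul_right _ _
  · have hmat : !![(ℓ : ℤ), 0; 0, 1] * (γ : Matrix (Fin 2) (Fin 2) ℤ) =
        (γ' : Matrix (Fin 2) (Fin 2) ℤ) * !![(ℓ : ℤ), 0; 0, 1] := by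
      ext i j
      fin_cases i <;> fin_cases j
      · simp only [Fin.zero_eta, Fin.isValue, Matrix.mul_apply, Fin.sum_univ_two, Matrix.of_apply,
          Matrix.cons_val', Matrix.cons_val_zero, Matrix.cons_val_fin_one, Matrix.cons_val_one]
        rw [g00]; ring
      · simp only [Fin.zero_eta, Fin.mk_one, Fin.isValue, Matrix.mul_apply, Fin.sum_univ_two,
          Matrix.of_apply, Matrix.cons_val', Matrix.cons_val_zero, Matrix.cons_val_fin_one,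
          Matrix.cons_val_one]
        rw [g01]; ring
      · simp only [Fin.zero_eta, Fin.mk_one, Fin.isValue, Matrix.mul_apply, Fin.sum_univ_two,
          Matrix.of_apply, Matrix.cons_val', Matrix.cons_val_zero, Matrix.cons_val_fin_one,
          Matrix.cons_val_one]
        rw [g10, hk]; push_cast; ring
      · simp only [Fin.mk_one, Fin.isValue, Matrix.mul_apply, Fin.sum_univ_two, Matrix.of_apply,
          Matrix.cons_val', Matrix.cons_val_zero, Matrix.cons_val_fin_one, Matrix.cons_val_one]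
        rw [g11]; ring
    refine h12_smul_eq_of_mat (a := ℓ) (b := 0) (d := 1) (a' := ℓ) (b' := 0) (d' := 1) (τ := τ)
      one_ne_zero one_ne_zero hmat ?_ ?_
    · rw [coe_scaleH hℓ]; push_cast; ring
    · rw [coe_scaleH hℓ]; push_cast; ring

/-- expansions at all cusps of `H (ℓ τ)` with period `N ℓ`. -/
theorem h12_exp_comp_scaleH {H : ℍ → ℂ}
    (hexp : ∀ g : SL(2, ℤ), ∃ s : LaurentSeries ℂ, HasTExp N (fun τ => H (g • τ)) s)
    (g : SL(2, ℤ)) :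
    ∃ s : LaurentSeries ℂ, HasTExp (N * ℓ) (fun τ => H (scaleH ℓ (g • τ))) s := by
  have hN : 0 < N := Nat.pos_of_ne_zero (NeZero.ne N)
  have hℓ : 0 < ℓ := Nat.pos_of_ne_zero (NeZero.ne ℓ)
  obtain ⟨γ', a, b, d, ha, hd, had, -, -, -, hmat⟩ := Fermat.Agent.S28.exists_hermite ℓ hℓ g
  obtain ⟨s, hs⟩ := hexp γ'
  -- naturals
  obtain ⟨a', rfl⟩ := Int.eq_ofNat_of_zero_le ha.le
  obtain ⟨d', rfl⟩ := Int.eq_ofNat_of_zero_le hd.le
  have ha' : 0 < a' := by exact_mod_cast ha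
  have hd' : 0 < d' := by exact_mod_cast hd
  have had' : a' * d' = ℓ := by exact_mod_cast had
  haveI : NeZero (a' * a') := ⟨(Nat.mul_pos ha' ha').ne'⟩
  have haR : (0 : ℝ) < ((a' : ℤ) : ℝ) := by exact_mod_cast ha'
  have hdR : (0 : ℝ) < ((d' : ℤ) : ℝ) := by exact_mod_cast hd'
  let φ : ℍ → ℍ := fun τ => affH ((a' : ℤ) : ℝ) (b : ℝ) ((d' : ℤ) : ℝ) haR hdR τ
  have hφ : ∀ τ : ℍ, ((φ τ : ℍ) : ℂ) = ((a' : ℂ) * (τ : ℂ) + (b : ℂ)) / (d' : ℂ) := by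
    intro τ
    show ((affH _ _ _ haR hdR τ : ℍ) : ℂ) = _
    rw [coe_affH]
    push_cast
    rfl
  have key : ∀ τ : ℍ, scaleH ℓ (g • τ) = γ' • φ τ := by
    intro τ
    refine h12_smul_eq_of_mat (a := ℓ) (b := 0) (d := 1) (a' := a') (b' := b) (d' := d')
      (τ := τ) one_ne_zero (by exact_mod_cast hd'.ne') hmat ?_ ?_
    · rw [coe_scaleH hℓ]; push_cast; ring
    · rw [hφ]; push_cast; ring
  have h1 := hs.affine (a := a') (d := d') (e := a' * a') (b := b) (N := N * ℓ) hd' hN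
    (Nat.mul_pos hN hℓ) (by rw [← had']; ring) φ hφ
  refine ⟨_, h1.congr (fun τ => ?_)⟩
  show H (γ' • φ τ) = H (scaleH ℓ (g • τ))
  rw [key]

/-- **`β f` at level `N ℓ`.** -/
theorem h12_isAn_beta {f : FF N} {P Q : ℍ → ℂ} (h : IsAn N f P Q) :
    IsAn (N * ℓ) (heckeBetaBar Kbar N ℓ f) (fun τ => P (scaleH ℓ τ))
      (fun τ => Q (scaleH ℓ τ)) := by
  have hN : 0 < N := Nat.pos_of_ne_zero (NeZero.ne N)
  have hℓ : 0 < ℓ := Nat.pos_of_ne_zero (NeZero.ne ℓ)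
  refine ⟨Fermat.Agent.S28.Holo.comp_scaleH (f := P) h.holoP ℓ,
    Fermat.Agent.S28.Holo.comp_scaleH (f := Q) h.holoQ ℓ, h12_comp_scaleH_ne_zero hℓ h.Q_ne,
    fun γ hγ τ => ?_, fun γ hγ τ => ?_, fun g => h12_exp_comp_scaleH h.expP g,
    fun g => h12_exp_comp_scaleH h.expQ g, ?_⟩
  · obtain ⟨γ', hγ', e⟩ := h12_scale_smul_Gamma0 (N := N) (ℓ := ℓ) γ hγ
    show P (scaleH ℓ (γ • τ)) = P (scaleH ℓ τ)
    rw [e, h.invP γ' hγ']
  · obtain ⟨γ', hγ', e⟩ := h12_scale_smul_Gamma0 (N := N) (ℓ := ℓ) γ hγ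
    show Q (scaleH ℓ (γ • τ)) = Q (scaleH ℓ τ)
    rw [e, h.invQ γ' hγ']
  · obtain ⟨p, q, hp, hq, e⟩ := h.rel
    refine ⟨qExpand ℂ ℓ p, qExpand ℂ ℓ q, hp.scale ℓ, hq.scale ℓ, ?_⟩
    rw [coe_heckeBetaBar, ModularCurve.coeffMap_qExpand, ← map_mul, e]

end Level

end Fermat.Agent.Jac
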