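import Fermat.Agent.Jac.KCHecke
import Fermat.Agent.Jac.CuspRoot
import Fermat.Agent.Jac.COH
import Fermat.Agent.S28.Hermite
import Fermat.Agent.S24.GermEmb

/-!
# IN-JAC, task HAN (analytic fields): the product over the Hecke representatives

For a holomorphic `Γ₀(N)`-invariant function `P` on `ℍ` with expansions at all cusps and a prime
`ℓ ∤ N`, the function `PP τ = ∏ i, P (δ_i τ)` (`δ_i` the Hecke representatives `heckeAct ℓ i`) is
again holomorphic, `Γ₀(N)`-invariant, has expansions (in `exp (2πiτ/N)`) at all cusps, and is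
nonzero if `P` is.  These are the fields `holoP, holoQ, Q_ne, invP, invQ, expP, expQ` of
`IsAn N (heckeNorm N ℓ f) PP QQ`; only the field `rel` (the norm identity) is missing.

Main statements: `h11_han_fields`, `h11_isAn_prod_of_rel`.
-/

set_option autoImplicit false

open ModularCurve AlgebraicCurve UpperHalfPlane CongruenceSubgroup
open scoped MatrixGroups Manifold

noncomputable section

namespace Fermat.Agent.Jac

open Fermat.Agent.S24 (Kbar FF embC IsAn tayAt)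
open Fermat.Agent.S28 (HasTExp tParam affH twist twistDil)

/-! ## A general Hermite decomposition -/

/-- every integral `2 × 2` matrix of positive determinant is `g * (a b; 0 d)` with
`g ∈ SL(2, ℤ)` and `a, d > 0`. -/
theorem h11_hermite (M : Matrix (Fin 2) (Fin 2) ℤ) (hdet : 0 < M.det) :
    ∃ (g : SL(2, ℤ)) (a b d : ℤ), 0 < a ∧ 0 < d ∧ a * d = M.det ∧
      M = (g : Matrix (Fin 2) (Fin 2) ℤ) * !![a, b; 0, d] := by
  rw [Matrix.det_fin_two] at hdet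
  set m₁ := M 0 0 with hm₁
  set m₂ := M 0 1 with hm₂
  set m₃ := M 1 0 with hm₃
  set m₄ := M 1 1 with hm₄
  have hne : ¬ (m₁ = 0 ∧ m₃ = 0) := by
    rintro ⟨h1, h3⟩
    rw [h1, h3] at hdet
    simp at hdet
  set a : ℤ := (Int.gcd m₁ m₃ : ℤ) with ha
  have ha0 : 0 < a := by
    rw [ha]
    have : 0 < Int.gcd m₁ m₃ := by
      rw [Int.gcd_pos_iff]
      by_contra h
      rw [not_or, not_not, not_not] at h
      exact hne h
    exact_mod_cast this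
  obtain ⟨p, hp⟩ : a ∣ m₁ := Int.gcd_dvd_left m₁ m₃
  obtain ⟨r, hr⟩ : a ∣ m₃ := Int.gcd_dvd_right m₁ m₃
  have hbez : a = m₁ * Int.gcdA m₁ m₃ + m₃ * Int.gcdB m₁ m₃ := Int.gcd_eq_gcd_ab m₁ m₃
  set u := Int.gcdA m₁ m₃ with hu
  set v := Int.gcdB m₁ m₃ with hv
  have h1 : p * u + r * v = 1 := by
    have : a * (p * u + r * v) = a * 1 := by
      rw [mul_one]
      calc a * (p * u + r * v) = (a * p) * u + (a * r) * v := by ring
        _ = m₁ * u + m₃ * v := by rw [← hp, ← hr]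
        _ = a := hbez.symm
    exact mul_left_cancel₀ ha0.ne' this
  set b : ℤ := u * m₂ + v * m₄ with hb
  set d : ℤ := -r * m₂ + p * m₄ with hd
  have had : a * d = m₁ * m₄ - m₂ * m₃ := by
    rw [hd, hp, hr]
    ring
  have hd0 : 0 < d := by
    have : 0 < a * d := by rw [had]; exact hdet
    exact pos_of_mul_pos_right this ha0.le
  refine ⟨⟨!![p, -v; r, u], ?_⟩, a, b, d, ha0, hd0, ?_, ?_⟩
  · rw [Matrix.det_fin_two_of]
    linear_combination h1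
  · rw [Matrix.det_fin_two]
    exact had
  · ext i j
    fin_cases i <;> fin_cases j
    · simp only [Fin.zero_eta, Fin.isValue, Matrix.mul_apply, Fin.sum_univ_two, Matrix.of_apply,
        Matrix.cons_val', Matrix.cons_val_zero, Matrix.cons_val_fin_one, Matrix.cons_val_one]
      rw [← hm₁, hp]
      ring
    · simp only [Fin.zero_eta, Fin.isValue, Fin.mk_one, Matrix.mul_apply, Fin.sum_univ_two,
        Matrix.of_apply, Matrix.cons_val', Matrix.cons_val_zero, Matrix.cons_val_fin_one,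
        Matrix.cons_val_one]
      rw [← hm₂, hb, hd]
      linear_combination (-m₂) * h1
    · simp only [Fin.zero_eta, Fin.isValue, Fin.mk_one, Matrix.mul_apply, Fin.sum_univ_two,
        Matrix.of_apply, Matrix.cons_val', Matrix.cons_val_zero, Matrix.cons_val_fin_one,
        Matrix.cons_val_one]
      rw [← hm₃, hr]
      ring
    · simp only [Fin.isValue, Fin.mk_one, Matrix.mul_apply, Fin.sum_univ_two, Matrix.of_apply,
        Matrix.cons_val', Matrix.cons_val_zero, Matrix.cons_val_fin_one, Matrix.cons_val_one]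
      rw [← hm₄, hb, hd]
      linear_combination (-m₄) * h1

/-! ## The action of the representatives -/

theorem h11_heckeRep_pos (ℓ : ℕ) (hℓ : 0 < ℓ) (i : Fin (ℓ + 1)) :
    0 < heckeRep ℓ i 0 0 ∧ 0 < heckeRep ℓ i 1 1 := by
  have hℓ' : (0 : ℤ) < (ℓ : ℤ) := by exact_mod_cast hℓ
  by_cases h : (i : ℕ) < ℓ
  · rw [h17_heckeRep_lt i h]
    exact ⟨by simp, by simpa using hℓ'⟩
  · rw [h17_heckeRep_last i h]
    exact ⟨by simpa using hℓ', by simp⟩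

theorem h11_heckeAct_coe (ℓ : ℕ) (hℓ : 0 < ℓ) (i : Fin (ℓ + 1)) (z : ℍ) :
    ((heckeAct ℓ i z : ℍ) : ℂ)
      = ((heckeRep ℓ i 0 0 : ℂ) * (z : ℂ) + (heckeRep ℓ i 0 1 : ℂ)) / (heckeRep ℓ i 1 1 : ℂ) := by
  by_cases h : (i : ℕ) < ℓ
  · rw [h17_heckeRep_lt i h]
    simp [heckeAct, h]
  · rw [h17_heckeRep_last i h]
    have hs : ((Fermat.Agent.S28.scaleH ℓ z : ℍ) : ℂ) = (ℓ : ℂ) * (z : ℂ) := by
      rw [Fermat.Agent.S28.scaleH, dif_pos hℓ]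
    simp [heckeAct, h, hs]

/-- the point identity attached to a decomposition `δ_i g = g' (a b; 0 d)`. -/
theorem h11_heckeAct_smul_eq (ℓ : ℕ) (hℓ : 0 < ℓ) (i : Fin (ℓ + 1)) (g g' : SL(2, ℤ))
    (a b d : ℤ) (ha : 0 < a) (hd : 0 < d)
    (h : heckeRep ℓ i * (g : Matrix (Fin 2) (Fin 2) ℤ)
      = (g' : Matrix (Fin 2) (Fin 2) ℤ) * !![a, b; 0, d]) (τ : ℍ) :
    heckeAct ℓ i (g • τ)
      = g' • affH (a : ℝ) (b : ℝ) (d : ℝ) (Int.cast_pos.mpr ha) (Int.cast_pos.mpr hd) τ := by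
  set z' := affH (a : ℝ) (b : ℝ) (d : ℝ) (Int.cast_pos.mpr ha) (Int.cast_pos.mpr hd) τ with hz'
  have hz'c : (z' : ℂ) = ((a : ℂ) * (τ : ℂ) + (b : ℂ)) / (d : ℂ) := by
    rw [hz', Fermat.Agent.S28.coe_affH]
    push_cast
    rfl
  have hR10 : heckeRep ℓ i 1 0 = 0 := h17_heckeRep_one_zero ℓ i
  have h00 : heckeRep ℓ i 0 0 * g 0 0 + heckeRep ℓ i 0 1 * g 1 0 = g' 0 0 * a := by
    have := congrFun (congrFun h 0) 0
    simpa [Matrix.mul_apply, Fin.sum_univ_two] using this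
  have h01 : heckeRep ℓ i 0 0 * g 0 1 + heckeRep ℓ i 0 1 * g 1 1 = g' 0 0 * b + g' 0 1 * d := by
    have := congrFun (congrFun h 0) 1
    simpa [Matrix.mul_apply, Fin.sum_univ_two] using this
  have h10 : heckeRep ℓ i 1 1 * g 1 0 = g' 1 0 * a := by
    have := congrFun (congrFun h 1) 0
    simpa [Matrix.mul_apply, Fin.sum_univ_two, hR10] using this
  have h11 : heckeRep ℓ i 1 1 * g 1 1 = g' 1 0 * b + g' 1 1 * d := by
    have := congrFun (congrFun h 1) 1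
    simpa [Matrix.mul_apply, Fin.sum_univ_two, hR10] using this
  have h00c : (heckeRep ℓ i 0 0 : ℂ) * (g 0 0 : ℂ) + (heckeRep ℓ i 0 1 : ℂ) * (g 1 0 : ℂ)
      = (g' 0 0 : ℂ) * (a : ℂ) := by exact_mod_cast h00
  have h01c : (heckeRep ℓ i 0 0 : ℂ) * (g 0 1 : ℂ) + (heckeRep ℓ i 0 1 : ℂ) * (g 1 1 : ℂ)
      = (g' 0 0 : ℂ) * (b : ℂ) + (g' 0 1 : ℂ) * (d : ℂ) := by exact_mod_cast h01
  have h10c : (heckeRep ℓ i 1 1 : ℂ) * (g 1 0 : ℂ) = (g' 1 0 : ℂ) * (a : ℂ) := by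
    exact_mod_cast h10
  have h11c : (heckeRep ℓ i 1 1 : ℂ) * (g 1 1 : ℂ)
      = (g' 1 0 : ℂ) * (b : ℂ) + (g' 1 1 : ℂ) * (d : ℂ) := by exact_mod_cast h11
  have hdc : (d : ℂ) ≠ 0 := by exact_mod_cast hd.ne'
  have hRc : (heckeRep ℓ i 1 1 : ℂ) ≠ 0 := by exact_mod_cast (h11_heckeRep_pos ℓ hℓ i).2.ne'
  have hden : ((g 1 0 : ℂ) * (τ : ℂ) + (g 1 1 : ℂ)) ≠ 0 := by
    have := UpperHalfPlane.denom_ne_zero (g : GL (Fin 2) ℝ) τ
    rwa [ModularGroup.denom_apply] at this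
  have hden' : ((g' 1 0 : ℂ) * (z' : ℂ) + (g' 1 1 : ℂ)) ≠ 0 := by
    have := UpperHalfPlane.denom_ne_zero (g' : GL (Fin 2) ℝ) z'
    rwa [ModularGroup.denom_apply] at this
  have hfac : (g' 1 0 : ℂ) * (z' : ℂ) + (g' 1 1 : ℂ) =
      (heckeRep ℓ i 1 1 : ℂ) * ((g 1 0 : ℂ) * (τ : ℂ) + (g 1 1 : ℂ)) / (d : ℂ) := by
    rw [hz'c]
    field_simp
    linear_combination -(τ : ℂ) * h10c - h11c
  have hnum : (g' 0 0 : ℂ) * (z' : ℂ) + (g' 0 1 : ℂ) =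
      ((heckeRep ℓ i 0 0 : ℂ) * ((g 0 0 : ℂ) * (τ : ℂ) + (g 0 1 : ℂ))
        + (heckeRep ℓ i 0 1 : ℂ) * ((g 1 0 : ℂ) * (τ : ℂ) + (g 1 1 : ℂ))) / (d : ℂ) := by
    rw [hz'c]
    field_simp
    linear_combination -(τ : ℂ) * h00c - h01c
  apply UpperHalfPlane.ext
  rw [h11_heckeAct_coe ℓ hℓ, UpperHalfPlane.coe_specialLinearGroup_apply,
    UpperHalfPlane.coe_specialLinearGroup_apply]
  simp only [algebraMap_int_eq, Int.coe_castRingHom, Complex.ofReal_intCast]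
  have hden2 : (τ : ℂ) * (g 1 0 : ℂ) + (g 1 1 : ℂ) ≠ 0 := by
    rw [mul_comm]
    exact hden
  rw [hfac, hnum]
  field_simp

/-! ## Expansions of the factors -/

/-- every factor `P ∘ δ_i ∘ g` has an expansion in `exp (2πiτ/(Nℓ))`. -/
theorem h11_factor_exp {N : ℕ} [NeZero N] (ℓ : ℕ) (hℓ : 0 < ℓ) {P : ℍ → ℂ}
    (hexp : ∀ g : SL(2, ℤ), ∃ s : LaurentSeries ℂ, HasTExp N (fun τ => P (g • τ)) s)
    (i : Fin (ℓ + 1)) (g : SL(2, ℤ)) :
    ∃ s : LaurentSeries ℂ, HasTExp (N * ℓ) (fun τ => P (heckeAct ℓ i (g • τ))) s := by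
  have hN : 0 < N := Nat.pos_of_ne_zero (NeZero.ne N)
  have hdet : 0 < (heckeRep ℓ i * (g : Matrix (Fin 2) (Fin 2) ℤ)).det := by
    rw [Matrix.det_mul, h17_det_heckeRep, g.det_coe, mul_one]
    exact_mod_cast hℓ
  obtain ⟨g', a, b, d, ha, hd, had, hM⟩ := h11_hermite _ hdet
  have had' : a * d = (ℓ : ℤ) := by
    rw [had, Matrix.det_mul, h17_det_heckeRep, g.det_coe, mul_one]
  obtain ⟨s, hs⟩ := hexp g'
  obtain ⟨a', rfl⟩ := Int.eq_ofNat_of_zero_le ha.le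
  obtain ⟨d', rfl⟩ := Int.eq_ofNat_of_zero_le hd.le
  have ha' : 0 < a' := by exact_mod_cast ha
  have hd' : 0 < d' := by exact_mod_cast hd
  have hℓ' : a' * d' = ℓ := by exact_mod_cast had'
  have : NeZero (a' ^ 2) := ⟨pow_ne_zero 2 ha'.ne'⟩
  have key := hs.affine (a := a') (d := d') (e := a' ^ 2) (b := b) (N := N * ℓ) hd' hN
    (Nat.mul_pos hN hℓ) (by rw [← hℓ']; ring)
    (fun τ => affH ((a' : ℤ) : ℝ) (b : ℝ) ((d' : ℤ) : ℝ) (Int.cast_pos.mpr ha)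
      (Int.cast_pos.mpr hd) τ)
    (fun τ => by
      rw [Fermat.Agent.S28.coe_affH]
      push_cast
      rfl)
  refine ⟨_, key.congr (fun τ => ?_)⟩
  rw [h11_heckeAct_smul_eq ℓ hℓ i g g' a' b d' ha hd hM τ]

/-! ## Periodicity and the coarser parameter -/

/-- an expansion in `exp (2πiτ/(N e))` of an `N`-periodic function is an expansion in
`exp (2πiτ/N)`. -/
theorem h11_hasTExp_coarsen {N e : ℕ} [NeZero N] [NeZero e] {G : ℍ → ℂ} {s : LaurentSeries ℂ}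
    (h : HasTExp (N * e) G s) (hper : ∀ τ : ℍ, G ((N : ℝ) +ᵥ τ) = G τ) :
    ∃ s₁ : LaurentSeries ℂ, HasTExp N G s₁ ∧ s = qExpand ℂ e s₁ := by
  have hN : 0 < N := Nat.pos_of_ne_zero (NeZero.ne N)
  have he : 0 < e := Nat.pos_of_ne_zero (NeZero.ne e)
  have hNe : 0 < N * e := Nat.mul_pos hN he
  have hez : (e : ℤ) ≠ 0 := by exact_mod_cast he.ne'
  set ζ : ℂ := Complex.exp (2 * Real.pi * Complex.I / (e : ℂ)) with hζ
  have hprim : IsPrimitiveRoot ζ e := Complex.isPrimitiveRoot_exp e he.ne'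
  have htr : ∀ τ : ℍ, tParam (N * e) ((N : ℝ) +ᵥ τ) = ζ * tParam (N * e) τ ^ 1 := by
    intro τ
    have hN' : (N : ℂ) ≠ 0 := by exact_mod_cast hN.ne'
    have he' : (e : ℂ) ≠ 0 := by exact_mod_cast he.ne'
    simp only [tParam, Function.Periodic.qParam, Complex.ofReal_natCast,
      UpperHalfPlane.coe_vadd, pow_one, hζ]
    rw [← Complex.exp_add]
    congr 1
    push_cast
    field_simp
  have h1 : HasTExp (N * e) (fun τ => G ((N : ℝ) +ᵥ τ)) (twist ζ s) := by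
    refine h.subst (fun τ => (N : ℝ) +ᵥ τ) ζ 1 one_pos htr _ (fun n => ?_)
      (fun k hk => absurd (one_dvd k) (by simp at hk))
    simp
  have h2 : twist ζ s = s := HasTExp.unique hNe (h1.congr hper) h
  have hvan : ∀ n : ℤ, ¬ (e : ℤ) ∣ n → s.coeff n = 0 := by
    intro n hn
    have h3 : (twist ζ s).coeff n = s.coeff n := by rw [h2]
    rw [Fermat.Agent.S28.coeff_twist] at h3
    by_contra hne
    have h4 : ζ ^ n = 1 := by
      have := mul_left_cancel₀ hne (h3.trans (mul_one _).symm)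
      exact this
    exact hn ((hprim.zpow_eq_one_iff_dvd n).mp h4)
  have hbdd : BddBelow (Function.support (fun k : ℤ => s.coeff ((e : ℤ) * k))) := by
    refine ⟨min s.order 0, fun k hk => ?_⟩
    simp only [Function.mem_support, ne_eq] at hk
    by_contra hlt
    rw [not_le] at hlt
    apply hk
    apply HahnSeries.coeff_eq_zero_of_lt_order
    have hk0 : k < 0 := lt_of_lt_of_le hlt (min_le_right _ _)
    have hks : k < s.order := lt_of_lt_of_le hlt (min_le_left _ _)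
    have he1 : (1 : ℤ) ≤ e := by exact_mod_cast he
    nlinarith
  set s₁ : LaurentSeries ℂ := HahnSeries.ofSuppBddBelow _ hbdd with hs₁
  have hs₁c : ∀ k : ℤ, s₁.coeff k = s.coeff ((e : ℤ) * k) := fun k => by
    rw [hs₁, HahnSeries.coeff_ofSuppBddBelow]
  have hs : s = qExpand ℂ e s₁ := by
    ext n
    by_cases hn : (e : ℤ) ∣ n
    · obtain ⟨k, rfl⟩ := hn
      rw [qExpand_coeff_mul, hs₁c]
    · rw [hvan n hn, qExpand_coeff_of_not_dvd e _ hn]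
  refine ⟨s₁, ?_, hs⟩
  rw [Fermat.Agent.S28.hasTExp_iff] at h ⊢
  intro τ
  have hinj : Function.Injective (fun n : ℤ => (e : ℤ) * n) := mul_right_injective₀ hez
  have hrange : ∀ k : ℤ, k ∉ Set.range (fun n : ℤ => (e : ℤ) * n) →
      s.coeff k * tParam (N * e) τ ^ k = 0 := by
    intro k hk
    rw [hvan k (fun ⟨c, hc⟩ => hk ⟨c, hc.symm⟩), zero_mul]
  refine ((hinj.hasSum_iff hrange).mpr (h τ)).congr_fun (fun n => ?_)
  simp only [Function.comp_apply]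
  have ht : tParam N τ = tParam (N * e) τ ^ e := by
    have := Fermat.Agent.S28.tParam_affine (M := N) (N := N * e) (a := 1) (d := 1) (e := e)
      (b := 0) one_pos hN hNe (by ring) τ τ (by simp)
    simpa using this
  rw [hs₁c, ht, ← zpow_natCast, ← zpow_mul]

/-! ## The product over the representatives -/

theorem h11_prod_mdiff (ℓ : ℕ) (hℓ : 0 < ℓ) {P : ℍ → ℂ} (hP : MDiff P) :
    MDiff (fun τ => ∏ i : Fin (ℓ + 1), P (heckeAct ℓ i τ)) :=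
  h65_mdiff_finset_prod Finset.univ (fun i τ => P (heckeAct ℓ i τ))
    (fun i _ => h65_mdiff_comp_heckeAct ℓ hℓ i hP)

theorem h11_prod_inv {N ℓ : ℕ} (hℓ : ℓ.Prime) (hℓN : ¬ ℓ ∣ N) {P : ℍ → ℂ}
    (hinv : ∀ γ ∈ Gamma0 N, ∀ τ : ℍ, P (γ • τ) = P τ) (γ : SL(2, ℤ)) (hγ : γ ∈ Gamma0 N)
    (τ : ℍ) :
    (∏ i : Fin (ℓ + 1), P (heckeAct ℓ i (γ • τ))) = ∏ i : Fin (ℓ + 1), P (heckeAct ℓ i τ) := by
  obtain ⟨π, c, hd⟩ := h17_heckeDecomp_exists N ℓ hℓ hℓN ⟨γ, hγ⟩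
  have hπ : Function.Bijective π := h17_heckeDecomp_bijective hℓ hd
  have h1 : ∀ i, P (heckeAct ℓ i (γ • τ)) = P (heckeAct ℓ (π i) τ) := by
    intro i
    have h2 := h65_heckeAct_smul N ℓ hℓ.pos ⟨γ, hγ⟩ π c hd i τ
    simp only at h2
    rw [h2, hinv _ (c i).2]
  simp_rw [h1]
  exact Function.Bijective.prod_comp hπ (fun j => P (heckeAct ℓ j τ))

theorem h11_prod_exp_fine {N : ℕ} [NeZero N] (ℓ : ℕ) (hℓ : 0 < ℓ) {P : ℍ → ℂ}
    (hexp : ∀ g : SL(2, ℤ), ∃ s : LaurentSeries ℂ, HasTExp N (fun τ => P (g • τ)) s)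
    (g : SL(2, ℤ)) :
    ∃ s : Fin (ℓ + 1) → LaurentSeries ℂ,
      (∀ i, HasTExp (N * ℓ) (fun τ => P (heckeAct ℓ i (g • τ))) (s i)) ∧
      HasTExp (N * ℓ) (fun τ => ∏ i : Fin (ℓ + 1), P (heckeAct ℓ i (g • τ))) (∏ i, s i) := by
  have hN : 0 < N := Nat.pos_of_ne_zero (NeZero.ne N)
  choose s hs using fun i => h11_factor_exp ℓ hℓ hexp i g
  refine ⟨s, hs, ?_⟩
  have hprod := HasTExp.finset_prod (Nat.mul_pos hN hℓ) (Finset.univ : Finset (Fin (ℓ + 1)))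
    (g := fun i τ => P (heckeAct ℓ i (g • τ))) (s := s) (fun i _ => hs i)
  exact hprod.congr (fun τ => by simp [Finset.prod_apply])

theorem h11_prod_exp {N : ℕ} [NeZero N] {ℓ : ℕ} (hℓ : ℓ.Prime) (hℓN : ¬ ℓ ∣ N) {P : ℍ → ℂ}
    (hinv : ∀ γ ∈ Gamma0 N, ∀ τ : ℍ, P (γ • τ) = P τ)
    (hexp : ∀ g : SL(2, ℤ), ∃ s : LaurentSeries ℂ, HasTExp N (fun τ => P (g • τ)) s)
    (g : SL(2, ℤ)) :
    ∃ s : LaurentSeries ℂ,
      HasTExp N (fun τ => ∏ i : Fin (ℓ + 1), P (heckeAct ℓ i (g • τ))) s := by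
  have : NeZero ℓ := ⟨hℓ.ne_zero⟩
  obtain ⟨s, -, hprod⟩ := h11_prod_exp_fine ℓ hℓ.pos hexp g
  have hper : ∀ τ : ℍ, (∏ i : Fin (ℓ + 1), P (heckeAct ℓ i (g • ((N : ℝ) +ᵥ τ))))
      = ∏ i : Fin (ℓ + 1), P (heckeAct ℓ i (g • τ)) := by
    intro τ
    have h1 : ((N : ℝ) +ᵥ τ) = ModularGroup.T ^ (N : ℤ) • τ := by
      rw [UpperHalfPlane.modular_T_zpow_smul]
      simp
    have h2 : g • (ModularGroup.T ^ (N : ℤ) • τ) =
        (g * ModularGroup.T ^ (N : ℤ) * g⁻¹) • (g • τ) := by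
      rw [mul_smul, mul_smul, inv_smul_smul]
    rw [h1, h2]
    exact h11_prod_inv hℓ hℓN hinv _ (h72_conj_T_pow_mem N g) (g • τ)
  obtain ⟨s₁, hs₁, -⟩ := h11_hasTExp_coarsen hprod hper
  exact ⟨s₁, hs₁⟩

theorem h11_heckeAct_surjective (ℓ : ℕ) (hℓ : 0 < ℓ) (i : Fin (ℓ + 1)) :
    Function.Surjective (heckeAct ℓ i) := by
  intro z
  refine ⟨(h65_gl ℓ hℓ i)⁻¹ • z, ?_⟩
  rw [h65_heckeAct_eq ℓ hℓ, smul_inv_smul]

theorem h11_prod_ne_zero {N : ℕ} [NeZero N] (ℓ : ℕ) (hℓ : 0 < ℓ) {Q : ℍ → ℂ}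
    (hexp : ∀ g : SL(2, ℤ), ∃ s : LaurentSeries ℂ, HasTExp N (fun τ => Q (g • τ)) s)
    (hQ : Q ≠ 0) :
    (fun τ => ∏ i : Fin (ℓ + 1), Q (heckeAct ℓ i τ)) ≠ 0 := by
  have hN : 0 < N := Nat.pos_of_ne_zero (NeZero.ne N)
  obtain ⟨s, hs, hprod⟩ := h11_prod_exp_fine ℓ hℓ hexp 1
  simp only [one_smul] at hs hprod
  have hs0 : ∀ i, s i ≠ 0 := by
    intro i
    apply Fermat.Agent.S24.h25_exp_ne_zero (hs i)
    intro h0
    apply hQ
    funext z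
    obtain ⟨τ, rfl⟩ := h11_heckeAct_surjective ℓ hℓ i z
    exact congrFun h0 τ
  exact Fermat.Agent.S24.h25_fun_ne_zero (Nat.mul_pos hN hℓ) hprod
    (Finset.prod_ne_zero_iff.mpr (fun i _ => hs0 i))

/-- **HAN, analytic fields.** all fields of `IsAn` except `rel` for the products over the Hecke
representatives. -/
theorem h11_han_fields (N : ℕ) [NeZero N] (ℓ : ℕ) (hℓ : ℓ.Prime) (hℓN : ¬ ℓ ∣ N)
    (f : FF N) (P Q : ℍ → ℂ) (h : IsAn N f P Q) :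
    MDiff (fun τ => ∏ i : Fin (ℓ + 1), P (heckeAct ℓ i τ)) ∧
    MDiff (fun τ => ∏ i : Fin (ℓ + 1), Q (heckeAct ℓ i τ)) ∧
    (fun τ => ∏ i : Fin (ℓ + 1), Q (heckeAct ℓ i τ)) ≠ 0 ∧
    (∀ γ ∈ Gamma0 N, ∀ τ : ℍ, (∏ i : Fin (ℓ + 1), P (heckeAct ℓ i (γ • τ)))
      = ∏ i : Fin (ℓ + 1), P (heckeAct ℓ i τ)) ∧
    (∀ γ ∈ Gamma0 N, ∀ τ : ℍ, (∏ i : Fin (ℓ + 1), Q (heckeAct ℓ i (γ • τ)))
      = ∏ i : Fin (ℓ + 1), Q (heckeAct ℓ i τ)) ∧
    (∀ g : SL(2, ℤ), ∃ s : LaurentSeries ℂ,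
      HasTExp N (fun τ => ∏ i : Fin (ℓ + 1), P (heckeAct ℓ i (g • τ))) s) ∧
    (∀ g : SL(2, ℤ), ∃ s : LaurentSeries ℂ,
      HasTExp N (fun τ => ∏ i : Fin (ℓ + 1), Q (heckeAct ℓ i (g • τ))) s) :=
  ⟨h11_prod_mdiff ℓ hℓ.pos h.holoP, h11_prod_mdiff ℓ hℓ.pos h.holoQ,
    h11_prod_ne_zero ℓ hℓ.pos h.expQ h.Q_ne,
    fun γ hγ τ => h11_prod_inv hℓ hℓN h.invP γ hγ τ,
    fun γ hγ τ => h11_prod_inv hℓ hℓN h.invQ γ hγ τ,
    fun g => h11_prod_exp hℓ hℓN h.invP h.expP g,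
    fun g => h11_prod_exp hℓ hℓN h.invQ h.expQ g⟩

/-- the products have `q`-expansions (expansions in `exp (2πiτ)`). -/
theorem h11_prod_exp_one {N : ℕ} [NeZero N] {ℓ : ℕ} (hℓ : ℓ.Prime) (hℓN : ¬ ℓ ∣ N) {P : ℍ → ℂ}
    (hinv : ∀ γ ∈ Gamma0 N, ∀ τ : ℍ, P (γ • τ) = P τ)
    (hexp : ∀ g : SL(2, ℤ), ∃ s : LaurentSeries ℂ, HasTExp N (fun τ => P (g • τ)) s) :
    ∃ s : LaurentSeries ℂ, HasTExp 1 (fun τ => ∏ i : Fin (ℓ + 1), P (heckeAct ℓ i τ)) s := by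
  obtain ⟨s, hs⟩ := h11_prod_exp hℓ hℓN hinv hexp 1
  simp only [one_smul] at hs
  have hper : ∀ τ : ℍ, (∏ i : Fin (ℓ + 1), P (heckeAct ℓ i ((1 : ℝ) +ᵥ τ)))
      = ∏ i : Fin (ℓ + 1), P (heckeAct ℓ i τ) := by
    intro τ
    have h1 : ((1 : ℝ) +ᵥ τ) = ModularGroup.T • τ := by
      rw [UpperHalfPlane.modular_T_smul]
    rw [h1]
    refine h11_prod_inv hℓ hℓN hinv _ ?_ τ
    rw [Gamma0_mem]
    simp [ModularGroup.T]
  obtain ⟨s₁, hs₁, -⟩ := hs.to_one hper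
  exact ⟨s₁, hs₁⟩

/-- **HAN from the norm identity.** `IsAn` for the products, given the field `rel`. -/
theorem h11_isAn_prod_of_rel (N : ℕ) [NeZero N] (ℓ : ℕ) (hℓ : ℓ.Prime) (hℓN : ¬ ℓ ∣ N)
    (f f' : FF N) (P Q : ℍ → ℂ) (h : IsAn N f P Q)
    (hrel : ∃ p q : LaurentSeries ℂ,
      HasTExp 1 (fun τ => ∏ i : Fin (ℓ + 1), P (heckeAct ℓ i τ)) p ∧
      HasTExp 1 (fun τ => ∏ i : Fin (ℓ + 1), Q (heckeAct ℓ i τ)) q ∧
      coeffMap embC (f' : LaurentSeries Kbar) * q = p) :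
    IsAn N f' (fun τ => ∏ i : Fin (ℓ + 1), P (heckeAct ℓ i τ))
      (fun τ => ∏ i : Fin (ℓ + 1), Q (heckeAct ℓ i τ)) := by
  obtain ⟨h1, h2, h3, h4, h5, h6, h7⟩ := h11_han_fields N ℓ hℓ hℓN f P Q h
  exact ⟨h1, h2, h3, h4, h5, h6, h7, hrel⟩

end Fermat.Agent.Jac
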