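import Fermat.Agent.Jac.Skeleton2
import Fermat.Agent.S28.Invariance

/-!
# IN-JAC, task HAN, part 1: Möbius bookkeeping and the cosets `Γ₀(N) / Γ₀(N ℓ)`

* `h12_smul_eq_of_mat` : a matrix identity `(a b; 0 d) γ = γ' (a' b'; 0 d')` gives the
  corresponding identity of points of `ℍ`;
* `h12_rep N ℓ u v h i` (`i : Fin (ℓ + 1)`) : explicit representatives of `Γ₀(N) / Γ₀(N ℓ)`
  (`u ℓ - v N = 1`), adapted to the Hecke representatives: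
  `ℓ • ((rep i)⁻¹ • τ) = c • heckeAct ℓ i τ` with `c ∈ Γ₀(N)`.
-/

set_option autoImplicit false

open UpperHalfPlane CongruenceSubgroup
open scoped MatrixGroups

noncomputable section

namespace Fermat.Agent.Jac

open Fermat.Agent.S28 (scaleH affH coe_scaleH coe_affH)

/-- membership in `Γ₀(N)` in terms of divisibility. -/
theorem h12_mem_Gamma0_iff (N : ℕ) (γ : SL(2, ℤ)) : γ ∈ Gamma0 N ↔ (N : ℤ) ∣ γ 1 0 := by
  rw [Gamma0_mem, ZMod.intCast_zmod_eq_zero_iff_dvd]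

theorem h12_Gamma0_mul_le (N ℓ : ℕ) : Gamma0 (N * ℓ) ≤ Gamma0 N := by
  intro γ hγ
  rw [h12_mem_Gamma0_iff] at hγ ⊢
  exact dvd_trans ⟨(ℓ : ℤ), by push_cast; ring⟩ hγ

theorem h12_denom_ne_zero (γ : SL(2, ℤ)) (τ : ℍ) :
    ((γ 1 0 : ℂ) * (τ : ℂ) + (γ 1 1 : ℂ)) ≠ 0 := by
  have := UpperHalfPlane.denom_ne_zero (γ : GL (Fin 2) ℝ) τ
  rwa [ModularGroup.denom_apply] at this

theorem h12_coe_smul (γ : SL(2, ℤ)) (τ : ℍ) :
    ((γ • τ : ℍ) : ℂ) = ((γ 0 0 : ℂ) * (τ : ℂ) + (γ 0 1 : ℂ)) /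
      ((γ 1 0 : ℂ) * (τ : ℂ) + (γ 1 1 : ℂ)) := by
  rw [UpperHalfPlane.coe_specialLinearGroup_apply]
  simp only [algebraMap_int_eq, Int.coe_castRingHom, Complex.ofReal_intCast]

/-- **Möbius bookkeeping.** If `(a b; 0 d) γ = γ' (a' b'; 0 d')` then
`(a (γ τ) + b) / d = γ' ((a' τ + b') / d')`. -/
theorem h12_smul_eq_of_mat {γ γ' : SL(2, ℤ)} {a b d a' b' d' : ℤ} (hd : d ≠ 0) (hd' : d' ≠ 0)
    (h : !![a, b; 0, d] * (γ : Matrix (Fin 2) (Fin 2) ℤ) =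
      (γ' : Matrix (Fin 2) (Fin 2) ℤ) * !![a', b'; 0, d'])
    {τ z z' : ℍ} (hz : (z : ℂ) = ((a : ℂ) * ((γ • τ : ℍ) : ℂ) + (b : ℂ)) / (d : ℂ))
    (hz' : (z' : ℂ) = ((a' : ℂ) * (τ : ℂ) + (b' : ℂ)) / (d' : ℂ)) :
    z = γ' • z' := by
  have h00 : a * γ 0 0 + b * γ 1 0 = γ' 0 0 * a' := by
    have := congrFun (congrFun h 0) 0
    simpa [Matrix.mul_apply, Fin.sum_univ_two] using this
  have h01 : a * γ 0 1 + b * γ 1 1 = γ' 0 0 * b' + γ' 0 1 * d' := by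
    have := congrFun (congrFun h 0) 1
    simpa [Matrix.mul_apply, Fin.sum_univ_two] using this
  have h10 : d * γ 1 0 = γ' 1 0 * a' := by
    have := congrFun (congrFun h 1) 0
    simpa [Matrix.mul_apply, Fin.sum_univ_two] using this
  have h11 : d * γ 1 1 = γ' 1 0 * b' + γ' 1 1 * d' := by
    have := congrFun (congrFun h 1) 1
    simpa [Matrix.mul_apply, Fin.sum_univ_two] using this
  have h00c : (a : ℂ) * (γ 0 0 : ℂ) + (b : ℂ) * (γ 1 0 : ℂ) = (γ' 0 0 : ℂ) * (a' : ℂ) := by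
    exact_mod_cast h00
  have h01c : (a : ℂ) * (γ 0 1 : ℂ) + (b : ℂ) * (γ 1 1 : ℂ)
      = (γ' 0 0 : ℂ) * (b' : ℂ) + (γ' 0 1 : ℂ) * (d' : ℂ) := by
    exact_mod_cast h01
  have h10c : (d : ℂ) * (γ 1 0 : ℂ) = (γ' 1 0 : ℂ) * (a' : ℂ) := by exact_mod_cast h10
  have h11c : (d : ℂ) * (γ 1 1 : ℂ) = (γ' 1 0 : ℂ) * (b' : ℂ) + (γ' 1 1 : ℂ) * (d' : ℂ) := by
    exact_mod_cast h11
  have hdc : (d : ℂ) ≠ 0 := by exact_mod_cast hd
  have hdc' : (d' : ℂ) ≠ 0 := by exact_mod_cast hd'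
  have hden := h12_denom_ne_zero γ τ
  have hden' := h12_denom_ne_zero γ' z'
  have hfac : ((γ' 1 0 : ℂ) * (z' : ℂ) + (γ' 1 1 : ℂ)) * (d' : ℂ) =
      (d : ℂ) * ((γ 1 0 : ℂ) * (τ : ℂ) + (γ 1 1 : ℂ)) := by
    rw [hz']
    field_simp
    linear_combination -(τ : ℂ) * h10c - h11c
  have hnum : ((γ' 0 0 : ℂ) * (z' : ℂ) + (γ' 0 1 : ℂ)) * (d' : ℂ) =
      (a : ℂ) * ((γ 0 0 : ℂ) * (τ : ℂ) + (γ 0 1 : ℂ)) +
        (b : ℂ) * ((γ 1 0 : ℂ) * (τ : ℂ) + (γ 1 1 : ℂ)) := by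
    rw [hz']
    field_simp
    linear_combination -(τ : ℂ) * h00c - h01c
  apply UpperHalfPlane.ext
  rw [hz, h12_coe_smul γ' z', h12_coe_smul γ τ]
  generalize ((γ 1 0 : ℂ) * (τ : ℂ) + (γ 1 1 : ℂ)) = D at hden hfac hnum ⊢
  generalize ((γ 0 0 : ℂ) * (τ : ℂ) + (γ 0 1 : ℂ)) = Nn at hnum ⊢
  generalize ((γ' 1 0 : ℂ) * (z' : ℂ) + (γ' 1 1 : ℂ)) = D' at hden' hfac ⊢
  generalize ((γ' 0 0 : ℂ) * (z' : ℂ) + (γ' 0 1 : ℂ)) = N' at hnum ⊢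
  rw [div_eq_div_iff hdc hden']
  have e1 : (a : ℂ) * (Nn / D) + (b : ℂ) = (N' * (d' : ℂ)) / D := by
    rw [hnum, mul_div_assoc', div_add' _ _ _ hden]
  rw [e1, div_mul_eq_mul_div, div_eq_iff hden]
  linear_combination N' * hfac

/-! ## the Hecke action on points -/

theorem h12_coe_heckeAct_lt {ℓ : ℕ} {i : Fin (ℓ + 1)} (h : (i : ℕ) < ℓ) (τ : ℍ) :
    ((heckeAct ℓ i τ : ℍ) : ℂ) = ((τ : ℂ) + ((i : ℕ) : ℂ)) / (ℓ : ℂ) := by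
  rw [heckeAct, dif_pos h]

theorem h12_heckeAct_last {ℓ : ℕ} {i : Fin (ℓ + 1)} (h : ¬ (i : ℕ) < ℓ) (τ : ℍ) :
    heckeAct ℓ i τ = scaleH ℓ τ := by
  rw [heckeAct, dif_neg h]

/-! ## explicit representatives -/

section Reps

variable (N ℓ : ℕ) (u v : ℤ) (huv : u * ℓ - v * N = 1)

/-- the element `(ℓ u - b N, v - b; N, 1)` of `Γ₀(N)`. -/
def h12_g (b : ℤ) : SL(2, ℤ) :=
  ⟨!![(ℓ : ℤ) * u - b * N, v - b; (N : ℤ), 1], by
    rw [Matrix.det_fin_two_of]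
    linear_combination huv⟩

/-- the element `(ℓ, -v; -N, u)` of `Γ₀(N)`. -/
def h12_c : SL(2, ℤ) :=
  ⟨!![(ℓ : ℤ), -v; -(N : ℤ), u], by
    rw [Matrix.det_fin_two_of]
    linear_combination huv⟩

/-- representatives of `Γ₀(N) / Γ₀(N ℓ)`. -/
def h12_rep (i : Fin (ℓ + 1)) : SL(2, ℤ) :=
  if (i : ℕ) < ℓ then h12_g N ℓ u v huv ((i : ℕ) : ℤ) else 1

/-- the elements `c i ∈ Γ₀(N)` with `ℓ • ((rep i)⁻¹ • τ) = c i • heckeAct ℓ i τ`. -/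
def h12_cc (i : Fin (ℓ + 1)) : SL(2, ℤ) :=
  if (i : ℕ) < ℓ then h12_c N ℓ u v huv else 1

theorem h12_g_mem (b : ℤ) : h12_g N ℓ u v huv b ∈ Gamma0 N := by
  rw [h12_mem_Gamma0_iff]
  show (N : ℤ) ∣ (N : ℤ)
  exact dvd_rfl

theorem h12_c_mem : h12_c N ℓ u v huv ∈ Gamma0 N := by
  rw [h12_mem_Gamma0_iff]
  show (N : ℤ) ∣ -(N : ℤ)
  exact (dvd_neg).mpr dvd_rfl

theorem h12_rep_mem (i : Fin (ℓ + 1)) : h12_rep N ℓ u v huv i ∈ Gamma0 N := by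
  unfold h12_rep
  split_ifs
  · exact h12_g_mem N ℓ u v huv _
  · exact one_mem _

theorem h12_cc_mem (i : Fin (ℓ + 1)) : h12_cc N ℓ u v huv i ∈ Gamma0 N := by
  unfold h12_cc
  split_ifs
  · exact h12_c_mem N ℓ u v huv
  · exact one_mem _

theorem h12_inv_apply (A : SL(2, ℤ)) :
    (A⁻¹ : SL(2, ℤ)) 0 0 = A 1 1 ∧ (A⁻¹ : SL(2, ℤ)) 0 1 = -A 0 1 ∧
      (A⁻¹ : SL(2, ℤ)) 1 0 = -A 1 0 ∧ (A⁻¹ : SL(2, ℤ)) 1 1 = A 0 0 := by
  rw [Matrix.SpecialLinearGroup.SL2_inv_expl]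
  refine ⟨rfl, rfl, rfl, rfl⟩

theorem h12_mul_apply (A B : SL(2, ℤ)) (i j : Fin 2) :
    (A * B : SL(2, ℤ)) i j = A i 0 * B 0 j + A i 1 * B 1 j := by
  rw [Matrix.SpecialLinearGroup.coe_mul, Matrix.mul_apply, Fin.sum_univ_two]

theorem h12_g_apply (b : ℤ) :
    h12_g N ℓ u v huv b 0 0 = (ℓ : ℤ) * u - b * N ∧ h12_g N ℓ u v huv b 0 1 = v - b ∧
      h12_g N ℓ u v huv b 1 0 = N ∧ h12_g N ℓ u v huv b 1 1 = 1 :=
  ⟨rfl, rfl, rfl, rfl⟩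

theorem h12_c_apply :
    h12_c N ℓ u v huv 0 0 = (ℓ : ℤ) ∧ h12_c N ℓ u v huv 0 1 = -v ∧
      h12_c N ℓ u v huv 1 0 = -(N : ℤ) ∧ h12_c N ℓ u v huv 1 1 = u :=
  ⟨rfl, rfl, rfl, rfl⟩

/-- the key matrix identity `diag(ℓ, 1) g_b⁻¹ = c (1 b; 0 ℓ)`. -/
theorem h12_mat_g (b : ℤ) :
    !![(ℓ : ℤ), 0; 0, 1] * (((h12_g N ℓ u v huv b)⁻¹ : SL(2, ℤ)) : Matrix (Fin 2) (Fin 2) ℤ) =
      ((h12_c N ℓ u v huv : SL(2, ℤ)) : Matrix (Fin 2) (Fin 2) ℤ) * !![1, b; 0, (ℓ : ℤ)] := by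
  obtain ⟨i00, i01, i10, i11⟩ := h12_inv_apply (h12_g N ℓ u v huv b)
  obtain ⟨g00, g01, g10, g11⟩ := h12_g_apply N ℓ u v huv b
  obtain ⟨c00, c01, c10, c11⟩ := h12_c_apply N ℓ u v huv
  ext i j
  fin_cases i <;> fin_cases j
  · simp only [Fin.zero_eta, Fin.isValue, Matrix.mul_apply, Fin.sum_univ_two, Matrix.of_apply,
      Matrix.cons_val', Matrix.cons_val_zero, Matrix.cons_val_fin_one, Matrix.cons_val_one]
    rw [i00, g11, c00]; ring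
  · simp only [Fin.zero_eta, Fin.mk_one, Fin.isValue, Matrix.mul_apply, Fin.sum_univ_two,
      Matrix.of_apply, Matrix.cons_val', Matrix.cons_val_zero, Matrix.cons_val_fin_one,
      Matrix.cons_val_one]
    rw [i01, g01, c00, c01]; ring
  · simp only [Fin.zero_eta, Fin.mk_one, Fin.isValue, Matrix.mul_apply, Fin.sum_univ_two,
      Matrix.of_apply, Matrix.cons_val', Matrix.cons_val_zero, Matrix.cons_val_fin_one,
      Matrix.cons_val_one]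
    rw [i10, g10, c10]; ring
  · simp only [Fin.mk_one, Fin.isValue, Matrix.mul_apply, Fin.sum_univ_two, Matrix.of_apply,
      Matrix.cons_val', Matrix.cons_val_zero, Matrix.cons_val_fin_one, Matrix.cons_val_one]
    rw [i11, g00, c10, c11]; ring

/-- **the representatives are adapted to the Hecke representatives.** -/
theorem h12_scale_rep (hℓ : 0 < ℓ) (i : Fin (ℓ + 1)) (τ : ℍ) :
    scaleH ℓ ((h12_rep N ℓ u v huv i)⁻¹ • τ) = h12_cc N ℓ u v huv i • heckeAct ℓ i τ := by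
  by_cases hi : (i : ℕ) < ℓ
  · have hr : h12_rep N ℓ u v huv i = h12_g N ℓ u v huv ((i : ℕ) : ℤ) := by
      rw [h12_rep, if_pos hi]
    have hc : h12_cc N ℓ u v huv i = h12_c N ℓ u v huv := by
      rw [h12_cc, if_pos hi]
    rw [hr, hc]
    have hℓz : (ℓ : ℤ) ≠ 0 := by exact_mod_cast hℓ.ne'
    refine h12_smul_eq_of_mat (a := ℓ) (b := 0) (d := 1) (a' := 1) (b' := ((i : ℕ) : ℤ))
      (d' := ℓ) (τ := τ) one_ne_zero hℓz (h12_mat_g N ℓ u v huv _) ?_ ?_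
    · rw [coe_scaleH hℓ]
      push_cast
      ring
    · rw [h12_coe_heckeAct_lt hi]
      push_cast
      ring
  · have hr : h12_rep N ℓ u v huv i = 1 := by rw [h12_rep, if_neg hi]
    have hc : h12_cc N ℓ u v huv i = 1 := by rw [h12_cc, if_neg hi]
    rw [hr, hc, inv_one, one_smul, one_smul, h12_heckeAct_last hi]

/-- distinct representatives lie in distinct cosets of `Γ₀(N ℓ)`. -/
theorem h12_rep_injective (hℓ : ℓ.Prime) (hN : ¬ ℓ ∣ N) {i j : Fin (ℓ + 1)}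
    (h : (h12_rep N ℓ u v huv i)⁻¹ * h12_rep N ℓ u v huv j ∈ Gamma0 (N * ℓ)) : i = j := by
  rw [h12_mem_Gamma0_iff, h12_mul_apply] at h
  obtain ⟨-, -, i10, i11⟩ := h12_inv_apply (h12_rep N ℓ u v huv i)
  rw [i10, i11] at h
  have hcop : IsCoprime (ℓ : ℤ) (N : ℤ) := by
    rw [Int.isCoprime_iff_gcd_eq_one, Int.gcd_natCast_natCast]
    exact (Nat.Prime.coprime_iff_not_dvd hℓ).mpr hN
  have hℓN : ¬ ((ℓ : ℤ) ∣ (N : ℤ)) := by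
    intro hd
    exact hN (by exact_mod_cast hd)
  by_cases hi : (i : ℕ) < ℓ <;> by_cases hj : (j : ℕ) < ℓ
  · -- both finite
    have ri : h12_rep N ℓ u v huv i = h12_g N ℓ u v huv ((i : ℕ) : ℤ) := by
      rw [h12_rep, if_pos hi]
    have rj : h12_rep N ℓ u v huv j = h12_g N ℓ u v huv ((j : ℕ) : ℤ) := by
      rw [h12_rep, if_pos hj]
    rw [ri, rj] at h
    obtain ⟨a00, -, a10, -⟩ := h12_g_apply N ℓ u v huv ((i : ℕ) : ℤ)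
    obtain ⟨b00, -, b10, -⟩ := h12_g_apply N ℓ u v huv ((j : ℕ) : ℤ)
    rw [a00, a10, b00, b10] at h
    -- `N ℓ ∣ N^2 (i - j)`
    have h1 : ((N * ℓ : ℕ) : ℤ) ∣ (N : ℤ) * ((N : ℤ) * (((i : ℕ) : ℤ) - ((j : ℕ) : ℤ))) := by
      have e : -(N : ℤ) * ((ℓ : ℤ) * u - ((j : ℕ) : ℤ) * N) +
          ((ℓ : ℤ) * u - ((i : ℕ) : ℤ) * N) * N
          = -((N : ℤ) * ((N : ℤ) * (((i : ℕ) : ℤ) - ((j : ℕ) : ℤ)))) := by ring
      rw [e] at h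
      exact (dvd_neg).mp h
    have hN0 : (N : ℤ) ≠ 0 := by
      intro h0
      apply hℓN
      rw [h0]
      exact dvd_zero _
    have h2 : (ℓ : ℤ) ∣ (N : ℤ) * (((i : ℕ) : ℤ) - ((j : ℕ) : ℤ)) := by
      have e : ((N * ℓ : ℕ) : ℤ) = (N : ℤ) * (ℓ : ℤ) := by push_cast; ring
      rw [e] at h1
      exact (mul_dvd_mul_iff_left hN0).mp h1
    have h3 : (ℓ : ℤ) ∣ ((i : ℕ) : ℤ) - ((j : ℕ) : ℤ) := hcop.dvd_of_dvd_mul_left h2
    have h4 : ((i : ℕ) : ℤ) = ((j : ℕ) : ℤ) := by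
      have hi' : ((i : ℕ) : ℤ) < ℓ := by exact_mod_cast hi
      have hj' : ((j : ℕ) : ℤ) < ℓ := by exact_mod_cast hj
      have hi0 : (0 : ℤ) ≤ ((i : ℕ) : ℤ) := Int.natCast_nonneg _
      have hj0 : (0 : ℤ) ≤ ((j : ℕ) : ℤ) := Int.natCast_nonneg _
      obtain ⟨k, hk⟩ := h3
      have hℓpos : (0 : ℤ) < ℓ := by exact_mod_cast hℓ.pos
      have hk0 : k = 0 := by
        by_contra hk0
        rcases lt_or_gt_of_ne hk0 with hneg | hpos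
        · have : (ℓ : ℤ) * k ≤ (ℓ : ℤ) * (-1) :=
            mul_le_mul_of_nonneg_left (by omega) hℓpos.le
          omega
        · have : (ℓ : ℤ) * 1 ≤ (ℓ : ℤ) * k :=
            mul_le_mul_of_nonneg_left (by omega) hℓpos.le
          omega
      rw [hk0, mul_zero] at hk
      omega
    exact Fin.ext (by exact_mod_cast h4)
  · -- `i` finite, `j = ∞`
    exfalso
    have ri : h12_rep N ℓ u v huv i = h12_g N ℓ u v huv ((i : ℕ) : ℤ) := by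
      rw [h12_rep, if_pos hi]
    have rj : h12_rep N ℓ u v huv j = 1 := by rw [h12_rep, if_neg hj]
    rw [ri, rj] at h
    obtain ⟨a00, -, a10, -⟩ := h12_g_apply N ℓ u v huv ((i : ℕ) : ℤ)
    rw [a00, a10] at h
    have e : -(N : ℤ) * ((1 : SL(2, ℤ)) 0 0) + ((ℓ : ℤ) * u - ((i : ℕ) : ℤ) * N) *
        ((1 : SL(2, ℤ)) 1 0) = -(N : ℤ) := by
      simp
    rw [e] at h
    have h1 : ((N * ℓ : ℕ) : ℤ) ∣ (N : ℤ) := (dvd_neg).mp h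
    have h2 : (ℓ : ℤ) ∣ (N : ℤ) := dvd_trans ⟨(N : ℤ), by push_cast; ring⟩ h1
    exact hℓN h2
  · -- `i = ∞`, `j` finite
    exfalso
    have ri : h12_rep N ℓ u v huv i = 1 := by rw [h12_rep, if_neg hi]
    have rj : h12_rep N ℓ u v huv j = h12_g N ℓ u v huv ((j : ℕ) : ℤ) := by
      rw [h12_rep, if_pos hj]
    rw [ri, rj] at h
    obtain ⟨b00, -, b10, -⟩ := h12_g_apply N ℓ u v huv ((j : ℕ) : ℤ)
    rw [b00, b10] at h
    have e : -((1 : SL(2, ℤ)) 1 0) * ((ℓ : ℤ) * u - ((j : ℕ) : ℤ) * N) +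
        ((1 : SL(2, ℤ)) 0 0) * (N : ℤ) = (N : ℤ) := by
      simp
    rw [e] at h
    have h2 : (ℓ : ℤ) ∣ (N : ℤ) := dvd_trans ⟨(N : ℤ), by push_cast; ring⟩ h
    exact hℓN h2
  · -- both `∞`
    have hi' : (i : ℕ) = ℓ := by have := i.2; omega
    have hj' : (j : ℕ) = ℓ := by have := j.2; omega
    exact Fin.ext (hi'.trans hj'.symm)

/-- every element of `Γ₀(N)` lies in one of the cosets `rep j • Γ₀(N ℓ)`. -/
theorem h12_rep_surjective (hℓ : ℓ.Prime) (γ : SL(2, ℤ)) (hγ : γ ∈ Gamma0 N) :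
    ∃ j : Fin (ℓ + 1), (h12_rep N ℓ u v huv j)⁻¹ * γ ∈ Gamma0 (N * ℓ) := by
  rw [h12_mem_Gamma0_iff] at hγ
  obtain ⟨z', hz'⟩ := hγ
  by_cases hdiv : (ℓ : ℤ) ∣ z'
  · -- `j = ∞`
    refine ⟨Fin.last ℓ, ?_⟩
    have hr : h12_rep N ℓ u v huv (Fin.last ℓ) = 1 := by
      rw [h12_rep, if_neg (by simp)]
    rw [hr, inv_one, one_mul, h12_mem_Gamma0_iff, hz']
    obtain ⟨k, hk⟩ := hdiv
    exact ⟨k, by rw [hk]; push_cast; ring⟩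
  · -- `j = b` with `b z' ≡ -x (mod ℓ)`
    have : Fact ℓ.Prime := ⟨hℓ⟩
    have hz0 : ((z' : ℤ) : ZMod ℓ) ≠ 0 := by
      rw [Ne, ZMod.intCast_zmod_eq_zero_iff_dvd]
      exact hdiv
    -- `N` is invertible mod `ℓ`: from `u ℓ - v N = 1`
    set x : ℤ := γ 0 0 with hx
    set bz : ZMod ℓ := -((x : ZMod ℓ)) * ((N : ZMod ℓ) * (z' : ZMod ℓ))⁻¹ with hbz
    have hNz : ((N : ZMod ℓ) * (z' : ZMod ℓ)) ≠ 0 := by
      refine mul_ne_zero ?_ hz0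
      intro hN0
      have h1 : ((u * ℓ - v * N : ℤ) : ZMod ℓ) = 1 := by rw [huv]; simp
      push_cast at h1
      rw [hN0] at h1
      simp at h1
    have hb : (bz.val : ℕ) < ℓ := ZMod.val_lt bz
    refine ⟨⟨bz.val, by omega⟩, ?_⟩
    have hr : h12_rep N ℓ u v huv ⟨bz.val, by omega⟩ = h12_g N ℓ u v huv ((bz.val : ℕ) : ℤ) := by
      rw [h12_rep, if_pos hb]
    rw [hr, h12_mem_Gamma0_iff, h12_mul_apply]
    obtain ⟨-, -, i10, i11⟩ := h12_inv_apply (h12_g N ℓ u v huv ((bz.val : ℕ) : ℤ))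
    obtain ⟨g00, -, g10, -⟩ := h12_g_apply N ℓ u v huv ((bz.val : ℕ) : ℤ)
    rw [i10, i11, g00, g10, hz']
    -- the entry is `N (-x - b N z' + ℓ u z')`
    have e : -(N : ℤ) * γ 0 0 + ((ℓ : ℤ) * u - ((bz.val : ℕ) : ℤ) * N) * ((N : ℤ) * z')
        = (N : ℤ) * (-x - ((bz.val : ℕ) : ℤ) * ((N : ℤ) * z') + (ℓ : ℤ) * (u * z')) := by
      rw [hx]; ring
    rw [e]
    have h1 : (ℓ : ℤ) ∣ -x - ((bz.val : ℕ) : ℤ) * ((N : ℤ) * z') + (ℓ : ℤ) * (u * z') := by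
      rw [← ZMod.intCast_zmod_eq_zero_iff_dvd]
      push_cast
      rw [ZMod.natCast_zmod_val, ZMod.natCast_self, zero_mul, add_zero, hbz]
      have hinv : ((N : ZMod ℓ) * (z' : ZMod ℓ))⁻¹ * ((N : ZMod ℓ) * (z' : ZMod ℓ)) = 1 :=
        inv_mul_cancel₀ hNz
      linear_combination (x : ZMod ℓ) * hinv
    obtain ⟨k, hk⟩ := h1
    exact ⟨k, by rw [hk]; push_cast; ring⟩

end Reps

end Fermat.Agent.Jac
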