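import Fermat.Agent.Jac.HANAn
import Fermat.Agent.S24.TayAx
import Fermat.Agent.S24.EmbPointCore

/-!
# IN-JAC, task HAN, part 4: the product over the Hecke representatives

For a `Γ₀(N)`-invariant function `H` the product `∏ i, H (δ_i τ)` over the `ℓ + 1` Hecke
representatives is holomorphic, `Γ₀(N)`-invariant and has expansions at all cusps.
-/

set_option autoImplicit false
set_option linter.style.haveILetI false
set_option linter.unusedSectionVars false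

open ModularCurve AlgebraicCurve UpperHalfPlane CongruenceSubgroup
open scoped MatrixGroups Manifold

noncomputable section

namespace Fermat.Agent.Jac

open Fermat.Agent.S24 (Kbar FF embC IsAn tayAt germOf TayAxioms)
open Fermat.Agent.S28 (HasTExp scaleH affH coe_scaleH coe_affH)

/-! ## finite products of holomorphic functions -/

theorem h12_mdiff_finset_prod {ι : Type} (s : Finset ι) (F : ι → ℍ → ℂ)
    (h : ∀ i ∈ s, MDiff (F i)) : MDiff (∏ i ∈ s, F i) := by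
  classical
  induction s using Finset.induction_on with
  | empty =>
    simp only [Finset.prod_empty]
    exact mdifferentiable_const
  | insert a t ha ih =>
    rw [Finset.prod_insert ha]
    exact (h a (Finset.mem_insert_self a t)).mul
      (ih fun i hi => h i (Finset.mem_insert_of_mem hi))

theorem h12_tay_finset_prod (hT : TayAxioms) {ι : Type} (s : Finset ι) (F : ι → ℍ → ℂ)
    (h : ∀ i ∈ s, MDiff (F i)) (τ₀ : ℍ) :
    tayAt τ₀ (∏ i ∈ s, F i) = ∏ i ∈ s, tayAt τ₀ (F i) := by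
  classical
  induction s using Finset.induction_on with
  | empty =>
    simp only [Finset.prod_empty]
    have := hT.const 1 τ₀
    rw [map_one] at this
    exact this
  | insert a t ha ih =>
    rw [Finset.prod_insert ha, Finset.prod_insert ha,
      hT.mul (h a (Finset.mem_insert_self a t))
        (h12_mdiff_finset_prod t F fun i hi => h i (Finset.mem_insert_of_mem hi)),
      ih fun i hi => h i (Finset.mem_insert_of_mem hi)]

/-! ## change of period -/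

/-- change of period `N ℓ → N` for an `N`-periodic function. -/
theorem h12_hasTExp_descend {N ℓ : ℕ} (hN : 0 < N) (hℓ : 0 < ℓ) {G : ℍ → ℂ}
    {s : LaurentSeries ℂ} (h : HasTExp (N * ℓ) G s)
    (hper : ∀ τ : ℍ, G ((N : ℝ) +ᵥ τ) = G τ) :
    ∃ t : LaurentSeries ℂ, HasTExp N G t := by
  haveI : NeZero ℓ := ⟨hℓ.ne'⟩
  have h1 := h.affine (a := N) (d := 1) (e := 1) (b := 0) (N := ℓ) one_pos
    (Nat.mul_pos hN hℓ) hℓ (by ring) (scaleH N)
    (fun τ => by rw [coe_scaleH hN]; push_cast; ring)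
  have hper1 : ∀ τ : ℍ, G (scaleH N ((1 : ℝ) +ᵥ τ)) = G (scaleH N τ) := by
    intro τ
    have : scaleH N ((1 : ℝ) +ᵥ τ) = (N : ℝ) +ᵥ scaleH N τ := by
      apply UpperHalfPlane.ext
      rw [coe_scaleH hN, UpperHalfPlane.coe_vadd, UpperHalfPlane.coe_vadd, coe_scaleH hN]
      push_cast
      ring
    rw [this, hper]
  obtain ⟨s₁, hs₁, -⟩ := h1.to_one hper1
  have h2 := hs₁.affine (a := 1) (d := N) (e := 1) (b := 0) (N := N) hN one_pos hN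
    (by ring) (h12_divH N) (fun τ => by rw [h12_coe_divH hN]; push_cast; ring)
  refine ⟨_, h2.congr (fun τ => ?_)⟩
  show G (scaleH N (h12_divH N τ)) = G τ
  rw [h12_scaleH_divH hN]

/-- `Γ(N) ≤ Γ₀(N)`. -/
theorem h12_Gamma_le_Gamma0 (N : ℕ) : Gamma N ≤ Gamma0 N := by
  intro γ hγ
  rw [Gamma_mem] at hγ
  exact Gamma0_mem.mpr hγ.2.2.1

/-- the conjugates of `T ^ N` lie in `Γ₀(N)`. -/
theorem h12_conj_T_pow_mem (N : ℕ) (g : SL(2, ℤ)) :
    g * ModularGroup.T ^ (N : ℤ) * g⁻¹ ∈ Gamma0 N := by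
  apply h12_Gamma_le_Gamma0
  have h := ModularGroup_T_pow_mem_Gamma (N : ℤ) (N : ℤ) dvd_rfl
  rw [Int.natAbs_natCast] at h
  exact (Gamma_normal N).conj_mem _ h g

/-- an invariant function composed with `g` is `N`-periodic. -/
theorem h12_periodic_of_inv {N : ℕ} {G : ℍ → ℂ}
    (hinv : ∀ γ ∈ Gamma0 N, ∀ τ : ℍ, G (γ • τ) = G τ) (g : SL(2, ℤ)) (τ : ℍ) :
    G (g • ((N : ℝ) +ᵥ τ)) = G (g • τ) := by
  have h1 : ((N : ℝ) +ᵥ τ) = ModularGroup.T ^ (N : ℤ) • τ := by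
    rw [UpperHalfPlane.modular_T_zpow_smul]
    push_cast
    rfl
  have h2 : g • (ModularGroup.T ^ (N : ℤ) • τ)
      = (g * ModularGroup.T ^ (N : ℤ) * g⁻¹) • (g • τ) := by
    rw [mul_smul, mul_smul, inv_smul_smul]
  rw [h1, h2, hinv _ (h12_conj_T_pow_mem N g)]

/-! ## the Hecke product -/

/-- the product of `H` over the `ℓ + 1` Hecke representatives. -/
def h12_hprod (ℓ : ℕ) (H : ℍ → ℂ) : ℍ → ℂ :=
  fun τ => ∏ i : Fin (ℓ + 1), H (heckeAct ℓ i τ)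

section Main

variable (N ℓ : ℕ) [NeZero N] [NeZero ℓ] (u v : ℤ) (huv : u * ℓ - v * N = 1)

/-- the translate `τ ↦ H (ℓ (R_i⁻¹ τ))`. -/
def h12_fac (H : ℍ → ℂ) (i : Fin (ℓ + 1)) : ℍ → ℂ :=
  fun τ => H (scaleH ℓ ((h12_rep N ℓ u v huv i)⁻¹ • τ))

theorem h12_heckeAct_eq {H : ℍ → ℂ} (hinv : ∀ γ ∈ Gamma0 N, ∀ τ : ℍ, H (γ • τ) = H τ)
    (i : Fin (ℓ + 1)) (τ : ℍ) :
    H (heckeAct ℓ i τ) = h12_fac N ℓ u v huv H i τ := by
  rw [h12_fac, h12_scale_rep N ℓ u v huv (Nat.pos_of_ne_zero (NeZero.ne ℓ)) i τ,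
    hinv _ (h12_cc_mem N ℓ u v huv i)]

theorem h12_hprod_eq {H : ℍ → ℂ} (hinv : ∀ γ ∈ Gamma0 N, ∀ τ : ℍ, H (γ • τ) = H τ) :
    h12_hprod ℓ H = ∏ i : Fin (ℓ + 1), h12_fac N ℓ u v huv H i := by
  funext τ
  rw [h12_hprod, Finset.prod_apply]
  exact Finset.prod_congr rfl fun i _ => h12_heckeAct_eq N ℓ u v huv hinv i τ

theorem h12_fac_mdiff {H : ℍ → ℂ} (hH : MDiff H) (i : Fin (ℓ + 1)) :
    MDiff (h12_fac N ℓ u v huv H i) :=
  Fermat.Agent.S24.h25_mdiff_comp_smul (Fermat.Agent.S28.Holo.comp_scaleH (f := H) hH ℓ) _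

include huv in
/-- (B1) the Hecke product is holomorphic. -/
theorem h12_hprod_mdiff {H : ℍ → ℂ} (hH : MDiff H)
    (hinv : ∀ γ ∈ Gamma0 N, ∀ τ : ℍ, H (γ • τ) = H τ) : MDiff (h12_hprod ℓ H) := by
  rw [h12_hprod_eq N ℓ u v huv hinv]
  exact h12_mdiff_finset_prod _ _ fun i _ => h12_fac_mdiff N ℓ u v huv hH i

omit [NeZero N] [NeZero ℓ] in
/-- the permutation of the representatives induced by `γ ∈ Γ₀(N)`. -/
theorem h12_exists_perm (hℓ : ℓ.Prime) (hN : ¬ ℓ ∣ N) (γ : SL(2, ℤ)) (hγ : γ ∈ Gamma0 N) :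
    ∃ π : Fin (ℓ + 1) → Fin (ℓ + 1), Function.Bijective π ∧
      ∀ i, (h12_rep N ℓ u v huv (π i))⁻¹ * (γ⁻¹ * h12_rep N ℓ u v huv i) ∈ Gamma0 (N * ℓ) := by
  have hex : ∀ i : Fin (ℓ + 1), ∃ j : Fin (ℓ + 1),
      (h12_rep N ℓ u v huv j)⁻¹ * (γ⁻¹ * h12_rep N ℓ u v huv i) ∈ Gamma0 (N * ℓ) := fun i =>
    h12_rep_surjective N ℓ u v huv hℓ _
      (mul_mem (inv_mem hγ) (h12_rep_mem N ℓ u v huv i))
  choose π hπ using hex
  refine ⟨π, ?_, hπ⟩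
  apply Function.Injective.bijective_of_finite
  intro i i' hii
  apply h12_rep_injective N ℓ u v huv hℓ hN
  have h1 := hπ i
  have h2 := hπ i'
  rw [← hii] at h2
  have h3 := mul_mem (inv_mem h1) h2
  have e : ((h12_rep N ℓ u v huv (π i))⁻¹ * (γ⁻¹ * h12_rep N ℓ u v huv i))⁻¹ *
      ((h12_rep N ℓ u v huv (π i))⁻¹ * (γ⁻¹ * h12_rep N ℓ u v huv i'))
      = (h12_rep N ℓ u v huv i)⁻¹ * h12_rep N ℓ u v huv i' := by
    group
  rw [e] at h3
  exact h3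

include huv in
/-- (B3) the Hecke product is `Γ₀(N)`-invariant. -/
theorem h12_hprod_inv (hℓ : ℓ.Prime) (hN : ¬ ℓ ∣ N) {H : ℍ → ℂ}
    (hinv : ∀ γ ∈ Gamma0 N, ∀ τ : ℍ, H (γ • τ) = H τ)
    (hinvβ : ∀ γ ∈ Gamma0 (N * ℓ), ∀ τ : ℍ, H (scaleH ℓ (γ • τ)) = H (scaleH ℓ τ))
    (γ : SL(2, ℤ)) (hγ : γ ∈ Gamma0 N) (τ : ℍ) :
    h12_hprod ℓ H (γ • τ) = h12_hprod ℓ H τ := by
  obtain ⟨π, hπ, hκ⟩ := h12_exists_perm N ℓ u v huv hℓ hN γ hγ
  rw [h12_hprod_eq N ℓ u v huv hinv, Finset.prod_apply, Finset.prod_apply]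
  have key : ∀ i : Fin (ℓ + 1),
      h12_fac N ℓ u v huv H i (γ • τ) = h12_fac N ℓ u v huv H (π i) τ := by
    intro i
    rw [h12_fac, h12_fac]
    have e : (h12_rep N ℓ u v huv i)⁻¹ • γ • τ
        = ((h12_rep N ℓ u v huv (π i))⁻¹ * (γ⁻¹ * h12_rep N ℓ u v huv i))⁻¹ •
          ((h12_rep N ℓ u v huv (π i))⁻¹ • τ) := by
      rw [← mul_smul, ← mul_smul]
      congr 1
      group
    rw [e, hinvβ _ (inv_mem (hκ i))]
  rw [Finset.prod_congr rfl fun i _ => key i]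
  exact Function.Bijective.prod_comp hπ (fun j => h12_fac N ℓ u v huv H j τ)

include huv in
/-- (B4) the Hecke product has expansions at all cusps. -/
theorem h12_hprod_exp (hℓ : ℓ.Prime) (hN : ¬ ℓ ∣ N) {H : ℍ → ℂ}
    (hinv : ∀ γ ∈ Gamma0 N, ∀ τ : ℍ, H (γ • τ) = H τ)
    (hinvβ : ∀ γ ∈ Gamma0 (N * ℓ), ∀ τ : ℍ, H (scaleH ℓ (γ • τ)) = H (scaleH ℓ τ))
    (hexp : ∀ g : SL(2, ℤ), ∃ s : LaurentSeries ℂ, HasTExp N (fun τ => H (g • τ)) s)
    (g : SL(2, ℤ)) :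
    ∃ s : LaurentSeries ℂ, HasTExp N (fun τ => h12_hprod ℓ H (g • τ)) s := by
  have hN0 : 0 < N := Nat.pos_of_ne_zero (NeZero.ne N)
  have hℓ0 : 0 < ℓ := Nat.pos_of_ne_zero (NeZero.ne ℓ)
  have hex : ∀ i : Fin (ℓ + 1), ∃ s : LaurentSeries ℂ,
      HasTExp (N * ℓ) (fun τ => h12_fac N ℓ u v huv H i (g • τ)) s := by
    intro i
    obtain ⟨s, hs⟩ := h12_exp_comp_scaleH (N := N) (ℓ := ℓ) hexp
      ((h12_rep N ℓ u v huv i)⁻¹ * g)
    refine ⟨s, hs.congr fun τ => ?_⟩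
    rw [h12_fac, mul_smul]
  choose s hs using hex
  have hprod := HasTExp.finset_prod (Nat.mul_pos hN0 hℓ0) Finset.univ
    (g := fun i τ => h12_fac N ℓ u v huv H i (g • τ)) (s := s) (fun i _ => hs i)
  have hfun : (fun τ => h12_hprod ℓ H (g • τ))
      = ∏ i : Fin (ℓ + 1), fun τ => h12_fac N ℓ u v huv H i (g • τ) := by
    funext τ
    rw [h12_hprod_eq N ℓ u v huv hinv, Finset.prod_apply, Finset.prod_apply]
  rw [← hfun] at hprod
  exact h12_hasTExp_descend hN0 hℓ0 hprod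
    (h12_periodic_of_inv (h12_hprod_inv N ℓ u v huv hℓ hN hinv hinvβ) g)

include huv in
/-- (B5) the `q`-expansion of the Hecke product. -/
theorem h12_hprod_qexp (hℓ : ℓ.Prime) (hN : ¬ ℓ ∣ N) {H : ℍ → ℂ}
    (hinv : ∀ γ ∈ Gamma0 N, ∀ τ : ℍ, H (γ • τ) = H τ)
    (hinvβ : ∀ γ ∈ Gamma0 (N * ℓ), ∀ τ : ℍ, H (scaleH ℓ (γ • τ)) = H (scaleH ℓ τ))
    (hexp : ∀ g : SL(2, ℤ), ∃ s : LaurentSeries ℂ, HasTExp N (fun τ => H (g • τ)) s) :
    ∃ s : LaurentSeries ℂ, HasTExp 1 (h12_hprod ℓ H) s := by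
  obtain ⟨s, hs⟩ := h12_hprod_exp N ℓ u v huv hℓ hN hinv hinvβ hexp 1
  have hs' : HasTExp N (h12_hprod ℓ H) s := hs.congr fun τ => by rw [one_smul]
  have hper : ∀ τ : ℍ, h12_hprod ℓ H ((1 : ℝ) +ᵥ τ) = h12_hprod ℓ H τ := by
    intro τ
    rw [← UpperHalfPlane.modular_T_smul]
    refine h12_hprod_inv N ℓ u v huv hℓ hN hinv hinvβ _ ?_ τ
    rw [h12_mem_Gamma0_iff]
    simp [ModularGroup.T]
  obtain ⟨s₁, hs₁, -⟩ := hs'.to_one hper
  exact ⟨s₁, hs₁⟩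

end Main

end Fermat.Agent.Jac
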