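import Fermat.Agent.Jac.Skeleton2
import Fermat.Agent.Red.HKInputs

/-!
# IN-JAC, task HKIN: `HeckeInputsStatement`

The hypotheses under which the Prelude's `T_ℓ` on `J₀(N)` is the honest correspondence
`(α_ℓ)_* ∘ (β_ℓ)^*` hold unconditionally (helper48's `Red/HKMod.lean`, `Red/HKInputs.lean` on top
of helper43's general function-field theorems `Red/GFF.lean`).  This file only restates the
result in the shape of the IN-JAC skeleton.
-/

set_option autoImplicit false

open ModularCurve AlgebraicCurve

namespace Fermat.Agent.Jac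

/-- **HKIN.** -/
theorem heckeInputsStatement : HeckeInputsStatement := fun N _ ℓ =>
  haveI : NeZero (ℓ : ℕ) := ⟨ℓ.2.ne_zero⟩
  Fermat.Agent.Red.HKMod.heckeInputsAlong N (ℓ : ℕ)

end Fermat.Agent.Jac
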