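import Fermat.Agent.Jac.Skeleton2

/-!
# IN-JAC, task KC-HECKE: `KummerHeckeAssembly`

`HNORM + HAN + COH ⇒ KummerHeckeStatement` (helper65).

For `f` with Kummer data `(P, Q, A, χ)` the function `f' = Norm_α (β f)` has Kummer data
`(∏ P ∘ δ_i, ∏ Q ∘ δ_i, ∏ A ∘ δ_i, T_ℓ χ)`.
-/

set_option autoImplicit false

open ModularCurve AlgebraicCurve UpperHalfPlane CongruenceSubgroup
open scoped MatrixGroups Manifold

noncomputable section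

namespace Fermat.Agent.Jac

open Fermat.Agent.S24 (Kbar FF embC IsAn tayAt)
open Fermat.Agent.S28 (HasTExp)

/-! ## The Hecke representatives as elements of `GL(2, ℝ)` -/

theorem h65_det_heckeRep (ℓ : ℕ) (i : Fin (ℓ + 1)) :
    ((heckeRep ℓ i).map (Int.cast : ℤ → ℝ)).det = (ℓ : ℝ) := by
  unfold heckeRep
  split_ifs <;> simp [Matrix.det_fin_two]

/-- `heckeRep ℓ i` as an element of `GL(2, ℝ)`. -/
def h65_gl (ℓ : ℕ) (hℓ : 0 < ℓ) (i : Fin (ℓ + 1)) : GL (Fin 2) ℝ :=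
  Matrix.GeneralLinearGroup.mkOfDetNeZero ((heckeRep ℓ i).map (Int.cast : ℤ → ℝ)) (by
    rw [h65_det_heckeRep]
    exact_mod_cast hℓ.ne')

theorem h65_gl_val (ℓ : ℕ) (hℓ : 0 < ℓ) (i : Fin (ℓ + 1)) :
    ((h65_gl ℓ hℓ i : GL (Fin 2) ℝ) : Matrix (Fin 2) (Fin 2) ℝ)
      = (heckeRep ℓ i).map (Int.cast : ℤ → ℝ) := rfl

theorem h65_gl_det_pos (ℓ : ℕ) (hℓ : 0 < ℓ) (i : Fin (ℓ + 1)) :
    0 < (h65_gl ℓ hℓ i).det.val := by
  have h : (h65_gl ℓ hℓ i).det.val = (ℓ : ℝ) := by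
    rw [Matrix.GeneralLinearGroup.val_det_apply, h65_gl_val, h65_det_heckeRep]
  rw [h]
  exact_mod_cast hℓ

theorem h65_heckeAct_eq (ℓ : ℕ) (hℓ : 0 < ℓ) (i : Fin (ℓ + 1)) (τ : ℍ) :
    heckeAct ℓ i τ = h65_gl ℓ hℓ i • τ := by
  apply UpperHalfPlane.ext
  rw [UpperHalfPlane.coe_smul_of_det_pos (h65_gl_det_pos ℓ hℓ i)]
  unfold UpperHalfPlane.num UpperHalfPlane.denom
  by_cases h : (i : ℕ) < ℓ
  · have hℓ' : (ℓ : ℂ) ≠ 0 := by exact_mod_cast hℓ.ne'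
    simp [heckeAct, h, h65_gl_val, heckeRep]
  · have hℓ' : (ℓ : ℂ) ≠ 0 := by exact_mod_cast hℓ.ne'
    have hs : ((Fermat.Agent.S28.scaleH ℓ τ : ℍ) : ℂ) = (ℓ : ℂ) * (τ : ℂ) := by
      rw [Fermat.Agent.S28.scaleH, dif_pos hℓ]
    simp [heckeAct, h, h65_gl_val, heckeRep, hs]

theorem h65_gl_mul (N ℓ : ℕ) (hℓ : 0 < ℓ) (γ : Gamma0 N) (π : Fin (ℓ + 1) → Fin (ℓ + 1))
    (c : Fin (ℓ + 1) → Gamma0 N) (h : HeckeDecomp N ℓ γ π c) (i : Fin (ℓ + 1)) :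
    h65_gl ℓ hℓ i * (Matrix.SpecialLinearGroup.mapGL ℝ (γ : SL(2, ℤ)))
      = (Matrix.SpecialLinearGroup.mapGL ℝ (c i : SL(2, ℤ))) * h65_gl ℓ hℓ (π i) := by
  apply Matrix.GeneralLinearGroup.ext
  intro a b
  have h1 := congrArg (fun M : Matrix (Fin 2) (Fin 2) ℤ => (M.map (Int.cast : ℤ → ℝ)) a b) (h i)
  simp only [Matrix.map_apply] at h1
  rw [Matrix.GeneralLinearGroup.coe_mul, Matrix.GeneralLinearGroup.coe_mul]
  simp only [h65_gl_val, Matrix.mul_apply, Matrix.map_apply,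
    Matrix.SpecialLinearGroup.mapGL_coe_matrix, Matrix.SpecialLinearGroup.map_apply_coe,
    RingHom.mapMatrix_apply, algebraMap_int_eq, Int.coe_castRingHom]
  simp only [Matrix.mul_apply] at h1
  push_cast at h1
  exact h1

theorem h65_heckeAct_smul (N ℓ : ℕ) (hℓ : 0 < ℓ) (γ : Gamma0 N)
    (π : Fin (ℓ + 1) → Fin (ℓ + 1)) (c : Fin (ℓ + 1) → Gamma0 N)
    (h : HeckeDecomp N ℓ γ π c) (i : Fin (ℓ + 1)) (τ : ℍ) :
    heckeAct ℓ i ((γ : SL(2, ℤ)) • τ) = (c i : SL(2, ℤ)) • heckeAct ℓ (π i) τ := by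
  rw [h65_heckeAct_eq ℓ hℓ, h65_heckeAct_eq ℓ hℓ]
  change h65_gl ℓ hℓ i • (Matrix.SpecialLinearGroup.mapGL ℝ (γ : SL(2, ℤ)) • τ)
    = Matrix.SpecialLinearGroup.mapGL ℝ (c i : SL(2, ℤ)) • (h65_gl ℓ hℓ (π i) • τ)
  rw [← mul_smul, ← mul_smul, h65_gl_mul N ℓ hℓ γ π c h i]

/-! ## Holomorphy -/

theorem h65_mdiff_comp_heckeAct (ℓ : ℕ) (hℓ : 0 < ℓ) (i : Fin (ℓ + 1)) {A : ℍ → ℂ}
    (hA : MDiff A) : MDiff (fun τ => A (heckeAct ℓ i τ)) := by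
  have h1 : (fun τ => A (heckeAct ℓ i τ)) = A ∘ (fun τ : ℍ => h65_gl ℓ hℓ i • τ) := by
    funext τ
    simp [h65_heckeAct_eq ℓ hℓ]
  rw [h1]
  exact hA.comp (UpperHalfPlane.mdifferentiable_smul (h65_gl_det_pos ℓ hℓ i))

theorem h65_mdiff_finset_prod {ι : Type*} (s : Finset ι) (F : ι → ℍ → ℂ)
    (hF : ∀ i ∈ s, MDiff (F i)) : MDiff (fun τ => ∏ i ∈ s, F i τ) := by
  classical
  induction s using Finset.induction_on with
  | empty =>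
    simp only [Finset.prod_empty]
    exact mdifferentiable_const
  | insert a s ha ih =>
    have h1 : (fun τ => ∏ i ∈ insert a s, F i τ) = (F a) * (fun τ => ∏ i ∈ s, F i τ) := by
      funext τ
      simp [Finset.prod_insert ha]
    rw [h1]
    exact (hF a (Finset.mem_insert_self a s)).mul
      (ih (fun i hi => hF i (Finset.mem_insert_of_mem hi)))

/-! ## The assembly -/

theorem kummerHeckeAssembly : KummerHeckeAssembly := by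
  intro hNorm hAn hCoh N _ p hp ℓ hℓN D f χ hf hord hK
  have : NeZero (ℓ : ℕ) := ⟨ℓ.2.ne_zero⟩
  have hℓ : 0 < (ℓ : ℕ) := ℓ.2.pos
  obtain ⟨P, Q, A, hAnf, hA, hpow, hchar⟩ := hK
  obtain ⟨hf', D', hD', hord'⟩ := hNorm N p ℓ D f hf hord
  have hAn' := hAn N ℓ hℓN f P Q hAnf
  obtain ⟨hdec, hcoh⟩ := hCoh N (ℓ : ℕ) ℓ.2 hℓN
  -- the character
  obtain ⟨φ', hφ', -⟩ := hcoh (Additive ℂˣ) (MonoidHom.toAdditive χ)
  set χ' : Gamma0 N →* ℂˣ := MonoidHom.toAdditive.symm φ' with hχ'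
  have hcohχ : IsCohHecke N (ℓ : ℕ) χ χ' := by
    intro γ π c hd
    have h1 := hφ' γ π c hd
    have h2 : χ' γ = Additive.toMul (φ' (Additive.ofMul γ)) := rfl
    rw [h2, h1]
    simp only [MonoidHom.toAdditive_apply_apply, toMul_ofMul, toMul_sum]
  refine ⟨D', heckeNorm N (ℓ : ℕ) f, χ', hf', hord', hD', hcohχ, ?_⟩
  refine ⟨fun τ => ∏ i : Fin ((ℓ : ℕ) + 1), P (heckeAct (ℓ : ℕ) i τ),
    fun τ => ∏ i : Fin ((ℓ : ℕ) + 1), Q (heckeAct (ℓ : ℕ) i τ),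
    fun τ => ∏ i : Fin ((ℓ : ℕ) + 1), A (heckeAct (ℓ : ℕ) i τ), hAn', ?_, ?_, ?_⟩
  · exact h65_mdiff_finset_prod Finset.univ (fun i τ => A (heckeAct (ℓ : ℕ) i τ))
      (fun i _ => h65_mdiff_comp_heckeAct (ℓ : ℕ) hℓ i hA)
  · intro τ
    rw [← Finset.prod_pow, ← Finset.prod_pow, ← Finset.prod_mul_distrib]
    exact Finset.prod_congr rfl (fun i _ => hpow _)
  · intro γ τ
    obtain ⟨π, c, hπ, hd⟩ := hdec γ
    have h1 : ∀ i, A (heckeAct (ℓ : ℕ) i ((γ : SL(2, ℤ)) • τ))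
        = (χ (c i) : ℂ) * A (heckeAct (ℓ : ℕ) (π i) τ) := by
      intro i
      rw [h65_heckeAct_smul N (ℓ : ℕ) hℓ γ π c hd i τ]
      exact hchar (c i) _
    have h2 : (χ' γ : ℂ) = ∏ i, (χ (c i) : ℂ) := by
      rw [hcohχ γ π c hd]
      push_cast
      rfl
    change ∏ i, A (heckeAct (ℓ : ℕ) i ((γ : SL(2, ℤ)) • τ)) = _
    rw [Finset.prod_congr rfl (fun i _ => h1 i), Finset.prod_mul_distrib, h2]
    congr 1
    exact Function.Bijective.prod_comp hπ (fun j => A (heckeAct (ℓ : ℕ) j τ))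

end Fermat.Agent.Jac
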