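import Mathlib
import Fermat.Prelude.Def_AlgebraicCurve_Correspondence

/-!
# IN-JAC, module K1: Kummer theory for `Pic0` of a function field (Prelude `Place`/`Divisor` API)

For a field extension `F / K` with the Prelude's places and divisors, a class `x ∈ Pic0 K F`
with `n • x = 0` is represented by a degree-zero divisor `D` with `n • D = div f`.  The relation
`IsKummerPair n x f` (“`f` is a Kummer representative of `x`”) is

* total on `n`-torsion (`exists_kummerPair`) and only relates torsion classes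
  (`IsKummerPair.zsmul_eq_zero`);
* multiplicative (`IsKummerPair.mul`, `.inv`, `.one`, `.div`);
* injective modulo constants times `n`-th powers (`IsKummerPair.eq_zero_iff`,
  `IsKummerPair.unique`), given that functions without zeros and poles are constant
  (`ConstantsOnly`);
* equivariant for semilinear automorphisms (`IsKummerPair.smul`);
* compatible with correspondences `ψ_* ∘ φ^*` via the norm (`IsKummerPair.correspondence`).
-/

set_option autoImplicit false

noncomputable section

namespace Fermat.Agent.Jac.K1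

open AlgebraicCurve

variable {K F : Type*} [Field K] [Field F] [Algebra K F]

/-- Nonzero constants have order `0` at every place. -/
theorem ord_algebraMap (v : Place K F) {c : K} (hc : c ≠ 0) :
    v.ord (algebraMap K F c) = 0 := by
  have hu : IsUnit (algebraMap K v.toValuationSubring c) := (IsUnit.mk0 c hc).map _
  have h := v.ord_coe_unit hu.unit
  rwa [IsUnit.unit_spec, v.coe_algebraMap] at h

/-- Order of a natural power. -/
theorem ord_pow (v : Place K F) (f : F) (n : ℕ) : v.ord (f ^ n) = (n : ℤ) * v.ord f := by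
  have h := v.ord_zpow f (n : ℤ)
  rwa [zpow_natCast] at h

/-- Functions without zeros and poles are constants. -/
def ConstantsOnly (K F : Type*) [Field K] [Field F] [Algebra K F] : Prop :=
  ∀ f : F, f ≠ 0 → (∀ v : Place K F, v.ord f = 0) → ∃ c : K, algebraMap K F c = f

/-- `f` is a Kummer representative of the class `x`: there is a degree-zero divisor `D`
representing `x` with `n • D = div f`. -/
def IsKummerPair (n : ℕ) (x : Pic0 K F) (f : F) : Prop :=
  f ≠ 0 ∧ ∃ D : Divisor.degZero (K := K) (F := F),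
    Pic0.mk D = x ∧ ∀ v : Place K F, (n : ℤ) * (D : Divisor K F) v = v.ord f

theorem pic0_mk_eq_zero_iff (D : Divisor.degZero (K := K) (F := F)) :
    Pic0.mk D = 0 ↔ ∃ h : F, h ≠ 0 ∧ ∀ v : Place K F, (D : Divisor K F) v = v.ord h := by
  unfold Pic0.mk
  rw [QuotientAddGroup.eq_zero_iff, AddSubgroup.mem_addSubgroupOf]
  rfl

theorem pic0_mk_zsmul (m : ℤ) (D : Divisor.degZero (K := K) (F := F)) :
    m • Pic0.mk D = Pic0.mk (m • D) := rfl

/-- Every `n`-torsion class has a Kummer representative. -/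
theorem exists_kummerPair {n : ℕ} {x : Pic0 K F} (hx : (n : ℤ) • x = 0) :
    ∃ f : F, IsKummerPair n x f := by
  obtain ⟨D, rfl⟩ := Pic0.mk_surjective x
  rw [pic0_mk_zsmul, pic0_mk_eq_zero_iff] at hx
  obtain ⟨f, hf, hD⟩ := hx
  refine ⟨f, hf, D, rfl, fun v => ?_⟩
  rw [← hD v]
  simp

namespace IsKummerPair

variable {n : ℕ} {x y : Pic0 K F} {f g : F}

theorem ne_zero (h : IsKummerPair n x f) : f ≠ 0 := h.1

/-- Only torsion classes have Kummer representatives. -/
theorem zsmul_eq_zero (h : IsKummerPair n x f) : (n : ℤ) • x = 0 := by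
  obtain ⟨hf, D, rfl, hD⟩ := h
  rw [pic0_mk_zsmul, pic0_mk_eq_zero_iff]
  refine ⟨f, hf, fun v => ?_⟩
  rw [← hD v]
  simp

theorem mem_torsion (h : IsKummerPair n x f) : x ∈ Pic0.torsion K F n :=
  Pic0.mem_torsion.mpr h.zsmul_eq_zero

/-- The divisor of a Kummer representative is divisible by `n`. -/
theorem dvd_ord (h : IsKummerPair n x f) (v : Place K F) : (n : ℤ) ∣ v.ord f := by
  obtain ⟨-, D, -, hD⟩ := h
  exact ⟨_, (hD v).symm⟩

theorem one : IsKummerPair n (0 : Pic0 K F) (1 : F) :=
  ⟨one_ne_zero, 0, rfl, fun v => by simp⟩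

theorem mul (hx : IsKummerPair n x f) (hy : IsKummerPair n y g) :
    IsKummerPair n (x + y) (f * g) := by
  obtain ⟨hf, D, rfl, hD⟩ := hx
  obtain ⟨hg, E, rfl, hE⟩ := hy
  refine ⟨mul_ne_zero hf hg, D + E, rfl, fun v => ?_⟩
  rw [v.ord_mul hf hg, ← hD v, ← hE v]
  simp [mul_add]

theorem inv (hx : IsKummerPair n x f) : IsKummerPair n (-x) f⁻¹ := by
  obtain ⟨hf, D, rfl, hD⟩ := hx
  refine ⟨inv_ne_zero hf, -D, rfl, fun v => ?_⟩
  rw [v.ord_inv, ← hD v]
  simp

theorem div (hx : IsKummerPair n x f) (hy : IsKummerPair n y g) :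
    IsKummerPair n (x - y) (f / g) := by
  rw [sub_eq_add_neg, div_eq_mul_inv]
  exact hx.mul hy.inv

/-- The class is determined by the Kummer representative. -/
theorem class_unique (hn : n ≠ 0) (hx : IsKummerPair n x f) (hy : IsKummerPair n y f) :
    x = y := by
  obtain ⟨-, D, rfl, hD⟩ := hx
  obtain ⟨-, E, rfl, hE⟩ := hy
  congr 1
  apply Subtype.ext
  ext v
  have h1 : (n : ℤ) * (D : Divisor K F) v = (n : ℤ) * (E : Divisor K F) v := by
    rw [hD v, hE v]
  exact mul_left_cancel₀ (Int.natCast_ne_zero.mpr hn) h1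

/-- Constants times `n`-th powers represent the zero class. -/
theorem const_mul_pow [HasPrincipalDivisors K F] {c : K} (hc : c ≠ 0) {h : F} (hh : h ≠ 0) :
    IsKummerPair n (0 : Pic0 K F) (algebraMap K F c * h ^ n) := by
  have hc' : algebraMap K F c ≠ 0 := by
    simpa using hc
  obtain ⟨D, hD, hdeg⟩ := HasPrincipalDivisors.exists_divisor (K := K) h hh
  refine ⟨mul_ne_zero hc' (pow_ne_zero n hh), ⟨D, hdeg⟩, ?_, fun v => ?_⟩
  · rw [pic0_mk_eq_zero_iff]
    exact ⟨h, hh, hD⟩
  · rw [v.ord_mul hc' (pow_ne_zero n hh), ord_algebraMap v hc, ord_pow, zero_add]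
    show (n : ℤ) * D v = _
    rw [hD v]

/-- `n`-th powers represent the zero class. -/
theorem pow [HasPrincipalDivisors K F] {h : F} (hh : h ≠ 0) :
    IsKummerPair n (0 : Pic0 K F) (h ^ n) := by
  have h1 := const_mul_pow (K := K) (n := n) (one_ne_zero (α := K)) hh
  rwa [map_one, one_mul] at h1

/-- **Injectivity of the Kummer map.**  A Kummer representative of the zero class is a constant
times an `n`-th power. -/
theorem eq_const_mul_pow_of_eq_zero (hconst : ConstantsOnly K F) (hx : IsKummerPair n (0 : Pic0 K F) f) :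
    ∃ c : K, c ≠ 0 ∧ ∃ h : F, h ≠ 0 ∧ f = algebraMap K F c * h ^ n := by
  obtain ⟨hf, D, hD0, hD⟩ := hx
  rw [pic0_mk_eq_zero_iff] at hD0
  obtain ⟨h, hh, hDh⟩ := hD0
  have hhn : h ^ n ≠ 0 := pow_ne_zero n hh
  have h1 : ∀ v : Place K F, v.ord (f / h ^ n) = 0 := by
    intro v
    rw [div_eq_mul_inv, v.ord_mul hf (inv_ne_zero hhn), v.ord_inv, ord_pow, ← hD v, hDh v]
    ring
  obtain ⟨c, hc⟩ := hconst (f / h ^ n) (div_ne_zero hf hhn) h1
  refine ⟨c, ?_, h, hh, ?_⟩
  · rintro rfl
    rw [map_zero] at hc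
    exact div_ne_zero hf hhn hc.symm
  · rw [hc]
    field_simp

theorem eq_zero_iff [HasPrincipalDivisors K F] (hconst : ConstantsOnly K F) (hn : n ≠ 0)
    (hx : IsKummerPair n x f) :
    x = 0 ↔ ∃ c : K, c ≠ 0 ∧ ∃ h : F, h ≠ 0 ∧ f = algebraMap K F c * h ^ n := by
  constructor
  · rintro rfl
    exact eq_const_mul_pow_of_eq_zero hconst hx
  · rintro ⟨c, hc, h, hh, rfl⟩
    exact class_unique hn hx (const_mul_pow hc hh)

/-- Over a field in which every element is an `n`-th power (e.g. algebraically closed), the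
constant can be absorbed. -/
theorem eq_zero_iff_pow [HasPrincipalDivisors K F] (hconst : ConstantsOnly K F) (hn : n ≠ 0)
    (hroot : ∀ c : K, ∃ d : K, d ^ n = c) (hx : IsKummerPair n x f) :
    x = 0 ↔ ∃ h : F, h ≠ 0 ∧ f = h ^ n := by
  rw [eq_zero_iff hconst hn hx]
  constructor
  · rintro ⟨c, hc, h, hh, rfl⟩
    obtain ⟨d, rfl⟩ := hroot c
    have hd : d ≠ 0 := by
      rintro rfl
      exact hc (zero_pow hn)
    refine ⟨algebraMap K F d * h, mul_ne_zero (by simpa using hd) hh, ?_⟩
    rw [map_pow, mul_pow]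
  · rintro ⟨h, hh, rfl⟩
    exact ⟨1, one_ne_zero, h, hh, by rw [map_one, one_mul]⟩

/-- Two Kummer representatives of the same class differ by a constant times an `n`-th power. -/
theorem unique (hconst : ConstantsOnly K F) (hx : IsKummerPair n x f)
    (hy : IsKummerPair n x g) :
    ∃ c : K, c ≠ 0 ∧ ∃ h : F, h ≠ 0 ∧ g = algebraMap K F c * h ^ n * f := by
  have h1 := hy.div hx
  rw [sub_self] at h1
  obtain ⟨c, hc, h, hh, hgf⟩ := eq_const_mul_pow_of_eq_zero hconst h1
  refine ⟨c, hc, h, hh, ?_⟩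
  rw [← hgf]
  have := hx.ne_zero
  field_simp

/-- **Galois equivariance.** -/
theorem smul (σ : SemilinearAut K F) (hx : IsKummerPair n x f) :
    IsKummerPair n (σ • x) (σ • f) := by
  obtain ⟨hf, D, rfl, hD⟩ := hx
  refine ⟨?_, SemilinearAut.degZeroSMulHom σ D, (SemilinearAut.pic0_smul_mk σ D).symm,
    fun w => ?_⟩
  · rw [SemilinearAut.smul_def]
    exact (map_ne_zero_iff _ (SemilinearAut.toRingAut σ).injective).mpr hf
  · rw [SemilinearAut.coe_degZeroSMulHom, SemilinearAut.divisor_smul_apply, hD]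
    have h := SemilinearAut.ord_smul σ (σ⁻¹ • w) f
    rw [smul_inv_smul] at h
    exact h.symm

end IsKummerPair

section Correspondence

variable {F' : Type*} [Field F'] [Algebra K F']

/-- The norm along an algebra homomorphism `ψ : F → F'`. -/
def normAlong (ψ : F →ₐ[K] F') (g : F') : F :=
  letI := algebraAlong ψ
  Algebra.norm F g

theorem normAlong_ne_zero (ψ : F →ₐ[K] F') (hfin : FiniteAlong K ψ) {g : F'} (hg : g ≠ 0) :
    normAlong ψ g ≠ 0 := by
  letI := algebraAlong ψ
  haveI : Module.Finite F F' := hfin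
  exact Algebra.norm_ne_zero_iff.mpr hg

variable [HasPrincipalDivisors K F']

/-- **Hecke compatibility.**  The correspondence `ψ_* ∘ φ^*` acts on Kummer representatives by
`f ↦ N_ψ (φ f)`. -/
theorem IsKummerPair.correspondence {n : ℕ} {x : Pic0 K F} {f : F}
    (φ ψ : F →ₐ[K] F') (hφ : φ.toRingHom.IsIntegral) (hψ : ψ.toRingHom.IsIntegral)
    (hFI : FundamentalIdentityAlong K φ hφ)
    (hfin : FiniteAlong K ψ) (hN : NormFormulaAlong K ψ hfin)
    (hx : IsKummerPair n x f) :
    IsKummerPair n (Pic0.correspondence φ ψ hφ hψ hFI hfin hN x) (normAlong ψ (φ f)) := by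
  obtain ⟨hf, D, rfl, hD⟩ := hx
  have hφf : φ f ≠ 0 := (map_ne_zero_iff _ φ.injective).mpr hf
  refine ⟨normAlong_ne_zero ψ hfin hφf, Pic0.degZeroCorrespondence φ ψ hφ hψ hFI D,
    (Pic0.correspondence_mk φ ψ hφ hψ hFI hfin hN D).symm, fun v => ?_⟩
  rw [Pic0.coe_degZeroCorrespondence, Divisor.correspondence_apply]
  -- the pulled-back divisor, multiplied by `n`, is the divisor of `φ f`
  have h1 : ∀ w : Place K F',
      ((n : ℤ) • Divisor.pullbackAlong φ hφ (D : Divisor K F)) w = w.ord (φ f) := by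
    intro w
    rw [Finsupp.smul_apply, Divisor.pullbackAlong_apply, Place.ord_restrictAlong φ hφ w f,
      ← hD (w.restrictAlong φ hφ), smul_eq_mul]
    ring
  have h2 : Divisor.pushforwardAlong ψ hψ ((n : ℤ) • Divisor.pullbackAlong φ hφ (D : Divisor K F)) v
      = v.ord (normAlong ψ (φ f)) := by
    letI := algebraAlong ψ
    haveI := isScalarTower_along ψ
    haveI := isIntegral_along ψ hψ
    haveI : Module.Finite F F' := hfin
    exact hN (φ f) hφf _ h1 v
  rw [map_zsmul, Finsupp.smul_apply, smul_eq_mul] at h2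
  exact h2

end Correspondence

end Fermat.Agent.Jac.K1
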