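import Fermat.Agent.Jac.Kummer
import Fermat.Agent.S24.FIGeneral
import Fermat.Agent.S24.DiffPlace
import Fermat.Agent.S24.DegLe

/-!
# IN-JAC, module K1 (instances): the hypotheses of `Kummer.lean` for function fields of
transcendence degree one over an algebraically closed field of characteristic zero, and for the
modular function field `FF N = modularFunctionFieldBar N` over `ℚ̄`.
-/

set_option autoImplicit false

noncomputable section

namespace Fermat.Agent.Jac.K1

open AlgebraicCurve IntermediateField Fermat.Agent.S24

section General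

variable {K F : Type*} [Field K] [Field F] [Algebra K F]

/-- Principal divisors exist (finite support, degree zero) in a function field of transcendence
degree one over an algebraically closed field of characteristic zero. -/
theorem hasPrincipalDivisors_of_finite [IsAlgClosed K] [CharZero K] (x : F)
    [FiniteDimensional K⟮x⟯ F] : HasPrincipalDivisors K F :=
  hasPrincipalDivisors_of_zeros zerosStatement
    (fun v => DiffPlace.place_deg_eq_one x (Algebra.IsAlgebraic.of_finite _ _) v) x

/-- Functions without zeros and poles are constant. -/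
theorem constantsOnly_of_finite [IsAlgClosed K] [CharZero K] (x : F)
    [FiniteDimensional K⟮x⟯ F] : ConstantsOnly K F := by
  intro f hf0 hord
  by_cases hf : IsAlgebraic K f
  · exact pd_exists_algebraMap_eq hf
  · exfalso
    have hft : Transcendental K f := hf
    haveI hfin : FiniteDimensional K⟮f⟯ F := pd_finiteDimensional_adjoin_of_transcendental x f hft
    obtain ⟨hz, -⟩ := fi_general f hft
    obtain ⟨s, hs, hsum⟩ := hz 0
    have hs' : s = ∅ := by
      apply Finset.eq_empty_of_forall_notMem
      intro v hv
      have := (hs v).mp hv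
      rw [map_zero, sub_zero, hord v] at this
      exact lt_irrefl _ this
    rw [hs', Finset.sum_empty] at hsum
    have hpos : 0 < Module.finrank K⟮f⟯ F := Module.finrank_pos
    omega

end General

section Modular

open ModularCurve

/-- `F = ℚ̄(X₀(N))` is finite over `ℚ̄(j)`. -/
theorem finiteDimensional_FF (N : ℕ) [NeZero N] : FiniteDimensional Kbar⟮jBar N⟯ (FF N) :=
  (finrank_le_index N).1

theorem hasPrincipalDivisors_FF (N : ℕ) [NeZero N] : HasPrincipalDivisors Kbar (FF N) :=
  haveI := finiteDimensional_FF N
  hasPrincipalDivisors_of_finite (jBar N)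

theorem constantsOnly_FF (N : ℕ) [NeZero N] : ConstantsOnly Kbar (FF N) :=
  haveI := finiteDimensional_FF N
  constantsOnly_of_finite (jBar N)

/-- Every element of `ℚ̄` is an `n`-th power (`n ≠ 0`). -/
theorem exists_pow_eq_Kbar {n : ℕ} (hn : n ≠ 0) (c : Kbar) : ∃ d : Kbar, d ^ n = c :=
  IsAlgClosed.exists_pow_nat_eq c (Nat.pos_of_ne_zero hn)

/-- **K1 for `J₀(N)`, existence.** -/
theorem exists_kummerPair_JZero (N : ℕ) {n : ℕ} {x : JZero N} (hx : n • x = 0) :
    ∃ f : FF N, IsKummerPair n x f :=
  exists_kummerPair (by rw [natCast_zsmul]; exact hx)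

/-- **K1 for `J₀(N)`, injectivity.** -/
theorem kummerPair_JZero_eq_zero_iff (N : ℕ) [NeZero N] {n : ℕ} (hn : n ≠ 0) {x : JZero N}
    {f : FF N} (hx : IsKummerPair n x f) : x = 0 ↔ ∃ h : FF N, h ≠ 0 ∧ f = h ^ n :=
  haveI := hasPrincipalDivisors_FF N
  hx.eq_zero_iff_pow (constantsOnly_FF N) hn (exists_pow_eq_Kbar hn)

/-- **K1 for `J₀(N)`, Galois equivariance.** -/
theorem kummerPair_JZero_galois (N : ℕ) {n : ℕ} {x : JZero N} {f : FF N}
    (hx : IsKummerPair n x f) (σ : AlgebraicClosure ℚ ≃ₐ[ℚ] AlgebraicClosure ℚ) :
    IsKummerPair n (σ • x) (arithmeticGalois (modularFunctionFieldFull N) σ • f) :=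
  hx.smul (arithmeticGalois (modularFunctionFieldFull N) σ)

end Modular

end Fermat.Agent.Jac.K1
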