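import Fermat.Agent.S29.Skeleton
import Fermat.Agent.S24.ADefs
import Fermat.Prelude.Def_ModularCurve_PeriodHomPair
import Fermat.Prelude.Def_CuspForm_HeckeAlgebra

/-!
# IN-JAC (inputs `TorsionFiniteLevel`, `HeckeKeyModP` of P-GALREP): interface skeleton

Architect: helper79.  Every declaration is a definition or a `def ... : Prop` (frozen interface);
nothing is assumed.  Blueprint: findings stmt='JAC' kind='blueprint' (newest by helper79),
tasks: table `jac_tasks`.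

Route ("modular Kummer theory"): `J₀(N)[p] = {f ∈ F^× : p ∣ div f} / F^×ᵖ`; the holomorphic
`p`-th root `A` of `P Q^(p-1)` (`f = P/Q`) on `ℍ` has an automorphy character
`χ_f : Γ₀(N) → μ_p`.  `f ↦ χ_f` is injective (⇒ finiteness), hits `exp(2πi φ/p)` for every
parabolic `φ : Γ₀(N) → ℤ` (Eisenstein series with character + descent `ℂ → ℚ̄`), and is
Hecke-equivariant.
-/

set_option autoImplicit false

open ModularCurve AlgebraicCurve UpperHalfPlane CongruenceSubgroup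
open scoped MatrixGroups Manifold

noncomputable section

namespace Fermat.Agent.Jac

open Fermat.Agent.S24 (Kbar FF embC IsAn tayAt)
open Fermat.Agent.S28 (HasTExp)
open Fermat.Agent.S29 (GQ)

/-! ## Definitions -/

/-- the function field of `X₀(N)` over `ℂ`, inside `ℂ((q))`. -/
abbrev FC (N : ℕ) : Type := ↥(laurentBaseChange ℂ (modularFunctionFieldFull N))

/-- `f ≠ 0` and all orders of `f` are divisible by `p`. -/
def IsSel (N p : ℕ) (f : FF N) : Prop :=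
  f ≠ 0 ∧ ∀ v : Place Kbar (FF N), (p : ℤ) ∣ v.ord f

/-- the same over `ℂ`. -/
def IsSelC (N p : ℕ) (f : FC N) : Prop :=
  f ≠ 0 ∧ ∀ v : Place ℂ (FC N), (p : ℤ) ∣ v.ord f

/-- `A` has automorphy character `χ` for `Γ₀(N)`. -/
def HasChar (N : ℕ) (A : ℍ → ℂ) (χ : Gamma0 N →* ℂˣ) : Prop :=
  ∀ (γ : Gamma0 N) (τ : ℍ), A ((γ : SL(2, ℤ)) • τ) = (χ γ : ℂ) * A τ

/-- `A` has a Laurent expansion in `exp (2πiτ/N)` at every cusp. -/
def CuspMero (N : ℕ) (A : ℍ → ℂ) : Prop :=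
  ∀ g : SL(2, ℤ), ∃ s : LaurentSeries ℂ, HasTExp N (fun τ => A (g • τ)) s

/-- **the Kummer character**: `f = P / Q`, `A` is a holomorphic `p`-th root of `P Q^(p-1)`
(so `A / Q` is a `p`-th root of `f`), and `A` has automorphy character `χ`. -/
def KummerChar (N p : ℕ) (f : FF N) (χ : Gamma0 N →* ℂˣ) : Prop :=
  ∃ P Q A : ℍ → ℂ, IsAn N f P Q ∧ MDiff A ∧ (∀ τ, A τ ^ p = P τ * Q τ ^ (p - 1)) ∧
    HasChar N A χ

/-- `χ = exp (2πi φ / p)`. -/
def IsExpChar (N p : ℕ) (φ : Additive (Gamma0 N) →+ ℤ) (χ : Gamma0 N →* ℂˣ) : Prop :=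
  ∀ γ : Gamma0 N, (χ γ : ℂ)
    = Complex.exp (2 * Real.pi * Complex.I * (φ (Additive.ofMul γ) : ℂ) / (p : ℂ))

/-- representatives `[[1, b], [0, ℓ]]` (`b < ℓ`) and `[[ℓ, 0], [0, 1]]` of
`Γ₀(N) \ Γ₀(N) diag(1, ℓ) Γ₀(N)` (`ℓ ∤ N` prime). -/
def heckeRep (ℓ : ℕ) (i : Fin (ℓ + 1)) : Matrix (Fin 2) (Fin 2) ℤ :=
  if (i : ℕ) < ℓ then !![1, ((i : ℕ) : ℤ); 0, (ℓ : ℤ)] else !![(ℓ : ℤ), 0; 0, 1]

/-- the action of `heckeRep ℓ i` on `ℍ`: `τ ↦ (τ + b) / ℓ` resp. `τ ↦ ℓ τ`. -/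
def heckeAct (ℓ : ℕ) (i : Fin (ℓ + 1)) (τ : ℍ) : ℍ :=
  if h : (i : ℕ) < ℓ then
    ⟨((τ : ℂ) + ((i : ℕ) : ℂ)) / (ℓ : ℂ), by
      have hℓ : (0 : ℝ) < (ℓ : ℝ) := by exact_mod_cast (Nat.zero_lt_of_lt h)
      have h1 : (((τ : ℂ) + ((i : ℕ) : ℂ)) / (ℓ : ℂ)).im = τ.im / (ℓ : ℝ) := by
        have : ((ℓ : ℂ)) = ((ℓ : ℝ) : ℂ) := by push_cast; rfl
        rw [this, Complex.div_ofReal_im]
        simp
      rw [h1]
      exact div_pos τ.im_pos hℓ⟩
  else Fermat.Agent.S28.scaleH ℓ τ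

/-- `γ`, a permutation `π` of the indices and `c i ∈ Γ₀(N)` with `δ_i γ = c_i δ_{π i}`. -/
def HeckeDecomp (N ℓ : ℕ) (γ : Gamma0 N) (π : Fin (ℓ + 1) → Fin (ℓ + 1))
    (c : Fin (ℓ + 1) → Gamma0 N) : Prop :=
  ∀ i, heckeRep ℓ i * ((γ : SL(2, ℤ)) : Matrix (Fin 2) (Fin 2) ℤ)
      = ((c i : SL(2, ℤ)) : Matrix (Fin 2) (Fin 2) ℤ) * heckeRep ℓ (π i)

/-- `χ' = T_ℓ χ` (cohomological Hecke operator, multiplicative notation):
`χ' γ = ∏ i, χ (c i)` whenever `δ_i γ = c_i δ_{π i}`. -/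
def IsCohHecke (N ℓ : ℕ) {M : Type*} [CommMonoid M] (χ χ' : Gamma0 N →* M) : Prop :=
  ∀ (γ : Gamma0 N) (π : Fin (ℓ + 1) → Fin (ℓ + 1)) (c : Fin (ℓ + 1) → Gamma0 N),
    HeckeDecomp N ℓ γ π c → χ' γ = ∏ i, χ (c i)

/-- `φ' = T_ℓ φ` (cohomological Hecke operator, additive notation). -/
def IsCohHeckeAdd (N ℓ : ℕ) {A : Type*} [AddCommMonoid A]
    (φ φ' : Additive (Gamma0 N) →+ A) : Prop :=
  ∀ (γ : Gamma0 N) (π : Fin (ℓ + 1) → Fin (ℓ + 1)) (c : Fin (ℓ + 1) → Gamma0 N),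
    HeckeDecomp N ℓ γ π c → φ' (Additive.ofMul γ) = ∑ i, φ (Additive.ofMul (c i))

/-- `γ` is parabolic or `± 1`. -/
def IsPar {N : ℕ} (γ : Gamma0 N) : Prop :=
  ((γ : SL(2, ℤ)) : Matrix (Fin 2) (Fin 2) ℤ).trace ^ 2 = 4

/-! ## Wave 1: function-level analysis (no function fields) -/

/-- **ROOT.** holomorphic `p`-th roots on `ℍ`. -/
def RootStatement : Prop :=
  ∀ (p : ℕ), 0 < p → ∀ G : ℍ → ℂ, MDiff G → G ≠ 0 →
    (∀ τ₀ : ℍ, p ∣ (tayAt τ₀ G).order.toNat) →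
    ∃ A : ℍ → ℂ, MDiff A ∧ ∀ τ, A τ ^ p = G τ

/-- **CHAR.** a holomorphic `p`-th root of a nonzero `Γ₀(N)`-invariant function has an
automorphy character, of order dividing `p`. -/
def CharStatement : Prop :=
  ∀ (N p : ℕ), 0 < p → ∀ G A : ℍ → ℂ, MDiff G → MDiff A → G ≠ 0 →
    (∀ (γ : Gamma0 N) (τ : ℍ), G ((γ : SL(2, ℤ)) • τ) = G τ) → (∀ τ, A τ ^ p = G τ) →
    ∃ χ : Gamma0 N →* ℂˣ, HasChar N A χ ∧ χ ^ p = 1

/-- **CHAR-UNIQ.** two nonzero holomorphic functions with `(A B')^p = (A' B)^p`, `B`, `B'`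
invariant and nonzero, have the same automorphy character. -/
def CharUniqStatement : Prop :=
  ∀ (N p : ℕ), 0 < p → ∀ A A' B B' : ℍ → ℂ, MDiff A → MDiff A' → MDiff B → MDiff B' →
    A ≠ 0 → B ≠ 0 → B' ≠ 0 →
    (∀ (γ : Gamma0 N) (τ : ℍ), B ((γ : SL(2, ℤ)) • τ) = B τ) →
    (∀ (γ : Gamma0 N) (τ : ℍ), B' ((γ : SL(2, ℤ)) • τ) = B' τ) →
    (∀ τ, (A τ * B' τ) ^ p = (A' τ * B τ) ^ p) →
    ∀ χ χ' : Gamma0 N →* ℂˣ, HasChar N A χ → HasChar N A' χ' → χ = χ'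

/-- **FG.** `Hom(Γ₀(N), μ_p)` is finite. -/
def FinCharStatement : Prop :=
  ∀ (N : ℕ) [NeZero N] (p : ℕ), 0 < p → Finite {χ : Gamma0 N →* ℂˣ // χ ^ p = 1}

/-- **CUSP-ROOT.** a holomorphic `p`-th root with character (of order dividing `p`, trivial on
parabolic elements) of a function with expansions at all cusps has expansions at all cusps. -/
def CuspRootStatement : Prop :=
  ∀ (N : ℕ) [NeZero N] (p : ℕ), 0 < p → ∀ (G A : ℍ → ℂ) (χ : Gamma0 N →* ℂˣ),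
    MDiff G → MDiff A → (∀ τ, A τ ^ p = G τ) → CuspMero N G → HasChar N A χ →
    (∀ γ : Gamma0 N, IsPar γ → χ γ = 1) → CuspMero N A

/-- **EIS.** every character of finite order of `Γ₀(N)` which is trivial on parabolic elements
and on `±1` is the automorphy character of a nonzero holomorphic function on `ℍ` with
expansions at all cusps (`E_{k,χ} / Δ^(k/12)`, Eisenstein series with character). -/
def EisStatement : Prop :=
  ∀ (N : ℕ) [NeZero N] (χ : Gamma0 N →* ℂˣ) (n : ℕ), 0 < n → χ ^ n = 1 →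
    (∀ γ : Gamma0 N, IsPar γ → χ γ = 1) →
    ∃ A : ℍ → ℂ, MDiff A ∧ A ≠ 0 ∧ HasChar N A χ ∧ CuspMero N A

/-! ## Wave 1: cohomological Hecke operators and periods -/

/-- **COH.** `T_ℓ` exists on `Hom(Γ₀(N), A)`, is additive and preserves parabolic homs. -/
def CohHeckeStatement : Prop :=
  ∀ (N : ℕ) [NeZero N] (ℓ : ℕ), ℓ.Prime → ¬ ℓ ∣ N →
    (∀ γ : Gamma0 N, ∃ (π : Fin (ℓ + 1) → Fin (ℓ + 1)) (c : Fin (ℓ + 1) → Gamma0 N),
      Function.Bijective π ∧ HeckeDecomp N ℓ γ π c) ∧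
    (∀ (A : Type) [AddCommGroup A] (φ : Additive (Gamma0 N) →+ A),
      ∃ φ' : Additive (Gamma0 N) →+ A, IsCohHeckeAdd N ℓ φ φ' ∧
        (φ ∈ Period.parabolicHoms ℤ (Gamma0 N) A → φ' ∈ Period.parabolicHoms ℤ (Gamma0 N) A))

/-- **PER.** the period map is Hecke-equivariant. -/
def PeriodHeckeStatement : Prop :=
  ∀ (N : ℕ) [NeZero N] (ℓ : ℕ) (hℓ : ℓ.Prime) (hℓN : ¬ ℓ ∣ N)
    (g : CuspForm (Gamma0 N) 2),
    IsCohHeckeAdd N ℓ (periodMap N g) (periodMap N (CuspForm.heckeTLin 2 hℓ hℓN g))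

/-- **LAM.** the parabolic homs with values in `ℂ` are spanned by those with values in `ℤ`:
every `ψ ∈ Hom_par(Γ₀(N), ℂ)` is a finite `ℂ`-combination of integral parabolic homs. -/
def LatticeSpanStatement : Prop :=
  ∀ (N : ℕ) [NeZero N] (ψ : Additive (Gamma0 N) →+ ℂ),
    ψ ∈ Period.parabolicHoms ℂ (Gamma0 N) ℂ →
    ∃ (r : ℕ) (a : Fin r → ℂ) (φ : Fin r → (Additive (Gamma0 N) →+ ℤ)),
      (∀ i, φ i ∈ Period.parabolicHoms ℤ (Gamma0 N) ℤ) ∧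
      ∀ γ : Gamma0 N, ψ (Additive.ofMul γ) = ∑ i, a i * (φ i (Additive.ofMul γ) : ℂ)

/-- **LAM-FG.** the integral parabolic homs form a finitely generated group. -/
def LatticeFGStatement : Prop :=
  ∀ (N : ℕ) [NeZero N],
    (Period.parabolicHoms ℤ (Gamma0 N) ℤ).FG

/-! ## Kummer theory over `ℚ̄` -/

/-- **ORD.** if all orders of `f = P / Q` at places are divisible by `p`, then so are the
orders of `P / Q` at all points of `ℍ`. -/
def OrdDvdStatement : Prop :=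
  ∀ (N : ℕ) [NeZero N] (p : ℕ) (f : FF N), IsSel N p f →
    ∀ P Q : ℍ → ℂ, IsAn N f P Q → ∀ τ₀ : ℍ,
      (p : ℤ) ∣ ((tayAt τ₀ P).order.toNat : ℤ) - ((tayAt τ₀ Q).order.toNat : ℤ)

/-- **KC-EX.** existence of the Kummer character (from ORD, ROOT, CHAR). -/
def KummerExistsStatement : Prop :=
  ∀ (N : ℕ) [NeZero N] (p : ℕ), 0 < p → ∀ f : FF N, IsSel N p f →
    ∃ χ : Gamma0 N →* ℂˣ, KummerChar N p f χ ∧ χ ^ p = 1

/-- **KC-UNIQ.** -/
def KummerUniqStatement : Prop :=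
  ∀ (N : ℕ) [NeZero N] (p : ℕ), 0 < p → ∀ (f : FF N), f ≠ 0 →
    ∀ χ χ' : Gamma0 N →* ℂˣ, KummerChar N p f χ → KummerChar N p f χ' → χ = χ'

/-- **KC-MUL.** multiplicativity; `p`-th powers have trivial character. -/
def KummerMulStatement : Prop :=
  ∀ (N : ℕ) [NeZero N] (p : ℕ), 0 < p →
    (∀ (f f' : FF N) (χ χ' : Gamma0 N →* ℂˣ), KummerChar N p f χ → KummerChar N p f' χ' →
      KummerChar N p (f * f') (χ * χ')) ∧
    (∀ (f : FF N) (χ : Gamma0 N →* ℂˣ), f ≠ 0 → KummerChar N p f χ →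
      KummerChar N p f⁻¹ χ⁻¹) ∧
    (∀ g : FF N, g ≠ 0 → KummerChar N p (g ^ p) 1)

/-- **KC-INJ.** a function with trivial Kummer character is a `p`-th power. -/
def KummerInjStatement : Prop :=
  ∀ (N : ℕ) [NeZero N] (p : ℕ), 0 < p → ∀ f : FF N, f ≠ 0 →
    KummerChar N p f 1 → ∃ g : FF N, f = g ^ p

/-- **KC-SURJ.** every `exp (2πi φ / p)`, `φ` an integral parabolic hom, is a Kummer
character. -/
def KummerSurjStatement : Prop :=
  ∀ (N : ℕ) [NeZero N] (p : ℕ), p.Prime →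
    ∀ φ : Additive (Gamma0 N) →+ ℤ, φ ∈ Period.parabolicHoms ℤ (Gamma0 N) ℤ →
      ∀ χ : Gamma0 N →* ℂˣ, IsExpChar N p φ χ →
        ∃ f : FF N, IsSel N p f ∧ KummerChar N p f χ

/-- **KC-HECKE.** Hecke equivariance of the Kummer character: if `p D = div f` then
`T_ℓ [D] = [D']` with `p D' = div f'` and `χ_{f'} = T_ℓ χ_f`. -/
def KummerHeckeStatement : Prop :=
  ∀ (N : ℕ) [NeZero N] (p : ℕ), 0 < p → ∀ (ℓ : Nat.Primes), ¬ (ℓ : ℕ) ∣ N →
    ∀ (D : Divisor.degZero (K := Kbar) (F := FF N)) (f : FF N) (χ : Gamma0 N →* ℂˣ),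
      f ≠ 0 → (∀ v : Place Kbar (FF N), v.ord f = p * (D : Divisor Kbar (FF N)) v) →
      KummerChar N p f χ →
      ∃ (D' : Divisor.degZero (K := Kbar) (F := FF N)) (f' : FF N) (χ' : Gamma0 N →* ℂˣ),
        f' ≠ 0 ∧ (∀ v : Place Kbar (FF N), v.ord f' = p * (D' : Divisor Kbar (FF N)) v) ∧
        Pic0.mk D' = ModularCurve.heckeOperatorBar N ℓ (Pic0.mk D) ∧
        IsCohHecke N (ℓ : ℕ) χ χ' ∧ KummerChar N p f' χ'

/-- **OS.** every place of `F` is fixed by an open subgroup of `G_ℚ`. -/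
def OpenStabStatement : Prop :=
  ∀ (N : ℕ) [NeZero N] (v : Place Kbar (FF N)),
    ∃ L : IntermediateField ℚ (AlgebraicClosure ℚ), FiniteDimensional ℚ L ∧
      ∀ σ : GQ, (∀ y ∈ L, σ y = y) →
        arithmeticGalois (modularFunctionFieldFull N) σ • v = v

/-- **PD.** principal divisors of `F` (delivered by the S24 team). -/
def PDStatement : Prop :=
  ∀ (N : ℕ) [NeZero N], HasPrincipalDivisors Kbar (FF N)

/-! ## The two targets -/

/-- **TFL.** assembly of `TorsionFiniteLevel`. -/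
def TorsionFiniteLevelAssembly : Prop :=
  PDStatement → KummerExistsStatement → KummerUniqStatement → KummerMulStatement →
    KummerInjStatement → FinCharStatement → OpenStabStatement →
    ∀ (N : ℕ) [NeZero N] (p : ℕ), p.Prime → Fermat.Agent.S29.TorsionFiniteLevel N p

/-- **HKM.** assembly of `HeckeKeyModP`. -/
def HeckeKeyModPAssembly : Prop :=
  PDStatement → KummerUniqStatement → KummerMulStatement → KummerSurjStatement →
    KummerHeckeStatement → CohHeckeStatement → PeriodHeckeStatement → LatticeSpanStatement →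
    LatticeFGStatement →
    ∀ (N : ℕ) [NeZero N] (p : ℕ), p.Prime → ModularCurve.HeckeOperatorsCommuteBar N →
      Fermat.Agent.S29.HeckeKeyModP N p

end Fermat.Agent.Jac
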