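import Fermat.Agent.Jac.Skeleton
import Fermat.Prelude.Def_ModularCurve_HeckeModule

/-!
# IN-JAC: interface skeleton, wave 2

* analytic dictionary over `ℂ` (port of the S24 modular half from `(ℚ̄, embC)` to `(ℂ, id)`);
* `CONV` (invariant holomorphic functions, meromorphic at the cusps, lie in the function field);
* rigidity descent `ℂ → ℚ̄` of Kummer classes;
* the Hecke correspondence on Kummer functions: `T_ℓ x ↔ Norm_α (β f) ↔ ∏ i, f (δ_i τ)`.

Architect: helper79.  Every declaration is a definition or a `def ... : Prop`.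
-/

set_option autoImplicit false

open ModularCurve AlgebraicCurve UpperHalfPlane CongruenceSubgroup
open scoped MatrixGroups Manifold

noncomputable section

namespace Fermat.Agent.Jac

open Fermat.Agent.S24 (Kbar FF embC IsAn tayAt)
open Fermat.Agent.S28 (HasTExp)
open Fermat.Agent.S29 (GQ)

/-! ## Definitions -/

/-- analytic representation over `ℂ` (the analogue of `S24.IsAn` for `θ = id`). -/
structure IsAnC (N : ℕ) (f : FC N) (P Q : ℍ → ℂ) : Prop where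
  holoP : MDiff P
  holoQ : MDiff Q
  Q_ne : Q ≠ 0
  invP : ∀ γ ∈ Gamma0 N, ∀ τ : ℍ, P (γ • τ) = P τ
  invQ : ∀ γ ∈ Gamma0 N, ∀ τ : ℍ, Q (γ • τ) = Q τ
  expP : ∀ g : SL(2, ℤ), ∃ s : LaurentSeries ℂ, HasTExp N (fun τ => P (g • τ)) s
  expQ : ∀ g : SL(2, ℤ), ∃ s : LaurentSeries ℂ, HasTExp N (fun τ => Q (g • τ)) s
  rel : ∃ p q : LaurentSeries ℂ, HasTExp 1 P p ∧ HasTExp 1 Q q ∧
    (f : LaurentSeries ℂ) * q = p

/-- the Kummer character over `ℂ`. -/
def KummerCharC (N p : ℕ) (f : FC N) (χ : Gamma0 N →* ℂˣ) : Prop :=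
  ∃ P Q A : ℍ → ℂ, IsAnC N f P Q ∧ MDiff A ∧ (∀ τ, A τ ^ p = P τ * Q τ ^ (p - 1)) ∧
    HasChar N A χ

/-- `E` is the germ embedding at `τ₀` of the translate by `g⁻¹`. -/
def IsGermEmbC (N : ℕ) (E : FC N →+* LaurentSeries ℂ) (τ₀ : ℍ) (g : SL(2, ℤ)) : Prop :=
  (∀ a : ℂ, E (algebraMap ℂ (FC N) a) = HahnSeries.C a) ∧
  ∀ (f : FC N) (P Q : ℍ → ℂ), IsAnC N f P Q →
    E f * HahnSeries.ofPowerSeries ℤ ℂ (tayAt τ₀ (fun τ => Q (g⁻¹ • τ)))
      = HahnSeries.ofPowerSeries ℤ ℂ (tayAt τ₀ (fun τ => P (g⁻¹ • τ)))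

/-- `E` is the cusp embedding (expansion in `exp (2πiτ/N)`) of the translate by `g⁻¹`. -/
def IsCuspEmbC (N : ℕ) (E : FC N →+* LaurentSeries ℂ) (g : SL(2, ℤ)) : Prop :=
  (∀ a : ℂ, E (algebraMap ℂ (FC N) a) = HahnSeries.C a) ∧
  ∀ (f : FC N) (P Q : ℍ → ℂ) (p q : LaurentSeries ℂ), IsAnC N f P Q →
    HasTExp N (fun τ => P (g⁻¹ • τ)) p → HasTExp N (fun τ => Q (g⁻¹ • τ)) q → E f * q = p

/-- `H` is invariant under the elements of finite order of `Γ₀(N)`. -/
def EllInv (N : ℕ) (H : ℍ → ℂ) : Prop :=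
  ∀ γ : Gamma0 N, IsOfFinOrder γ → ∀ τ : ℍ, H ((γ : SL(2, ℤ)) • τ) = H τ

/-- `H` is invariant under the parabolic elements of `Γ₀(N)`. -/
def ParInv (N : ℕ) (H : ℍ → ℂ) : Prop :=
  ∀ γ : Gamma0 N, IsPar γ → ∀ τ : ℍ, H ((γ : SL(2, ℤ)) • τ) = H τ

/-- the norm `F_{Nℓ} → F_N` (along `α`) of `β f`, the Kummer function of `T_ℓ`. -/
def heckeNorm (N ℓ : ℕ) [NeZero N] [NeZero ℓ] (f : FF N) : FF N :=
  letI := algebraAlong (heckeAlphaBar Kbar N ℓ)
  Algebra.norm (FF N) (heckeBetaBar Kbar N ℓ f)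

/-! ## Function-level statements -/

/-- **CONV.** a holomorphic `Γ₀(N)`-invariant function which is meromorphic at all cusps is an
element of the function field over `ℂ`. -/
def ConvStatement : Prop :=
  ∀ (N : ℕ) [NeZero N] (A : ℍ → ℂ), MDiff A →
    (∀ (γ : Gamma0 N) (τ : ℍ), A ((γ : SL(2, ℤ)) • τ) = A τ) → CuspMero N A →
    ∃ s : LaurentSeries ℂ, HasTExp 1 A s ∧
      s ∈ laurentBaseChange ℂ (modularFunctionFieldFull N)

/-- **DESC0.** an element of `F_ℂ` with coefficients in `ℚ̄` lies in `F`. -/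
def DescStatement : Prop :=
  ∀ (N : ℕ) [NeZero N] (y : LaurentSeries Kbar),
    coeffMap embC y ∈ laurentBaseChange ℂ (modularFunctionFieldFull N) →
    y ∈ modularFunctionFieldBar N

/-- **BC0.** conversely the coefficient embedding maps `F` into `F_ℂ`. -/
def BaseChangeStatement : Prop :=
  ∀ (N : ℕ) [NeZero N] (y : LaurentSeries Kbar), y ∈ modularFunctionFieldBar N →
    coeffMap embC y ∈ laurentBaseChange ℂ (modularFunctionFieldFull N)

/-- **ROOT-SERIES.** a `p`-th root in `ℂ((q))` of a series with coefficients in `ℚ̄` has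
coefficients in `ℚ̄`. -/
def RootSeriesStatement : Prop :=
  ∀ (p : ℕ), 0 < p → ∀ (x : LaurentSeries Kbar) (s : LaurentSeries ℂ),
    s ^ p = coeffMap embC x →
    ∃ y : LaurentSeries Kbar, s = coeffMap embC y

/-- **ORBIT.** a complex number fixed by a subgroup of finite index of `Aut(ℂ/ℚ)` is
algebraic. -/
def OrbitStatement : Prop :=
  ∀ (H : Subgroup (ℂ ≃ₐ[ℚ] ℂ)), H.FiniteIndex → ∀ c : ℂ, (∀ σ ∈ H, σ c = c) →
    c ∈ Set.range embC

/-! ## The analytic dictionary over `ℂ` (port of S24 MOD) -/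

/-- **P-AN1.** every element of `F_ℂ` has an analytic representation; uniqueness; products
and inverses; compatibility with `S24.IsAn`. -/
def AnCStatement : Prop :=
  ∀ (N : ℕ) [NeZero N],
    (∀ f : FC N, ∃ P Q : ℍ → ℂ, IsAnC N f P Q) ∧
    (∀ (f : FC N) (P Q P' Q' : ℍ → ℂ), IsAnC N f P Q → IsAnC N f P' Q' → P * Q' = P' * Q) ∧
    (∀ (f : FC N) (P Q : ℍ → ℂ), IsAnC N f P Q → (f = 0 ↔ P = 0)) ∧
    (∀ (f f' : FC N) (P Q P' Q' : ℍ → ℂ), IsAnC N f P Q → IsAnC N f' P' Q' →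
      IsAnC N (f * f') (P * P') (Q * Q')) ∧
    (∀ (f : FC N) (P Q : ℍ → ℂ), IsAnC N f P Q → f ≠ 0 → IsAnC N f⁻¹ Q P) ∧
    (∀ (f₀ : FF N) (f : FC N) (P Q : ℍ → ℂ),
      (f : LaurentSeries ℂ) = coeffMap embC (f₀ : LaurentSeries Kbar) →
      IsAn N f₀ P Q → IsAnC N f P Q)

/-- **P-EMB.** germ and cusp embeddings of `F_ℂ`. -/
def EmbCStatement : Prop :=
  ∀ (N : ℕ) [NeZero N],
    (∀ (τ₀ : ℍ) (g : SL(2, ℤ)), ∃ E : FC N →+* LaurentSeries ℂ, IsGermEmbC N E τ₀ g) ∧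
    (∀ g : SL(2, ℤ), ∃ E : FC N →+* LaurentSeries ℂ, IsCuspEmbC N E g)

/-- **P-DICT.** every place of `F_ℂ` is induced by a point of `ℍ` or by a cusp; the multiplicity
`m` divides the order at that point of every function which is invariant under the elliptic
(resp. parabolic) elements of `Γ₀(N)`. -/
def DictCStatement : Prop :=
  ∀ (N : ℕ) [NeZero N] (v : Place ℂ (FC N)),
    ∃ (E : FC N →+* LaurentSeries ℂ) (m : ℕ), 0 < m ∧
      (∀ f : FC N, f ≠ 0 → (E f).order = m * v.ord f) ∧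
      ((∃ (τ₀ : ℍ) (g : SL(2, ℤ)), IsGermEmbC N E τ₀ g ∧
          ∀ H : ℍ → ℂ, MDiff H → H ≠ 0 → EllInv N H →
            m ∣ (tayAt τ₀ (fun τ => H (g⁻¹ • τ))).order.toNat) ∨
       (∃ g : SL(2, ℤ), IsCuspEmbC N E g ∧
          ∀ (H : ℍ → ℂ) (s : LaurentSeries ℂ), MDiff H → ParInv N H →
            HasTExp N (fun τ => H (g⁻¹ • τ)) s → s ≠ 0 → (m : ℤ) ∣ s.order))

/-- **P-ORD.** orders over `ℂ` (every point of `ℍ` induces a place of `F_ℂ`). -/
def OrdDvdCStatement : Prop :=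
  ∀ (N : ℕ) [NeZero N] (p : ℕ) (f : FC N), IsSelC N p f →
    ∀ P Q : ℍ → ℂ, IsAnC N f P Q → ∀ τ₀ : ℍ,
      (p : ℤ) ∣ ((tayAt τ₀ P).order.toNat : ℤ) - ((tayAt τ₀ Q).order.toNat : ℤ)

/-! ## Kummer theory over `ℂ` and the descent -/

/-- **SELC.** the `p`-th power of a holomorphic function with a character of order dividing
`p`, trivial on elliptic and parabolic elements, is an element of `F_ℂ` all of whose orders are
divisible by `p`. -/
def SelCStatement : Prop :=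
  ∀ (N : ℕ) [NeZero N] (p : ℕ), 0 < p → ∀ (A : ℍ → ℂ) (χ : Gamma0 N →* ℂˣ),
    MDiff A → A ≠ 0 → HasChar N A χ → CuspMero N A → χ ^ p = 1 →
    (∀ γ : Gamma0 N, IsPar γ → χ γ = 1) → (∀ γ : Gamma0 N, IsOfFinOrder γ → χ γ = 1) →
    ∃ f : FC N, IsSelC N p f ∧ HasTExp 1 (fun τ => A τ ^ p) (f : LaurentSeries ℂ)

/-- **FINC.** `Sel(F_ℂ)` modulo `p`-th powers is finite. -/
def FinCStatement : Prop :=
  ∀ (N : ℕ) [NeZero N] (p : ℕ), 0 < p →
    ∃ S : Finset (FC N), ∀ f : FC N, IsSelC N p f →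
      ∃ s ∈ S, ∃ w : FC N, w ≠ 0 ∧ f = s * w ^ p

/-- **CAN.** canonical representatives: every class of `Sel(F_ℂ)` modulo `p`-th powers contains
a function which is fixed by every automorphism of `ℂ` fixing the class. -/
def CanStatement : Prop :=
  ∀ (N : ℕ) [NeZero N] (p : ℕ), 0 < p → ∀ f : FC N, IsSelC N p f →
    ∃ u : FC N, u ≠ 0 ∧ ∀ σ : ℂ ≃ₐ[ℚ] ℂ,
      (∃ w : FC N, w ≠ 0 ∧
        arithmeticGalois (modularFunctionFieldFull N) σ • f = f * w ^ p) →
      arithmeticGalois (modularFunctionFieldFull N) σ • (f * u ^ p) = f * u ^ p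

/-- **RIG.** rigidity: every class of `Sel(F_ℂ)` modulo `p`-th powers comes from `F`. -/
def RigStatement : Prop :=
  ∀ (N : ℕ) [NeZero N] (p : ℕ), 0 < p → ∀ f : FC N, IsSelC N p f →
    ∃ (f₀ : FF N) (g : FC N), g ≠ 0 ∧
      (f : LaurentSeries ℂ)
        = coeffMap embC (f₀ : LaurentSeries Kbar) * (g : LaurentSeries ℂ) ^ p

/-- **BCORD.** every place of `F` extends to a place of `F_ℂ` without ramification. -/
def BaseChangeOrdStatement : Prop :=
  ∀ (N : ℕ) [NeZero N] (v₀ : Place Kbar (FF N)),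
    ∃ v : Place ℂ (FC N), ∀ (u₀ : FF N) (u : FC N),
      (u : LaurentSeries ℂ) = coeffMap embC (u₀ : LaurentSeries Kbar) →
      v.ord u = v₀.ord u₀

/-! ## Hecke -/

/-- **HKIN.** the hypotheses under which the Prelude's `T_ℓ` is the honest correspondence. -/
def HeckeInputsStatement : Prop :=
  ∀ (N : ℕ) [NeZero N] (ℓ : Nat.Primes),
    haveI : NeZero (ℓ : ℕ) := ⟨ℓ.2.ne_zero⟩
    HeckeInputsAlong (AlgebraicClosure ℚ) N (ℓ : ℕ)

/-- **HNORM.** `T_ℓ` on Kummer functions is `f ↦ Norm_α (β f)`. -/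
def HeckeNormStatement : Prop :=
  ∀ (N : ℕ) [NeZero N] (p : ℕ) (ℓ : Nat.Primes),
    haveI : NeZero (ℓ : ℕ) := ⟨ℓ.2.ne_zero⟩
    ∀ (D : Divisor.degZero (K := Kbar) (F := FF N)) (f : FF N), f ≠ 0 →
      (∀ v : Place Kbar (FF N), v.ord f = p * (D : Divisor Kbar (FF N)) v) →
      heckeNorm N (ℓ : ℕ) f ≠ 0 ∧
      ∃ D' : Divisor.degZero (K := Kbar) (F := FF N),
        Pic0.mk D' = ModularCurve.heckeOperatorBar N ℓ (Pic0.mk D) ∧
        ∀ v : Place Kbar (FF N),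
          v.ord (heckeNorm N (ℓ : ℕ) f) = p * (D' : Divisor Kbar (FF N)) v

/-- **HAN.** analytically the norm is the product over the Hecke representatives. -/
def HeckeAnStatement : Prop :=
  ∀ (N : ℕ) [NeZero N] (ℓ : Nat.Primes), ¬ (ℓ : ℕ) ∣ N →
    haveI : NeZero (ℓ : ℕ) := ⟨ℓ.2.ne_zero⟩
    ∀ (f : FF N) (P Q : ℍ → ℂ), IsAn N f P Q →
      IsAn N (heckeNorm N (ℓ : ℕ) f)
        (fun τ => ∏ i : Fin ((ℓ : ℕ) + 1), P (heckeAct (ℓ : ℕ) i τ))
        (fun τ => ∏ i : Fin ((ℓ : ℕ) + 1), Q (heckeAct (ℓ : ℕ) i τ))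

/-! ## Assemblies -/

/-- **KC-INJ** from its pieces. -/
def KummerInjAssembly : Prop :=
  CuspRootStatement → ConvStatement → DescStatement → RootSeriesStatement →
    KummerInjStatement

/-- **FINC** from its pieces. -/
def FinCAssembly : Prop :=
  AnCStatement → OrdDvdCStatement → RootStatement → CharStatement → CharUniqStatement →
    CuspRootStatement → ConvStatement → FinCharStatement → FinCStatement

/-- **RIG** from its pieces. -/
def RigAssembly : Prop :=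
  FinCStatement → CanStatement → OrbitStatement → DescStatement → RigStatement

/-- **KC-SURJ** from its pieces. -/
def KummerSurjAssembly : Prop :=
  EisStatement → SelCStatement → RigStatement → BaseChangeOrdStatement → AnCStatement →
    CharUniqStatement → KummerExistsStatement → KummerSurjStatement

/-- **KC-HECKE** from its pieces. -/
def KummerHeckeAssembly : Prop :=
  HeckeNormStatement → HeckeAnStatement → CohHeckeStatement → KummerHeckeStatement

end Fermat.Agent.Jac
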