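import Fermat.Agent.Jac.Skeleton2
import Fermat.Agent.S31.Skeleton

/-!
# IN-JAC: interface skeleton, wave 3 (final targets in the form consumed by P-GALREP)

Requested by the P-GALREP architect (helper30): the consumers use the torsion of every order
`n = p ^ k` (Tate module) and the *lattice form* `Fermat.Agent.S31.HeckeKeyLattice N` of the key
lemma.  Nothing in the route uses that the modulus is prime, so the three interfaces of
`Skeleton.lean` which were stated for primes are restated here for every modulus `0 < n`.

Architect: helper79.  Every declaration is a `def ... : Prop`; nothing is assumed.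
-/

set_option autoImplicit false

open ModularCurve AlgebraicCurve UpperHalfPlane CongruenceSubgroup
open scoped MatrixGroups Manifold

noncomputable section

namespace Fermat.Agent.Jac

open Fermat.Agent.S24 (Kbar FF embC IsAn tayAt)
open Fermat.Agent.S29 (GQ)

/-- **KC-SURJ, every modulus.** every `exp (2πi φ / n)`, `φ` an integral parabolic hom, is a
Kummer character. -/
def KummerSurjStatementN : Prop :=
  ∀ (N : ℕ) [NeZero N] (n : ℕ), 0 < n →
    ∀ φ : Additive (Gamma0 N) →+ ℤ, φ ∈ Period.parabolicHoms ℤ (Gamma0 N) ℤ →
      ∀ χ : Gamma0 N →* ℂˣ, IsExpChar N n φ χ →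
        ∃ f : FF N, IsSel N n f ∧ KummerChar N n f χ

/-- **KC-SURJ, every modulus**, from its pieces (same proof as `KummerSurjAssembly`). -/
def KummerSurjAssemblyN : Prop :=
  EisStatement → SelCStatement → RigStatement → BaseChangeOrdStatement → AnCStatement →
    CharUniqStatement → KummerExistsStatement → KummerSurjStatementN

/-- **TFL, every modulus.** -/
def TorsionFiniteLevelAssemblyN : Prop :=
  PDStatement → KummerExistsStatement → KummerUniqStatement → KummerMulStatement →
    KummerInjStatement → FinCharStatement → OpenStabStatement →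
    ∀ (N : ℕ) [NeZero N] (n : ℕ), 0 < n → Fermat.Agent.S29.TorsionFiniteLevel N n

/-- **HKL.** assembly of the lattice form of the key lemma.

`L := {B ∈ End_ℂ(S₂) | ∃ b ∈ End_ℤ(Λ), periodMap ∘ B = b_ℂ ∘ periodMap}`,
`Λ = Hom_par(Γ₀(N), ℤ)`; `L` is a `ℤ`-subalgebra, finitely generated as a module because
`(B, b) ↦ b` is injective on the module of such pairs (the period map is injective, S21).
For `P = ∑ a_m X^m` put `M_P := ∑ a_m ∏ (T_ℓ^coh)^(m_ℓ) ∈ End_ℤ(Λ)` (any fixed order of the
factors; no commutativity of the `T_ℓ^coh` is needed).  If `P` kills `J₀(N)[n]`, `0 < n`, then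
`M_P Λ ⊆ n Λ` (KC-SURJ, KC-HECKE, KC-MUL, KC-UNIQ, constants are `n`-th powers), so
`B := P(T) / n ∈ L` with `b := M_P / n`.  The case `n = 0` (then `P` is a constant `c` killing
`J₀(N)`) follows from the cases `n = m > 0`: `c ∈ ⋂ m L = 0`. -/
def HeckeKeyLatticeAssembly : Prop :=
  PDStatement → KummerUniqStatement → KummerMulStatement → KummerSurjStatementN →
    KummerHeckeStatement → CohHeckeStatement → PeriodHeckeStatement → LatticeSpanStatement →
    LatticeFGStatement →
    ∀ (N : ℕ) [NeZero N], ModularCurve.HeckeOperatorsCommuteBar N →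
      Fermat.Agent.S31.HeckeKeyLattice N

end Fermat.Agent.Jac
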