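import Fermat.Agent.Jac.Skeleton
import Fermat.Agent.Jac.Kummer

/-!
# IN-JAC, task TFL: assembly of `TorsionFiniteLevel`

`J₀(N)[p]` is finite (the Kummer character `x ↦ χ_{f_x}` is injective into the finite set
`Hom(Γ₀(N), μ_p)`) and every point of `J₀(N)[p]` is fixed by `Gal(ℚ̄ / L)` for one number field
`L` (compositum of the fields from OS over the finitely many places in the supports of
representing divisors).
-/

set_option autoImplicit false

open ModularCurve AlgebraicCurve CongruenceSubgroup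
open scoped MatrixGroups

noncomputable section

namespace Fermat.Agent.Jac

open Fermat.Agent.S24 (Kbar FF)
open Fermat.Agent.S29 (GQ)
open Fermat.Agent.Jac.K1

/-- A Kummer representative is a Selmer element. -/
theorem h82_isSel_of_pair {N p : ℕ} {x : JZero N} {f : FF N} (h : IsKummerPair p x f) :
    IsSel N p f :=
  ⟨h.ne_zero, h.dvd_ord⟩

/-- Two torsion classes whose Kummer representatives have the same Kummer character are
equal. -/
theorem h82_eq_of_kummerChar_eq (hPD : PDStatement) (hMul : KummerMulStatement)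
    (hInj : KummerInjStatement) (N : ℕ) [NeZero N] (p : ℕ) (hp : 0 < p)
    {x y : JZero N} {f g : FF N} (hx : IsKummerPair p x f) (hy : IsKummerPair p y g)
    (χ : Gamma0 N →* ℂˣ) (hf : KummerChar N p f χ) (hg : KummerChar N p g χ) : x = y := by
  haveI : HasPrincipalDivisors Kbar (FF N) := hPD N
  obtain ⟨hmul, hinv, -⟩ := hMul N p hp
  have h1 : KummerChar N p (f * g⁻¹) (χ * χ⁻¹) := hmul f g⁻¹ χ χ⁻¹ hf (hinv g χ hy.ne_zero hg)
  have h1' : χ * χ⁻¹ = 1 := mul_inv_cancel χ
  rw [h1'] at h1
  have hne : f * g⁻¹ ≠ 0 := mul_ne_zero hx.ne_zero (inv_ne_zero hy.ne_zero)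
  obtain ⟨h, hh⟩ := hInj N p hp (f * g⁻¹) hne h1
  have hh0 : h ≠ 0 := by
    rintro rfl
    rw [zero_pow hp.ne'] at hh
    exact hne hh
  have h2 : IsKummerPair p (x - y) (f * g⁻¹) := by
    have := hx.div hy
    rwa [div_eq_mul_inv] at this
  rw [hh] at h2
  have h3 : x - y = 0 := IsKummerPair.class_unique hp.ne' h2 (IsKummerPair.pow hh0)
  exact sub_eq_zero.mp h3

/-- Finiteness of `J₀(N)[p]`. -/
theorem h82_finite_torsion (hPD : PDStatement) (hEx : KummerExistsStatement)
    (hMul : KummerMulStatement) (hInj : KummerInjStatement) (hFin : FinCharStatement)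
    (N : ℕ) [NeZero N] (p : ℕ) (hp : 0 < p) :
    Set.Finite {x : JZero N | p • x = 0} := by
  classical
  have hpair : ∀ x : {x : JZero N | p • x = 0}, ∃ f : FF N, IsKummerPair p (x : JZero N) f :=
    fun x => exists_kummerPair (by rw [natCast_zsmul]; exact x.2)
  choose f hf using hpair
  have hchar : ∀ x : {x : JZero N | p • x = 0},
      ∃ χ : Gamma0 N →* ℂˣ, KummerChar N p (f x) χ ∧ χ ^ p = 1 :=
    fun x => hEx N p hp (f x) (h82_isSel_of_pair (hf x))
  choose χ hχ hχp using hchar
  haveI : Finite {χ : Gamma0 N →* ℂˣ // χ ^ p = 1} := hFin N p hp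
  have hinj : Function.Injective
      (fun x : {x : JZero N | p • x = 0} =>
        (⟨χ x, hχp x⟩ : {χ : Gamma0 N →* ℂˣ // χ ^ p = 1})) := by
    intro x y hxy
    have hxy' : χ x = χ y := congrArg Subtype.val hxy
    apply Subtype.ext
    refine h82_eq_of_kummerChar_eq hPD hMul hInj N p hp (hf x) (hf y) (χ x) (hχ x) ?_
    rw [hxy']
    exact hχ y
  exact Set.finite_coe_iff.mp (Finite.of_injective _ hinj)

/-- A divisor all of whose places (in the support) are fixed is fixed. -/
theorem h82_smul_divisor_eq {K F : Type*} [Field K] [Field F] [Algebra K F]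
    (g : SemilinearAut K F) (D : Divisor K F) (h : ∀ v ∈ D.support, g • v = v) :
    g • D = D := by
  classical
  rw [SemilinearAut.divisor_smul_def]
  conv_rhs => rw [← Finsupp.mapDomain_id (v := D)]
  exact Finsupp.mapDomain_congr h

/-- Open stabilisers on `J₀(N)[p]`, given finiteness. -/
theorem h82_open_stab (hOS : OpenStabStatement) (N : ℕ) [NeZero N] (p : ℕ)
    (hfin : Set.Finite {x : JZero N | p • x = 0}) :
    ∃ L : IntermediateField ℚ (AlgebraicClosure ℚ), FiniteDimensional ℚ L ∧
      ∀ σ : GQ, (∀ y ∈ L, σ y = y) → ∀ x : JZero N, p • x = 0 → σ • x = x := by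
  classical
  choose Lof hLfin hLfix using hOS N
  have hrep : ∀ x : JZero N, ∃ D : Divisor.degZero (K := Kbar) (F := FF N), Pic0.mk D = x :=
    fun x => Pic0.mk_surjective x
  choose D hD using hrep
  let S : Finset (Place Kbar (FF N)) :=
    hfin.toFinset.biUnion fun x => ((D x : Divisor Kbar (FF N))).support
  refine ⟨⨆ v ∈ S, Lof v, IntermediateField.finiteDimensional_iSup_of_finset' fun v _ => hLfin v,
    fun σ hσ x hx => ?_⟩
  have hxS : ∀ v ∈ ((D x : Divisor Kbar (FF N))).support, v ∈ S := by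
    intro v hv
    exact Finset.mem_biUnion.mpr ⟨x, hfin.mem_toFinset.mpr hx, hv⟩
  have hfix : ∀ v ∈ ((D x : Divisor Kbar (FF N))).support,
      arithmeticGalois (modularFunctionFieldFull N) σ • v = v := by
    intro v hv
    refine hLfix v σ fun y hy => hσ y ?_
    have hle : Lof v ≤ ⨆ v ∈ S, Lof v := le_iSup₂_of_le v (hxS v hv) le_rfl
    exact hle hy
  have hDfix : arithmeticGalois (modularFunctionFieldFull N) σ • (D x : Divisor Kbar (FF N))
      = (D x : Divisor Kbar (FF N)) := h82_smul_divisor_eq _ _ hfix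
  rw [galois_smul_pic0_def, ← hD x, SemilinearAut.pic0_smul_mk]
  congr 1
  apply Subtype.ext
  rw [SemilinearAut.coe_degZeroSMulHom]
  exact hDfix

/-- **TFL.** -/
theorem torsionFiniteLevelAssembly : TorsionFiniteLevelAssembly := by
  intro hPD hEx _hUniq hMul hInj hFin hOS N _ p hp
  have hfin := h82_finite_torsion hPD hEx hMul hInj hFin N p hp.pos
  exact ⟨hfin, h82_open_stab hOS N p hfin⟩

end Fermat.Agent.Jac
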