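import Fermat.Agent.Jac.Skeleton3
import Fermat.Agent.Jac.TFL

/-!
# IN-JAC, task TFL-N: `TorsionFiniteLevel N n` for every modulus `0 < n`

Wrapper around helper82's `h82_finite_torsion` and `h82_open_stab` (which are stated for every
positive modulus).
-/

set_option autoImplicit false

noncomputable section

namespace Fermat.Agent.Jac

/-- **TFL-N.** -/
theorem torsionFiniteLevelAssemblyN : TorsionFiniteLevelAssemblyN := by
  intro hPD hEx _hUniq hMul hInj hFin hOS N _ n hn
  have hfin := h82_finite_torsion hPD hEx hMul hInj hFin N n hn
  exact ⟨hfin, h82_open_stab hOS N n hfin⟩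

end Fermat.Agent.Jac
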